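import Fermat.Agent.Corollaries.Ray.Forms

/-!
# Binary quadratic forms, proper equivalence
-/

set_option autoImplicit false

namespace Fermat.Agent.Cor.Ray

/-- the binary quadratic form `a x² + b x y + c y²` -/
@[ext]
structure BForm where
  /-- the coefficient of `x²` -/
  a : ℤ
  /-- the coefficient of `x y` -/
  b : ℤ
  /-- the coefficient of `y²` -/
  c : ℤ

namespace BForm

/-- the value `a x² + b x y + c y²` -/
def val (f : BForm) (x y : ℤ) : ℤ := f.a * x ^ 2 + f.b * x * y + f.c * y ^ 2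

/-- the discriminant `b² - 4 a c` -/
def disc (f : BForm) : ℤ := f.b ^ 2 - 4 * f.a * f.c

/-- primitive: no prime number divides the three coefficients -/
def Prim (f : BForm) : Prop :=
  ∀ q : ℕ, q.Prime → ¬ ((q : ℤ) ∣ f.a ∧ (q : ℤ) ∣ f.b ∧ (q : ℤ) ∣ f.c)

/-- the form `f(p x + q y, r x + s y)` -/
def subst (f : BForm) (p q r s : ℤ) : BForm :=
  ⟨f.val p r, 2 * f.a * p * q + f.b * (p * s + q * r) + 2 * f.c * r * s, f.val q s⟩

theorem val_subst (f : BForm) (p q r s x y : ℤ) :
    (f.subst p q r s).val x y = f.val (p * x + q * y) (r * x + s * y) := by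
  simp only [subst, val]
  ring

theorem disc_subst (f : BForm) (p q r s : ℤ) :
    (f.subst p q r s).disc = (p * s - q * r) ^ 2 * f.disc := by
  simp only [subst, val, disc]
  ring

theorem subst_subst (f : BForm) (p q r s p' q' r' s' : ℤ) :
    (f.subst p q r s).subst p' q' r' s' =
      f.subst (p * p' + q * r') (p * q' + q * s') (r * p' + s * r') (r * q' + s * s') := by
  ext <;> simp only [subst, val] <;> ring

theorem subst_id (f : BForm) : f.subst 1 0 0 1 = f := by
  ext <;> simp only [subst, val] <;> ring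

/-- proper equivalence: `g(x, y) = f(p x + q y, r x + s y)`, `p s - q r = 1` -/
def Eqv (f g : BForm) : Prop := ∃ p q r s : ℤ, p * s - q * r = 1 ∧ f.subst p q r s = g

theorem Eqv.refl (f : BForm) : f.Eqv f := ⟨1, 0, 0, 1, by ring, f.subst_id⟩

theorem Eqv.symm {f g : BForm} (h : f.Eqv g) : g.Eqv f := by
  obtain ⟨p, q, r, s, h1, rfl⟩ := h
  refine ⟨s, -q, -r, p, by linear_combination h1, ?_⟩
  rw [subst_subst]
  have e1 : p * s + q * -r = 1 := by linear_combination h1
  have e2 : p * -q + q * p = 0 := by ring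
  have e3 : r * s + s * -r = 0 := by ring
  have e4 : r * -q + s * p = 1 := by linear_combination h1
  rw [e1, e2, e3, e4, subst_id]

theorem Eqv.trans {f g h : BForm} (h1 : f.Eqv g) (h2 : g.Eqv h) : f.Eqv h := by
  obtain ⟨p, q, r, s, e1, rfl⟩ := h1
  obtain ⟨p', q', r', s', e2, rfl⟩ := h2
  refine ⟨_, _, _, _, ?_, (subst_subst f p q r s p' q' r' s').symm⟩
  linear_combination (p' * s' - q' * r') * e1 + e2

theorem Eqv.disc_eq {f g : BForm} (h : f.Eqv g) : g.disc = f.disc := by
  obtain ⟨p, q, r, s, e1, rfl⟩ := h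
  rw [disc_subst, e1]
  ring

theorem Eqv.exists_val {f g : BForm} (h : f.Eqv g) {x y : ℤ} : ∃ x' y' : ℤ,
    f.val x' y' = g.val x y := by
  obtain ⟨p, q, r, s, -, rfl⟩ := h
  exact ⟨_, _, (f.val_subst p q r s x y).symm⟩

theorem Eqv.repr_iff {f g : BForm} (h : f.Eqv g) {n : ℤ} :
    (∃ x y : ℤ, f.val x y = n) ↔ ∃ x y : ℤ, g.val x y = n := by
  constructor
  · rintro ⟨x, y, rfl⟩
    obtain ⟨x', y', h'⟩ := h.symm.exists_val (x := x) (y := y)
    exact ⟨x', y', h'⟩
  · rintro ⟨x, y, rfl⟩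
    obtain ⟨x', y', h'⟩ := h.exists_val (x := x) (y := y)
    exact ⟨x', y', h'⟩

theorem Eqv.prim {f g : BForm} (h : f.Eqv g) (hf : f.Prim) : g.Prim := by
  obtain ⟨p, q, r, s, e1, hg⟩ := h.symm
  intro l hl ⟨ha, hb, hc⟩
  refine hf l hl ?_
  rw [← hg]
  simp only [subst, val]
  refine ⟨?_, ?_, ?_⟩
  · exact dvd_add (dvd_add (Dvd.dvd.mul_right ha _) ((Dvd.dvd.mul_right hb _).mul_right _))
      (Dvd.dvd.mul_right hc _)
  · refine dvd_add (dvd_add ?_ (Dvd.dvd.mul_right hb _)) ?_
    · exact ((Dvd.dvd.mul_left ha 2).mul_right _).mul_right _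
    · exact ((Dvd.dvd.mul_left hc 2).mul_right _).mul_right _
  · exact dvd_add (dvd_add (Dvd.dvd.mul_right ha _) ((Dvd.dvd.mul_right hb _).mul_right _))
      (Dvd.dvd.mul_right hc _)

/-! ### Positive definite forms -/

theorem val_pos {f : BForm} (ha : 0 < f.a) (hD : f.disc < 0) {x y : ℤ} (h : x ≠ 0 ∨ y ≠ 0) :
    0 < f.val x y := by
  have h1 : 4 * f.a * f.val x y = (2 * f.a * x + f.b * y) ^ 2 + -f.disc * y ^ 2 := by
    simp only [val, disc]
    ring
  have h2 : 0 < 4 * f.a * f.val x y := by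
    rw [h1]
    by_cases hy : y = 0
    · subst hy
      have hx : x ≠ 0 := h.resolve_right fun h => h rfl
      have h3 : (2 * f.a * x + f.b * 0) ≠ 0 := by
        rw [mul_zero, add_zero]
        exact mul_ne_zero (mul_ne_zero two_ne_zero ha.ne') hx
      have h4 : 0 < (2 * f.a * x + f.b * 0) ^ 2 := by positivity
      linarith
    · have h3 : 0 < y ^ 2 := by positivity
      have h4 : 0 < -f.disc * y ^ 2 := mul_pos (by linarith) h3
      have h5 := sq_nonneg (2 * f.a * x + f.b * y)
      linarith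
  exact pos_of_mul_pos_right h2 (by linarith)

theorem Eqv.a_pos {f g : BForm} (h : f.Eqv g) (ha : 0 < f.a) (hD : f.disc < 0) : 0 < g.a := by
  obtain ⟨p, q, r, s, e1, rfl⟩ := h
  refine val_pos ha hD ?_
  by_contra hcon
  push Not at hcon
  rw [hcon.1, hcon.2] at e1
  simp at e1

/-! ### The opposite form -/

/-- the opposite form `(a, -b, c)` -/
def op (f : BForm) : BForm := ⟨f.a, -f.b, f.c⟩

theorem op_op (f : BForm) : f.op.op = f := by
  ext <;> simp [op]

theorem disc_op (f : BForm) : f.op.disc = f.disc := by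
  simp only [op, disc]
  ring

theorem Prim.op {f : BForm} (h : f.Prim) : f.op.Prim := by
  intro q hq ⟨h1, h2, h3⟩
  exact h q hq ⟨h1, (dvd_neg).mp h2, h3⟩

theorem op_subst (f : BForm) (p q r s : ℤ) :
    (f.subst p q r s).op = f.op.subst p (-q) (-r) s := by
  ext <;> simp only [subst, val, BForm.op] <;> ring

theorem Eqv.op {f g : BForm} (h : f.Eqv g) : f.op.Eqv g.op := by
  obtain ⟨p, q, r, s, e1, rfl⟩ := h
  exact ⟨p, -q, -r, s, by linear_combination e1, (f.op_subst p q r s).symm⟩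

/-! ### Values at primitive vectors -/

theorem exists_eqv_of_isCoprime (f : BForm) {u v : ℤ} (h : IsCoprime u v) :
    ∃ r s : ℤ, u * s - r * v = 1 ∧ f.Eqv (f.subst u r v s) ∧ (f.subst u r v s).a = f.val u v := by
  obtain ⟨x, y, hxy⟩ := h
  exact ⟨-y, x, by linear_combination hxy,
    ⟨u, -y, v, x, by linear_combination hxy, rfl⟩, rfl⟩

/-- a prime value is taken at a primitive vector -/
theorem isCoprime_of_val_prime {f : BForm} {u v : ℤ} {p : ℕ} (hp : p.Prime)
    (h : f.val u v = p) : IsCoprime u v := by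
  rw [Int.isCoprime_iff_gcd_eq_one]
  obtain ⟨u', hu⟩ := Int.gcd_dvd_left (a := u) (b := v)
  obtain ⟨v', hv⟩ := Int.gcd_dvd_right (a := u) (b := v)
  set g : ℕ := Int.gcd u v with hg
  have h1 : ((g : ℤ)) ^ 2 * f.val u' v' = p := by
    rw [← h]
    conv_rhs => rw [hu, hv]
    simp only [val]
    ring
  have h2 : g ^ 2 ∣ p := by
    have : (((g ^ 2 : ℕ) : ℤ)) ∣ (p : ℤ) := ⟨f.val u' v', by rw [← h1]; push_cast; ring⟩
    exact_mod_cast this
  have h3 : g ∣ p := (dvd_pow_self g two_ne_zero).trans h2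
  rcases (Nat.dvd_prime hp).mp h3 with h4 | h4
  · exact h4
  · exfalso
    rw [h4] at h2
    have h5 := Nat.le_of_dvd hp.pos h2
    have h6 := hp.two_le
    nlinarith

/-- two forms with the same first coefficient whose middle coefficients are congruent modulo
`2 a` are properly equivalent. -/
theorem eqv_of_b_congr {f g : BForm} (ha : f.a = g.a) (ha0 : f.a ≠ 0) (hD : f.disc = g.disc)
    {t : ℤ} (hb : g.b = f.b + 2 * f.a * t) : f.Eqv g := by
  refine ⟨1, t, 0, 1, by ring, ?_⟩
  ext
  · simp only [subst, val]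
    rw [← ha]
    ring
  · simp only [subst, val]
    rw [hb]
    ring
  · simp only [subst, val]
    refine mul_left_cancel₀ (mul_ne_zero (four_ne_zero (α := ℤ)) ha0) ?_
    simp only [disc] at hD
    rw [← ha, hb] at hD
    linear_combination -hD

end BForm

/-- a primitive form is properly equivalent to a form whose first coefficient is prime to `n` -/
theorem exists_eqv_coprime {f : BForm} (hf : f.Prim) {n : ℕ} (hn : 2 ≤ n) :
    ∃ g : BForm, f.Eqv g ∧ IsCoprime g.a n := by
  obtain ⟨x, y, -, -, hco⟩ := exists_value_coprime (a := f.a) (b := f.b) (c := f.c) hf (M := 1)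
    (x₀ := 0) (y₀ := 0) isCoprime_one_right n (by omega)
  rw [mul_one] at hco
  obtain ⟨u, hu⟩ := Int.gcd_dvd_left (a := x) (b := y)
  obtain ⟨v, hv⟩ := Int.gcd_dvd_right (a := x) (b := y)
  set g : ℕ := Int.gcd x y with hg
  have hg0 : g ≠ 0 := by
    intro h0
    rw [h0, Nat.cast_zero, zero_mul] at hu hv
    rw [hu, hv, qf] at hco
    ring_nf at hco
    rw [isCoprime_zero_left] at hco
    have := Int.isUnit_iff.mp hco
    omega
  have hval : qf f.a f.b f.c x y = (g : ℤ) ^ 2 * f.val u v := by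
    conv_lhs => rw [hu, hv]
    simp only [qf, BForm.val]
    ring
  rw [hval] at hco
  have huv : IsCoprime u v := by
    have hbez := Int.gcd_eq_gcd_ab x y
    have hgz : (g : ℤ) ≠ 0 := by exact_mod_cast hg0
    refine ⟨Int.gcdA x y, Int.gcdB x y, mul_left_cancel₀ hgz ?_⟩
    rw [mul_one]
    conv_rhs => rw [hg, hbez]
    linear_combination (-Int.gcdA x y) * hu - (Int.gcdB x y) * hv
  obtain ⟨r, s, -, h1, h2⟩ := f.exists_eqv_of_isCoprime huv
  exact ⟨_, h1, by rw [h2]; exact hco.of_mul_left_right⟩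

end Fermat.Agent.Cor.Ray
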