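import Mathlib

/-!
# Reduced positive definite binary quadratic forms (Lagrange, Gauss)

Every positive definite form `a x² + b x y + c y²` is properly equivalent to exactly one reduced
form: `|b| ≤ a ≤ c`, and `0 ≤ b` if `|b| = a` or `a = c`.
-/

set_option autoImplicit false

namespace Fermat.Agent.Cor.Ray

/-! ### Proper equivalence -/

/-- `(a', b', c')` is obtained from `(a, b, c)` by the substitution `(p x + q y, r x + s y)` of
determinant one. -/
def PEq (a b c a' b' c' : ℤ) : Prop :=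
  ∃ p q r s : ℤ, p * s - q * r = 1 ∧ a' = a * p ^ 2 + b * p * r + c * r ^ 2 ∧
    b' = 2 * a * p * q + b * (p * s + q * r) + 2 * c * r * s ∧
      c' = a * q ^ 2 + b * q * s + c * s ^ 2

theorem PEq.refl (a b c : ℤ) : PEq a b c a b c :=
  ⟨1, 0, 0, 1, by ring, by ring, by ring, by ring⟩

theorem PEq.symm {a b c a' b' c' : ℤ} (h : PEq a b c a' b' c') : PEq a' b' c' a b c := by
  obtain ⟨p, q, r, s, h1, rfl, rfl, rfl⟩ := h
  have h2 : (p * s - q * r) ^ 2 = 1 := by rw [h1]; ring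
  refine ⟨s, -q, -r, p, by linear_combination h1, ?_, ?_, ?_⟩
  · linear_combination (-a) * h2
  · linear_combination (-b) * h2
  · linear_combination (-c) * h2

theorem PEq.trans {a b c a' b' c' a'' b'' c'' : ℤ} (h : PEq a b c a' b' c')
    (h' : PEq a' b' c' a'' b'' c'') : PEq a b c a'' b'' c'' := by
  obtain ⟨p, q, r, s, h1, rfl, rfl, rfl⟩ := h
  obtain ⟨p', q', r', s', h1', rfl, rfl, rfl⟩ := h'
  refine ⟨p * p' + q * r', p * q' + q * s', r * p' + s * r', r * q' + s * s', ?_, ?_, ?_, ?_⟩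
  · linear_combination (p' * s' - q' * r') * h1 + h1'
  · ring
  · ring
  · ring

/-- the substitution on the values -/
theorem PEq.iff_forall {a b c a' b' c' : ℤ} : PEq a b c a' b' c' ↔
    ∃ p q r s : ℤ, p * s - q * r = 1 ∧ ∀ x y : ℤ, a' * x ^ 2 + b' * x * y + c' * y ^ 2 =
      a * (p * x + q * y) ^ 2 + b * (p * x + q * y) * (r * x + s * y) +
        c * (r * x + s * y) ^ 2 := by
  constructor
  · rintro ⟨p, q, r, s, h1, rfl, rfl, rfl⟩
    exact ⟨p, q, r, s, h1, fun x y => by ring⟩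
  · rintro ⟨p, q, r, s, h1, h⟩
    have e1 := h 1 0
    have e2 := h 0 1
    have e3 := h 1 1
    refine ⟨p, q, r, s, h1, by linear_combination e1, ?_, by linear_combination e2⟩
    linear_combination e3 - e1 - e2

/-- the discriminant is an invariant -/
theorem PEq.discr {a b c a' b' c' : ℤ} (h : PEq a b c a' b' c') :
    b' ^ 2 - 4 * a' * c' = b ^ 2 - 4 * a * c := by
  obtain ⟨p, q, r, s, h1, rfl, rfl, rfl⟩ := h
  have h2 : (p * s - q * r) ^ 2 = 1 := by rw [h1]; ring
  linear_combination (b ^ 2 - 4 * a * c) * h2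

/-- the common divisors of the coefficients are invariants -/
theorem PEq.dvd {a b c a' b' c' n : ℤ} (h : PEq a b c a' b' c') (ha : n ∣ a) (hb : n ∣ b)
    (hc : n ∣ c) : n ∣ a' ∧ n ∣ b' ∧ n ∣ c' := by
  obtain ⟨p, q, r, s, -, rfl, rfl, rfl⟩ := h
  obtain ⟨a, rfl⟩ := ha
  obtain ⟨b, rfl⟩ := hb
  obtain ⟨c, rfl⟩ := hc
  exact ⟨⟨a * p ^ 2 + b * p * r + c * r ^ 2, by ring⟩,
    ⟨2 * a * p * q + b * (p * s + q * r) + 2 * c * r * s, by ring⟩,
    ⟨a * q ^ 2 + b * q * s + c * s ^ 2, by ring⟩⟩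

/-- a positive definite form is positive -/
theorem form_pos {a b c : ℤ} (ha : 0 < a) (hD : b ^ 2 - 4 * a * c < 0) {x y : ℤ}
    (h : x ≠ 0 ∨ y ≠ 0) : 0 < a * x ^ 2 + b * x * y + c * y ^ 2 := by
  have h1 : 0 < 4 * a * (a * x ^ 2 + b * x * y + c * y ^ 2) := by
    have h2 : 4 * a * (a * x ^ 2 + b * x * y + c * y ^ 2) =
        (2 * a * x + b * y) ^ 2 + (4 * a * c - b ^ 2) * y ^ 2 := by ring
    rw [h2]
    by_cases hy : y = 0
    · have hx : x ≠ 0 := by
        rcases h with h | h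
        · exact h
        · exact absurd hy h
      subst hy
      have h3 : 0 < (2 * a * x) ^ 2 := by positivity
      nlinarith
    · have h3 : 0 < (4 * a * c - b ^ 2) * y ^ 2 := mul_pos (by linarith) (by positivity)
      nlinarith [sq_nonneg (2 * a * x + b * y)]
  by_contra hn
  have : 4 * a * (a * x ^ 2 + b * x * y + c * y ^ 2) ≤ 0 :=
    mul_nonpos_of_nonneg_of_nonpos (by linarith) (not_lt.mp hn)
  linarith

theorem PEq.pos {a b c a' b' c' : ℤ} (h : PEq a b c a' b' c') (ha : 0 < a)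
    (hD : b ^ 2 - 4 * a * c < 0) : 0 < a' ∧ 0 < c' := by
  obtain ⟨p, q, r, s, h1, rfl, rfl, rfl⟩ := h
  constructor
  · refine form_pos ha hD ?_
    by_contra hn
    push Not at hn
    rw [hn.1, hn.2] at h1
    norm_num at h1
  · refine form_pos ha hD ?_
    by_contra hn
    push Not at hn
    rw [hn.1, hn.2] at h1
    norm_num at h1

/-! ### Reduced forms -/

/-- A reduced form. -/
def IsRed (a b c : ℤ) : Prop := |b| ≤ a ∧ a ≤ c ∧ (|b| = a ∨ a = c → 0 ≤ b)

instance (a b c : ℤ) : Decidable (IsRed a b c) := by unfold IsRed; infer_instance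

/-- the translation `x ↦ x + k y` -/
theorem pEq_translate (a b c k : ℤ) :
    PEq a b c a (b + 2 * a * k) (a * k ^ 2 + b * k + c) :=
  ⟨1, k, 0, 1, by ring, by ring, by ring, by ring⟩

/-- the inversion -/
theorem pEq_swap (a b c : ℤ) : PEq a b c c (-b) a :=
  ⟨0, -1, 1, 0, by ring, by ring, by ring, by ring⟩

/-- **Reduction**: every positive definite form is properly equivalent to a reduced form. -/
theorem exists_reduced {a b c : ℤ} (ha : 0 < a) (hD : b ^ 2 - 4 * a * c < 0) :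
    ∃ a' b' c' : ℤ, PEq a b c a' b' c' ∧ IsRed a' b' c' ∧ 0 < a' := by
  classical
  have hex : ∃ n : ℕ, ∃ b' c' : ℤ, 0 < n ∧ PEq a b c n b' c' :=
    ⟨a.toNat, b, c, by omega, by rw [Int.toNat_of_nonneg ha.le]; exact PEq.refl a b c⟩
  obtain ⟨b₀, c₀, hn, h0⟩ := Nat.find_spec hex
  set n : ℕ := Nat.find hex with hndef
  have hn' : (0 : ℤ) < n := by exact_mod_cast hn
  -- translate into `(-n, n]`
  obtain ⟨k, hk1, hk2⟩ : ∃ k : ℤ, -(n : ℤ) < b₀ + 2 * n * k ∧ b₀ + 2 * n * k ≤ n := by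
    refine ⟨-((b₀ + n - 1) / (2 * n)), ?_, ?_⟩
    · have h1 := Int.mul_ediv_add_emod (b₀ + n - 1) (2 * n)
      have h2 := Int.emod_nonneg (b₀ + n - 1) (b := 2 * n) (by omega)
      have h3 := Int.emod_lt_of_pos (b₀ + n - 1) (b := 2 * n) (by omega)
      have h4 : b₀ + 2 * n * -((b₀ + n - 1) / (2 * n)) =
          (b₀ + n - 1) % (2 * n) - n + 1 := by linarith
      rw [h4]
      omega
    · have h1 := Int.mul_ediv_add_emod (b₀ + n - 1) (2 * n)
      have h2 := Int.emod_nonneg (b₀ + n - 1) (b := 2 * n) (by omega)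
      have h3 := Int.emod_lt_of_pos (b₀ + n - 1) (b := 2 * n) (by omega)
      have h4 : b₀ + 2 * n * -((b₀ + n - 1) / (2 * n)) =
          (b₀ + n - 1) % (2 * n) - n + 1 := by linarith
      rw [h4]
      omega
  have h1 := h0.trans (pEq_translate n b₀ c₀ k)
  set b₁ : ℤ := b₀ + 2 * n * k with hb₁
  set c₁ : ℤ := n * k ^ 2 + b₀ * k + c₀ with hc₁
  have hc0 : 0 < c₁ := (h1.pos ha hD).2
  have hle : (n : ℤ) ≤ c₁ := by
    have h2 : ∃ b' c' : ℤ, 0 < c₁.toNat ∧ PEq a b c (c₁.toNat : ℤ) b' c' :=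
      ⟨-b₁, n, by omega, by
        rw [Int.toNat_of_nonneg hc0.le]
        exact h1.trans (pEq_swap n b₁ c₁)⟩
    have h3 := Nat.find_min' hex h2
    omega
  by_cases hcase : (n : ℤ) = c₁ ∧ b₁ < 0
  · refine ⟨c₁, -b₁, n, h1.trans (pEq_swap n b₁ c₁), ⟨?_, hcase.1.ge, fun _ => by omega⟩, hc0⟩
    rw [abs_neg, abs_le]
    omega
  · refine ⟨n, b₁, c₁, h1, ⟨abs_le.mpr ⟨hk1.le, hk2⟩, hle, fun h => ?_⟩, hn'⟩
    by_contra hneg
    rw [not_le] at hneg
    rcases h with h | h
    · rw [abs_of_neg hneg] at h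
      omega
    · exact hcase ⟨h, hneg⟩

/-- the minimum of a reduced form -/
theorem IsRed.le {a b c : ℤ} (h : |b| ≤ a) (hac : a ≤ c) {p r : ℤ} (hpr : p ≠ 0 ∨ r ≠ 0) :
    a ≤ a * p ^ 2 + b * p * r + c * r ^ 2 ∧
      (a * p ^ 2 + b * p * r + c * r ^ 2 = a → r ≠ 0 → c = a) := by
  have ha : 0 ≤ a := (abs_nonneg b).trans h
  have h1 : 1 ≤ p ^ 2 + r ^ 2 - |p| * |r| := by
    rw [← sq_abs p, ← sq_abs r]
    have hp := abs_nonneg p
    have hr := abs_nonneg r
    have h2 : 1 ≤ |p| ∨ 1 ≤ |r| := by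
      rcases hpr with h | h
      · exact Or.inl (Int.one_le_abs h)
      · exact Or.inr (Int.one_le_abs h)
    generalize |p| = x at *
    generalize |r| = y at *
    rcases h2 with h2 | h2
    · nlinarith [sq_nonneg (x - 2 * y), sq_nonneg y]
    · nlinarith [sq_nonneg (y - 2 * x), sq_nonneg x]
  have h2 : -(a * (|p| * |r|)) ≤ b * p * r := by
    have h3 : |b * p * r| ≤ a * (|p| * |r|) := by
      rw [abs_mul, abs_mul, mul_assoc]
      exact mul_le_mul_of_nonneg_right h (by positivity)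
    exact (neg_le_neg h3).trans (neg_abs_le _)
  have h3 : 0 ≤ a * (p ^ 2 + r ^ 2 - |p| * |r| - 1) := mul_nonneg ha (by linarith)
  have h4 : 0 ≤ (c - a) * r ^ 2 := mul_nonneg (by linarith) (sq_nonneg r)
  refine ⟨by nlinarith, fun he hr => ?_⟩
  have h5 : (c - a) * r ^ 2 ≤ 0 := by nlinarith
  have h6 : 1 ≤ r ^ 2 := by
    have := Int.one_le_abs hr
    rw [← sq_abs]
    nlinarith
  by_contra hne
  have h7 : 1 ≤ c - a := by omega
  nlinarith

/-- **Uniqueness**: properly equivalent reduced forms are equal. -/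
theorem eq_of_isRed {a b c a' b' c' : ℤ} (ha : 0 < a) (h : IsRed a b c) (h' : IsRed a' b' c')
    (he : PEq a b c a' b' c') : a = a' ∧ b = b' ∧ c = c' := by
  have hdisc := he.discr
  obtain ⟨p, q, r, s, h1, e1, e2, e3⟩ := he
  have hpr : p ≠ 0 ∨ r ≠ 0 := by
    by_contra hn
    push Not at hn
    rw [hn.1, hn.2] at h1
    norm_num at h1
  have hsr : s ≠ 0 ∨ -r ≠ 0 := by
    by_contra hn
    push Not at hn
    rw [neg_eq_zero] at hn
    rw [hn.1, hn.2] at h1
    norm_num at h1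
  have h2 : (p * s - q * r) ^ 2 = 1 := by rw [h1]; ring
  have k1 := IsRed.le h.1 h.2.1 hpr
  have k2 := IsRed.le h'.1 h'.2.1 hsr
  have e4 : a = a' * s ^ 2 + b' * s * -r + c' * (-r) ^ 2 := by
    rw [e1, e2, e3]
    linear_combination (-a) * h2
  rw [← e1] at k1
  rw [← e4] at k2
  have haa : a = a' := le_antisymm k1.1 k2.1
  refine ⟨haa, ?_⟩
  have hb1 := abs_le.mp h.1
  have hb1' := abs_le.mp h'.1
  by_cases hr : r = 0
  · subst hr
    have hps : p * s = 1 := by linear_combination h1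
    have hb : b' = b + 2 * a * (p * q) := by
      rw [e2]
      linear_combination b * hps
    have hgt : -a < b := by
      rcases hb1.1.lt_or_eq with h3 | h3
      · exact h3
      · have h4 := h.2.2 (Or.inl (by rw [← h3, abs_neg, abs_of_pos ha]))
        omega
    have hgt' : -a' < b' := by
      rcases hb1'.1.lt_or_eq with h3 | h3
      · exact h3
      · have h4 := h'.2.2 (Or.inl (by rw [← h3, abs_neg, abs_of_pos (haa ▸ ha)]))
        omega
    have hk : p * q = 0 := by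
      generalize p * q = k at hb
      by_contra hk
      rcases lt_or_gt_of_ne hk with h3 | h3
      · nlinarith
      · nlinarith
    rw [hk, mul_zero, add_zero] at hb
    refine ⟨hb.symm, ?_⟩
    rw [hb, ← haa] at hdisc
    have h3 : (4 * a) * (c - c') = 0 := by linear_combination hdisc
    rcases mul_eq_zero.mp h3 with h4 | h4
    · omega
    · omega
  · have hc : c = a := k1.2 haa.symm hr
    have hc' : c' = a' := k2.2 haa (neg_ne_zero.mpr hr)
    have hb0 := h.2.2 (Or.inr hc.symm)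
    have hb0' := h'.2.2 (Or.inr hc'.symm)
    rw [hc', hc, ← haa] at hdisc
    have h3 : b = b' := by
      have h4 : b ^ 2 = b' ^ 2 := by linear_combination -hdisc
      exact (sq_eq_sq₀ hb0 hb0').mp h4
    exact ⟨h3, by rw [hc, hc', haa]⟩

/-- **Every positive definite form is properly equivalent to exactly one reduced form.** -/
theorem existsUnique_reduced {a b c : ℤ} (ha : 0 < a) (hD : b ^ 2 - 4 * a * c < 0) :
    ∃! f : ℤ × ℤ × ℤ, PEq a b c f.1 f.2.1 f.2.2 ∧ IsRed f.1 f.2.1 f.2.2 := by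
  obtain ⟨a', b', c', h1, h2, h3⟩ := exists_reduced ha hD
  refine ⟨(a', b', c'), ⟨h1, h2⟩, ?_⟩
  rintro ⟨a'', b'', c''⟩ ⟨h4, h5⟩
  obtain ⟨rfl, rfl, rfl⟩ := eq_of_isRed h3 h2 h5 (h1.symm.trans h4)
  rfl

end Fermat.Agent.Cor.Ray
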