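import Fermat.Agent.Corollaries.Ray.BForm
import Fermat.Agent.Corollaries.Ray.Reduced

/-!
# The class number of primitive positive definite binary quadratic forms

`hForm D` is the number of proper equivalence classes of primitive positive definite forms of
discriminant `D`. It is the number of reduced forms (`hForm_eq`), which is computed by `decide`.
-/

set_option autoImplicit false

namespace Fermat.Agent.Cor.Ray

namespace BForm

/-! ### Reduced forms -/

/-- A reduced form. -/
def Red (f : BForm) : Prop :=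
  |f.b| ≤ f.a ∧ f.a ≤ f.c ∧ ((|f.b| = f.a ∨ f.a = f.c) → 0 ≤ f.b)

theorem red_iff {f : BForm} : f.Red ↔ IsRed f.a f.b f.c := Iff.rfl

theorem eqv_iff {f g : BForm} : f.Eqv g ↔ PEq f.a f.b f.c g.a g.b g.c := by
  constructor
  · rintro ⟨p, q, r, s, h, rfl⟩
    exact ⟨p, q, r, s, h, rfl, rfl, rfl⟩
  · rintro ⟨p, q, r, s, h, h1, h2, h3⟩
    exact ⟨p, q, r, s, h, BForm.ext h1.symm h2.symm h3.symm⟩

/-- **Reduction** of positive definite forms. -/
theorem exists_red {f : BForm} (ha : 0 < f.a) (hD : f.disc < 0) :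
    ∃ g : BForm, f.Eqv g ∧ g.Red := by
  obtain ⟨a', b', c', h1, h2, -⟩ := exists_reduced ha hD
  exact ⟨⟨a', b', c'⟩, eqv_iff.mpr h1, h2⟩

/-- **Uniqueness** of the reduced form. -/
theorem Red.eq_of_eqv {f g : BForm} (ha : 0 < f.a) (hf : f.Red) (hg : g.Red) (h : f.Eqv g) :
    f = g := by
  obtain ⟨h1, h2, h3⟩ := eq_of_isRed ha hf hg (eqv_iff.mp h)
  exact BForm.ext h1 h2 h3

/-! ### Classes -/

/-- The primitive positive definite forms of discriminant `D`. -/
abbrev PForm (D : ℤ) : Type := {f : BForm // f.Prim ∧ f.disc = D ∧ 0 < f.a}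

/-- Proper equivalence. -/
def setoid (D : ℤ) : Setoid (PForm D) where
  r f g := f.1.Eqv g.1
  iseqv := ⟨fun f => Eqv.refl f.1, fun h => h.symm, fun h h' => h.trans h'⟩

/-- **The class number** `h(D)`: the number of the proper equivalence classes of the primitive
positive definite forms of discriminant `D`. -/
noncomputable def hForm (D : ℤ) : ℕ := Nat.card (Quotient (setoid D))

/-- The reduced forms. -/
abbrev RForm (D : ℤ) : Type := {f : PForm D // f.1.Red}

/-- Every class contains exactly one reduced form. -/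
noncomputable def quotientEquiv {D : ℤ} (hD : D < 0) : RForm D ≃ Quotient (setoid D) :=
  Equiv.ofBijective (fun f => Quotient.mk (setoid D) f.1) (by
    refine ⟨fun f g h => ?_, fun x => ?_⟩
    · exact Subtype.ext (Subtype.ext (Red.eq_of_eqv f.1.2.2.2 f.2 g.2 (Quotient.exact h)))
    · obtain ⟨f, rfl⟩ := Quotient.exists_rep x
      have hD' : f.1.disc < 0 := by rw [f.2.2.1]; exact hD
      obtain ⟨g, h1, h2⟩ := exists_red f.2.2.2 hD'
      refine ⟨⟨⟨g, h1.prim f.2.1, ?_, h1.a_pos f.2.2.2 hD'⟩, h2⟩, Quotient.sound h1.symm⟩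
      rw [h1.disc_eq, f.2.2.1])

theorem hForm_eq_card_red {D : ℤ} (hD : D < 0) : hForm D = Nat.card (RForm D) :=
  (Nat.card_congr (quotientEquiv hD)).symm

/-! ### Enumeration -/

/-- Primitivity by the greatest common divisor. -/
theorem prim_iff {f : BForm} : f.Prim ↔ Int.gcd f.a (Int.gcd f.b f.c) = 1 := by
  constructor
  · intro h
    by_contra hne
    obtain ⟨q, hq, hd⟩ := Nat.exists_prime_and_dvd hne
    have h1 : (q : ℤ) ∣ (Int.gcd f.a (Int.gcd f.b f.c) : ℤ) := by exact_mod_cast hd
    have h2 := h1.trans (Int.gcd_dvd_right (a := f.a) (b := (Int.gcd f.b f.c : ℤ)))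
    exact h q hq ⟨h1.trans (Int.gcd_dvd_left (a := f.a) (b := (Int.gcd f.b f.c : ℤ))),
      h2.trans (Int.gcd_dvd_left (a := f.b) (b := f.c)),
      h2.trans (Int.gcd_dvd_right (a := f.b) (b := f.c))⟩
  · rintro h q hq ⟨h1, h2, h3⟩
    have h4 : q ∣ Int.gcd f.a (Int.gcd f.b f.c) := Int.dvd_gcd h1 (Int.dvd_coe_gcd h2 h3)
    rw [h] at h4
    exact hq.one_lt.ne' (Nat.dvd_one.mp h4)

/-- the form with the coefficients `a` and `b = k - A`, of discriminant `-n` -/
def ofPair (n A : ℕ) (x : ℕ × ℕ) : BForm :=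
  ⟨x.1, x.2 - A, (((x.2 : ℤ) - A) ^ 2 + n) / (4 * x.1)⟩

/-- The reduced primitive forms of discriminant `-n`, as the pairs `(a, b + A)`. -/
def redSet (n A : ℕ) : Finset (ℕ × ℕ) :=
  ((Finset.range (A + 1)) ×ˢ (Finset.range (2 * A + 1))).filter fun x =>
    0 < x.1 ∧ 4 * (ofPair n A x).a * (ofPair n A x).c = (ofPair n A x).b ^ 2 + n ∧
      IsRed (ofPair n A x).a (ofPair n A x).b (ofPair n A x).c ∧
        Int.gcd (ofPair n A x).a (Int.gcd (ofPair n A x).b (ofPair n A x).c) = 1

theorem Red.three_mul_sq_le {f : BForm} (h : f.Red) : 3 * f.a ^ 2 ≤ -f.disc := by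
  obtain ⟨h1, h2, -⟩ := h
  have h0 : 0 ≤ f.a := (abs_nonneg _).trans h1
  have h3 : f.b ^ 2 ≤ f.a ^ 2 := by
    rw [← sq_abs f.b]
    exact pow_le_pow_left₀ (abs_nonneg _) h1 2
  have h4 : f.a * f.a ≤ f.a * f.c := mul_le_mul_of_nonneg_left h2 h0
  simp only [disc]
  nlinarith

/-- The reduced forms of discriminant `-n` are enumerated by `redSet n A`, `n < 3 (A + 1)²`. -/
theorem natCard_rForm {n A : ℕ} (hA : n < 3 * (A + 1) ^ 2) :
    Nat.card (RForm (-(n : ℤ))) = (redSet n A).card := by
  classical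
  have key : ∀ x ∈ redSet n A, (ofPair n A x).Prim ∧ (ofPair n A x).disc = -(n : ℤ) ∧
      0 < (ofPair n A x).a ∧ (ofPair n A x).Red := by
    intro x hx
    rw [redSet, Finset.mem_filter] at hx
    obtain ⟨-, h1, h2, h3, h4⟩ := hx
    refine ⟨prim_iff.mpr h4, ?_, ?_, h3⟩
    · simp only [disc]
      linear_combination -h2
    · simp only [ofPair]
      exact_mod_cast h1
  let φ : redSet n A → RForm (-(n : ℤ)) := fun x =>
    ⟨⟨ofPair n A x.1, (key x.1 x.2).1, (key x.1 x.2).2.1, (key x.1 x.2).2.2.1⟩,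
      (key x.1 x.2).2.2.2⟩
  have hφ : Function.Bijective φ := by
    constructor
    · rintro ⟨x, hx⟩ ⟨y, hy⟩ h
      have h1 : ofPair n A x = ofPair n A y := congrArg (fun z => z.1.1) h
      have h2 : (x.1 : ℤ) = y.1 := congrArg BForm.a h1
      have h3 : (x.2 : ℤ) - A = y.2 - A := congrArg BForm.b h1
      refine Subtype.ext (Prod.ext ?_ ?_)
      · exact_mod_cast h2
      · show x.2 = y.2
        omega
    · rintro ⟨⟨f, hp, hd, ha⟩, hr'⟩
      have hr : f.Red := hr'
      have h1 := hr.three_mul_sq_le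
      rw [hd, neg_neg] at h1
      have hA' : (n : ℤ) < 3 * ((A : ℤ) + 1) ^ 2 := by exact_mod_cast hA
      have h2 : f.a ≤ A := by
        by_contra hlt
        rw [not_le] at hlt
        have : (A : ℤ) + 1 ≤ f.a := hlt
        nlinarith
      have h3 := abs_le.mp hr.1
      have e1 : ((f.a.toNat : ℕ) : ℤ) = f.a := Int.toNat_of_nonneg ha.le
      have e2 : (((f.b + A).toNat : ℕ) : ℤ) = f.b + A := Int.toNat_of_nonneg (by omega)
      have hdisc : f.b ^ 2 + n = f.c * (4 * f.a) := by
        simp only [disc] at hd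
        linear_combination hd
      have hf : ofPair n A (f.a.toNat, (f.b + A).toNat) = f := by
        apply BForm.ext
        · exact e1
        · show (((f.b + A).toNat : ℕ) : ℤ) - A = f.b
          rw [e2]
          ring
        · show (((((f.b + A).toNat : ℕ) : ℤ) - A) ^ 2 + n) / (4 * ((f.a.toNat : ℕ) : ℤ)) = f.c
          rw [e1, e2, add_sub_cancel_right, hdisc]
          exact Int.mul_ediv_cancel _ (by omega)
      have hmem : (f.a.toNat, (f.b + A).toNat) ∈ redSet n A := by
        rw [redSet, Finset.mem_filter, Finset.mem_product, Finset.mem_range, Finset.mem_range, hf]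
        refine ⟨⟨?_, ?_⟩, ?_, ?_, hr, prim_iff.mp hp⟩
        · show f.a.toNat < A + 1
          omega
        · show (f.b + A).toNat < 2 * A + 1
          omega
        · show 0 < f.a.toNat
          omega
        · linear_combination -hdisc
      refine ⟨⟨_, hmem⟩, ?_⟩
      exact Subtype.ext (Subtype.ext hf)
  rw [← Nat.card_congr (Equiv.ofBijective φ hφ), Nat.card_eq_fintype_card, Fintype.card_coe]

/-- **The class number by enumeration.** -/
theorem hForm_eq {n A : ℕ} (hn : 0 < n) (hA : n < 3 * (A + 1) ^ 2) :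
    hForm (-(n : ℤ)) = (redSet n A).card := by
  rw [hForm_eq_card_red (by omega), natCard_rForm hA]

/-! ### Values -/

theorem hForm_3 : hForm (-3) = 1 :=
  (hForm_eq (n := 3) (A := 1) (by norm_num) (by norm_num)).trans (by decide +kernel)

theorem hForm_4 : hForm (-4) = 1 :=
  (hForm_eq (n := 4) (A := 1) (by norm_num) (by norm_num)).trans (by decide +kernel)

theorem hForm_20 : hForm (-20) = 2 :=
  (hForm_eq (n := 20) (A := 2) (by norm_num) (by norm_num)).trans (by decide +kernel)

theorem hForm_23 : hForm (-23) = 3 :=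
  (hForm_eq (n := 23) (A := 2) (by norm_num) (by norm_num)).trans (by decide +kernel)

theorem hForm_56 : hForm (-56) = 4 :=
  (hForm_eq (n := 56) (A := 4) (by norm_num) (by norm_num)).trans (by decide +kernel)

theorem hForm_108 : hForm (-108) = 3 :=
  (hForm_eq (n := 108) (A := 6) (by norm_num) (by norm_num)).trans (by decide +kernel)

theorem hForm_163 : hForm (-163) = 1 :=
  (hForm_eq (n := 163) (A := 7) (by norm_num) (by norm_num)).trans (by decide +kernel)

theorem hForm_256 : hForm (-256) = 4 :=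
  (hForm_eq (n := 256) (A := 9) (by norm_num) (by norm_num)).trans (by decide +kernel)

end BForm

end Fermat.Agent.Cor.Ray
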