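import Fermat.Agent.Corollaries.Ray.Coprime

/-!
# The ray class group

For a number field `K` and an ideal `𝔪 ≠ 0` of its ring of integers, the integral ideals prime to
`𝔪` modulo the relation `RayEq 𝔪` (`(a) I = (b) J` with `a`, `b` nonzero, prime to `𝔪` and
`a ≡ b mod 𝔪`) form a finite abelian group.

* `RayEq.refl`, `RayEq.symm`, `RayEq.trans`, `RayEq.mul` : `RayEq` is a congruence;
* `RayClass 𝔪` : the quotient, a commutative group for `𝔪 ≠ ⊥`, finite;
* `groupStmt` : the summary `GroupStmt` of `Ray/Defs.lean`.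
-/

set_option autoImplicit false
set_option linter.unusedSectionVars false

noncomputable section

namespace Fermat.Agent.Cor.Ray

open NumberField
open scoped nonZeroDivisors

universe u

variable {K : Type u} [Field K] [NumberField K] {m : Ideal (𝓞 K)}

theorem RayEq.refl (I : (Ideal (𝓞 K))⁰) : RayEq m I I :=
  ⟨1, 1, one_ne_zero, one_ne_zero, by
    rw [isCoprime_span_iff]; exact ⟨1, by simp⟩, by simp, rfl⟩

theorem RayEq.symm {I J : (Ideal (𝓞 K))⁰} (h : RayEq m I J) : RayEq m J I := by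
  obtain ⟨a, b, ha, hb, hc, hab, he⟩ := h
  refine ⟨b, a, hb, ha, ?_, ?_, he.symm⟩
  · rw [isCoprime_span_iff] at hc ⊢
    obtain ⟨c, hc⟩ := hc
    refine ⟨c, ?_⟩
    have : c * b - 1 = (c * a - 1) - c * (a - b) := by ring
    rw [this]
    exact m.sub_mem hc (m.mul_mem_left c hab)
  · rw [← neg_sub]; exact m.neg_mem hab

theorem RayEq.trans {I J L : (Ideal (𝓞 K))⁰} (h : RayEq m I J) (h' : RayEq m J L) :
    RayEq m I L := by
  obtain ⟨a, b, ha, hb, hc, hab, he⟩ := h
  obtain ⟨a', b', ha', hb', hc', hab', he'⟩ := h'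
  refine ⟨a * a', b * b', mul_ne_zero ha ha', mul_ne_zero hb hb', ?_, ?_, ?_⟩
  · rw [← Ideal.span_singleton_mul_span_singleton]
    exact hc.mul_left hc'
  · have : a * a' - b * b' = a' * (a - b) + b * (a' - b') := by ring
    rw [this]
    exact m.add_mem (m.mul_mem_left _ hab) (m.mul_mem_left _ hab')
  · rw [← Ideal.span_singleton_mul_span_singleton, ← Ideal.span_singleton_mul_span_singleton,
      mul_assoc, mul_left_comm, he, mul_left_comm, he', mul_assoc]

theorem RayEq.mul {I J I' J' : (Ideal (𝓞 K))⁰} (h : RayEq m I J) (h' : RayEq m I' J') :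
    RayEq m (I * I') (J * J') := by
  obtain ⟨a, b, ha, hb, hc, hab, he⟩ := h
  obtain ⟨a', b', ha', hb', hc', hab', he'⟩ := h'
  refine ⟨a * a', b * b', mul_ne_zero ha ha', mul_ne_zero hb hb', ?_, ?_, ?_⟩
  · rw [← Ideal.span_singleton_mul_span_singleton]
    exact hc.mul_left hc'
  · have : a * a' - b * b' = a' * (a - b) + b * (a' - b') := by ring
    rw [this]
    exact m.add_mem (m.mul_mem_left _ hab) (m.mul_mem_left _ hab')
  · rw [← Ideal.span_singleton_mul_span_singleton, ← Ideal.span_singleton_mul_span_singleton,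
      Submonoid.coe_mul, Submonoid.coe_mul, mul_mul_mul_comm, he, he', mul_mul_mul_comm]

variable (m) in
/-- `RayEq` as a congruence on the ideals prime to `𝔪` -/
def rayCon : Con (Cop m) where
  r I J := RayEq m I.1 J.1
  iseqv := ⟨fun I => RayEq.refl I.1, fun h => RayEq.symm h, fun h h' => RayEq.trans h h'⟩
  mul' := fun h h' => RayEq.mul h h'

variable (m) in
/-- the ray classes modulo `𝔪` -/
def RayClass : Type u := (rayCon m).Quotient

instance : CommMonoid (RayClass m) := inferInstanceAs (CommMonoid (rayCon m).Quotient)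

variable (m) in
/-- the class map -/
def rayCl : Cop m →* RayClass m := (rayCon m).mk'

theorem rayCl_surjective : Function.Surjective (rayCl m) := Con.mk'_surjective

theorem rayCl_eq_iff {I J : Cop m} : rayCl m I = rayCl m J ↔ RayEq m I.1 J.1 :=
  (rayCon m).eq

theorem rayEq_one {I L : (Ideal (𝓞 K))⁰} {c : 𝓞 K} (hc : c ≠ 0) (h1 : c - 1 ∈ m)
    (h : (L : Ideal (𝓞 K)) * (I : Ideal (𝓞 K)) = Ideal.span {c}) : RayEq m (L * I) 1 := by
  refine ⟨1, c, one_ne_zero, hc, isCoprime_span_iff.2 ⟨1, by simp⟩, ?_, ?_⟩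
  · rw [← neg_sub]; exact m.neg_mem h1
  · rw [Submonoid.coe_mul, Submonoid.coe_one, h, mul_one, Ideal.span_singleton_one, Ideal.top_mul]

/-- inverses exist, on the level of ideals -/
theorem exists_rayEq_one (hm : m ≠ ⊥) {I : (Ideal (𝓞 K))⁰} (hI : IsCoprime (I : Ideal (𝓞 K)) m) :
    ∃ L : (Ideal (𝓞 K))⁰, IsCoprime (L : Ideal (𝓞 K)) m ∧ RayEq m (L * I) 1 := by
  obtain ⟨J, a, ha, hJ, hca, hIJ⟩ := exists_mul_eq_span hm hI
  obtain ⟨b, hb0, hb⟩ : ∃ b : 𝓞 K, b ≠ 0 ∧ b * a - 1 ∈ m := by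
    obtain ⟨c, hc⟩ := isCoprime_span_iff.1 hca
    by_cases hc0 : c = 0
    · have h1 : (1 : 𝓞 K) ∈ m := by
        have h2 := m.neg_mem hc
        rw [hc0, zero_mul, zero_sub, neg_neg] at h2
        exact h2
      exact ⟨1, one_ne_zero, by rw [(Ideal.eq_top_iff_one m).2 h1]; exact Submodule.mem_top⟩
    · exact ⟨c, hc0, hc⟩
  have hspb : Ideal.span {b} ∈ (Ideal (𝓞 K))⁰ :=
    mem_nonZeroDivisors_of_ne_zero (by rwa [Ne, Ideal.zero_eq_bot, Ideal.span_singleton_eq_bot])
  have hcb : IsCoprime (Ideal.span {b}) m := isCoprime_span_iff.2 ⟨a, by rwa [mul_comm]⟩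
  refine ⟨J * ⟨Ideal.span {b}, hspb⟩, ?_, rayEq_one (mul_ne_zero hb0 ha) hb ?_⟩
  · rw [Submonoid.coe_mul]
    exact IsCoprime.mul_left hJ hcb
  · have key : ∀ A B C : Ideal (𝓞 K), A * B * C = B * (C * A) := fun A B C => by
      rw [mul_comm A B, mul_assoc, mul_comm A C]
    rw [Submonoid.coe_mul, ← Ideal.span_singleton_mul_span_singleton, ← hIJ]
    exact key _ _ _

/-- inverses exist -/
theorem exists_mul_rayCl_eq_one (hm : m ≠ ⊥) (x : RayClass m) : ∃ y : RayClass m, y * x = 1 := by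
  obtain ⟨I, rfl⟩ := rayCl_surjective x
  obtain ⟨L, hL, h⟩ := exists_rayEq_one hm I.2
  refine ⟨rayCl m ⟨L, hL⟩, ?_⟩
  rw [← map_mul, ← map_one (rayCl m)]
  exact rayCl_eq_iff.2 h

variable (m) in
/-- the ray class group modulo `𝔪 ≠ ⊥` -/
@[reducible] def rayClassCommGroup (hm : m ≠ ⊥) : CommGroup (RayClass m) :=
  { (inferInstance : CommMonoid (RayClass m)) with
    inv := fun x => (exists_mul_rayCl_eq_one hm x).choose
    inv_mul_cancel := fun x => (exists_mul_rayCl_eq_one hm x).choose_spec }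

/-- the two invariants of a ray class: its ideal class and a generator modulo `𝔪` -/
theorem exists_invariant (hm : m ≠ ⊥) : ∃ f : Cop m → ClassGroup (𝓞 K) × (𝓞 K ⧸ m),
    ∀ I J : Cop m, f I = f J → RayEq m I.1 J.1 := by
  choose M hM hMm using fun C : ClassGroup (𝓞 K) => exists_coprime_mk0 (m := m) C⁻¹ hm
  have key : ∀ I : Cop m, ∃ x : 𝓞 K, x ≠ 0 ∧ IsCoprime (Ideal.span {x}) m ∧
      (I.1 : Ideal (𝓞 K)) * (M (ClassGroup.mk0 I.1) : Ideal (𝓞 K)) = Ideal.span {x} := by
    intro I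
    have h1 : ClassGroup.mk0 (I.1 * M (ClassGroup.mk0 I.1)) = 1 := by
      rw [map_mul, hM, mul_inv_cancel]
    rw [ClassGroup.mk0_eq_one_iff (SetLike.coe_mem _)] at h1
    obtain ⟨x, hx⟩ := h1.principal
    have hx' : ((I.1 * M (ClassGroup.mk0 I.1) : (Ideal (𝓞 K))⁰) : Ideal (𝓞 K)) =
      Ideal.span {x} := hx
    refine ⟨x, ?_, ?_, hx'⟩
    · rintro rfl
      rw [Ideal.span_singleton_eq_bot.mpr rfl] at hx'
      exact nonZeroDivisors.coe_ne_zero _ hx'
    · rw [← hx', Submonoid.coe_mul]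
      exact IsCoprime.mul_left I.2 (hMm _)
  choose x hx0 hxm hx using key
  refine ⟨fun I => (ClassGroup.mk0 I.1, Ideal.Quotient.mk m (x I)), fun I J h => ?_⟩
  rw [Prod.mk.injEq] at h
  obtain ⟨h1, h2⟩ := h
  rw [Ideal.Quotient.eq] at h2
  refine ⟨x J, x I, hx0 J, hx0 I, hxm J, ?_, ?_⟩
  · rw [← neg_sub]; exact m.neg_mem h2
  · have hI := hx I
    have hJ := hx J
    rw [← h1] at hJ
    have hM0 : (M (ClassGroup.mk0 I.1) : Ideal (𝓞 K)) ≠ 0 := nonZeroDivisors.coe_ne_zero _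
    apply mul_right_cancel₀ hM0
    rw [mul_assoc, mul_assoc, hI, hJ, mul_comm]

theorem finite_rayClass (hm : m ≠ ⊥) : Finite (RayClass m) := by
  obtain ⟨f, hf⟩ := exists_invariant hm
  have : Finite (𝓞 K ⧸ m) := Ideal.finiteQuotientOfFreeOfNeBot m hm
  choose s hs using rayCl_surjective (m := m)
  refine Finite.of_injective (fun x => f (s x)) fun x y h => ?_
  rw [← hs x, ← hs y, rayCl_eq_iff]
  exact hf _ _ h

/-- **The ray class group**: the ideals prime to `𝔪`, modulo `RayEq 𝔪`, form a finite abelian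
group. -/
theorem groupStmt (K : Type u) [Field K] [NumberField K] : GroupStmt K := fun m hm =>
  ⟨RayClass m, rayClassCommGroup m hm, finite_rayClass hm, rayCl m, rayCl_surjective,
    fun _ _ => rayCl_eq_iff⟩

end Fermat.Agent.Cor.Ray
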