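import Fermat.Agent.Corollaries.Ray.Coprime
import Fermat.Agent.Corollaries.ZetaK.QuadForm

/-!
# Primes represented by binary quadratic forms of arbitrary discriminant (Weber, Meyer)

Let `f = a x² + b x y + c y²` be a primitive form whose discriminant is not a square, `M ≥ 1`
and `f(x₀, y₀)` prime to `M`. Then there are infinitely many primes `p = |f(x, y)|` with
`x ≡ x₀`, `y ≡ y₀` modulo `M`. Input: every ray class contains infinitely many prime ideals of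
residue degree one.
-/

set_option autoImplicit false

open NumberField QuadraticAlgebra
open scoped nonZeroDivisors

namespace Fermat.Agent.Cor.Ray

universe u

/-! ### Ray classes -/

section General

variable {K : Type u} [Field K] [NumberField K]

/-- every ray class contains infinitely many prime ideals of residue degree one -/
def RayDegOne (K : Type u) [Field K] [NumberField K] : Prop :=
  ∀ 𝔪 : Ideal (𝓞 K), 𝔪 ≠ ⊥ → ∀ J : (Ideal (𝓞 K))⁰, IsCoprime (J : Ideal (𝓞 K)) 𝔪 →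
    {P : ClassL.Pr K | RayEq 𝔪 P.1 J ∧ (Ideal.absNorm (P.1 : Ideal (𝓞 K))).Prime}.Infinite

/-- the ray class of the prime ideals `P` with `P A = (α)`, `α ≡ γ` modulo `𝔪` -/
theorem exists_ray_rep {𝔪 : Ideal (𝓞 K)} (h𝔪 : 𝔪 ≠ ⊥) {A : (Ideal (𝓞 K))⁰}
    (hA : IsCoprime (A : Ideal (𝓞 K)) 𝔪) {γ : 𝓞 K} (hγ : IsCoprime (Ideal.span {γ}) 𝔪) :
    ∃ J : (Ideal (𝓞 K))⁰, IsCoprime (J : Ideal (𝓞 K)) 𝔪 ∧ ∀ P : (Ideal (𝓞 K))⁰, RayEq 𝔪 P J →
      ∃ α : 𝓞 K, (P : Ideal (𝓞 K)) * (A : Ideal (𝓞 K)) = Ideal.span {α} ∧ α - γ ∈ 𝔪 := by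
  obtain ⟨J₀, a₀, ha₀, hJ₀, hca, hmul⟩ := exists_mul_eq_span h𝔪 hA
  obtain ⟨b₀, hb₀⟩ := isCoprime_span_iff.mp hca
  obtain ⟨g, hg⟩ := isCoprime_span_iff.mp hγ
  obtain ⟨e, he0, he⟩ : ∃ e : 𝓞 K, e ≠ 0 ∧ e - b₀ * γ ∈ 𝔪 := by
    by_cases h0 : b₀ * γ = 0
    · obtain ⟨t, ht, ht0⟩ := (Submodule.ne_bot_iff _).mp h𝔪
      exact ⟨t, ht0, by rw [h0, sub_zero]; exact ht⟩
    · exact ⟨b₀ * γ, h0, by rw [sub_self]; exact 𝔪.zero_mem⟩
  have hce : IsCoprime (Ideal.span {e}) 𝔪 := by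
    refine isCoprime_span_iff.mpr ⟨g * a₀, ?_⟩
    have h1 : g * a₀ * e - 1 = g * a₀ * (e - b₀ * γ) + (g * γ * (b₀ * a₀ - 1) + (g * γ - 1)) := by
      ring
    rw [h1]
    exact 𝔪.add_mem (𝔪.mul_mem_left _ he) (𝔪.add_mem (𝔪.mul_mem_left _ hb₀) hg)
  have hse : Ideal.span {e} ≠ ⊥ := by rwa [Ne, Ideal.span_singleton_eq_bot]
  refine ⟨⟨Ideal.span {e}, mem_nonZeroDivisors_of_ne_zero hse⟩ * J₀, ?_, ?_⟩
  · rw [Submonoid.coe_mul]
    exact IsCoprime.mul_left hce hJ₀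
  · rintro P ⟨a, b, ha, hb, hcoa, hab, hPJ⟩
    rw [Submonoid.coe_mul] at hPJ
    have h1 : Ideal.span {a} * ((P : Ideal (𝓞 K)) * (A : Ideal (𝓞 K))) =
        Ideal.span {b * e * a₀} := by
      calc Ideal.span {a} * ((P : Ideal (𝓞 K)) * (A : Ideal (𝓞 K)))
          = Ideal.span {a} * (P : Ideal (𝓞 K)) * (A : Ideal (𝓞 K)) := by rw [mul_assoc]
        _ = Ideal.span {b} * (Ideal.span {e} * ((A : Ideal (𝓞 K)) * (J₀ : Ideal (𝓞 K)))) := by
          rw [hPJ]; ring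
        _ = Ideal.span {b * e * a₀} := by
          rw [hmul, Ideal.span_singleton_mul_span_singleton,
            Ideal.span_singleton_mul_span_singleton, mul_assoc]
    have h2 : b * e * a₀ ∈ Ideal.span {a} := by
      have h3 : b * e * a₀ ∈ Ideal.span {a} * ((P : Ideal (𝓞 K)) * (A : Ideal (𝓞 K))) := by
        rw [h1]
        exact Ideal.mem_span_singleton_self _
      have h4 : Ideal.span {a} * ((P : Ideal (𝓞 K)) * (A : Ideal (𝓞 K))) ≤ Ideal.span {a} :=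
        Ideal.mul_le_left
      exact h4 h3
    obtain ⟨α, hα⟩ := Ideal.mem_span_singleton'.mp h2
    refine ⟨α, ?_, ?_⟩
    · have h3 : Ideal.span {a} * ((P : Ideal (𝓞 K)) * (A : Ideal (𝓞 K))) =
          Ideal.span {a} * Ideal.span {α} := by
        rw [h1, Ideal.span_singleton_mul_span_singleton, ← hα, mul_comm]
      have hsa : Ideal.span {a} ≠ 0 := by rwa [Ne, Ideal.zero_eq_bot, Ideal.span_singleton_eq_bot]
      exact mul_left_cancel₀ hsa h3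
    · obtain ⟨b', hb'⟩ := isCoprime_span_iff.mp hcoa
      have h4 : α - γ = -(b' * a - 1) * (α - γ) + b' * (-(a - b) * e * a₀ +
          a * (a₀ * (e - b₀ * γ) + γ * (b₀ * a₀ - 1))) := by
        linear_combination b' * hα
      rw [h4]
      refine 𝔪.add_mem (𝔪.mul_mem_right _ (𝔪.neg_mem hb')) (𝔪.mul_mem_left _ (𝔪.add_mem ?_ ?_))
      · exact 𝔪.mul_mem_right _ (𝔪.mul_mem_right _ (𝔪.neg_mem hab))
      · exact 𝔪.mul_mem_left _ (𝔪.add_mem (𝔪.mul_mem_left _ he) (𝔪.mul_mem_left _ hb₀))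

end General

/-! ### The order `ℤ + ℤ θ` -/

section Order

variable {a b c : ℤ} [hF : Fact (∀ r : ℚ, r ^ 2 ≠ -((a : ℚ) * c) + -(b : ℚ) * r)]

/-- uniqueness of the coordinates -/
theorem comb_inj {x y x' y' : ℤ}
    (h : (x : 𝓞 (QF a b c)) + y * thetaQ a b c = x' + y' * thetaQ a b c) : x = x' ∧ y = y' := by
  have h1 := congrArg (fun z : 𝓞 (QF a b c) => (z : QF a b c)) h
  beta_reduce at h1
  rw [coe_comb, coe_comb] at h1
  have h2 : (x : ℚ) = x' := congrArg QuadraticAlgebra.re h1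
  have h3 : (y : ℚ) = y' := congrArg QuadraticAlgebra.im h1
  exact ⟨by exact_mod_cast h2, by exact_mod_cast h3⟩

/-- `2 D` is a multiple of the conductor -/
theorem exists_comb_mul (z : 𝓞 (QF a b c)) : ∃ x y : ℤ,
    ((2 * (b ^ 2 - 4 * a * c) : ℤ) : 𝓞 (QF a b c)) * z = x + y * thetaQ a b c := by
  obtain ⟨T, N, hT, hN⟩ := exists_trace_norm z
  have hkey : (T : ℚ) ^ 2 - 4 * N = ((b ^ 2 - 4 * a * c : ℤ) : ℚ) * (z : QF a b c).im ^ 2 := by
    rw [← hT, ← hN, trace_def, norm_def]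
    push_cast
    ring
  obtain ⟨k, hk⟩ : ∃ k : ℤ, ((b ^ 2 - 4 * a * c : ℤ) : ℚ) * (z : QF a b c).im = k := by
    have h1 : (((b ^ 2 - 4 * a * c : ℤ) : ℚ) * (z : QF a b c).im) ^ 2 =
        (((b ^ 2 - 4 * a * c) * (T ^ 2 - 4 * N) : ℤ) : ℚ) := by
      push_cast
      push_cast at hkey
      linear_combination (-((b : ℚ) ^ 2 - 4 * a * c)) * hkey
    have h2 : IsIntegral ℤ ((((b ^ 2 - 4 * a * c : ℤ) : ℚ) * (z : QF a b c).im) ^ 2) := by
      rw [h1]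
      exact isIntegral_algebraMap (R := ℤ) (A := ℚ)
        (x := (b ^ 2 - 4 * a * c) * (T ^ 2 - 4 * N))
    obtain ⟨k, hk⟩ := IsIntegrallyClosed.isIntegral_iff.mp (IsIntegral.of_pow two_pos h2)
    exact ⟨k, hk.symm⟩
  refine ⟨(b ^ 2 - 4 * a * c) * T + b * k, 2 * k, RingOfIntegers.ext ?_⟩
  rw [coe_comb, RingOfIntegers.coe_eq_algebraMap, map_mul, map_intCast]
  have hz : algebraMap (𝓞 (QF a b c)) (QF a b c) z =
      ⟨(z : QF a b c).re, (z : QF a b c).im⟩ := rfl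
  rw [hz]
  rw [trace_def] at hT
  ext
  · have h3 : ((((2 * (b ^ 2 - 4 * a * c) : ℤ) : QF a b c)) *
        (⟨(z : QF a b c).re, (z : QF a b c).im⟩ : QF a b c)).re =
        ((2 * (b ^ 2 - 4 * a * c) : ℤ) : ℚ) * (z : QF a b c).re := by
      rw [re_mul, re_intCast, im_intCast]
      ring
    rw [h3]
    push_cast
    push_cast at hk
    rw [← hT, ← hk]
    ring
  · have h3 : ((((2 * (b ^ 2 - 4 * a * c) : ℤ) : QF a b c)) *
        (⟨(z : QF a b c).re, (z : QF a b c).im⟩ : QF a b c)).im =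
        ((2 * (b ^ 2 - 4 * a * c) : ℤ) : ℚ) * (z : QF a b c).im := by
      rw [im_mul, re_intCast, im_intCast]
      ring
    rw [h3]
    push_cast
    push_cast at hk
    rw [← hk]
    ring

/-- the elements of `(a, θ) ∩ (ℤ + ℤ θ)`, for `a` prime to the conductor -/
theorem dvd_of_comb_mem (hcop : IsCoprime a (2 * (b ^ 2 - 4 * a * c))) {x y : ℤ}
    (h : (x : 𝓞 (QF a b c)) + y * thetaQ a b c ∈ idealQ a b c) : a ∣ x := by
  obtain ⟨u, v, huv⟩ := Ideal.mem_span_pair.mp h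
  obtain ⟨u0, u1, hu⟩ := exists_comb_mul u
  obtain ⟨v0, v1, hv⟩ := exists_comb_mul v
  have h1 : ((2 * (b ^ 2 - 4 * a * c) * x : ℤ) : 𝓞 (QF a b c)) +
      ((2 * (b ^ 2 - 4 * a * c) * y : ℤ) : 𝓞 (QF a b c)) * thetaQ a b c =
      ((a * u0 - a * c * v1 : ℤ) : 𝓞 (QF a b c)) +
      ((a * u1 + v0 - b * v1 : ℤ) : 𝓞 (QF a b c)) * thetaQ a b c := by
    push_cast
    push_cast at hu hv
    linear_combination (-(2 * ((b : 𝓞 (QF a b c)) ^ 2 - 4 * a * c))) * huv +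
      (a : 𝓞 (QF a b c)) * hu + thetaQ a b c * hv +
      (v1 : 𝓞 (QF a b c)) * thetaQ_sq (a := a) (b := b) (c := c)
  have h2 := (comb_inj h1).1
  refine hcop.dvd_of_dvd_mul_left ⟨u0 - c * v1, ?_⟩
  rw [h2]
  ring

theorem intCast_mem_idealQ' (hcop : IsCoprime a (2 * (b ^ 2 - 4 * a * c))) {n : ℤ} :
    ((n : ℤ) : 𝓞 (QF a b c)) ∈ idealQ a b c ↔ a ∣ n := by
  constructor
  · intro h
    refine dvd_of_comb_mem hcop (x := n) (y := 0) ?_
    rwa [Int.cast_zero, zero_mul, add_zero]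
  · rintro ⟨k, rfl⟩
    rw [Int.cast_mul]
    exact Ideal.mul_mem_right _ _ (Ideal.subset_span (Set.mem_insert _ _))

theorem absNorm_idealQ' (hcop : IsCoprime a (2 * (b ^ 2 - 4 * a * c))) :
    Ideal.absNorm (idealQ a b c) = a.natAbs := by
  let f : ℤ →+* 𝓞 (QF a b c) ⧸ idealQ a b c :=
    (Ideal.Quotient.mk (idealQ a b c)).comp (Int.castRingHom _)
  have ha : ((a : ℤ) : 𝓞 (QF a b c)) ∈ idealQ a b c :=
    Ideal.subset_span (Set.mem_insert _ _)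
  have hsurj : Function.Surjective f := by
    intro q
    obtain ⟨z, rfl⟩ := Ideal.Quotient.mk_surjective q
    obtain ⟨x, y, hxy⟩ := exists_comb_mul z
    obtain ⟨u, v, huv⟩ := hcop
    refine ⟨v * x, ?_⟩
    change Ideal.Quotient.mk (idealQ a b c) ((v * x : ℤ) : 𝓞 (QF a b c)) = _
    rw [Ideal.Quotient.eq]
    have huv' : (u : 𝓞 (QF a b c)) * a + v * ((2 * (b ^ 2 - 4 * a * c) : ℤ) : 𝓞 (QF a b c)) = 1 := by
      exact_mod_cast congrArg (Int.cast : ℤ → 𝓞 (QF a b c)) huv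
    have h1 : ((v * x : ℤ) : 𝓞 (QF a b c)) - z =
        -((u : 𝓞 (QF a b c)) * z) * a + -((v * y : ℤ) : 𝓞 (QF a b c)) * thetaQ a b c := by
      push_cast
      linear_combination z * huv' - (v : 𝓞 (QF a b c)) * hxy
    rw [h1]
    exact Ideal.add_mem _ (Ideal.mul_mem_left _ _ ha) (Ideal.mul_mem_left _ _ thetaQ_mem)
  have hker : RingHom.ker f = Ideal.span {a} := by
    ext n
    rw [RingHom.mem_ker, Ideal.mem_span_singleton, ← intCast_mem_idealQ' hcop]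
    exact Ideal.Quotient.eq_zero_iff_mem
  have e := (Ideal.quotEquivOfEq hker).symm.trans (RingHom.quotientKerEquivOfSurjective hsurj)
  have e2 := Int.quotientSpanEquivZMod a
  rw [Ideal.absNorm_apply, Submodule.cardQuot_apply, ← Nat.card_congr e.toEquiv,
    Nat.card_congr e2.toEquiv, Nat.card_zmod]

theorem isCoprime_span_intCast {m T : ℤ} (h : IsCoprime m T) :
    IsCoprime (Ideal.span {((m : ℤ) : 𝓞 (QF a b c))}) (Ideal.span {((T : ℤ) : 𝓞 (QF a b c))}) := by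
  obtain ⟨u, v, huv⟩ := h
  refine isCoprime_span_iff.mpr ⟨(u : 𝓞 (QF a b c)), ?_⟩
  refine Ideal.mem_span_singleton'.mpr ⟨-(v : 𝓞 (QF a b c)), ?_⟩
  have huv' : (u : 𝓞 (QF a b c)) * m + v * T = 1 := by
    exact_mod_cast congrArg (Int.cast : ℤ → 𝓞 (QF a b c)) huv
  linear_combination -huv'

/-- the case of a first coefficient prime to everything, and `(x₀, y₀) = (d, 0)` -/
theorem exists_prime_coprime (hR : RayDegOne (QF a b c)) (hD0 : b ^ 2 - 4 * a * c ≠ 0) {M : ℤ}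
    (hM : M ≠ 0) (hcop : IsCoprime a (2 * (b ^ 2 - 4 * a * c) * M)) (ha : a ≠ 0) {d : ℤ}
    (hd : IsCoprime d (2 * (b ^ 2 - 4 * a * c) * M)) (B : ℕ) :
    ∃ p : ℕ, p.Prime ∧ B < p ∧ ∃ x y : ℤ, M ∣ x - d ∧ M ∣ y ∧
      |a * x ^ 2 + b * x * y + c * y ^ 2| = p := by
  set T : ℤ := 2 * (b ^ 2 - 4 * a * c) * M with hT
  have hT0 : T ≠ 0 := mul_ne_zero (mul_ne_zero two_ne_zero hD0) hM
  have hcop2 : IsCoprime a (2 * (b ^ 2 - 4 * a * c)) := IsCoprime.of_mul_right_left hcop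
  have hcopM : IsCoprime a M := IsCoprime.of_mul_right_right hcop
  have h𝔪 : Ideal.span {((T : ℤ) : 𝓞 (QF a b c))} ≠ ⊥ := by
    rw [Ne, Ideal.span_singleton_eq_bot]
    exact_mod_cast hT0
  have hbot : idealQ a b c ≠ ⊥ := by
    intro h
    have h1 := absNorm_idealQ' hcop2
    rw [h, Ideal.absNorm_bot] at h1
    exact ha (Int.natAbs_eq_zero.mp h1.symm)
  let A : (Ideal (𝓞 (QF a b c)))⁰ := ⟨idealQ a b c, mem_nonZeroDivisors_of_ne_zero hbot⟩
  have hA : IsCoprime (A : Ideal (𝓞 (QF a b c))) (Ideal.span {((T : ℤ) : 𝓞 (QF a b c))}) := by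
    have h1 := isCoprime_span_intCast (a := a) (b := b) (c := c) hcop
    rw [Ideal.isCoprime_iff_sup_eq] at h1 ⊢
    refine top_le_iff.mp (h1.symm.le.trans (sup_le_sup_right ?_ _))
    rw [Ideal.span_singleton_le_iff_mem]
    exact Ideal.subset_span (Set.mem_insert _ _)
  obtain ⟨J, hJ, hJP⟩ := exists_ray_rep h𝔪 hA
    (isCoprime_span_intCast (a := a) (b := b) (c := c) (hd.mul_left hcop))
  -- a prime ideal of degree one of large norm
  have hfin : {P : ClassL.Pr (QF a b c) |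
      Ideal.absNorm (P.1 : Ideal (𝓞 (QF a b c))) ≤ B}.Finite :=
    (Ideal.finite_setOfPred_absNorm_le₀ (S := 𝓞 (QF a b c)) B).preimage
      (f := fun P : ClassL.Pr (QF a b c) => P.1) Subtype.val_injective.injOn
  obtain ⟨P, ⟨hPJ, hPp⟩, hPB⟩ := ((hR _ h𝔪 J hJ).sdiff hfin).nonempty
  have hPB' : B < Ideal.absNorm (P.1 : Ideal (𝓞 (QF a b c))) := not_le.mp hPB
  obtain ⟨α, hα, hαγ⟩ := hJP P.1 hPJ
  refine ⟨_, hPp, hPB', ?_⟩
  -- the coordinates of `α`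
  obtain ⟨z, hz⟩ := Ideal.mem_span_singleton'.mp hαγ
  obtain ⟨x', y', hxy⟩ := exists_comb_mul z
  have h1 : α = ((d * a + M * x' : ℤ) : 𝓞 (QF a b c)) +
      ((M * y' : ℤ) : 𝓞 (QF a b c)) * thetaQ a b c := by
    have h2 : ((T : ℤ) : 𝓞 (QF a b c)) =
        ((2 * (b ^ 2 - 4 * a * c) : ℤ) : 𝓞 (QF a b c)) * ((M : ℤ) : 𝓞 (QF a b c)) := by
      rw [hT, Int.cast_mul]
    rw [h2] at hz
    push_cast
    push_cast at hz hxy
    linear_combination -hz + (M : 𝓞 (QF a b c)) * hxy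
  have hαA : α ∈ idealQ a b c := by
    have h2 : α ∈ (P.1 : Ideal (𝓞 (QF a b c))) * (A : Ideal (𝓞 (QF a b c))) := by
      rw [hα]
      exact Ideal.mem_span_singleton_self α
    have h3 : (P.1 : Ideal (𝓞 (QF a b c))) * (A : Ideal (𝓞 (QF a b c))) ≤
      (A : Ideal (𝓞 (QF a b c))) := Ideal.mul_le_right
    exact h3 h2
  rw [h1] at hαA
  have h2 : a ∣ d * a + M * x' := dvd_of_comb_mem hcop2 hαA
  obtain ⟨w, hw⟩ : a ∣ x' := by
    have h3 : a ∣ M * x' := (dvd_add_right (Dvd.intro_left d rfl)).mp h2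
    exact hcopM.dvd_of_dvd_mul_left h3
  have h3 : α = (((d + M * w) * a : ℤ) : 𝓞 (QF a b c)) +
      ((M * y' : ℤ) : 𝓞 (QF a b c)) * thetaQ a b c := by
    rw [h1, hw]
    push_cast
    ring
  have h4 : (Algebra.norm ℤ α).natAbs =
      Ideal.absNorm (P.1 : Ideal (𝓞 (QF a b c))) * a.natAbs := by
    rw [← Ideal.absNorm_span_singleton, ← hα, map_mul, ← absNorm_idealQ' hcop2]
  rw [h3, norm_comb, Int.natAbs_mul, mul_comm] at h4
  have h5 := Nat.eq_of_mul_eq_mul_right (Int.natAbs_pos.mpr ha) h4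
  refine ⟨d + M * w, -(M * y'), ⟨w, by ring⟩, ⟨-y', by ring⟩, ?_⟩
  rw [← h5, Int.natCast_natAbs]
  congr 1
  ring

end Order

/-! ### The general form -/

/-- the value of the form -/
def qf (a b c x y : ℤ) : ℤ := a * x ^ 2 + b * x * y + c * y ^ 2

theorem qf_congr {a b c x y x' y' n : ℤ} (hx : n ∣ x - x') (hy : n ∣ y - y') :
    n ∣ qf a b c x y - qf a b c x' y' := by
  obtain ⟨s, hs⟩ := hx
  obtain ⟨t, ht⟩ := hy
  refine ⟨a * s * (x + x') + b * (s * y + x' * t) + c * t * (y + y'), ?_⟩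
  rw [qf, qf]
  linear_combination (a * (x + x') + b * y) * hs + (b * x' + c * (y + y')) * ht

/-- a primitive form has a value prime to `q` -/
theorem exists_value_prime {a b c : ℤ} {q : ℕ}
    (h : ¬ ((q : ℤ) ∣ a ∧ (q : ℤ) ∣ b ∧ (q : ℤ) ∣ c)) : ∃ x y : ℤ, ¬ (q : ℤ) ∣ qf a b c x y := by
  by_contra hcon
  push Not at hcon
  have h1 := hcon 1 0
  have h2 := hcon 0 1
  have h3 := hcon 1 1
  simp only [qf] at h1 h2 h3
  ring_nf at h1 h2 h3
  refine h ⟨h1, ?_, h2⟩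
  have h4 : b = a + b + c - a - c := by ring
  rw [h4]
  exact dvd_sub (dvd_sub h3 h1) h2

/-- the point can be moved modulo `M` to make the value prime to a given number -/
theorem exists_value_coprime {a b c : ℤ}
    (hprim : ∀ q : ℕ, q.Prime → ¬ ((q : ℤ) ∣ a ∧ (q : ℤ) ∣ b ∧ (q : ℤ) ∣ c)) {M : ℤ}
    {x₀ y₀ : ℤ} (h : IsCoprime (qf a b c x₀ y₀) M) (n : ℕ) (hn : n ≠ 0) :
    ∃ x y : ℤ, M ∣ x - x₀ ∧ M ∣ y - y₀ ∧ IsCoprime (qf a b c x y) (n * M) := by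
  revert hn
  refine induction_on_primes (motive := fun n => n ≠ 0 → ∃ x y : ℤ, M ∣ x - x₀ ∧ M ∣ y - y₀ ∧
    IsCoprime (qf a b c x y) (n * M)) (fun h => absurd rfl h)
    (fun _ => ⟨x₀, y₀, by simp, by simp, by simpa using h⟩) (fun q n hq ih hn => ?_) n
  obtain ⟨x₁, y₁, hx, hy, hco⟩ := ih (right_ne_zero_of_mul hn)
  have hqn : (((q * n : ℕ) : ℤ)) * M = (q : ℤ) * ((n : ℤ) * M) := by push_cast; ring
  rw [hqn]
  by_cases hqM : (q : ℤ) ∣ (n : ℤ) * M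
  · exact ⟨x₁, y₁, hx, hy, (IsCoprime.of_isCoprime_of_dvd_right hco hqM).mul_right hco⟩
  · have hqp : Prime (q : ℤ) := Nat.prime_iff_prime_int.mp hq
    obtain ⟨u, v, huv⟩ : IsCoprime (q : ℤ) ((n : ℤ) * M) :=
      (Prime.coprime_iff_not_dvd hqp).mpr hqM
    obtain ⟨xq, yq, hxy⟩ := exists_value_prime (hprim q hq)
    refine ⟨x₁ + v * ((n : ℤ) * M) * (xq - x₁), y₁ + v * ((n : ℤ) * M) * (yq - y₁), ?_, ?_, ?_⟩
    · have h1 : x₁ + v * ((n : ℤ) * M) * (xq - x₁) - x₀ =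
          (x₁ - x₀) + M * (v * n * (xq - x₁)) := by ring
      rw [h1]
      exact dvd_add hx (Dvd.intro _ rfl)
    · have h1 : y₁ + v * ((n : ℤ) * M) * (yq - y₁) - y₀ =
          (y₁ - y₀) + M * (v * n * (yq - y₁)) := by ring
      rw [h1]
      exact dvd_add hy (Dvd.intro _ rfl)
    · refine IsCoprime.mul_right ?_ ?_
      · refine ((Prime.coprime_iff_not_dvd hqp).mpr fun hdvd => hxy ?_).symm
        have h1 := qf_congr (a := a) (b := b) (c := c) (n := (q : ℤ))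
          (x := x₁ + v * ((n : ℤ) * M) * (xq - x₁)) (y := y₁ + v * ((n : ℤ) * M) * (yq - y₁))
          (x' := xq) (y' := yq) ⟨u * (x₁ - xq), by linear_combination (x₁ - xq) * (-huv)⟩
          ⟨u * (y₁ - yq), by linear_combination (y₁ - yq) * (-huv)⟩
        exact (dvd_sub_right hdvd).mp h1
      · obtain ⟨w, hw⟩ := qf_congr (a := a) (b := b) (c := c) (n := (n : ℤ) * M)
          (x := x₁ + v * ((n : ℤ) * M) * (xq - x₁)) (y := y₁ + v * ((n : ℤ) * M) * (yq - y₁))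
          (x' := x₁) (y' := y₁) ⟨v * (xq - x₁), by ring⟩ ⟨v * (yq - y₁), by ring⟩
        have h1 : qf a b c (x₁ + v * ((n : ℤ) * M) * (xq - x₁))
            (y₁ + v * ((n : ℤ) * M) * (yq - y₁)) = qf a b c x₁ y₁ + ((n : ℤ) * M) * w := by
          linear_combination hw
        rw [h1]
        exact IsCoprime.add_mul_left_left hco w

/-- **Weber, Meyer**, from the prime ideals of degree one in the ray classes. -/
theorem exists_prime_form (hR : ∀ (K : Type) [Field K] [NumberField K], RayDegOne K)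
    {a b c : ℤ} (hprim : ∀ q : ℕ, q.Prime → ¬ ((q : ℤ) ∣ a ∧ (q : ℤ) ∣ b ∧ (q : ℤ) ∣ c))
    (hsq : ¬ IsSquare (b ^ 2 - 4 * a * c)) {M : ℤ} (hM : M ≠ 0) {x₀ y₀ : ℤ}
    (h : IsCoprime (qf a b c x₀ y₀) M) (B : ℕ) :
    ∃ p : ℕ, p.Prime ∧ B < p ∧ ∃ x y : ℤ, M ∣ x - x₀ ∧ M ∣ y - y₀ ∧ |qf a b c x y| = p := by
  set D : ℤ := b ^ 2 - 4 * a * c with hD
  have hD0 : D ≠ 0 := by
    intro h0
    exact hsq ⟨0, by rw [h0]; ring⟩
  -- a point whose value is prime to `2 D M`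
  obtain ⟨x₁, y₁, hx, hy, hco⟩ := exists_value_coprime hprim h (2 * D).natAbs
    (Int.natAbs_ne_zero.mpr (mul_ne_zero two_ne_zero hD0))
  have hco' : IsCoprime (qf a b c x₁ y₁) (2 * D * M) := by
    rcases Int.natAbs_eq (2 * D) with h1 | h1
    · rwa [← h1] at hco
    · rw [h1]
      have h2 : -(((2 * D).natAbs : ℕ) : ℤ) * M = -((((2 * D).natAbs : ℕ) : ℤ) * M) := by ring
      rw [h2]
      exact hco.neg_right
  set T : ℤ := 2 * D * M with hT
  -- the value is not zero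
  have hval : qf a b c x₁ y₁ ≠ 0 := by
    intro h0
    rw [h0, isCoprime_zero_left] at hco'
    have h2 : IsUnit (2 : ℤ) := by
      refine isUnit_of_dvd_unit ?_ hco'
      exact ⟨D * M, by rw [hT]; ring⟩
    rcases Int.isUnit_iff.mp h2 with h3 | h3 <;> omega
  -- the primitive vector
  obtain ⟨u, v, d, r, s, hx₁, hy₁, hdet⟩ : ∃ u v d r s : ℤ, x₁ = d * u ∧ y₁ = d * v ∧
      u * s - v * r = 1 := by
    have hne : x₁ ≠ 0 ∨ y₁ ≠ 0 := by
      by_contra hcon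
      push Not at hcon
      apply hval
      rw [qf, hcon.1, hcon.2]
      ring
    obtain ⟨u, hu⟩ := Int.gcd_dvd_left (a := x₁) (b := y₁)
    obtain ⟨v, hv⟩ := Int.gcd_dvd_right (a := x₁) (b := y₁)
    have hg : ((Int.gcd x₁ y₁ : ℕ) : ℤ) ≠ 0 := by
      rw [Ne, Int.natCast_eq_zero, Int.gcd_eq_zero_iff, not_and_or]
      exact hne
    have hbez := Int.gcd_eq_gcd_ab x₁ y₁
    refine ⟨u, v, (Int.gcd x₁ y₁ : ℕ), -Int.gcdB x₁ y₁, Int.gcdA x₁ y₁, hu, hv, ?_⟩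
    refine mul_left_cancel₀ hg ?_
    rw [mul_one]
    conv_rhs => rw [hbez]
    linear_combination (-Int.gcdA x₁ y₁) * hu - (Int.gcdB x₁ y₁) * hv
  -- the equivalent form
  set a' : ℤ := qf a b c u v with ha'
  set b' : ℤ := 2 * a * u * r + b * (u * s + v * r) + 2 * c * v * s with hb'
  set c' : ℤ := qf a b c r s with hc'
  have hdisc : b' ^ 2 - 4 * a' * c' = D := by
    have h1 : b' ^ 2 - 4 * a' * c' = D * (u * s - v * r) ^ 2 := by
      rw [hb', ha', hc', hD, qf, qf]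
      ring
    rw [h1, hdet]
    ring
  have hval2 : qf a b c x₁ y₁ = d ^ 2 * a' := by
    rw [ha', qf, qf, hx₁, hy₁]
    ring
  have ha'T : IsCoprime a' T := by
    rw [hval2] at hco'
    exact hco'.of_mul_left_right
  have hdT : IsCoprime d T := by
    rw [hval2, pow_two, mul_assoc] at hco'
    exact hco'.of_mul_left_left
  have ha'0 : a' ≠ 0 := by
    intro h0
    exact hval (by rw [hval2, h0, mul_zero])
  have : Fact (∀ r : ℚ, r ^ 2 ≠ -((a' : ℚ) * c') + -(b' : ℚ) * r) :=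
    fact_of_not_isSquare (by rw [hdisc]; exact hsq)
  obtain ⟨p, hp, hB, X, Y, hX, hY, hXY⟩ := exists_prime_coprime (a := a') (b := b') (c := c')
    (hR _) (by rw [hdisc]; exact hD0) hM (by rw [hdisc]; exact ha'T) ha'0
    (d := d) (by rw [hdisc]; exact hdT) B
  refine ⟨p, hp, hB, u * X + r * Y, v * X + s * Y, ?_, ?_, ?_⟩
  · have h1 : u * X + r * Y - x₀ = u * (X - d) + (r * Y + (x₁ - x₀)) := by rw [hx₁]; ring
    rw [h1]
    exact dvd_add (Dvd.dvd.mul_left hX _) (dvd_add (Dvd.dvd.mul_left hY _) hx)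
  · have h1 : v * X + s * Y - y₀ = v * (X - d) + (s * Y + (y₁ - y₀)) := by rw [hy₁]; ring
    rw [h1]
    exact dvd_add (Dvd.dvd.mul_left hX _) (dvd_add (Dvd.dvd.mul_left hY _) hy)
  · rw [← hXY]
    congr 1
    rw [hb', ha', hc', qf, qf, qf]
    ring

/-- **Weber, Meyer**: a primitive form of non-square discriminant represents infinitely many
primes up to sign, at points of every residue class modulo `M` where its value is prime to `M`. -/
theorem infinite_primes_form_of (hR : ∀ (K : Type) [Field K] [NumberField K], RayDegOne K)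
    {a b c : ℤ} (hprim : ∀ q : ℕ, q.Prime → ¬ ((q : ℤ) ∣ a ∧ (q : ℤ) ∣ b ∧ (q : ℤ) ∣ c))
    (hsq : ¬ IsSquare (b ^ 2 - 4 * a * c)) {M : ℤ} (hM : M ≠ 0) {x₀ y₀ : ℤ}
    (h : IsCoprime (a * x₀ ^ 2 + b * x₀ * y₀ + c * y₀ ^ 2) M) :
    {p : ℕ | p.Prime ∧ ∃ x y : ℤ, M ∣ x - x₀ ∧ M ∣ y - y₀ ∧
      |a * x ^ 2 + b * x * y + c * y ^ 2| = p}.Infinite := by
  refine Set.infinite_of_forall_exists_gt fun B => ?_
  obtain ⟨p, hp, hB, hxy⟩ := exists_prime_form hR hprim hsq hM h B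
  exact ⟨p, ⟨hp, hxy⟩, hB⟩

theorem qf_nonneg {a b c : ℤ} (ha : 0 < a) (hneg : b ^ 2 - 4 * a * c < 0) (x y : ℤ) :
    0 ≤ a * x ^ 2 + b * x * y + c * y ^ 2 := by
  have h1 : 4 * a * (a * x ^ 2 + b * x * y + c * y ^ 2) =
      (2 * a * x + b * y) ^ 2 + -(b ^ 2 - 4 * a * c) * y ^ 2 := by ring
  have h2 : 0 ≤ 4 * a * (a * x ^ 2 + b * x * y + c * y ^ 2) := by
    rw [h1]
    exact add_nonneg (sq_nonneg _) (mul_nonneg (by linarith) (sq_nonneg _))
  exact nonneg_of_mul_nonneg_right h2 (by linarith)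

/-- the positive definite case -/
theorem infinite_primes_posDef_of (hR : ∀ (K : Type) [Field K] [NumberField K], RayDegOne K)
    {a b c : ℤ} (hprim : ∀ q : ℕ, q.Prime → ¬ ((q : ℤ) ∣ a ∧ (q : ℤ) ∣ b ∧ (q : ℤ) ∣ c))
    (ha : 0 < a) (hneg : b ^ 2 - 4 * a * c < 0) {M : ℤ} (hM : M ≠ 0) {x₀ y₀ : ℤ}
    (h : IsCoprime (a * x₀ ^ 2 + b * x₀ * y₀ + c * y₀ ^ 2) M) :
    {p : ℕ | p.Prime ∧ ∃ x y : ℤ, M ∣ x - x₀ ∧ M ∣ y - y₀ ∧
      a * x ^ 2 + b * x * y + c * y ^ 2 = p}.Infinite := by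
  have hsq : ¬ IsSquare (b ^ 2 - 4 * a * c) := by
    rintro ⟨t, ht⟩
    have := mul_self_nonneg t
    linarith
  refine (infinite_primes_form_of hR hprim hsq hM h).mono ?_
  rintro p ⟨hp, x, y, hx, hy, hxy⟩
  exact ⟨hp, x, y, hx, hy, by rw [← hxy, abs_of_nonneg (qf_nonneg ha hneg x y)]⟩

end Fermat.Agent.Cor.Ray
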