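import Fermat.Agent.Corollaries.Ray.Final
import Fermat.Agent.Corollaries.Ray.Forms
import Fermat.Agent.Corollaries.ZetaK.ClassDensity

/-!
# Primes represented by binary quadratic forms of arbitrary discriminant: the theorems

* `prime_ideal_theorem_ray_deg_one`: natural density of the prime ideals of residue degree one in
  a ray class.
* `infinite_primes_form`: a primitive form of non-square discriminant represents infinitely many
  primes up to sign, even with `(x, y)` in a prescribed residue class modulo `M` where the value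
  is prime to `M`; `infinite_primes_posDef_form` without signs.
* `infinite_primes_form_modEq`: the primes represented by a positive definite primitive form in an
  arithmetic progression (Meyer).
* `infinite_primes_sq_add_mul`: infinitely many primes `x² + n y²`, for every `n ≥ 1`.
-/

set_option autoImplicit false

noncomputable section

open NumberField nonZeroDivisors Filter Topology Module

namespace Fermat.Agent.Cor.Ray

open Fermat.Agent.ClassL

universe u

variable {K : Type u} [Field K] [NumberField K] {𝔪 : Ideal (𝓞 K)}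

open scoped Classical in
/-- **The prime ideal theorem for the prime ideals of residue degree one in a ray class.** -/
theorem prime_ideal_theorem_ray_deg_one (h𝔪 : 𝔪 ≠ ⊥) {J : (Ideal (𝓞 K))⁰}
    (hJ : IsCoprime (J : Ideal (𝓞 K)) 𝔪) :
    Tendsto (fun x : ℕ => (((prLe K x).filter fun P => RayEq 𝔪 P.1 J ∧
        (Ideal.absNorm (P.1 : Ideal (𝓞 K))).Prime).card : ℝ) * Real.log x / x) atTop
      (𝓝 (1 / (rayNumber 𝔪 : ℝ))) := by
  refine qd_tendsto_of_bounded (A := finrank ℚ K) (B := finrank ℚ K) (fun x => ?_)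
    (prime_ideal_theorem_ray h𝔪 hJ)
  have h1 : Nat.card {P : Pr K // Ideal.absNorm ((P.1 : (Ideal (𝓞 K))⁰) : Ideal (𝓞 K)) ≤ x ∧
      RayEq 𝔪 P.1 J} = ((prLe K x).filter fun P => RayEq 𝔪 P.1 J).card := by
    rw [Nat.subtype_card]
    intro P
    rw [Finset.mem_filter, mem_prLe]
  rw [h1]
  have h2 := Finset.card_filter_add_card_filter_not (s := (prLe K x).filter fun P =>
    RayEq 𝔪 P.1 J) (fun P => (Ideal.absNorm (P.1 : Ideal (𝓞 K))).Prime)
  rw [Finset.filter_filter, Finset.filter_filter] at h2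
  have h3 : ((prLe K x).filter fun P => RayEq 𝔪 P.1 J ∧
      ¬ (Ideal.absNorm (P.1 : Ideal (𝓞 K))).Prime).card ≤ finrank ℚ K * (Nat.sqrt x + 1) := by
    refine (Finset.card_le_card fun P hP => ?_).trans (card_deg_two_le x)
    rw [Finset.mem_filter] at hP ⊢
    exact ⟨hP.1, hP.2.2⟩
  rw [← h2, Nat.cast_add, add_sub_cancel_left, Nat.abs_cast]
  have h4 : (((prLe K x).filter fun P => RayEq 𝔪 P.1 J ∧
      ¬ (Ideal.absNorm (P.1 : Ideal (𝓞 K))).Prime).card : ℝ) ≤
      (finrank ℚ K * (Nat.sqrt x + 1) : ℕ) := by exact_mod_cast h3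
  refine h4.trans (le_of_eq ?_)
  push_cast
  ring

/-- **Every ray class contains infinitely many prime ideals of residue degree one.** -/
theorem rayDegOne (K : Type u) [Field K] [NumberField K] : RayDegOne K := by
  classical
  intro 𝔪 h𝔪 J hJ hfin
  have h1 := prime_ideal_theorem_ray_deg_one h𝔪 hJ
  have h2 : Tendsto (fun _ : ℕ => (0 : ℝ)) atTop (𝓝 (1 / (rayNumber 𝔪 : ℝ))) := by
    have h3 : ∀ x : ℕ, |(((prLe K x).filter fun P => RayEq 𝔪 P.1 J ∧
        (Ideal.absNorm (P.1 : Ideal (𝓞 K))).Prime).card : ℝ) - 0| ≤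
        0 * Nat.sqrt x + hfin.toFinset.card := by
      intro x
      rw [sub_zero, Nat.abs_cast, zero_mul, zero_add]
      have h4 : ((prLe K x).filter fun P => RayEq 𝔪 P.1 J ∧
          (Ideal.absNorm (P.1 : Ideal (𝓞 K))).Prime) ⊆ hfin.toFinset := by
        intro P hP
        rw [Set.Finite.mem_toFinset]
        exact (Finset.mem_filter.mp hP).2
      exact_mod_cast Finset.card_le_card h4
    have h5 := qd_tendsto_of_bounded (g := fun _ => 0) h3 h1
    refine h5.congr fun x => ?_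
    rw [zero_mul, zero_div]
  have h3 := tendsto_nhds_unique h2 tendsto_const_nhds
  have h4 : (rayNumber 𝔪 : ℝ) ≠ 0 := by exact_mod_cast rayNumber_ne_zero h𝔪
  exact one_div_ne_zero h4 h3

/-! ### Forms -/

/-- **Weber, Meyer**: let `a x² + b x y + c y²` be a primitive binary quadratic form whose
discriminant is not a square. If its value at `(x₀, y₀)` is prime to `M ≠ 0`, then it represents
up to sign infinitely many primes at points `(x, y) ≡ (x₀, y₀)` modulo `M`. -/
theorem infinite_primes_form {a b c : ℤ}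
    (hprim : ∀ q : ℕ, q.Prime → ¬ ((q : ℤ) ∣ a ∧ (q : ℤ) ∣ b ∧ (q : ℤ) ∣ c))
    (hsq : ¬ IsSquare (b ^ 2 - 4 * a * c)) {M : ℤ} (hM : M ≠ 0) {x₀ y₀ : ℤ}
    (h : IsCoprime (a * x₀ ^ 2 + b * x₀ * y₀ + c * y₀ ^ 2) M) :
    {p : ℕ | p.Prime ∧ ∃ x y : ℤ, M ∣ x - x₀ ∧ M ∣ y - y₀ ∧
      |a * x ^ 2 + b * x * y + c * y ^ 2| = p}.Infinite :=
  infinite_primes_form_of (fun K _ _ => rayDegOne K) hprim hsq hM h

/-- **Weber, Meyer**, the positive definite case. -/
theorem infinite_primes_posDef_form {a b c : ℤ}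
    (hprim : ∀ q : ℕ, q.Prime → ¬ ((q : ℤ) ∣ a ∧ (q : ℤ) ∣ b ∧ (q : ℤ) ∣ c))
    (ha : 0 < a) (hneg : b ^ 2 - 4 * a * c < 0) {M : ℤ} (hM : M ≠ 0) {x₀ y₀ : ℤ}
    (h : IsCoprime (a * x₀ ^ 2 + b * x₀ * y₀ + c * y₀ ^ 2) M) :
    {p : ℕ | p.Prime ∧ ∃ x y : ℤ, M ∣ x - x₀ ∧ M ∣ y - y₀ ∧
      a * x ^ 2 + b * x * y + c * y ^ 2 = p}.Infinite :=
  infinite_primes_posDef_of (fun K _ _ => rayDegOne K) hprim ha hneg hM h

/-- **Weber 1882: every primitive positive definite binary quadratic form represents infinitely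
many primes.** -/
theorem infinite_primes_of_prim {a b c : ℤ}
    (hprim : ∀ q : ℕ, q.Prime → ¬ ((q : ℤ) ∣ a ∧ (q : ℤ) ∣ b ∧ (q : ℤ) ∣ c))
    (ha : 0 < a) (hneg : b ^ 2 - 4 * a * c < 0) :
    {p : ℕ | p.Prime ∧ ∃ x y : ℤ, a * x ^ 2 + b * x * y + c * y ^ 2 = p}.Infinite := by
  refine (infinite_primes_posDef_form hprim ha hneg one_ne_zero (x₀ := 0) (y₀ := 0)
    isCoprime_one_right).mono ?_
  rintro p ⟨hp, x, y, -, -, hxy⟩
  exact ⟨hp, x, y, hxy⟩

/-- **Meyer 1888**: the primes of an arithmetic progression which are represented by a primitive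
positive definite binary quadratic form: there are infinitely many as soon as the progression
contains a value of the form (prime to the modulus). -/
theorem infinite_primes_form_modEq {a b c : ℤ}
    (hprim : ∀ q : ℕ, q.Prime → ¬ ((q : ℤ) ∣ a ∧ (q : ℤ) ∣ b ∧ (q : ℤ) ∣ c))
    (ha : 0 < a) (hneg : b ^ 2 - 4 * a * c < 0) {M : ℤ} (hM : M ≠ 0) {r : ℤ}
    (hr : IsCoprime r M) {x₀ y₀ : ℤ}
    (h : a * x₀ ^ 2 + b * x₀ * y₀ + c * y₀ ^ 2 ≡ r [ZMOD M]) :
    {p : ℕ | p.Prime ∧ (p : ℤ) ≡ r [ZMOD M] ∧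
      ∃ x y : ℤ, a * x ^ 2 + b * x * y + c * y ^ 2 = p}.Infinite := by
  have h0 : IsCoprime (a * x₀ ^ 2 + b * x₀ * y₀ + c * y₀ ^ 2) M := by
    obtain ⟨w, hw⟩ := h.symm.dvd
    have h1 : a * x₀ ^ 2 + b * x₀ * y₀ + c * y₀ ^ 2 = r + M * w := by linear_combination hw
    rw [h1]
    exact IsCoprime.add_mul_left_left hr w
  refine (infinite_primes_posDef_form hprim ha hneg hM h0).mono ?_
  rintro p ⟨hp, x, y, hx, hy, hxy⟩
  refine ⟨hp, ?_, x, y, hxy⟩
  refine Int.ModEq.trans ?_ h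
  rw [← hxy]
  exact ((Int.modEq_iff_dvd.mpr (qf_congr (a := a) (b := b) (c := c) hx hy)).symm)

/-- **For every `n ≥ 1` infinitely many primes are of the form `x² + n y²`.** -/
theorem infinite_primes_sq_add_mul {n : ℕ} (hn : 0 < n) :
    {p : ℕ | p.Prime ∧ ∃ x y : ℕ, p = x ^ 2 + n * y ^ 2}.Infinite := by
  refine (infinite_primes_of_prim (a := 1) (b := 0) (c := n) ?_ one_pos (by
    have : (0 : ℤ) < n := by exact_mod_cast hn
    linarith)).mono ?_
  · rintro q hq ⟨h1, -, -⟩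
    have h2 : q ∣ 1 := by exact_mod_cast h1
    exact hq.one_lt.ne' (Nat.dvd_one.mp h2)
  · rintro p ⟨hp, x, y, hxy⟩
    refine ⟨hp, x.natAbs, y.natAbs, ?_⟩
    have h1 : (p : ℤ) = (x.natAbs : ℤ) ^ 2 + (n : ℤ) * (y.natAbs : ℤ) ^ 2 := by
      rw [Int.natAbs_sq, Int.natAbs_sq, ← hxy]
      ring
    exact_mod_cast h1

end Fermat.Agent.Cor.Ray
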