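import Fermat.Agent.Corollaries.Ray.Defs

/-!
# Ideals prime to the modulus
-/

set_option autoImplicit false
set_option linter.unusedSectionVars false

noncomputable section

namespace Fermat.Agent.Cor.Ray

open NumberField
open scoped nonZeroDivisors

universe u

variable {K : Type u} [Field K] [NumberField K] {m : Ideal (𝓞 K)}

theorem isCoprime_span_iff {x : 𝓞 K} : IsCoprime (Ideal.span {x}) m ↔ ∃ b : 𝓞 K, b * x - 1 ∈ m := by
  rw [Ideal.isCoprime_iff_exists]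
  constructor
  · rintro ⟨i, hi, j, hj, hij⟩
    obtain ⟨b, rfl⟩ := Ideal.mem_span_singleton'.mp hi
    exact ⟨b, by
      have : b * x - 1 = -j := by linear_combination hij
      rw [this]; exact m.neg_mem hj⟩
  · rintro ⟨b, hb⟩
    exact ⟨b * x, Ideal.mem_span_singleton'.mpr ⟨b, rfl⟩, -(b * x - 1), m.neg_mem hb, by ring⟩

/-- every class contains an ideal prime to a given one -/
theorem exists_coprime_mk0 (C : ClassGroup (𝓞 K)) (hm : m ≠ ⊥) :
    ∃ M : (Ideal (𝓞 K))⁰, ClassGroup.mk0 M = C ∧ IsCoprime (M : Ideal (𝓞 K)) m := by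
  obtain ⟨I, hIC⟩ := ClassGroup.mk0_surjective C⁻¹
  have hI : (I : Ideal (𝓞 K)) ≠ 0 := nonZeroDivisors.coe_ne_zero I
  obtain ⟨a, ha⟩ := IsDedekindDomain.exists_sup_span_eq (I := (I : Ideal (𝓞 K)) * m)
    (J := (I : Ideal (𝓞 K))) Ideal.mul_le_left (mul_ne_zero hI hm)
  have haI : a ∈ (I : Ideal (𝓞 K)) := by
    rw [← ha]; exact Ideal.mem_sup_right (Ideal.mem_span_singleton_self a)
  by_cases ha0 : a = 0
  · -- then `m = ⊤`
    subst ha0
    rw [Ideal.span_singleton_eq_bot.2 rfl, sup_bot_eq] at ha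
    have h1 : m = ⊤ := by
      have : (I : Ideal (𝓞 K)) * m = I * ⊤ := by rw [ha, Ideal.mul_top]
      exact mul_left_cancel₀ hI this
    obtain ⟨M, hMC⟩ := ClassGroup.mk0_surjective C
    refine ⟨M, hMC, ?_⟩
    rw [h1, Ideal.isCoprime_iff_sup_eq, sup_top_eq]
  · obtain ⟨M, hM⟩ := Ideal.dvd_iff_le.2 ((Ideal.span_singleton_le_iff_mem _).2 haI)
    have hsp : Ideal.span {a} ≠ ⊥ := by rwa [Ne, Ideal.span_singleton_eq_bot]
    have hM0 : M ≠ ⊥ := by
      rintro rfl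
      apply hsp
      rw [hM, Ideal.mul_bot]
    let M' : (Ideal (𝓞 K))⁰ := ⟨M, mem_nonZeroDivisors_of_ne_zero hM0⟩
    refine ⟨M', ?_, ?_⟩
    · have h1 : ClassGroup.mk0 (I * M') = 1 := by
        rw [ClassGroup.mk0_eq_one_iff (SetLike.coe_mem (I * M'))]
        change Submodule.IsPrincipal ((I : Ideal (𝓞 K)) * M)
        rw [← hM]
        exact ⟨⟨a, rfl⟩⟩
      rw [map_mul, hIC, inv_mul_eq_one] at h1
      exact h1.symm
    · rw [hM, ← Ideal.add_eq_sup, ← mul_add] at ha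
      have h2 : (I : Ideal (𝓞 K)) * (m + M) = I * ⊤ := by rw [ha, Ideal.mul_top]
      have h3 := mul_left_cancel₀ hI h2
      rw [Ideal.isCoprime_iff_sup_eq]
      change M ⊔ m = ⊤
      rw [sup_comm, ← Ideal.add_eq_sup]
      exact h3

/-- a principal product with an ideal prime to `m` -/
theorem exists_mul_eq_span {m : Ideal (𝓞 K)} (hm : m ≠ ⊥) {I : (Ideal (𝓞 K))⁰}
    (hI : IsCoprime (I : Ideal (𝓞 K)) m) : ∃ (J : (Ideal (𝓞 K))⁰) (a : 𝓞 K), a ≠ 0 ∧
      IsCoprime (J : Ideal (𝓞 K)) m ∧ IsCoprime (Ideal.span {a}) m ∧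
        (I : Ideal (𝓞 K)) * (J : Ideal (𝓞 K)) = Ideal.span {a} := by
  obtain ⟨J, hJC, hJ⟩ := exists_coprime_mk0 (m := m) (ClassGroup.mk0 I)⁻¹ hm
  have h1 : ClassGroup.mk0 (I * J) = 1 := by rw [map_mul, hJC, mul_inv_cancel]
  rw [ClassGroup.mk0_eq_one_iff (SetLike.coe_mem (I * J))] at h1
  obtain ⟨x, hx⟩ := h1.principal
  have hx' : ((I * J : (Ideal (𝓞 K))⁰) : Ideal (𝓞 K)) = Ideal.span {x} := hx
  have hx0 : x ≠ 0 := by
    rintro rfl
    rw [Ideal.span_singleton_eq_bot.mpr rfl] at hx'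
    exact nonZeroDivisors.coe_ne_zero (I * J) hx'
  refine ⟨J, x, hx0, hJ, ?_, hx'⟩
  rw [← hx', Submonoid.coe_mul]
  exact IsCoprime.mul_left hI hJ

end Fermat.Agent.Cor.Ray
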