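import Fermat.Agent.Corollaries.Ray.ClassNum

/-!
# Ambiguous classes of binary quadratic forms

A reduced form is properly equivalent to its opposite if and only if `b = 0`, `b = a` or `a = c`
(Gauss). Finiteness of the class number.
-/

set_option autoImplicit false

namespace Fermat.Agent.Cor.Ray

namespace BForm

/-- **A reduced form is properly equivalent to its opposite iff `b = 0`, `b = a` or `a = c`.** -/
theorem Red.eqv_op_iff {f : BForm} (ha : 0 < f.a) (h : f.Red) :
    f.Eqv f.op ↔ f.b = 0 ∨ f.b = f.a ∨ f.a = f.c := by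
  constructor
  · intro he
    by_contra hn
    push Not at hn
    obtain ⟨h0, h1, h2⟩ := hn
    have h3 := abs_le.mp h.1
    have h4 : f.b ≠ -f.a := by
      intro hb
      have h5 := h.2.2 (Or.inl (by rw [hb, abs_neg, abs_of_pos ha]))
      omega
    have hred : f.op.Red := by
      refine ⟨?_, h.2.1, fun h5 => ?_⟩
      · show |(-f.b)| ≤ f.a
        rw [abs_neg]
        exact h.1
      · exfalso
        rcases h5 with h5 | h5
        · have h6 : |(-f.b)| = f.a := h5
          rw [abs_neg] at h6
          rcases abs_eq ha.le |>.mp h6 with h7 | h7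
          · exact h1 h7
          · exact h4 h7
        · exact h2 h5
    have h6 := congrArg BForm.b (h.eq_of_eqv ha hred he)
    have h7 : f.b = -f.b := h6
    exact h0 (by omega)
  · rintro (h0 | h0 | h0)
    · have h1 : f.op = f := BForm.ext rfl (by show -f.b = f.b; omega) rfl
      rw [h1]
      exact Eqv.refl f
    · refine ⟨1, -1, 0, 1, by ring, ?_⟩
      ext <;> simp only [subst, val, BForm.op] <;> rw [h0] <;> ring
    · refine ⟨0, -1, 1, 0, by ring, ?_⟩
      ext <;> simp only [subst, val, BForm.op]
      · rw [h0]; ring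
      · ring
      · rw [h0]; ring

/-- There are only finitely many reduced forms of given negative discriminant. -/
instance finite_rForm (n : ℕ) : Finite (RForm (-(n : ℤ))) := by
  have hA : n < 3 * (n + 1) ^ 2 := by nlinarith
  by_contra hinf
  rw [not_finite_iff_infinite] at hinf
  classical
  -- an injection into a finite set
  let g : RForm (-(n : ℤ)) → Set.Icc (-(n : ℤ)) n × Set.Icc (-(n : ℤ)) n := fun f =>
    (⟨f.1.1.a, by
      have h1 := f.2.three_mul_sq_le
      rw [f.1.2.2.1, neg_neg] at h1
      have h2 := f.1.2.2.2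
      constructor <;> nlinarith⟩, ⟨f.1.1.b, by
      have h1 := f.2.three_mul_sq_le
      rw [f.1.2.2.1, neg_neg] at h1
      have h2 := f.1.2.2.2
      have h3 := abs_le.mp f.2.1
      constructor <;> nlinarith⟩)
  have hg : Function.Injective g := by
    intro f f' h
    have h1 : f.1.1.a = f'.1.1.a := congrArg (fun z => (z.1 : ℤ)) h
    have h2 : f.1.1.b = f'.1.1.b := congrArg (fun z => (z.2 : ℤ)) h
    refine Subtype.ext (Subtype.ext (BForm.ext h1 h2 ?_))
    have h3 := f.1.2.2.1.trans f'.1.2.2.1.symm
    simp only [disc] at h3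
    rw [h1, h2] at h3
    have h4 : (4 * f'.1.1.a) * (f.1.1.c - f'.1.1.c) = 0 := by linear_combination -h3
    have h5 := f'.1.2.2.2
    rcases mul_eq_zero.mp h4 with h6 | h6
    · omega
    · omega
  exact not_finite_iff_infinite.mpr hinf (Finite.of_injective g hg)

theorem finite_classes {D : ℤ} (hD : D < 0) : Finite (Quotient (setoid D)) := by
  obtain ⟨n, rfl⟩ : ∃ n : ℕ, D = -(n : ℤ) := ⟨(-D).toNat, by omega⟩
  exact Finite.of_equiv _ (quotientEquiv hD)

/-- The principal form of discriminant `D`, `D ≡ 0` or `1` modulo `4`. -/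
def principal (D : ℤ) : BForm := ⟨1, D % 4, ((D % 4) ^ 2 - D) / 4⟩

theorem disc_principal {D : ℤ} (h : D % 4 = 0 ∨ D % 4 = 1) : (principal D).disc = D := by
  simp only [principal, disc]
  rcases h with h | h
  · rw [h]
    omega
  · rw [h]
    omega

theorem prim_principal (D : ℤ) : (principal D).Prim := by
  rintro q hq ⟨h, -, -⟩
  have h0 : (q : ℤ) ∣ ((1 : ℕ) : ℤ) := by rw [Nat.cast_one]; exact h
  have h1 : q ∣ 1 := Int.natCast_dvd_natCast.mp h0
  exact hq.one_lt.ne' (Nat.dvd_one.mp h1)

/-- The class number of a negative discriminant is positive. -/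
theorem hForm_pos {D : ℤ} (hD : D < 0) (h : D % 4 = 0 ∨ D % 4 = 1) : 0 < hForm D := by
  have := finite_classes hD
  have : Nonempty (Quotient (setoid D)) :=
    ⟨Quotient.mk _ ⟨principal D, prim_principal D, disc_principal h, one_pos⟩⟩
  exact Nat.card_pos

/-- There are no forms of discriminant `2` or `3` modulo `4`. -/
theorem hForm_eq_zero {D : ℤ} (h : D % 4 = 2 ∨ D % 4 = 3) : hForm D = 0 := by
  have : IsEmpty (Quotient (setoid D)) := by
    refine ⟨fun x => ?_⟩
    obtain ⟨f, rfl⟩ := Quotient.exists_rep x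
    obtain ⟨⟨a, b, c⟩, -, h1, -⟩ := f
    have h1' : b ^ 2 - 4 * a * c = D := h1
    rcases Int.even_or_odd' b with ⟨k, hk | hk⟩
    · have h2 : D = 4 * (k ^ 2 - a * c) := by rw [← h1', hk]; ring
      omega
    · have h2 : D = 4 * (k ^ 2 + k - a * c) + 1 := by rw [← h1', hk]; ring
      omega
  rw [hForm, Nat.card_eq_zero]
  exact Or.inl this

end BForm

end Fermat.Agent.Cor.Ray
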