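import Fermat.Agent.Classic.Zeta.Defs

/-!
# `L`-functions of ray class characters: weighted theta functions, statements of the pieces

`K` a number field, `φ : K → ℂ` a *weight*: supported in a fractional ideal `𝔟`, periodic modulo
`𝔠 ⊆ 𝔟`, invariant under units.
-/

set_option autoImplicit false

noncomputable section

namespace Fermat.Agent.Cor.Ray

open NumberField NumberField.InfinitePlace NumberField.Units MeasureTheory Set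
open NumberField.Units.dirichletUnitTheorem
open Fermat.Agent.Classic.Zeta
open scoped nonZeroDivisors Classical Real

universe u

variable {K : Type u} [Field K] [NumberField K]

/-! ### Weights -/

/-- a weight: a Schwartz function on the finite adeles restricted to `K`, invariant under units -/
structure IsWt (𝔟 𝔠 : FractionalIdeal (𝓞 K)⁰ K) (φ : K → ℂ) : Prop where
  hb : 𝔟 ≠ 0
  hc : 𝔠 ≠ 0
  le : 𝔠 ≤ 𝔟
  supp : ∀ x, x ∉ 𝔟 → φ x = 0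
  per : ∀ x, ∀ c ∈ 𝔠, φ (x + c) = φ x
  unit : ∀ (v : (𝓞 K)ˣ) (x : K), φ (((v : 𝓞 K) : K) * x) = φ x
  bdd : ∃ M : ℝ, ∀ x, ‖φ x‖ ≤ M

/-- a finite set of representatives of `𝔟 / 𝔠` -/
structure IsReps (𝔟 𝔠 : FractionalIdeal (𝓞 K)⁰ K) (R : Finset K) : Prop where
  mem : ∀ r ∈ R, r ∈ 𝔟
  ex : ∀ x ∈ 𝔟, ∃! r, r ∈ R ∧ x - r ∈ 𝔠

/-- the weighted theta function (`x = 0` included) -/
def Θw (φ : K → ℂ) (t : InfinitePlace K → ℝ) : ℂ := ∑' x : K, φ x * (E t x : ℂ)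

/-- the weighted theta function integrated over the torus -/
def Fw (β : logSpace K → ℝ) (φ : K → ℂ) (x : ℝ) : ℂ := ∫ y, Θw φ (tt x y) * (β y : ℂ)

/-- `(φ, φ')` is a pair of weights with theta inversion. -/
def IsInv (𝔠 : FractionalIdeal (𝓞 K)⁰ K) (φ φ' : K → ℂ) : Prop :=
  ∀ t : InfinitePlace K → ℝ, (∀ w, 0 < t w) →
    Θw φ t = (((√|(discr K : ℝ)| * nF 𝔠 * ∏ w : InfinitePlace K, t w ^ ((w.mult : ℝ) / 2))⁻¹ : ℝ) :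
      ℂ) * Θw φ' (fun w => (t w)⁻¹)

/-! ### The analytic pieces -/

/-- (A) ThetaW.lean: theta inversion with weights -/
def ThetaWStmt (K : Type u) [Field K] [NumberField K] : Prop :=
  ∀ (𝔟 𝔠 : FractionalIdeal (𝓞 K)⁰ K) (φ : K → ℂ), IsWt 𝔟 𝔠 φ →
    (∃ R : Finset K, IsReps 𝔟 𝔠 R) ∧ ∃ φ' : K → ℂ, IsWt (dualF 𝔠) (dualF 𝔟) φ' ∧ IsInv 𝔠 φ φ' ∧
      ∀ R : Finset K, IsReps 𝔟 𝔠 R → φ' 0 = ∑ r ∈ R, φ r

/-- (B) UnfoldW.lean: unfolding, pointwise in `x` -/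
def UnfoldWStmt (K : Type u) [Field K] [NumberField K] : Prop :=
  ∀ β : logSpace K → ℝ, IsBeta β → ∀ (𝔟 𝔠 : FractionalIdeal (𝓞 K)⁰ K) (φ : K → ℂ), IsWt 𝔟 𝔠 φ →
    ∀ (ι : Type u) (g : ι → K), IsGen 𝔟 g → ∀ x : ℝ, 0 < x →
      HasSum (fun i => φ (g i) * ((∫ y : logSpace K, E (tt x y) (g i) : ℝ) : ℂ))
        (Fw β φ x - φ 0 * (B β : ℂ))

/-- (B') TorusW.lean: the functional equation of the integrated theta function -/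
def TorusWStmt (K : Type u) [Field K] [NumberField K] : Prop :=
  ∀ β : logSpace K → ℝ, IsBeta β → ∀ (𝔟 𝔠 : FractionalIdeal (𝓞 K)⁰ K) (φ φ' : K → ℂ),
    IsWt 𝔟 𝔠 φ → IsWt (dualF 𝔠) (dualF 𝔟) φ' → IsInv 𝔠 φ φ' → ∀ x : ℝ, 0 < x →
      Fw β φ x⁻¹ = ((√|(discr K : ℝ)| * nF 𝔠 : ℝ) : ℂ)⁻¹ * (x : ℂ) ^ (Module.finrank ℚ K) *
        Fw β φ' x

/-- (C) DecayW.lean -/
def DecayWStmt (K : Type u) [Field K] [NumberField K] : Prop :=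
  ∀ β : logSpace K → ℝ, IsBeta β → ∀ (𝔟 𝔠 : FractionalIdeal (𝓞 K)⁰ K) (φ : K → ℂ), IsWt 𝔟 𝔠 φ →
    LocallyIntegrableOn (Fw β φ) (Ioi 0) ∧
    ∀ r : ℝ, (fun x : ℝ => Fw β φ x - φ 0 * (B β : ℂ)) =O[Filter.atTop] (fun x : ℝ => x ^ r)

/-- (D) MellinW.lean -/
def MellinWStmt (K : Type u) [Field K] [NumberField K] : Prop :=
  ∃ c : ℝ, 0 < c ∧ ∀ β : logSpace K → ℝ, IsBeta β →
    ∀ (𝔟 𝔠 : FractionalIdeal (𝓞 K)⁰ K) (φ : K → ℂ), IsWt 𝔟 𝔠 φ →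
      ∀ (ι : Type u) (g : ι → K), IsGen 𝔟 g → ∀ s : ℂ, 1 < s.re →
        Summable (fun i => φ (g i) * (((|Algebra.norm ℚ (g i)| : ℚ) : ℂ)) ^ (-s)) ∧
        mellin (fun x : ℝ => Fw β φ x - φ 0 * (B β : ℂ)) ((Module.finrank ℚ K : ℂ) * s) =
          c * gam K s * ∑' i, φ (g i) * (((|Algebra.norm ℚ (g i)| : ℚ) : ℂ)) ^ (-s)

/-- (E) PoleW.lean: **the output of the analytic part**: continuation with the only possible pole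
at `1`, and its coefficient. -/
def PoleStmt (K : Type u) [Field K] [NumberField K] : Prop :=
  ∃ κ : ℂ, ∀ (𝔟 𝔠 : FractionalIdeal (𝓞 K)⁰ K) (φ : K → ℂ), IsWt 𝔟 𝔠 φ →
    ∃ A : ℂ → ℂ, Differentiable ℂ A ∧ ∀ R : Finset K, IsReps 𝔟 𝔠 R →
      ∀ (ι : Type u) (g : ι → K), IsGen 𝔟 g → ∀ s : ℂ, 1 < s.re →
        ∑' i, φ (g i) * (((|Algebra.norm ℚ (g i)| : ℚ) : ℂ)) ^ (-s) =
          A s + κ * (∑ r ∈ R, φ r) / (nF 𝔠 : ℂ) * (gam K s)⁻¹ / (s - 1)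

/-! ### Ray class characters -/

/-- Ray class characters modulo `𝔪` (no condition at the real places), as functions on the
nonzero integral ideals, extended by zero. -/
structure RayChar (𝔪 : Ideal (𝓞 K)) (ψ : (Ideal (𝓞 K))⁰ →* ℂ) : Prop where
  norm_le : ∀ I, ‖ψ I‖ ≤ 1
  eq_zero : ∀ I : (Ideal (𝓞 K))⁰, ¬ IsCoprime (I : Ideal (𝓞 K)) 𝔪 → ψ I = 0
  cong : ∀ (I : (Ideal (𝓞 K))⁰) (a : 𝓞 K), (I : Ideal (𝓞 K)) = Ideal.span {a} → a - 1 ∈ 𝔪 → ψ I = 1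

/-- the `L`-series -/
def Ls (ψ : (Ideal (𝓞 K))⁰ →* ℂ) (s : ℂ) : ℂ :=
  ∑' I : (Ideal (𝓞 K))⁰, ψ I * (Ideal.absNorm (I : Ideal (𝓞 K)) : ℂ) ^ (-s)

/-- (F) **helper51**, Entire.lean: the `L`-function of a non-trivial ray class character is entire -/
def EntireStmt (K : Type u) [Field K] [NumberField K] : Prop :=
  ∀ (𝔪 : Ideal (𝓞 K)), 𝔪 ≠ ⊥ → ∀ (ψ : (Ideal (𝓞 K))⁰ →* ℂ), RayChar 𝔪 ψ →
    (∃ I : (Ideal (𝓞 K))⁰, IsCoprime (I : Ideal (𝓞 K)) 𝔪 ∧ ψ I ≠ 1) →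
      ∃ L : ℂ → ℂ, Differentiable ℂ L ∧ ∀ s : ℂ, 1 < s.re → L s = Ls ψ s

/-- (G) NonVan.lean -/
def NonVanStmt (K : Type u) [Field K] [NumberField K] : Prop :=
  ∀ (𝔪 : Ideal (𝓞 K)), 𝔪 ≠ ⊥ → ∀ (ψ : (Ideal (𝓞 K))⁰ →* ℂ), RayChar 𝔪 ψ →
    (∃ I : (Ideal (𝓞 K))⁰, IsCoprime (I : Ideal (𝓞 K)) 𝔪 ∧ ψ I ≠ 1) →
      ∃ L : ℂ → ℂ, Differentiable ℂ L ∧ (∀ s : ℂ, 1 < s.re → L s = Ls ψ s) ∧
        ∀ s : ℂ, 1 ≤ s.re → L s ≠ 0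

/-! ### Ray classes -/

/-- equivalence of integral ideals prime to `𝔪` modulo `𝔪` -/
def RayEq (𝔪 : Ideal (𝓞 K)) (I J : (Ideal (𝓞 K))⁰) : Prop :=
  ∃ a b : 𝓞 K, a ≠ 0 ∧ b ≠ 0 ∧ IsCoprime (Ideal.span {a}) 𝔪 ∧ a - b ∈ 𝔪 ∧
    Ideal.span {a} * (I : Ideal (𝓞 K)) = Ideal.span {b} * (J : Ideal (𝓞 K))

/-- the ideals prime to `𝔪` -/
def Cop (𝔪 : Ideal (𝓞 K)) : Submonoid (Ideal (𝓞 K))⁰ where
  carrier := {I | IsCoprime (I : Ideal (𝓞 K)) 𝔪}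
  one_mem' := isCoprime_one_left
  mul_mem' := fun h h' => IsCoprime.mul_left h h'

/-- (H1) Group.lean: the ray class group, as a finite abelian group with a surjective class map -/
def GroupStmt (K : Type u) [Field K] [NumberField K] : Prop :=
  ∀ (𝔪 : Ideal (𝓞 K)), 𝔪 ≠ ⊥ → ∃ (G : Type u) (_ : CommGroup G) (_ : Finite G)
    (cl : Cop 𝔪 →* G), Function.Surjective cl ∧ ∀ I J : Cop 𝔪, cl I = cl J ↔ RayEq 𝔪 I.1 J.1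

/-- (H2) Primes.lean: every ray class contains infinitely many prime ideals -/
def PrimesStmt (K : Type u) [Field K] [NumberField K] : Prop :=
  ∀ (𝔪 : Ideal (𝓞 K)), 𝔪 ≠ ⊥ → ∀ J : (Ideal (𝓞 K))⁰, IsCoprime (J : Ideal (𝓞 K)) 𝔪 →
    {P : (Ideal (𝓞 K))⁰ | (P : Ideal (𝓞 K)).IsPrime ∧ RayEq 𝔪 P J}.Infinite

end Fermat.Agent.Cor.Ray
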