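import Fermat.Agent.Classic.Zeta.Torus
import Fermat.Agent.Classic.Zeta.Theta
import Fermat.Agent.Classic.Zeta.Classes
import Fermat.Agent.Corollaries.Ray.Defs

/-!
# Weighted theta functions on the norm one torus: unfolding and inversion

(B) `unfoldWStmt`, (B') `torusWStmt` of `Ray/Defs`.  The absolute convergence is that of the
unweighted case (`Classic.Zeta.unfold_pt`, `lintegral_unfold`), because a weight is bounded.
-/

set_option autoImplicit false

noncomputable section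

namespace Fermat.Agent.Cor.Ray

open NumberField NumberField.InfinitePlace NumberField.Units MeasureTheory Set Real
open NumberField.Units.dirichletUnitTheorem
open Fermat.Agent.Classic.Zeta
open scoped nonZeroDivisors Classical ENNReal

universe u

variable {K : Type u} [Field K] [NumberField K]

variable (K) in
theorem sumE : SumE K := (thetaStmt K).1

theorem norm_ofReal_E (t : InfinitePlace K → ℝ) (a : K) : ‖((E t a : ℝ) : ℂ)‖ = E t a := by
  rw [Complex.norm_real, Real.norm_of_nonneg (E_pos t a).le]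

/-! ### Weighted theta functions as sums over the fractional ideal -/

section

variable {𝔟 𝔠 : FractionalIdeal (𝓞 K)⁰ K} {φ : K → ℂ}

/-- A bounded weighted sum over `𝔟` converges absolutely. -/
theorem IsWt.summable_sub (h : IsWt 𝔟 𝔠 φ) {t : InfinitePlace K → ℝ} (ht : ∀ w, 0 < t w) :
    Summable fun a : 𝔟 => φ a * (E t (a : K) : ℂ) := by
  obtain ⟨M, hM⟩ := h.bdd
  refine Summable.of_norm_bounded (g := fun a : 𝔟 => M * E t (a : K))
    ((sumE K 𝔟 t ht).mul_left M) fun a => ?_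
  rw [norm_mul, norm_ofReal_E]
  exact mul_le_mul_of_nonneg_right (hM a) (E_pos _ _).le

theorem IsWt.theta_eq (h : IsWt 𝔟 𝔠 φ) (t : InfinitePlace K → ℝ) :
    Θw φ t = ∑' a : 𝔟, φ a * (E t (a : K) : ℂ) := by
  unfold Θw
  refine (tsum_subtype_eq_of_support_subset (s := {a : K | a ∈ 𝔟}) fun a ha => ?_).symm
  by_contra h0
  refine ha ?_
  change φ a * (E t a : ℂ) = 0
  rw [h.supp a h0, zero_mul]

theorem IsWt.norm_theta_le (h : IsWt 𝔟 𝔠 φ) {M : ℝ} (hM : ∀ x, ‖φ x‖ ≤ M)
    {t : InfinitePlace K → ℝ} (ht : ∀ w, 0 < t w) : ‖Θw φ t‖ ≤ M * Θ 𝔟 t := by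
  rw [h.theta_eq t]
  unfold Θ
  rw [← tsum_mul_left]
  have h1 : Summable fun a : 𝔟 => M * E t (a : K) := (sumE K 𝔟 t ht).mul_left M
  refine tsum_of_norm_bounded h1.hasSum fun a => ?_
  rw [norm_mul, norm_ofReal_E]
  exact mul_le_mul_of_nonneg_right (hM a) (E_pos _ _).le

theorem tsum_split' {α : Type*} {f : α → ℂ} (hf : Summable f) (z : α) (p : α → Prop)
    (h : ∀ x, p x ↔ x ≠ z) : ∑' x, f x = f z + ∑' x : {x // p x}, f x := by
  have h1 : ∑' x : ({z} : Set α), f x + ∑' x : (({z} : Set α)ᶜ : Set α), f x = ∑' x, f x :=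
    Summable.tsum_add_tsum_compl (hf.subtype _) (hf.subtype _)
  have h2 : ∀ x : α, x ∈ (({z} : Set α)ᶜ : Set α) ↔ p x := by
    intro x
    rw [Set.mem_compl_singleton_iff, h]
  rw [← h1, tsum_singleton z f, ← (Equiv.subtypeEquivRight h2).tsum_eq]
  rfl

variable {ι : Type u} {g : ι → K}

/-- The weighted theta function as a sum over the generators and the units. -/
theorem IsWt.theta_tt (h : IsWt 𝔟 𝔠 φ) (hg : IsGen 𝔟 g) {x : ℝ} (hx : 0 < x) (y : logSpace K) :
    Θw φ (tt x y) = φ 0 + ∑' p : ι × (𝓞 K)ˣ, φ (g p.1) * (E (tt x (y + tr p.2)) (g p.1) : ℂ) := by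
  have hz0 : (0 : K) ∈ 𝔟 := 𝔟.1.zero_mem
  obtain ⟨z, hz⟩ : ∃ z : 𝔟, (z : K) = 0 := ⟨⟨0, hz0⟩, rfl⟩
  rw [h.theta_eq, tsum_split' (h.summable_sub (tt_pos hx y)) z (fun x : 𝔟 => (x : K) ≠ 0)
    (fun x => by rw [Ne, Ne, not_iff_not, Subtype.ext_iff, hz]), hz, E_zero, Complex.ofReal_one,
    mul_one, ← hg.equiv.tsum_eq]
  congr 1
  refine tsum_congr fun p => ?_
  rw [hg.coe_equiv, h.unit, E_mul]

/-! ### Absolute convergence -/

variable {β β' : logSpace K → ℝ}

/-- the integral of a single term -/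
def trm (β : logSpace K → ℝ) (g : ι → K) (x : ℝ) (p : ι × (𝓞 K)ˣ) : ℝ :=
  ∫ y : logSpace K, E (tt x (y + tr p.2)) (g p.1) * β y

theorem trm_aux (hβ : IsBeta β) {x : ℝ} (hx : 0 < x) (p : ι × (𝓞 K)ˣ) :
    AEStronglyMeasurable (fun y : logSpace K => E (tt x (y + tr p.2)) (g p.1) * β y) ∧
      ENNReal.ofReal (trm β g x p) =
        ∫⁻ y : logSpace K, ENNReal.ofReal (E (tt x (y + tr p.2)) (g p.1)) * ENNReal.ofReal (β y) ∧
      Integrable (fun y : logSpace K => E (tt x (y + tr p.2)) (g p.1) * β y) := by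
  have hm : AEStronglyMeasurable (fun y : logSpace K => E (tt x (y + tr p.2)) (g p.1) * β y) :=
    (((continuous_E x (g p.1)).measurable.comp (measurable_add_const (tr p.2))).mul
      hβ.meas).aestronglyMeasurable
  have h0 : ∀ y : logSpace K, 0 ≤ E (tt x (y + tr p.2)) (g p.1) * β y := fun y =>
    mul_nonneg (E_pos _ _).le (hβ.nonneg y)
  have hle : ∀ y : logSpace K, E (tt x (y + tr p.2)) (g p.1) ≤ 1 := by
    intro y
    unfold E
    rw [Real.exp_le_one_iff, neg_mul, neg_nonpos]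
    refine mul_nonneg pi_pos.le (Finset.sum_nonneg fun w _ => ?_)
    have := (tt_pos hx (y + tr p.2) w).le
    positivity
  have hi : Integrable (fun y : logSpace K => E (tt x (y + tr p.2)) (g p.1) * β y) := by
    refine Integrable.mono' (integrable_β hβ) hm (Filter.Eventually.of_forall fun y => ?_)
    rw [Real.norm_of_nonneg (h0 y)]
    exact mul_le_of_le_one_left (hβ.nonneg y) (hle y)
  refine ⟨hm, ?_, hi⟩
  unfold trm
  rw [ofReal_integral_eq_lintegral_ofReal hi (Filter.Eventually.of_forall h0)]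
  exact lintegral_congr fun y => ENNReal.ofReal_mul (E_pos _ _).le

theorem trm_nonneg (hβ : IsBeta β) (x : ℝ) (p : ι × (𝓞 K)ˣ) : 0 ≤ trm β g x p :=
  integral_nonneg fun y => mul_nonneg (E_pos _ _).le (hβ.nonneg y)

theorem lintegral_E (hβ : IsBeta β) {x : ℝ} (hx : 0 < x) (i : ι) :
    ∑' v : (𝓞 K)ˣ, ENNReal.ofReal (trm β g x (i, v)) =
      ∫⁻ y : logSpace K, ENNReal.ofReal (E (tt x y) (g i)) := by
  rw [← lintegral_unfold hβ (continuous_E x (g i)).measurable.ennreal_ofReal]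
  rw [tsum_congr fun v => (trm_aux (g := g) hβ hx (i, v)).2.1, ← lintegral_tsum]
  · exact lintegral_congr fun y => ENNReal.tsum_mul_right
  · intro v
    exact (((continuous_E x (g i)).measurable.comp
      (measurable_add_const (tr v))).ennreal_ofReal.mul hβ.meas.ennreal_ofReal).aemeasurable

theorem tsum_trm_ne_top (hβ : IsBeta β) (hg : IsGen 𝔟 g) {x : ℝ} (hx : 0 < x) :
    ∑' p : ι × (𝓞 K)ˣ, ENNReal.ofReal (trm β g x p) ≠ ∞ := by
  rw [ENNReal.tsum_prod', tsum_congr fun i => lintegral_E hβ hx i, ← unfold_pt (sumE K) hβ hg hx]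
  exact ENNReal.ofReal_ne_top

theorem summable_trm (hβ : IsBeta β) (hg : IsGen 𝔟 g) {x : ℝ} (hx : 0 < x) :
    Summable (trm β g x) := by
  have h := ENNReal.summable_toReal (tsum_trm_ne_top hβ hg hx)
  refine h.congr fun p => ?_
  rw [ENNReal.toReal_ofReal (trm_nonneg hβ x p)]

theorem hasSum_trm (hβ : IsBeta β) (hg : IsGen 𝔟 g) {x : ℝ} (hx : 0 < x) (i : ι) :
    HasSum (fun v : (𝓞 K)ˣ => trm β g x (i, v)) (∫ y : logSpace K, E (tt x y) (g i)) := by
  have h1 : ∑' v : (𝓞 K)ˣ, ENNReal.ofReal (trm β g x (i, v)) ≠ ∞ := by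
    intro h
    refine tsum_trm_ne_top hβ hg hx ?_
    rw [ENNReal.tsum_prod']
    exact ENNReal.tsum_eq_top_of_eq_top ⟨i, h⟩
  have h2 := ENNReal.hasSum_toReal h1
  rw [← ENNReal.tsum_toReal_eq fun v => ENNReal.ofReal_ne_top, lintegral_E hβ hx i,
    ← integral_eq_lintegral_of_nonneg_ae (Filter.Eventually.of_forall fun y => (E_pos _ _).le)
      (continuous_E x (g i)).aestronglyMeasurable] at h2
  simpa only [ENNReal.toReal_ofReal (trm_nonneg hβ x _)] using h2

/-! ### Unfolding -/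

theorem IsWt.integrable_theta (h : IsWt 𝔟 𝔠 φ) (hβ : IsBeta β) (hg : IsGen 𝔟 g) {x : ℝ}
    (hx : 0 < x) : Integrable fun y : logSpace K => Θw φ (tt x y) * (β y : ℂ) := by
  have hcount := hg.countable
  obtain ⟨M, hM⟩ := h.bdd
  refine Integrable.mono' ((integrable_Θβ (sumE K) hβ 𝔟 hx).const_mul M) ?_
    (Filter.Eventually.of_forall fun y => ?_)
  · have e : (fun y : logSpace K => Θw φ (tt x y) * (β y : ℂ)) = fun y =>
        (φ 0 + ∑' p : ι × (𝓞 K)ˣ, φ (g p.1) * (E (tt x (y + tr p.2)) (g p.1) : ℂ)) * (β y : ℂ) := by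
      funext y
      rw [h.theta_tt hg hx y]
    rw [e]
    refine AEStronglyMeasurable.mul (aestronglyMeasurable_const.add
      (AEStronglyMeasurable.tsum fun p => ?_))
      (Complex.measurable_ofReal.comp hβ.meas).aestronglyMeasurable
    refine Measurable.aestronglyMeasurable (measurable_const.mul ?_)
    exact Complex.measurable_ofReal.comp
      ((continuous_E x (g p.1)).measurable.comp (measurable_add_const (tr p.2)))
  · rw [norm_mul, Complex.norm_real, Real.norm_of_nonneg (hβ.nonneg y), ← mul_assoc]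
    exact mul_le_mul_of_nonneg_right (h.norm_theta_le hM (tt_pos hx y)) (hβ.nonneg y)

theorem IsWt.hasSum_unfold (h : IsWt 𝔟 𝔠 φ) (hβ : IsBeta β) (hg : IsGen 𝔟 g) {x : ℝ}
    (hx : 0 < x) : HasSum (fun i => φ (g i) * ((∫ y : logSpace K, E (tt x y) (g i) : ℝ) : ℂ))
      (Fw β φ x - φ 0 * (B β : ℂ)) := by
  have hcount := hg.countable
  obtain ⟨M, hM⟩ := h.bdd
  set Fp : ι × (𝓞 K)ˣ → logSpace K → ℂ := fun p y =>
    φ (g p.1) * ((E (tt x (y + tr p.2)) (g p.1) * β y : ℝ) : ℂ) with hFp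
  have hint : ∀ p, Integrable (Fp p) := fun p =>
    ((trm_aux (g := g) hβ hx p).2.2.ofReal).const_mul (φ (g p.1))
  have hval : ∀ p, ∫ y, Fp p y = φ (g p.1) * (trm β g x p : ℂ) := by
    intro p
    rw [hFp]
    simp only
    rw [integral_const_mul, integral_complex_ofReal]
    rfl
  have hnorm : ∀ p, ∫ y, ‖Fp p y‖ = ‖φ (g p.1)‖ * trm β g x p := by
    intro p
    unfold trm
    rw [← integral_const_mul]
    refine integral_congr_ae (Filter.Eventually.of_forall fun y => ?_)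
    simp only [hFp]
    rw [norm_mul, Complex.norm_real,
      Real.norm_of_nonneg (mul_nonneg (E_pos _ _).le (hβ.nonneg y))]
  have hsum : Summable fun p => ∫ y, ‖Fp p y‖ := by
    refine Summable.of_nonneg_of_le (fun p => ?_) (fun p => ?_)
      ((summable_trm hβ hg hx).mul_left M)
    · exact integral_nonneg fun y => norm_nonneg _
    · rw [hnorm]
      exact mul_le_mul_of_nonneg_right (hM _) (trm_nonneg hβ x p)
  have h1 := hasSum_integral_of_summable_integral_norm hint hsum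
  have h2 : ∫ y, ∑' p, Fp p y = Fw β φ x - φ 0 * (B β : ℂ) := by
    have e1 : ∀ y, ∑' p, Fp p y = Θw φ (tt x y) * (β y : ℂ) - φ 0 * (β y : ℂ) := by
      intro y
      rw [h.theta_tt hg hx y, add_mul, add_sub_cancel_left, ← tsum_mul_right]
      refine tsum_congr fun p => ?_
      rw [hFp]
      simp only
      rw [Complex.ofReal_mul, mul_assoc]
    have hi2 : Integrable fun y : logSpace K => φ 0 * (β y : ℂ) :=
      (integrable_β hβ).ofReal.const_mul (φ 0)
    rw [integral_congr_ae (Filter.Eventually.of_forall e1),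
      integral_sub (h.integrable_theta hβ hg hx) hi2, integral_const_mul, integral_complex_ofReal]
    rfl
  rw [h2] at h1
  simp only [hval] at h1
  refine h1.prod_fiberwise fun i => ?_
  exact ((Complex.hasSum_ofReal.mpr (hasSum_trm hβ hg hx i))).mul_left (φ (g i))

end

/-- **(B)** -/
theorem unfoldWStmt (K : Type u) [Field K] [NumberField K] : UnfoldWStmt K :=
  fun _ hβ _ _ _ h _ _ hg _ hx => h.hasSum_unfold hβ hg hx

/-! ### Inversion -/

section

variable {𝔟 𝔠 : FractionalIdeal (𝓞 K)⁰ K} {φ φ' : K → ℂ} {β β' : logSpace K → ℝ}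

theorem B_neg (β : logSpace K → ℝ) : B (fun y => β (-y)) = B β := by
  unfold B
  exact integral_neg_eq_self β volume

theorem exists_isGen {𝔟 : FractionalIdeal (𝓞 K)⁰ K} (h : 𝔟 ≠ 0) :
    ∃ (ι : Type u) (g : ι → K), IsGen 𝔟 g := by
  obtain ⟨g, hg, -⟩ := classStmt K (Units.mk0 𝔟 h)
  exact ⟨_, g, hg⟩

/-- Independence of the weight `β`, up to the constant term. -/
theorem IsWt.sub_indep (h : IsWt 𝔟 𝔠 φ) (hβ : IsBeta β) (hβ' : IsBeta β') {x : ℝ} (hx : 0 < x) :
    Fw β φ x - φ 0 * (B β : ℂ) = Fw β' φ x - φ 0 * (B β' : ℂ) := by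
  obtain ⟨ι, g, hg⟩ := exists_isGen h.hb
  exact (h.hasSum_unfold hβ hg hx).unique (h.hasSum_unfold hβ' hg hx)

theorem IsWt.neg_indep (h : IsWt 𝔟 𝔠 φ) (hβ : IsBeta β) {x : ℝ} (hx : 0 < x) :
    Fw (fun y => β (-y)) φ x = Fw β φ x := by
  have h1 := h.sub_indep hβ.neg hβ hx
  rw [B_neg] at h1
  exact sub_left_injective h1

/-- **The functional equation of the integrated theta function with weights.** -/
theorem Fw_inv (hβ : IsBeta β) (h' : IsWt (dualF 𝔠) (dualF 𝔟) φ') (hI : IsInv 𝔠 φ φ') {x : ℝ}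
    (hx : 0 < x) :
    Fw β φ x⁻¹ = ((√|(discr K : ℝ)| * nF 𝔠 : ℝ) : ℂ)⁻¹ * (x : ℂ) ^ (Module.finrank ℚ K) *
      Fw β φ' x := by
  rw [← h'.neg_indep hβ hx]
  unfold Fw
  rw [← integral_const_mul, ← integral_neg_eq_self]
  refine integral_congr_ae (Filter.Eventually.of_forall fun y => ?_)
  simp only
  have hx' : 0 < x⁻¹ := inv_pos.mpr hx
  rw [hI (tt x⁻¹ (-y)) (tt_pos hx' (-y)), tt_inv, inv_inv, neg_neg, prod_tt hx', inv_pow,
    mul_inv (√|(discr K : ℝ)| * nF 𝔠), inv_inv, Complex.ofReal_mul, Complex.ofReal_inv,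
    Complex.ofReal_pow]
  ring

end

/-- **(B')** -/
theorem torusWStmt (K : Type u) [Field K] [NumberField K] : TorusWStmt K :=
  fun _ hβ _ _ _ _ _ h' hI _ hx => Fw_inv hβ h' hI hx

end Fermat.Agent.Cor.Ray

end
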