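import Fermat.Agent.Classic.Zeta.Decay
import Fermat.Agent.Corollaries.Ray.UnfoldW

/-!
# Continuity and decay of the integrated weighted theta functions (RAY (C))

`Fw β φ` is continuous on `(0, ∞)` and `Fw β φ x - φ 0 * B β = O(x ^ r)` at `∞` for every `r`: the
difference is bounded by `M (F β 𝔟 x - B β)`, `M` a bound for the weight.
-/

set_option autoImplicit false

noncomputable section

namespace Fermat.Agent.Cor.Ray

open NumberField NumberField.InfinitePlace NumberField.Units MeasureTheory Set Filter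
open NumberField.Units.dirichletUnitTheorem
open Fermat.Agent.Classic.Zeta
open scoped nonZeroDivisors Classical Topology

universe u

variable {K : Type u} [Field K] [NumberField K]
variable {𝔟 𝔠 : FractionalIdeal (𝓞 K)⁰ K} {φ : K → ℂ} {β : logSpace K → ℝ}

/-! ### Continuity -/

theorem IsWt.continuousAt_theta (h : IsWt 𝔟 𝔠 φ) {t : InfinitePlace K → ℝ} (ht : ∀ w, 0 < t w) :
    ContinuousAt (Θw φ) t := by
  obtain ⟨M, hM⟩ := h.bdd
  let c : InfinitePlace K → ℝ := fun w => t w / 2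
  have hc : ∀ w, 0 < c w := fun w => half_pos (ht w)
  have hU : {s : InfinitePlace K → ℝ | ∀ w, c w ≤ s w} ∈ 𝓝 t := by
    have h1 : {s : InfinitePlace K → ℝ | ∀ w, c w ≤ s w} = Set.univ.pi fun w => Ici (c w) := by
      ext s; simp only [Set.mem_ofPred_eq, Set.mem_univ_pi, Set.mem_Ici]
    rw [h1]
    exact set_pi_mem_nhds finite_univ fun w _ => Ici_mem_nhds (half_lt_self (ht w))
  have hcont : ContinuousOn (Θw φ) {s : InfinitePlace K → ℝ | ∀ w, c w ≤ s w} := by
    have e : Θw φ = fun s => ∑' a : 𝔟, φ a * (E s (a : K) : ℂ) := funext fun s => h.theta_eq s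
    rw [e]
    refine continuousOn_tsum (u := fun x : 𝔟 => M * E c (x : K)) (fun x => ?_)
      ((sumE K 𝔟 c hc).mul_left M) fun x s hs => ?_
    · exact (continuous_const.mul
        (Complex.continuous_ofReal.comp (Decay.continuous_E (x : K)))).continuousOn
    · rw [norm_mul, norm_ofReal_E]
      exact mul_le_mul (hM x) (Decay.E_anti hs _) (E_pos _ _).le ((norm_nonneg _).trans (hM x))
  exact hcont.continuousAt hU

theorem IsWt.continuous_theta_tt (h : IsWt 𝔟 𝔠 φ) {x : ℝ} (hx : 0 < x) :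
    Continuous fun y : logSpace K => Θw φ (tt x y) := by
  refine continuous_iff_continuousAt.2 fun y => ?_
  have h1 : ContinuousAt (Θw φ) (tt x y) := h.continuousAt_theta (Decay.tt_pos hx y)
  have h2 : Continuous fun y : logSpace K => tt (K := K) x y :=
    Decay.continuous_tt.comp (continuous_const.prodMk continuous_id)
  exact h1.comp h2.continuousAt

theorem IsWt.continuousAt_theta_tt (h : IsWt 𝔟 𝔠 φ) {x : ℝ} (hx : 0 < x) (y : logSpace K) :
    ContinuousAt (fun x : ℝ => Θw φ (tt x y)) x := by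
  have h1 : ContinuousAt (Θw φ) (tt x y) := h.continuousAt_theta (Decay.tt_pos hx y)
  have h2 : Continuous fun x : ℝ => tt (K := K) x y :=
    Decay.continuous_tt.comp (continuous_id.prodMk continuous_const)
  exact ContinuousAt.comp (g := Θw φ) (f := fun x : ℝ => tt (K := K) x y) h1 h2.continuousAt

/-- A bound for the integrand. -/
theorem IsWt.norm_le (h : IsWt 𝔟 𝔠 φ) (hβ : IsBeta β) {x₀ : ℝ} (hx₀ : 0 < x₀) :
    ∃ C : ℝ, ∀ x, x₀ ≤ x → ∀ y, ‖Θw φ (tt x y) * (β y : ℂ)‖ ≤ C * β y := by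
  obtain ⟨M, hM⟩ := h.bdd
  have hM0 : 0 ≤ M := (norm_nonneg _).trans (hM 0)
  obtain ⟨C, hC⟩ := Decay.norm_le hβ 𝔟 hx₀
  refine ⟨M * C, fun x hx y => ?_⟩
  have hx0 : 0 < x := hx₀.trans_le hx
  rw [norm_mul, Complex.norm_real, Real.norm_of_nonneg (hβ.nonneg y), mul_assoc]
  refine (mul_le_mul_of_nonneg_right (h.norm_theta_le hM (Decay.tt_pos hx0 y))
    (hβ.nonneg y)).trans ?_
  rw [mul_assoc]
  exact mul_le_mul_of_nonneg_left ((le_abs_self _).trans (hC x hx y)) hM0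

theorem IsWt.aesm (h : IsWt 𝔟 𝔠 φ) (hβ : IsBeta β) {x : ℝ} (hx : 0 < x) :
    AEStronglyMeasurable fun y : logSpace K => Θw φ (tt x y) * (β y : ℂ) :=
  (h.continuous_theta_tt hx).aestronglyMeasurable.mul
    (Complex.measurable_ofReal.comp hβ.meas).aestronglyMeasurable

theorem IsWt.integrable_Fw (h : IsWt 𝔟 𝔠 φ) (hβ : IsBeta β) {x : ℝ} (hx : 0 < x) :
    Integrable fun y : logSpace K => Θw φ (tt x y) * (β y : ℂ) := by
  obtain ⟨C, hC⟩ := h.norm_le hβ hx
  exact ((Decay.integrable hβ).const_mul C).mono' (h.aesm hβ hx)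
    (Eventually.of_forall fun y => hC x le_rfl y)

theorem IsWt.continuousAt_Fw (h : IsWt 𝔟 𝔠 φ) (hβ : IsBeta β) {x : ℝ} (hx : 0 < x) :
    ContinuousAt (Fw β φ) x := by
  obtain ⟨C, hC⟩ := h.norm_le hβ (half_pos hx)
  refine continuousAt_of_dominated (bound := fun y => C * β y) ?_ ?_
    ((Decay.integrable hβ).const_mul C) ?_
  · filter_upwards [Ioi_mem_nhds hx] with x' hx'
    exact h.aesm hβ hx'
  · filter_upwards [Ici_mem_nhds (half_lt_self hx)] with x' hx'
    exact Eventually.of_forall fun y => hC x' hx' y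
  · exact Eventually.of_forall fun y => (h.continuousAt_theta_tt hx y).mul continuousAt_const

/-- **`Fw β φ` is continuous on `(0, ∞)`.** -/
theorem IsWt.continuousOn_Fw (h : IsWt 𝔟 𝔠 φ) (hβ : IsBeta β) : ContinuousOn (Fw β φ) (Ioi 0) :=
  fun _ hx => (h.continuousAt_Fw hβ hx).continuousWithinAt

/-! ### Decay -/

theorem IsWt.norm_theta_sub_le (h : IsWt 𝔟 𝔠 φ) {M : ℝ} (hM : ∀ x, ‖φ x‖ ≤ M)
    {t : InfinitePlace K → ℝ} (ht : ∀ w, 0 < t w) : ‖Θw φ t - φ 0‖ ≤ M * (Θ 𝔟 t - 1) := by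
  have hs := sumE K 𝔟 t ht
  have hs' := h.summable_sub ht
  have hz : ((Decay.zr 𝔟 : 𝔟) : K) = 0 := Decay.coe_zr 𝔟
  have e1 : Θw φ t - φ 0 =
      ∑' a : 𝔟, if a = Decay.zr 𝔟 then 0 else φ a * (E t (a : K) : ℂ) := by
    rw [h.theta_eq, hs'.tsum_eq_add_tsum_ite (Decay.zr 𝔟), hz, E_zero, Complex.ofReal_one, mul_one,
      add_sub_cancel_left]
  have e2 : Θ 𝔟 t - 1 = ∑' a : 𝔟, if a = Decay.zr 𝔟 then 0 else E t (a : K) := by
    rw [Θ, hs.tsum_eq_add_tsum_ite (Decay.zr 𝔟), hz, E_zero, add_sub_cancel_left]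
  have hsi : Summable fun a : 𝔟 => if a = Decay.zr 𝔟 then 0 else E t (a : K) := by
    refine Summable.of_nonneg_of_le (fun a => ?_) (fun a => ?_) hs
    · split_ifs
      · exact le_rfl
      · exact (E_pos _ _).le
    · split_ifs
      · exact (E_pos _ _).le
      · exact le_rfl
  rw [e1, e2, ← tsum_mul_left]
  refine tsum_of_norm_bounded (hsi.mul_left M).hasSum fun a => ?_
  split_ifs
  · rw [norm_zero, mul_zero]
  · rw [norm_mul, norm_ofReal_E]
    exact mul_le_mul_of_nonneg_right (hM a) (E_pos _ _).le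

theorem IsWt.norm_Fw_sub_le (h : IsWt 𝔟 𝔠 φ) (hβ : IsBeta β) {M : ℝ} (hM : ∀ x, ‖φ x‖ ≤ M)
    {x : ℝ} (hx : 0 < x) : ‖Fw β φ x - φ 0 * (B β : ℂ)‖ ≤ M * (F β 𝔟 x - B β) := by
  have e1 : Fw β φ x - φ 0 * (B β : ℂ) =
      ∫ y : logSpace K, (Θw φ (tt x y) - φ 0) * (β y : ℂ) := by
    have hi : Integrable fun y : logSpace K => φ 0 * (β y : ℂ) :=
      (Decay.integrable hβ).ofReal.const_mul (φ 0)
    unfold Fw B
    rw [← integral_complex_ofReal, ← integral_const_mul, ← integral_sub (h.integrable_Fw hβ hx) hi]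
    refine integral_congr_ae (Eventually.of_forall fun y => ?_)
    simp only
    ring
  rw [e1, Decay.F_sub hβ 𝔟 hx, ← integral_const_mul]
  have hint : Integrable fun y : logSpace K => (Θ 𝔟 (tt x y) - 1) * β y := by
    refine ((Decay.integrable_F hβ 𝔟 hx).sub (Decay.integrable hβ)).congr
      (Eventually.of_forall fun y => ?_)
    simp only [Pi.sub_apply]
    ring
  refine norm_integral_le_of_norm_le (hint.const_mul M) (Eventually.of_forall fun y => ?_)
  rw [norm_mul, Complex.norm_real, Real.norm_of_nonneg (hβ.nonneg y), ← mul_assoc]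
  exact mul_le_mul_of_nonneg_right (h.norm_theta_sub_le hM (Decay.tt_pos hx y)) (hβ.nonneg y)

/-- **Decay.** -/
theorem IsWt.isBigO_Fw (h : IsWt 𝔟 𝔠 φ) (hβ : IsBeta β) (r : ℝ) :
    (fun x : ℝ => Fw β φ x - φ 0 * (B β : ℂ)) =O[atTop] (fun x : ℝ => x ^ r) := by
  obtain ⟨M, hM⟩ := h.bdd
  refine Asymptotics.IsBigO.trans ?_ (Decay.isBigO_F hβ 𝔟 r)
  refine Asymptotics.IsBigO.of_bound M ?_
  filter_upwards [eventually_gt_atTop 0] with x hx
  rw [Real.norm_of_nonneg (Decay.B_le_F hβ 𝔟 hx)]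
  exact h.norm_Fw_sub_le hβ hM hx

/-- **(C)** -/
theorem decayWStmt (K : Type u) [Field K] [NumberField K] : DecayWStmt K :=
  fun _ hβ _ _ _ h => ⟨(h.continuousOn_Fw hβ).locallyIntegrableOn measurableSet_Ioi,
    fun r => h.isBigO_Fw hβ r⟩

end Fermat.Agent.Cor.Ray
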