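import Fermat.Agent.Corollaries.Ray.NonVan
import Fermat.Agent.Corollaries.ZetaK.PsiLandau

/-!
# Prime ideals in ray classes, prime elements in arithmetic progressions

From the continuation of the L-functions of ray class characters (`EntireStmt`) and the finiteness
of the ray class group (`GroupStmt`): the prime ideals are equidistributed in the ray classes modulo
`𝔪` (natural density); in particular for `α` prime to `𝔪` there are infinitely many prime elements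
`π ≡ α` modulo `𝔪`, no two of them associated.
-/

set_option autoImplicit false
set_option linter.unusedSectionVars false

noncomputable section

open NumberField nonZeroDivisors Complex Filter Topology

open scoped Classical

namespace Fermat.Agent.Cor.Ray

open Fermat.Agent.ClassL Fermat.Agent.Classic.Zeta

universe u

variable {K : Type u} [Field K] [NumberField K] {𝔪 : Ideal (𝓞 K)}

/-- the number of ray classes modulo `𝔪` (no condition at the real places) -/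
def rayNumber (𝔪 : Ideal (𝓞 K)) : ℕ := Nat.card (Quot fun I J : Cop 𝔪 => RayEq 𝔪 I.1 J.1)

theorem mem_Cop {I : (Ideal (𝓞 K))⁰} : I ∈ Cop 𝔪 ↔ IsCoprime (I : Ideal (𝓞 K)) 𝔪 := Iff.rfl

theorem mem_of_mul {I J : (Ideal (𝓞 K))⁰} (h : I * J ∈ Cop 𝔪) : I ∈ Cop 𝔪 ∧ J ∈ Cop 𝔪 := by
  have h1 : IsCoprime ((I : Ideal (𝓞 K)) * (J : Ideal (𝓞 K))) 𝔪 := by
    rw [← Submonoid.coe_mul]
    exact h
  exact ⟨h1.of_mul_left_left, h1.of_mul_left_right⟩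

section Ext

variable {G : Type u} [CommGroup G] (cl : Cop 𝔪 →* G)

/-- the class map, extended by zero -/
def cl0 : (Ideal (𝓞 K))⁰ →* WithZero G where
  toFun I := if h : I ∈ Cop 𝔪 then (cl ⟨I, h⟩ : WithZero G) else 0
  map_one' := by
    rw [dif_pos (Cop 𝔪).one_mem]
    have : (⟨1, (Cop 𝔪).one_mem⟩ : Cop 𝔪) = 1 := rfl
    rw [this, map_one, WithZero.coe_one]
  map_mul' I J := by
    by_cases hI : I ∈ Cop 𝔪
    · by_cases hJ : J ∈ Cop 𝔪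
      · have hIJ : I * J ∈ Cop 𝔪 := (Cop 𝔪).mul_mem hI hJ
        have h1 : (⟨I * J, hIJ⟩ : Cop 𝔪) = ⟨I, hI⟩ * ⟨J, hJ⟩ := rfl
        rw [dif_pos hI, dif_pos hJ, dif_pos hIJ, h1, map_mul, WithZero.coe_mul]
      · rw [dif_neg hJ, mul_zero, dif_neg fun h => hJ (mem_of_mul h).2]
    · rw [dif_neg hI, zero_mul, dif_neg fun h => hI (mem_of_mul h).1]

theorem cl0_pos {I : (Ideal (𝓞 K))⁰} (h : I ∈ Cop 𝔪) : cl0 cl I = (cl ⟨I, h⟩ : WithZero G) :=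
  dif_pos h

theorem cl0_eq_zero_iff {I : (Ideal (𝓞 K))⁰} : cl0 cl I = 0 ↔ ¬ IsCoprime (I : Ideal (𝓞 K)) 𝔪 := by
  constructor
  · intro h hI
    rw [cl0_pos cl hI] at h
    exact WithZero.coe_ne_zero h
  · intro h
    exact dif_neg h

theorem finite_cl0 (h𝔪 : 𝔪 ≠ ⊥) : {P : Pr K | cl0 cl P.1 = 0}.Finite :=
  (finite_bad h𝔪).subset fun _ hP => (cl0_eq_zero_iff cl).mp hP

theorem cl0_eq_iff (hcl : ∀ I J : Cop 𝔪, cl I = cl J ↔ RayEq 𝔪 I.1 J.1) {J : (Ideal (𝓞 K))⁰}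
    (hJ : J ∈ Cop 𝔪) (I : (Ideal (𝓞 K))⁰) :
    cl0 cl I = (cl ⟨J, hJ⟩ : WithZero G) ↔ IsCoprime (I : Ideal (𝓞 K)) 𝔪 ∧ RayEq 𝔪 I J := by
  constructor
  · intro h
    have hI : I ∈ Cop 𝔪 := by
      by_contra h2
      rw [(cl0_eq_zero_iff cl).mpr h2] at h
      exact WithZero.coe_ne_zero h.symm
    rw [cl0_pos cl hI, WithZero.coe_inj] at h
    exact ⟨hI, (hcl ⟨I, hI⟩ ⟨J, hJ⟩).mp h⟩
  · rintro ⟨hI, h⟩
    rw [cl0_pos cl hI, WithZero.coe_inj]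
    exact (hcl ⟨I, hI⟩ ⟨J, hJ⟩).mpr h

variable [Finite G]

theorem rayChar_psi (hcl : ∀ I J : Cop 𝔪, cl I = cl J ↔ RayEq 𝔪 I.1 J.1) (χ : G →* ℂˣ) :
    RayChar 𝔪 (Psi.psi (cl0 cl) χ) where
  norm_le := (Psi.isUnitary_psi (cl0 cl) χ).le
  eq_zero I hI := by
    rw [Psi.psi, MonoidHom.comp_apply, (cl0_eq_zero_iff cl).mpr hI, Psi.chi0_zero]
  cong I a ha ha1 := by
    have ha0 : a ≠ 0 := by
      rintro rfl
      rw [Ideal.span_singleton_eq_bot.mpr rfl] at ha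
      exact nonZeroDivisors.coe_ne_zero I ha
    have hco : IsCoprime (Ideal.span {a}) 𝔪 :=
      isCoprime_span_iff.mpr ⟨1, by rwa [one_mul]⟩
    have hI : I ∈ Cop 𝔪 := by
      rw [mem_Cop, ha]
      exact hco
    have h1 : cl ⟨I, hI⟩ = cl 1 := by
      rw [hcl]
      refine ⟨1, a, one_ne_zero, ha0, ?_, ?_, ?_⟩
      · rw [Ideal.span_singleton_one, ← Ideal.one_eq_top]
        exact isCoprime_one_left
      · rw [← neg_sub]
        exact 𝔪.neg_mem ha1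
      · rw [Ideal.span_singleton_one, ha]
        change ⊤ * Ideal.span {a} = Ideal.span {a} * (((1 : Cop 𝔪) : (Ideal (𝓞 K))⁰) : Ideal (𝓞 K))
        rw [Submonoid.coe_one, Submonoid.coe_one, mul_one, ← Ideal.one_eq_top, one_mul]
    rw [Psi.psi, MonoidHom.comp_apply, cl0_pos cl hI, h1, map_one, Psi.chi0_coe, map_one,
      Units.val_one]

theorem rayChar_psi_nontrivial (hsurj : Function.Surjective cl) {χ : G →* ℂˣ} (hχ : χ ≠ 1) :
    ∃ I : (Ideal (𝓞 K))⁰, IsCoprime (I : Ideal (𝓞 K)) 𝔪 ∧ Psi.psi (cl0 cl) χ I ≠ 1 := by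
  obtain ⟨g, hg⟩ : ∃ g, χ g ≠ 1 := by
    by_contra h
    push Not at h
    exact hχ (MonoidHom.ext h)
  obtain ⟨⟨I, hI⟩, rfl⟩ := hsurj g
  refine ⟨I, hI, fun h => hg ?_⟩
  rw [Psi.psi, MonoidHom.comp_apply, cl0_pos cl hI, Psi.chi0_coe] at h
  exact Units.ext h

theorem exists_L (hE : EntireStmt K) (h𝔪 : 𝔪 ≠ ⊥) (hsurj : Function.Surjective cl)
    (hcl : ∀ I J : Cop 𝔪, cl I = cl J ↔ RayEq 𝔪 I.1 J.1) :
    ∃ L : (G →* ℂˣ) → ℂ → ℂ, (∀ χ, χ ≠ 1 → Differentiable ℂ (L χ)) ∧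
      ∀ χ, χ ≠ 1 → ∀ s : ℂ, 1 < s.re → L χ s = Psi.Lp (Psi.psi (cl0 cl) χ) s := by
  have h : ∀ χ : G →* ℂˣ, ∃ L : ℂ → ℂ, χ ≠ 1 → Differentiable ℂ L ∧
      ∀ s : ℂ, 1 < s.re → L s = Ls (Psi.psi (cl0 cl) χ) s := by
    intro χ
    by_cases hχ : χ = 1
    · exact ⟨0, fun h => absurd hχ h⟩
    · obtain ⟨L, h1, h2⟩ := hE 𝔪 h𝔪 _ (rayChar_psi cl hcl χ) (rayChar_psi_nontrivial cl hsurj hχ)
      exact ⟨L, fun _ => ⟨h1, h2⟩⟩
  choose L hL using h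
  exact ⟨L, fun χ hχ => (hL χ hχ).1, fun χ hχ => (hL χ hχ).2⟩

omit [Finite G] in
theorem natCard_eq_rayNumber (hsurj : Function.Surjective cl)
    (hcl : ∀ I J : Cop 𝔪, cl I = cl J ↔ RayEq 𝔪 I.1 J.1) : Nat.card G = rayNumber 𝔪 := by
  refine (Nat.card_congr (Equiv.ofBijective
    (Quot.lift cl fun I J h => (hcl I J).mpr h) ⟨?_, ?_⟩)).symm
  · rintro ⟨I⟩ ⟨J⟩ h
    exact Quot.sound ((hcl I J).mp h)
  · intro g
    obtain ⟨I, rfl⟩ := hsurj g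
    exact ⟨Quot.mk _ I, rfl⟩

end Ext

/-! ### Ray classes and congruences -/

theorem RayEq.coprime {I J : (Ideal (𝓞 K))⁰} (h : RayEq 𝔪 I J)
    (hJ : IsCoprime (J : Ideal (𝓞 K)) 𝔪) : IsCoprime (I : Ideal (𝓞 K)) 𝔪 := by
  obtain ⟨a, b, -, -, hco, hab, h⟩ := h
  obtain ⟨c, hc⟩ := isCoprime_span_iff.mp hco
  have hb : IsCoprime (Ideal.span {b}) 𝔪 := by
    refine isCoprime_span_iff.mpr ⟨c, ?_⟩
    have h1 : c * b - 1 = (c * a - 1) - c * (a - b) := by ring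
    rw [h1]
    exact 𝔪.sub_mem hc (𝔪.mul_mem_left c hab)
  have h2 : IsCoprime (Ideal.span {a} * (I : Ideal (𝓞 K))) 𝔪 := by
    rw [h]
    exact hb.mul_left hJ
  exact h2.of_mul_left_right

theorem rayEq_span_iff {α : 𝓞 K} (hα : IsCoprime (Ideal.span {α}) 𝔪) (hα0 : α ≠ 0)
    {A : (Ideal (𝓞 K))⁰} (hA : (A : Ideal (𝓞 K)) = Ideal.span {α}) (P : (Ideal (𝓞 K))⁰) :
    RayEq 𝔪 P A ↔ ∃ π : 𝓞 K, π - α ∈ 𝔪 ∧ (P : Ideal (𝓞 K)) = Ideal.span {π} := by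
  constructor
  · rintro ⟨a, b, ha0, hb0, hco, hab, h⟩
    rw [hA, Ideal.span_singleton_mul_span_singleton] at h
    have h1 : Ideal.span {b * α} ≤ Ideal.span {a} := by
      rw [← h]
      exact Ideal.mul_le_left (I := Ideal.span {a}) (J := (P : Ideal (𝓞 K)))
    obtain ⟨π, hπ⟩ := Ideal.span_singleton_le_span_singleton.mp h1
    refine ⟨π, ?_, ?_⟩
    · obtain ⟨c, hc⟩ := isCoprime_span_iff.mp hco
      have h3 : π - α = c * ((b - a) * α) - (c * a - 1) * (π - α) := by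
        linear_combination (-c) * hπ
      rw [h3]
      refine 𝔪.sub_mem (𝔪.mul_mem_left _ (𝔪.mul_mem_right _ ?_)) (𝔪.mul_mem_right _ hc)
      rw [← neg_sub]
      exact 𝔪.neg_mem hab
    · rw [hπ, ← Ideal.span_singleton_mul_span_singleton] at h
      refine mul_left_cancel₀ ?_ h
      rw [Ideal.zero_eq_bot, Ne, Ideal.span_singleton_eq_bot]
      exact ha0
  · rintro ⟨π, hπ, hP⟩
    refine ⟨α, π, hα0, ?_, hα, ?_, ?_⟩
    · rintro rfl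
      rw [Ideal.span_singleton_eq_bot.mpr rfl] at hP
      exact nonZeroDivisors.coe_ne_zero P hP
    · rw [← neg_sub]
      exact 𝔪.neg_mem hπ
    · rw [hA, hP, mul_comm]

/-! ### The theorems -/

section Main

variable (hE : EntireStmt K) (hG : GroupStmt K) (h𝔪 : 𝔪 ≠ ⊥)

include hE hG h𝔪

/-- **The prime ideal theorem for ray classes.** -/
theorem tendsto_card_ray {J : (Ideal (𝓞 K))⁰} (hJ : IsCoprime (J : Ideal (𝓞 K)) 𝔪) :
    Tendsto (fun x : ℕ => (Nat.card {P : Pr K // nP P ≤ x ∧ RayEq 𝔪 P.1 J} : ℝ) *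
      Real.log x / x) atTop (𝓝 (rayNumber 𝔪 : ℝ)⁻¹) := by
  obtain ⟨G, _, _, cl, hsurj, hcl⟩ := hG 𝔪 h𝔪
  obtain ⟨L, hd, hL⟩ := exists_L cl hE h𝔪 hsurj hcl
  have key := Psi.tendsto_card_group (finite_cl0 cl h𝔪) hd hL (cl ⟨J, hJ⟩)
  rw [natCard_eq_rayNumber cl hsurj hcl] at key
  refine key.congr fun x => ?_
  have h1 : ∀ P : Pr K, (cl0 cl P.1 = (cl ⟨J, hJ⟩ : WithZero G)) ↔ RayEq 𝔪 P.1 J := fun P => by
    rw [cl0_eq_iff cl hcl hJ]
    exact ⟨fun h => h.2, fun h => ⟨h.coprime hJ, h⟩⟩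
  simp only [h1]

theorem rayNumber_pos : 0 < rayNumber 𝔪 := by
  obtain ⟨G, _, _, cl, hsurj, hcl⟩ := hG 𝔪 h𝔪
  rw [← natCard_eq_rayNumber cl hsurj hcl]
  exact Nat.card_pos

theorem infinite_ray {J : (Ideal (𝓞 K))⁰} (hJ : IsCoprime (J : Ideal (𝓞 K)) 𝔪) :
    {P : Pr K | RayEq 𝔪 P.1 J}.Infinite := by
  obtain ⟨G, _, _, cl, hsurj, hcl⟩ := hG 𝔪 h𝔪
  obtain ⟨L, hd, hL⟩ := exists_L cl hE h𝔪 hsurj hcl
  refine (Psi.infinite_primes_group (finite_cl0 cl h𝔪) hd hL (cl ⟨J, hJ⟩)).mono fun P hP => ?_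
  exact ((cl0_eq_iff cl hcl hJ P.1).mp hP).2

omit h𝔪 in
/-- (H2) -/
theorem primesStmt : PrimesStmt K := by
  intro 𝔪 h𝔪 J hJ
  refine ((infinite_ray hE hG h𝔪 hJ).image (f := fun P : Pr K => P.1)
    Subtype.val_injective.injOn).mono ?_
  rintro _ ⟨P, hP, rfl⟩
  exact ⟨Ideal.isPrime_of_prime P.2, hP⟩

/-- **Dirichlet's theorem in a number field, with the natural density**: the prime ideals which are
generated by an element `≡ α` modulo `𝔪`. -/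
theorem tendsto_card_generated {α : 𝓞 K} (hα : IsCoprime (Ideal.span {α}) 𝔪) :
    Tendsto (fun x : ℕ => (Nat.card {P : Pr K // nP P ≤ x ∧
      ∃ π : 𝓞 K, π - α ∈ 𝔪 ∧ ((P.1 : (Ideal (𝓞 K))⁰) : Ideal (𝓞 K)) = Ideal.span {π}} : ℝ) *
      Real.log x / x) atTop (𝓝 (rayNumber 𝔪 : ℝ)⁻¹) := by
  obtain ⟨β, hβ0, hβ, hβα⟩ : ∃ β : 𝓞 K, β ≠ 0 ∧ IsCoprime (Ideal.span {β}) 𝔪 ∧ β - α ∈ 𝔪 := by
    by_cases h : α = 0
    · refine ⟨1, one_ne_zero, ?_, ?_⟩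
      · rw [Ideal.span_singleton_one, ← Ideal.one_eq_top]
        exact isCoprime_one_left
      · obtain ⟨b, hb⟩ := isCoprime_span_iff.mp hα
        rw [h, mul_zero, zero_sub] at hb
        rw [h, sub_zero]
        have := 𝔪.neg_mem hb
        rwa [neg_neg] at this
    · exact ⟨α, h, hα, by rw [sub_self]; exact 𝔪.zero_mem⟩
  have hmem : Ideal.span {β} ∈ (Ideal (𝓞 K))⁰ := by
    refine mem_nonZeroDivisors_of_ne_zero ?_
    rw [Ideal.zero_eq_bot, Ne, Ideal.span_singleton_eq_bot]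
    exact hβ0
  refine (tendsto_card_ray hE hG h𝔪 (J := ⟨Ideal.span {β}, hmem⟩) hβ).congr fun x => ?_
  have h1 : ∀ P : Pr K, RayEq 𝔪 P.1 ⟨Ideal.span {β}, hmem⟩ ↔ ∃ π : 𝓞 K, π - α ∈ 𝔪 ∧
      ((P.1 : (Ideal (𝓞 K))⁰) : Ideal (𝓞 K)) = Ideal.span {π} := by
    intro P
    rw [rayEq_span_iff hβ hβ0 rfl]
    refine exists_congr fun π => and_congr_left fun _ => ?_
    constructor
    · intro h
      have := 𝔪.add_mem h hβα
      rwa [sub_add_sub_cancel] at this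
    · intro h
      have := 𝔪.sub_mem h hβα
      rwa [sub_sub_sub_cancel_right] at this
  simp only [h1]

/-- **Dirichlet's theorem in a number field**: infinitely many prime elements `π ≡ α` modulo `𝔪`,
no two of them associated. -/
theorem infinite_primes {α : 𝓞 K} (hα : IsCoprime (Ideal.span {α}) 𝔪) :
    {P : Ideal (𝓞 K) | ∃ π : 𝓞 K, Prime π ∧ π - α ∈ 𝔪 ∧ P = Ideal.span {π}}.Infinite := by
  intro hfin
  have h0 := tendsto_card_generated hE hG h𝔪 hα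
  have hN : ∀ x : ℕ, (Nat.card {P : Pr K // nP P ≤ x ∧
      ∃ π : 𝓞 K, π - α ∈ 𝔪 ∧ ((P.1 : (Ideal (𝓞 K))⁰) : Ideal (𝓞 K)) = Ideal.span {π}} : ℝ) ≤
      (Nat.card {P : Ideal (𝓞 K) | ∃ π : 𝓞 K, Prime π ∧ π - α ∈ 𝔪 ∧ P = Ideal.span {π}} : ℝ) := by
    intro x
    have := hfin.to_subtype
    refine Nat.cast_le.mpr (Nat.card_le_card_of_injective
      (fun P => (⟨((P.1.1 : (Ideal (𝓞 K))⁰) : Ideal (𝓞 K)), ?_⟩ :
        {P : Ideal (𝓞 K) | ∃ π : 𝓞 K, Prime π ∧ π - α ∈ 𝔪 ∧ P = Ideal.span {π}})) ?_)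
    · obtain ⟨-, π, hπ, hP⟩ := P.2
      refine ⟨π, ?_, hπ, hP⟩
      have hπ0 : π ≠ 0 := by
        rintro rfl
        rw [Ideal.span_singleton_eq_bot.mpr rfl] at hP
        exact nonZeroDivisors.coe_ne_zero _ hP
      rw [← Ideal.span_singleton_prime hπ0, ← hP]
      exact Ideal.isPrime_of_prime P.1.2
    · intro P Q h
      have h' : ((P.1.1 : (Ideal (𝓞 K))⁰) : Ideal (𝓞 K)) = ((Q.1.1 : (Ideal (𝓞 K))⁰) :
        Ideal (𝓞 K)) := congrArg (fun J : {P : Ideal (𝓞 K) | ∃ π : 𝓞 K, Prime π ∧ π - α ∈ 𝔪 ∧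
          P = Ideal.span {π}} => J.1) h
      exact Subtype.ext (Subtype.ext (Subtype.ext h'))
  have h3 : Tendsto (fun x : ℝ => Real.log x / x) atTop (𝓝 0) :=
    Real.isLittleO_log_id_atTop.tendsto_div_nhds_zero
  have h4 := (h3.comp tendsto_natCast_atTop_atTop).const_mul
    (Nat.card {P : Ideal (𝓞 K) | ∃ π : 𝓞 K, Prime π ∧ π - α ∈ 𝔪 ∧ P = Ideal.span {π}} : ℝ)
  rw [mul_zero] at h4
  have h5 : Tendsto (fun x : ℕ => (Nat.card {P : Pr K // nP P ≤ x ∧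
      ∃ π : 𝓞 K, π - α ∈ 𝔪 ∧ ((P.1 : (Ideal (𝓞 K))⁰) : Ideal (𝓞 K)) = Ideal.span {π}} : ℝ) *
      Real.log x / x) atTop (𝓝 0) := by
    refine squeeze_zero (fun x => ?_) (fun x => ?_) h4
    · exact div_nonneg (mul_nonneg (Nat.cast_nonneg _) (Real.log_natCast_nonneg x))
        (Nat.cast_nonneg _)
    · rw [mul_div_assoc]
      exact mul_le_mul_of_nonneg_right (hN x)
        (div_nonneg (Real.log_natCast_nonneg x) (Nat.cast_nonneg _))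
  have h6 := tendsto_nhds_unique h0 h5
  have h7 : (rayNumber 𝔪 : ℝ)⁻¹ ≠ 0 :=
    inv_ne_zero (by exact_mod_cast (rayNumber_pos hE hG h𝔪).ne')
  exact h7 h6

end Main

end Fermat.Agent.Cor.Ray

end
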