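import Fermat.Agent.Corollaries.Ray.Weight
import Fermat.Agent.Corollaries.ZetaK.LFun

/-!
# The `L`-function of a non-trivial ray class character is entire

From the continuation of the weighted zeta functions (`PoleStmt`).
-/

set_option autoImplicit false
set_option linter.unusedSectionVars false

noncomputable section

namespace Fermat.Agent.Cor.Ray

open NumberField Fermat.Agent.Classic.Zeta
open scoped nonZeroDivisors

universe u

variable {K : Type u} [Field K] [NumberField K] {m : Ideal (𝓞 K)} {ψ : (Ideal (𝓞 K))⁰ →* ℂ}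

/-! ### Finiteness of `𝓞 / m` -/

theorem finite_quot (hm : m ≠ ⊥) : Finite (𝓞 K ⧸ m) := m.finiteQuotientOfFreeOfNeBot hm

/-- the sum of the character over `𝓞 / m` -/
def SS (m : Ideal (𝓞 K)) (ψ : (Ideal (𝓞 K))⁰ →* ℂ) : ℂ := ∑ᶠ q : 𝓞 K ⧸ m, el m ψ q.out

theorem mk_out (q : 𝓞 K ⧸ m) : Ideal.Quotient.mk m q.out = q := Quotient.out_eq' q

/-- the sum over representatives of `J / J m` for `J` prime to `m` -/
theorem sum_reps_mul (h : RayChar m ψ) {J : Ideal (𝓞 K)} (hJ : IsCoprime J m) {R : Finset K}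
    (hR : IsReps (J : FractionalIdeal (𝓞 K)⁰ K)
      ((J * m : Ideal (𝓞 K)) : FractionalIdeal (𝓞 K)⁰ K) R) :
    ∑ r ∈ R, wJ m ψ J r = SS m ψ := by
  classical
  have hex : ∀ r : R, ∃ a ∈ J, (a : K) = (r : K) := fun r =>
    mem_coeIdeal_iff'.mp (hR.mem r r.2)
  choose f hfJ hf using hex
  have hinf : J ⊓ m = J * m := (Ideal.mul_eq_inf_of_isCoprime hJ).symm
  let F : R → 𝓞 K ⧸ m := fun r => Ideal.Quotient.mk m (f r)
  have hF : Function.Bijective F := by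
    constructor
    · intro r r' hrr
      have h1 : f r - f r' ∈ m := (Ideal.Quotient.mk_eq_mk_iff_sub_mem _ _).mp hrr
      have h2 : f r - f r' ∈ J * m := by
        rw [← hinf]
        exact ⟨J.sub_mem (hfJ r) (hfJ r'), h1⟩
      have h3 : (r : K) - (r' : K) ∈ ((J * m : Ideal (𝓞 K)) : FractionalIdeal (𝓞 K)⁰ K) := by
        rw [mem_coeIdeal_iff']
        refine ⟨_, h2, ?_⟩
        rw [← hf r, ← hf r']
        exact map_sub (algebraMap (𝓞 K) K) _ _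
      have h0 : (r : K) - (r : K) ∈ ((J * m : Ideal (𝓞 K)) : FractionalIdeal (𝓞 K)⁰ K) := by
        rw [sub_self, mem_coeIdeal_iff']
        exact ⟨0, Ideal.zero_mem _, map_zero (algebraMap (𝓞 K) K)⟩
      exact Subtype.ext ((hR.ex r (hR.mem r r.2)).unique ⟨r.2, h0⟩ ⟨r'.2, h3⟩)
    · intro q
      obtain ⟨x, rfl⟩ := Ideal.Quotient.mk_surjective q
      obtain ⟨i, hi, j, hj, hij⟩ := Ideal.isCoprime_iff_exists.mp hJ
      have hx : x * i ∈ J := J.mul_mem_left _ hi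
      have hxK : ((x * i : 𝓞 K) : K) ∈ (J : FractionalIdeal (𝓞 K)⁰ K) :=
        mem_coeIdeal_iff'.mpr ⟨_, hx, rfl⟩
      obtain ⟨r, ⟨hrR, hr⟩, -⟩ := hR.ex _ hxK
      refine ⟨⟨r, hrR⟩, ?_⟩
      obtain ⟨c, hc, hcr⟩ := mem_coeIdeal_iff'.mp hr
      have h4 : c = x * i - f ⟨r, hrR⟩ := by
        refine RingOfIntegers.ext ?_
        have h5 : ((x * i - f ⟨r, hrR⟩ : 𝓞 K) : K) = ((x * i : 𝓞 K) : K) - (f ⟨r, hrR⟩ : K) :=
          map_sub (algebraMap (𝓞 K) K) _ _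
        rw [h5, hf]
        exact hcr
      change Ideal.Quotient.mk m (f ⟨r, hrR⟩) = Ideal.Quotient.mk m x
      rw [Ideal.Quotient.mk_eq_mk_iff_sub_mem]
      have h6 : f ⟨r, hrR⟩ - x = -(x * j) - c := by
        rw [h4]
        linear_combination x * hij
      rw [h6]
      exact m.sub_mem (m.neg_mem (m.mul_mem_left _ hj)) (Ideal.mul_le_right hc)
  have hSS : SS m ψ = ∑ᶠ r : R, el m ψ (F r).out :=
    (finsum_comp_equiv (Equiv.ofBijective F hF)).symm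
  rw [hSS, finsum_eq_sum_of_fintype, ← Finset.sum_coe_sort]
  refine Finset.sum_congr rfl fun r _ => ?_
  rw [← hf r, wJ_coe (hfJ r)]
  refine el_eq_of_sub_mem h ?_
  rw [← Ideal.Quotient.mk_eq_mk_iff_sub_mem, mk_out]

/-- the sum vanishes if the character is non-trivial on principal ideals -/
theorem SS_eq_zero (hm : m ≠ ⊥) (h : RayChar m ψ) {a : 𝓞 K} (ha : a ≠ 0)
    (hc : IsCoprime (Ideal.span {a}) m) (h1 : ψ (sp a ha) ≠ 1) : SS m ψ = 0 := by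
  have hmt : m ≠ ⊤ := by
    rintro rfl
    exact h1 (h.cong' ha trivial)
  obtain ⟨b, hb⟩ := isCoprime_span_iff.mp hc
  have hunit : IsUnit (Ideal.Quotient.mk m a) := by
    rw [isUnit_iff_exists_inv']
    refine ⟨Ideal.Quotient.mk m b, ?_⟩
    rw [← map_mul, ← map_one (Ideal.Quotient.mk m), Ideal.Quotient.mk_eq_mk_iff_sub_mem]
    exact hb
  have h2 : SS m ψ = ψ (sp a ha) * SS m ψ := by
    conv_lhs => rw [SS, ← finsum_comp_equiv (Units.mulLeft hunit.unit)]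
    rw [SS, mul_finsum']
    · refine finsum_congr fun q => ?_
      rw [← el_mul hmt ha]
      refine el_eq_of_sub_mem h ?_
      rw [← Ideal.Quotient.mk_eq_mk_iff_sub_mem, mk_out, map_mul, mk_out]
      rfl
    · have := finite_quot hm
      exact Set.toFinite _
  have h3 : (1 - ψ (sp a ha)) * SS m ψ = 0 := by linear_combination h2
  rcases mul_eq_zero.mp h3 with h4 | h4
  · exact absurd (sub_eq_zero.mp h4).symm h1
  · exact h4

/-! ### Values on classes -/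

theorem exists_inv (hm : m ≠ ⊥)
    (htriv : ∀ (a : 𝓞 K) (ha : a ≠ 0), IsCoprime (Ideal.span {a}) m → ψ (sp a ha) = 1)
    {I : (Ideal (𝓞 K))⁰} (hI : IsCoprime (I : Ideal (𝓞 K)) m) :
    ∃ J : (Ideal (𝓞 K))⁰, IsCoprime (J : Ideal (𝓞 K)) m ∧
      ClassGroup.mk0 J = (ClassGroup.mk0 I)⁻¹ ∧ ψ I * ψ J = 1 := by
  obtain ⟨J, hJC, hJ⟩ := exists_coprime_mk0 (m := m) (ClassGroup.mk0 I)⁻¹ hm
  refine ⟨J, hJ, hJC, ?_⟩
  have h1 : ClassGroup.mk0 (I * J) = 1 := by rw [map_mul, hJC, mul_inv_cancel]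
  rw [ClassGroup.mk0_eq_one_iff (SetLike.coe_mem (I * J))] at h1
  obtain ⟨x, hx⟩ := h1.principal
  have hx' : ((I * J : (Ideal (𝓞 K))⁰) : Ideal (𝓞 K)) = Ideal.span {x} := hx
  have hx0 : x ≠ 0 := by
    rintro rfl
    rw [Ideal.span_singleton_eq_bot.mpr rfl] at hx'
    exact nonZeroDivisors.coe_ne_zero (I * J) hx'
  have hc : IsCoprime (Ideal.span {x}) m := by
    rw [← hx', Submonoid.coe_mul]
    exact IsCoprime.mul_left hI hJ
  rw [← map_mul, ← htriv x hx0 hc]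
  congr 1
  exact Subtype.ext hx'

/-- a character trivial on principal ideals depends only on the ideal class -/
theorem eq_of_mk0_eq (hm : m ≠ ⊥)
    (htriv : ∀ (a : 𝓞 K) (ha : a ≠ 0), IsCoprime (Ideal.span {a}) m → ψ (sp a ha) = 1)
    {I I' : (Ideal (𝓞 K))⁰} (hI : IsCoprime (I : Ideal (𝓞 K)) m)
    (hI' : IsCoprime (I' : Ideal (𝓞 K)) m) (hC : ClassGroup.mk0 I = ClassGroup.mk0 I') :
    ψ I = ψ I' := by
  obtain ⟨J, hJ, hJC, hJ1⟩ := exists_inv hm htriv hI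
  obtain ⟨J', hJ', hJC', hJ1'⟩ := exists_inv hm htriv hJ
  have h2 : ∀ A : (Ideal (𝓞 K))⁰, IsCoprime (A : Ideal (𝓞 K)) m →
      ClassGroup.mk0 A = ClassGroup.mk0 I → ψ A * ψ J = 1 := by
    intro A hA hAC
    have h1 : ClassGroup.mk0 (A * J) = 1 := by rw [map_mul, hJC, hAC, mul_inv_cancel]
    rw [ClassGroup.mk0_eq_one_iff (SetLike.coe_mem (A * J))] at h1
    obtain ⟨x, hx⟩ := h1.principal
    have hx' : ((A * J : (Ideal (𝓞 K))⁰) : Ideal (𝓞 K)) = Ideal.span {x} := hx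
    have hx0 : x ≠ 0 := by
      rintro rfl
      rw [Ideal.span_singleton_eq_bot.mpr rfl] at hx'
      exact nonZeroDivisors.coe_ne_zero (A * J) hx'
    have hc : IsCoprime (Ideal.span {x}) m := by
      rw [← hx', Submonoid.coe_mul]
      exact IsCoprime.mul_left hA hJ
    rw [← map_mul, ← htriv x hx0 hc]
    congr 1
    exact Subtype.ext hx'
  have e1 := h2 I hI rfl
  have e2 := h2 I' hI' hC.symm
  have hJ0 : ψ J ≠ 0 := right_ne_zero_of_mul_eq_one e1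
  exact mul_right_cancel₀ hJ0 (e1.trans e2.symm)

theorem ne_zero_of_coprime (hm : m ≠ ⊥) (h : RayChar m ψ) {I : (Ideal (𝓞 K))⁰}
    (hI : IsCoprime (I : Ideal (𝓞 K)) m) : ψ I ≠ 0 := by
  obtain ⟨J, a, ha, hJ, hc, hIJ⟩ := exists_mul_eq_span hm hI
  obtain ⟨b, hb⟩ := isCoprime_span_iff.mp hc
  intro h0
  have h2 : ψ (sp a ha) = 0 := by
    have : sp a ha = I * J := Subtype.ext hIJ.symm
    rw [this, map_mul, h0, zero_mul]
  by_cases hb0 : b = 0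
  · subst hb0
    have hmt : m = ⊤ := by
      rw [Ideal.eq_top_iff_one]
      have := m.neg_mem hb
      simpa using this
    have := h.cong' ha (by rw [hmt]; trivial)
    rw [h2] at this
    exact zero_ne_one this
  · have e1 := h.cong' (mul_ne_zero hb0 ha) hb
    rw [sp_mul hb0 ha, map_mul, h2, mul_zero] at e1
    exact zero_ne_one e1

section Classes

variable (hm : m ≠ ⊥)

/-- an ideal prime to `m` in the class `C⁻¹` -/
def JC (hm : m ≠ ⊥) (C : ClassGroup (𝓞 K)) : (Ideal (𝓞 K))⁰ :=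
  (exists_coprime_mk0 (m := m) C⁻¹ hm).choose

theorem mk0_JC (C : ClassGroup (𝓞 K)) : ClassGroup.mk0 (JC hm C) = C⁻¹ :=
  (exists_coprime_mk0 (m := m) C⁻¹ hm).choose_spec.1

theorem JC_coprime (C : ClassGroup (𝓞 K)) : IsCoprime (JC hm C : Ideal (𝓞 K)) m :=
  (exists_coprime_mk0 (m := m) C⁻¹ hm).choose_spec.2

/-- **The residue vanishes** for a non-trivial character. -/
theorem sum_mul_SS (h : RayChar m ψ) {q : (Ideal (𝓞 K))⁰} (hq : IsCoprime (q : Ideal (𝓞 K)) m)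
    (hq1 : ψ q ≠ 1) : (∑ C : ClassGroup (𝓞 K), (ψ (JC hm C))⁻¹) * SS m ψ = 0 := by
  by_cases htriv : ∀ (a : 𝓞 K) (ha : a ≠ 0), IsCoprime (Ideal.span {a}) m → ψ (sp a ha) = 1
  · have key : ∀ C : ClassGroup (𝓞 K),
        (ψ (JC hm (C * (ClassGroup.mk0 q)⁻¹)))⁻¹ = (ψ q)⁻¹ * (ψ (JC hm C))⁻¹ := by
      intro C
      rw [← mul_inv, ← map_mul]
      congr 1
      refine eq_of_mk0_eq hm htriv (JC_coprime hm _) ?_ ?_
      · rw [Submonoid.coe_mul]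
        exact IsCoprime.mul_left hq (JC_coprime hm C)
      · rw [mk0_JC, map_mul, mk0_JC, mul_inv_rev, inv_inv]
    have hT : ∑ C : ClassGroup (𝓞 K), (ψ (JC hm C))⁻¹ =
        (ψ q)⁻¹ * ∑ C : ClassGroup (𝓞 K), (ψ (JC hm C))⁻¹ := by
      conv_lhs => rw [← Equiv.sum_comp (Equiv.mulRight (ClassGroup.mk0 q)⁻¹)]
      rw [Finset.mul_sum]
      exact Finset.sum_congr rfl fun C _ => key C
    have h3 : (1 - (ψ q)⁻¹) * ∑ C : ClassGroup (𝓞 K), (ψ (JC hm C))⁻¹ = 0 := by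
      linear_combination hT
    rcases mul_eq_zero.mp h3 with h4 | h4
    · exact absurd (inv_eq_one.mp (sub_eq_zero.mp h4).symm) hq1
    · rw [h4, zero_mul]
  · push Not at htriv
    obtain ⟨a, ha, hc, h1⟩ := htriv
    rw [SS_eq_zero hm h ha hc h1, mul_zero]

/-! ### Representatives -/

theorem exists_reps_mul (hm : m ≠ ⊥) {J : Ideal (𝓞 K)} (hJ : IsCoprime J m) :
    ∃ R : Finset K, IsReps (J : FractionalIdeal (𝓞 K)⁰ K)
      ((J * m : Ideal (𝓞 K)) : FractionalIdeal (𝓞 K)⁰ K) R := by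
  classical
  have := finite_quot hm
  have := Fintype.ofFinite (𝓞 K ⧸ m)
  have hinf : J ⊓ m = J * m := (Ideal.mul_eq_inf_of_isCoprime hJ).symm
  have hex : ∀ q : 𝓞 K ⧸ m, ∃ a ∈ J, Ideal.Quotient.mk m a = q := by
    intro q
    obtain ⟨x, rfl⟩ := Ideal.Quotient.mk_surjective q
    obtain ⟨i, hi, j, hj, hij⟩ := Ideal.isCoprime_iff_exists.mp hJ
    refine ⟨x * i, J.mul_mem_left _ hi, ?_⟩
    rw [Ideal.Quotient.mk_eq_mk_iff_sub_mem]
    have h6 : x * i - x = -(x * j) := by linear_combination x * hij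
    rw [h6]
    exact m.neg_mem (m.mul_mem_left _ hj)
  choose f hfJ hf using hex
  refine ⟨Finset.univ.image fun q => (f q : K), ?_, ?_⟩
  · intro r hr
    obtain ⟨q, -, rfl⟩ := Finset.mem_image.mp hr
    exact mem_coeIdeal_iff'.mpr ⟨_, hfJ q, rfl⟩
  · intro x hx
    obtain ⟨x, hxJ, rfl⟩ := mem_coeIdeal_iff'.mp hx
    refine ⟨(f (Ideal.Quotient.mk m x) : K), ⟨Finset.mem_image_of_mem _ (Finset.mem_univ _), ?_⟩, ?_⟩
    · rw [mem_coeIdeal_iff']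
      refine ⟨x - f (Ideal.Quotient.mk m x), ?_, map_sub (algebraMap (𝓞 K) K) _ _⟩
      rw [← hinf]
      refine ⟨J.sub_mem hxJ (hfJ _), ?_⟩
      rw [SetLike.mem_coe, ← Ideal.Quotient.mk_eq_mk_iff_sub_mem, hf]
    · rintro r ⟨hr, hxr⟩
      obtain ⟨q, -, rfl⟩ := Finset.mem_image.mp hr
      obtain ⟨c, hc, hcr⟩ := mem_coeIdeal_iff'.mp hxr
      have h4 : c = x - f q := by
        refine RingOfIntegers.ext ?_
        rw [hcr]
        exact (map_sub (algebraMap (𝓞 K) K) _ _).symm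
      have h5 : Ideal.Quotient.mk m x = q := by
        rw [← hf q, Ideal.Quotient.mk_eq_mk_iff_sub_mem, ← h4]
        exact Ideal.mul_le_right hc
      rw [h5]

/-! ### Dirichlet series -/

/-- the generators represent the non-zero elements modulo units. -/
theorem isGen_gen (𝔟 : (FractionalIdeal (𝓞 K)⁰ K)ˣ) :
    IsGen (𝔟 : FractionalIdeal (𝓞 K)⁰ K) (fun 𝔞 : Cls 𝔟 => (Classes.gen 𝔞 : K)) where
  ne_zero 𝔞 := (Classes.gen 𝔞).ne_zero
  mem 𝔞 := Classes.gen_mem 𝔞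
  inj 𝔞 𝔞' v v' h := by
    have h1 := @(Classes.toEl_bijective 𝔟).1 (𝔞, v) (𝔞', v') (Subtype.ext h)
    exact ⟨congrArg Prod.fst h1, congrArg Prod.snd h1⟩
  surj x hx hx0 := by
    obtain ⟨⟨𝔞, v⟩, h⟩ := (Classes.toEl_bijective 𝔟).2 ⟨x, hx, hx0⟩
    exact ⟨𝔞, v, (congrArg Subtype.val h).symm⟩

theorem wJ_gen (J : (Ideal (𝓞 K))⁰) (𝔞 : Cls (FractionalIdeal.mk0 K J)) :
    wJ m ψ (J : Ideal (𝓞 K)) (Classes.gen 𝔞 : K) = ψ 𝔞.1 * ψ J := by
  have h1 := Classes.span_gen 𝔞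
  have h2 : (Classes.gen 𝔞 : K) ∈ ((J : Ideal (𝓞 K)) : FractionalIdeal (𝓞 K)⁰ K) :=
    Classes.gen_mem 𝔞
  obtain ⟨a, haJ, ha⟩ := mem_coeIdeal_iff'.mp h2
  have ha0 : a ≠ 0 := by
    rintro rfl
    exact (Classes.gen 𝔞).ne_zero (ha.symm.trans (map_zero (algebraMap (𝓞 K) K)))
  rw [← ha, wJ_coe haJ, el_of_ne ha0, ← map_mul]
  congr 1
  refine Subtype.ext ?_
  rw [← ha, FractionalIdeal.coe_mk0, ← FractionalIdeal.coeIdeal_span_singleton,
    ← FractionalIdeal.coeIdeal_mul, FractionalIdeal.coeIdeal_inj] at h1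
  exact h1

theorem nF_mk0 (J : (Ideal (𝓞 K))⁰) :
    FractionalIdeal.absNorm ((FractionalIdeal.mk0 K J : (FractionalIdeal (𝓞 K)⁰ K)ˣ) :
      FractionalIdeal (𝓞 K)⁰ K) = (Ideal.absNorm (J : Ideal (𝓞 K)) : ℚ) := by
  rw [FractionalIdeal.coe_mk0, FractionalIdeal.coeIdeal_absNorm]

theorem term_gen (J : (Ideal (𝓞 K))⁰) (𝔞 : Cls (FractionalIdeal.mk0 K J)) (s : ℂ) :
    wJ m ψ (J : Ideal (𝓞 K)) (Classes.gen 𝔞 : K) *
      (((|Algebra.norm ℚ (Classes.gen 𝔞 : K)| : ℚ) : ℂ)) ^ (-s) =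
    (ψ J * (Ideal.absNorm (J : Ideal (𝓞 K)) : ℂ) ^ (-s)) *
      (ψ 𝔞.1 * (Ideal.absNorm (𝔞.1 : Ideal (𝓞 K)) : ℂ) ^ (-s)) := by
  rw [wJ_gen, Classes.abs_norm_gen, nF_mk0]
  push_cast
  rw [Complex.natCast_mul_natCast_cpow]
  ring

/-- the partial `L`-series -/
theorem tsum_Cls (C : ClassGroup (𝓞 K)) (s : ℂ) :
    ∑' 𝔞 : Cls (FractionalIdeal.mk0 K (JC hm C)),
      ψ 𝔞.1 * (Ideal.absNorm (𝔞.1 : Ideal (𝓞 K)) : ℂ) ^ (-s) =
    ∑' 𝔞 : {𝔞 : (Ideal (𝓞 K))⁰ // ClassGroup.mk0 𝔞 = C},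
      ψ 𝔞.1 * (Ideal.absNorm (𝔞.1 : Ideal (𝓞 K)) : ℂ) ^ (-s) := by
  let e : Cls (FractionalIdeal.mk0 K (JC hm C)) ≃
      {𝔞 : (Ideal (𝓞 K))⁰ // ClassGroup.mk0 𝔞 = C} :=
    Equiv.subtypeEquivRight fun 𝔞 => by
      rw [ClassGroup.mk_mk0, mk0_JC, mul_inv_eq_one]
  rw [← e.tsum_eq]
  rfl

theorem summable_Ls (h : RayChar m ψ) {s : ℂ} (hs : 1 < s.re) :
    Summable fun I : (Ideal (𝓞 K))⁰ => ψ I * (Ideal.absNorm (I : Ideal (𝓞 K)) : ℂ) ^ (-s) := by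
  refine Summable.of_norm_bounded (Classes.summable_nrm_ideals hs).norm fun I => ?_
  rw [norm_mul]
  exact mul_le_of_le_one_left (norm_nonneg _) (h.norm_le I)

theorem Ls_eq_sum (h : RayChar m ψ) {s : ℂ} (hs : 1 < s.re) :
    Ls ψ s = ∑ C : ClassGroup (𝓞 K), (ψ (JC hm C))⁻¹ *
      (Ideal.absNorm (JC hm C : Ideal (𝓞 K)) : ℂ) ^ s *
        ∑' 𝔞 : Cls (FractionalIdeal.mk0 K (JC hm C)), wJ m ψ (JC hm C : Ideal (𝓞 K))
          (Classes.gen 𝔞 : K) * (((|Algebra.norm ℚ (Classes.gen 𝔞 : K)| : ℚ) : ℂ)) ^ (-s) := by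
  let e : (Σ C : ClassGroup (𝓞 K), {𝔞 : (Ideal (𝓞 K))⁰ // ClassGroup.mk0 𝔞 = C}) ≃
      (Ideal (𝓞 K))⁰ := Equiv.sigmaFiberEquiv (fun I : (Ideal (𝓞 K))⁰ => ClassGroup.mk0 I)
  have hsum : Summable fun c => ψ (e c) * (Ideal.absNorm (e c : Ideal (𝓞 K)) : ℂ) ^ (-s) :=
    (e.summable_iff).mpr (summable_Ls h hs)
  rw [Ls, ← e.tsum_eq, Summable.tsum_sigma hsum, tsum_fintype]
  refine Finset.sum_congr rfl fun C _ => ?_
  have h1 : ∀ 𝔞 : Cls (FractionalIdeal.mk0 K (JC hm C)), wJ m ψ (JC hm C : Ideal (𝓞 K))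
      (Classes.gen 𝔞 : K) * (((|Algebra.norm ℚ (Classes.gen 𝔞 : K)| : ℚ) : ℂ)) ^ (-s) =
      (ψ (JC hm C) * (Ideal.absNorm (JC hm C : Ideal (𝓞 K)) : ℂ) ^ (-s)) *
        (ψ 𝔞.1 * (Ideal.absNorm (𝔞.1 : Ideal (𝓞 K)) : ℂ) ^ (-s)) := fun 𝔞 => term_gen _ 𝔞 s
  rw [tsum_congr h1, tsum_mul_left, tsum_Cls hm]
  have h2 : ψ (JC hm C) ≠ 0 := ne_zero_of_coprime hm h (JC_coprime hm C)
  have h3 : (Ideal.absNorm (JC hm C : Ideal (𝓞 K)) : ℂ) ≠ 0 := by
    exact_mod_cast (Ideal.absNorm_pos_of_nonZeroDivisors (JC hm C)).ne'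
  have h4 : (Ideal.absNorm (JC hm C : Ideal (𝓞 K)) : ℂ) ^ s ≠ 0 := by
    rw [Complex.cpow_ne_zero_iff]
    exact Or.inl h3
  rw [Complex.cpow_neg]
  change _ = _
  field_simp
  rfl

end Classes

/-- **(F)** the `L`-function of a non-trivial ray class character is entire. -/
theorem entireStmt_of (hP : PoleStmt K) : EntireStmt K := by
  obtain ⟨κ, hP⟩ := hP
  intro m hm ψ h ⟨q, hq, hq1⟩
  have hJ0 : ∀ C : ClassGroup (𝓞 K), (JC hm C : Ideal (𝓞 K)) ≠ ⊥ := fun C =>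
    nonZeroDivisors.coe_ne_zero (JC hm C)
  have hpole := fun C : ClassGroup (𝓞 K) => hP _ _ _ (isWt_wJ hm h (hJ0 C))
  choose A hA hAs using hpole
  let NJ : ClassGroup (𝓞 K) → ℂ := fun C => (Ideal.absNorm (JC hm C : Ideal (𝓞 K)) : ℂ)
  have hNJ : ∀ C, NJ C ≠ 0 := fun C => by
    change (Ideal.absNorm (JC hm C : Ideal (𝓞 K)) : ℂ) ≠ 0
    exact_mod_cast (Ideal.absNorm_pos_of_nonZeroDivisors (JC hm C)).ne'
  have hNm : (Ideal.absNorm m : ℂ) ≠ 0 := by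
    rw [Nat.cast_ne_zero, Ne, Ideal.absNorm_eq_zero_iff]
    exact hm
  have hpow : ∀ C, Differentiable ℂ fun s : ℂ => NJ C ^ s := fun C =>
    differentiable_id.const_cpow (Or.inl (hNJ C))
  let H : ℂ → ℂ := fun s => ∑ C, (ψ (JC hm C))⁻¹ * NJ C ^ s * (κ * SS m ψ / (NJ C * Ideal.absNorm m))
  have hH : Differentiable ℂ H := by
    refine Differentiable.fun_sum fun C _ => ?_
    exact ((hpow C).const_mul _).mul_const _
  have hH1 : H 1 = 0 := by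
    have h1 : H 1 = κ / Ideal.absNorm m *
        ((∑ C : ClassGroup (𝓞 K), (ψ (JC hm C))⁻¹) * SS m ψ) := by
      rw [Finset.sum_mul, Finset.mul_sum]
      refine Finset.sum_congr rfl fun C _ => ?_
      rw [Complex.cpow_one]
      have := hNJ C
      field_simp
    rw [h1, sum_mul_SS hm h hq hq1, mul_zero]
  refine ⟨fun s => (∑ C, (ψ (JC hm C))⁻¹ * NJ C ^ s * A C s) + gi K s * dslope H 1 s, ?_, ?_⟩
  · refine Differentiable.add ?_ (differentiable_gi.mul (differentiable_dslope hH 1))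
    exact Differentiable.fun_sum fun C _ => ((hpow C).const_mul _).mul (hA C)
  · intro s hs
    have hs1 : s ≠ 1 := by
      rintro rfl
      simp at hs
    have h2 : dslope H 1 s = H s / (s - 1) := by
      rw [dslope_of_ne _ hs1, slope_def_field, hH1, sub_zero]
    have h3 : gi K s * (H s / (s - 1)) = ∑ C, (ψ (JC hm C))⁻¹ * NJ C ^ s *
        (κ * SS m ψ / (NJ C * Ideal.absNorm m) * (gam K s)⁻¹ / (s - 1)) := by
      change (gam K s)⁻¹ * (H s / (s - 1)) = _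
      rw [mul_div_assoc', Finset.mul_sum, Finset.sum_div]
      exact Finset.sum_congr rfl fun C _ => by ring
    change (∑ C, (ψ (JC hm C))⁻¹ * NJ C ^ s * A C s) + gi K s * dslope H 1 s = _
    rw [Ls_eq_sum hm h hs, h2, h3, ← Finset.sum_add_distrib]
    refine Finset.sum_congr rfl fun C _ => ?_
    obtain ⟨R, hR⟩ := exists_reps_mul hm (JC_coprime hm C)
    have h4 := hAs C R hR _ _ (isGen_gen (FractionalIdeal.mk0 K (JC hm C))) s hs
    rw [sum_reps_mul h (JC_coprime hm C) hR] at h4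
    rw [h4]
    have h5 : (nF ((((JC hm C : (Ideal (𝓞 K))⁰) : Ideal (𝓞 K)) * m : Ideal (𝓞 K)) :
        FractionalIdeal (𝓞 K)⁰ K) : ℂ) = NJ C * Ideal.absNorm m := by
      rw [nF, FractionalIdeal.coeIdeal_absNorm, map_mul]
      push_cast
      rfl
    rw [h5]
    ring

end Fermat.Agent.Cor.Ray
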