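import Fermat.Agent.Corollaries.Ray.IdonealFin

/-!
# Euler's primality test

Let `n` be idoneal. If the odd number `m > 1`, prime to `n`, has exactly one representation
`m = x² + n y²` in natural numbers, and `x`, `y` are coprime in it, then `m` is prime
(`euler_prime_test`). Euler's example: `18518809 = 197² + 1848 · 100²` is prime.
-/

set_option autoImplicit false

namespace Fermat.Agent.Cor.Ray

open BForm Fermat.Agent.Cor.RayN

theorem memN_of_coprime {n : ℕ} {a B c : ℤ} (ha : 0 < a) (hco : IsCoprime a (2 * n))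
    (h : a * c = B ^ 2 + n) : MemN (-4 * n) ⟨a, 2 * B, c⟩ := by
  refine ⟨?_, ?_, fun _ => ha⟩
  · rintro q hq ⟨h1, h2, -⟩
    have hqi : Prime (q : ℤ) := Nat.prime_iff_prime_int.mp hq
    have h1' : (q : ℤ) ∣ a := h1
    have h2' : (q : ℤ) ∣ 2 * B := h2
    have hnot : ∀ {m : ℤ}, (q : ℤ) ∣ m → m ∣ 2 * n → False := fun h3 h4 =>
      hqi.not_isUnit (hco.isUnit_of_dvd' h1' (h3.trans h4))
    rcases hqi.dvd_or_dvd h2' with h3 | h3
    · exact hnot h3 ⟨n, rfl⟩
    · have h4 : (q : ℤ) ∣ n := by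
        have h5 : (n : ℤ) = a * c - B * B := by linear_combination -h
        rw [h5]
        exact dvd_sub (h1'.mul_right _) (h3.mul_right _)
      exact hnot h4 ⟨2, by ring⟩
  · simp only [disc]
    linear_combination -4 * h

/-- a form of the principal class -/
theorem exists_rep_of_eqv {n : ℕ} {a B c : ℤ} (h : (⟨1, 0, n⟩ : BForm).Eqv ⟨a, 2 * B, c⟩) :
    ∃ u v : ℤ, a = u ^ 2 + n * v ^ 2 ∧ a ∣ u + B * v := by
  obtain ⟨p, q, r, s, h1, h2⟩ := h
  have ha := congrArg BForm.a h2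
  have hb := congrArg BForm.b h2
  simp only [subst, val] at ha hb
  refine ⟨p, r, by rw [← ha]; ring, s, ?_⟩
  have hB : B = p * q + n * r * s := by
    have : 2 * B = 2 * (p * q + n * r * s) := by
      rw [← hb]
      ring
    linarith
  rw [hB, ← ha]
  linear_combination (-p) * h1

/-- a proper representation gives a form of the principal class -/
theorem exists_eqv_of_rep {n : ℕ} {m x y : ℤ} (hxy : IsCoprime x y) (h : m = x ^ 2 + n * y ^ 2) :
    ∃ B C : ℤ, (⟨1, 0, n⟩ : BForm).Eqv ⟨m, 2 * B, C⟩ ∧ m * C = B ^ 2 + n ∧ m ∣ x + B * y := by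
  obtain ⟨r, s, h1, h2, h3⟩ := (⟨1, 0, n⟩ : BForm).exists_eqv_of_isCoprime hxy
  set g := (⟨1, 0, n⟩ : BForm).subst x r y s with hg
  have hga : g.a = m := by
    rw [h3, h]
    simp only [val]
    ring
  have hgb : g.b = 2 * (x * r + n * y * s) := by
    rw [hg]
    simp only [subst]
    ring
  have hgd := h2.disc_eq
  simp only [disc] at hgd
  rw [hga, hgb] at hgd
  refine ⟨x * r + n * y * s, g.c, ?_, ?_, s, ?_⟩
  · rw [← hga, ← hgb]
    exact h2
  · linarith
  · rw [h]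
    linear_combination (-x) * h1

/-- **Euler's primality test** for a class group of exponent two -/
theorem prime_of_unique {n : ℕ} (hn : 0 < n)
    (hex : ∀ f : BForm, MemN (-4 * n) f → f.Eqv f.op) {m x y : ℕ} (hm : 1 < m) (hodd : Odd m)
    (hmn : m.Coprime n) (hxy : x.Coprime y) (h : m = x ^ 2 + n * y ^ 2)
    (huniq : ∀ x' y' : ℕ, m = x' ^ 2 + n * y' ^ 2 → x' = x ∧ y' = y) : m.Prime := by
  have hn0 : (0 : ℤ) < n := by exact_mod_cast hn
  have hsq : ¬ IsSquare (-4 * (n : ℤ)) := by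
    rintro ⟨r, hr⟩
    nlinarith [mul_self_nonneg r]
  obtain ⟨inst, hmul, hinv, hone⟩ := gauss_composition hsq (Or.inl (by omega))
  have hexp : ∀ (f : BForm) (hf : MemN (-4 * n) f), cls f hf = (cls f hf)⁻¹ := fun f hf => by
    rw [hinv f hf]
    exact cls_eq_iff.mpr (hex f hf)
  have h1n : cls (⟨1, 0, n⟩ : BForm) (memN_one (n := n)) = 1 := hone 0 n memN_one
  -- the form of the representation
  have hz : (m : ℤ) = (x : ℤ) ^ 2 + n * (y : ℤ) ^ 2 := by exact_mod_cast h
  obtain ⟨B, C, hE, hC, hBy⟩ := exists_eqv_of_rep (n := n) (m := m)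
    (Nat.isCoprime_iff_coprime.mpr hxy) hz
  have hmco : IsCoprime (m : ℤ) (2 * n) := by
    have h2 : m.Coprime (2 * n) := Nat.Coprime.mul_right
      (Nat.coprime_two_right.mpr hodd) hmn
    have h3 := Nat.isCoprime_iff_coprime.mpr h2
    exact_mod_cast h3
  have hco : ∀ {a : ℤ}, a ∣ m → IsCoprime a (2 * n) := fun ha => hmco.of_isCoprime_of_dvd_left ha
  have hym : IsCoprime (m : ℤ) (y : ℤ) := by
    have h2 : IsCoprime (y : ℤ) (x : ℤ) := (Nat.isCoprime_iff_coprime.mpr hxy).symm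
    have h3 : IsCoprime (y : ℤ) ((x : ℤ) ^ 2 + y * (n * y)) :=
      (h2.pow_right).add_mul_left_right _
    rw [hz, show (x : ℤ) ^ 2 + n * (y : ℤ) ^ 2 = (x : ℤ) ^ 2 + y * (n * y) by ring]
    exact h3.symm
  -- no divisor of `m` divides `B`
  have hnd : ∀ a : ℤ, 1 < a → a ∣ m → a ∣ 2 * B → False := by
    intro a ha ham haB
    have h2 : IsCoprime a (2 : ℤ) := (hco ham).of_mul_right_left
    have h3 : a ∣ B := h2.dvd_of_dvd_mul_left haB
    have h4 : a ∣ n := by
      have h5 : (n : ℤ) = m * C - B * B := by linear_combination -hC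
      rw [h5]
      exact dvd_sub (ham.mul_right _) (h3.mul_right _)
    have h5 := (hco ham).isUnit_of_dvd' dvd_rfl (h4.trans ⟨2, by ring⟩)
    rcases Int.isUnit_iff.mp h5 with h6 | h6 <;> omega
  -- `m` is a prime power
  have hpp : ∀ m₁ m₂ : ℕ, 1 < m₁ → 1 < m₂ → m₁.Coprime m₂ → m = m₁ * m₂ → False := by
    intro m₁ m₂ h₁ h₂ hc12 hmm
    have hmz : (m : ℤ) = m₁ * m₂ := by exact_mod_cast hmm
    have hd1 : (m₁ : ℤ) ∣ m := ⟨m₂, hmz⟩
    have hd2 : (m₂ : ℤ) ∣ m := ⟨m₁, by rw [hmz]; ring⟩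
    have hp1 : (0 : ℤ) < m₁ := by omega
    have hp2 : (0 : ℤ) < m₂ := by omega
    obtain ⟨α, β, hαβ⟩ := Nat.isCoprime_iff_coprime.mpr hc12
    have e1 : B * (β * m₂ - α * m₁) = B + m₁ * (-2 * α * B) := by linear_combination B * hαβ
    have e2 : B * (β * m₂ - α * m₁) = -B + m₂ * (2 * β * B) := by
      linear_combination (-B) * hαβ
    set B' := B * (β * m₂ - α * m₁) with hB'
    obtain ⟨C', hC'⟩ : ∃ C', (m : ℤ) * C' = B' ^ 2 + n := by
      refine ⟨C - 4 * α * β * B ^ 2, ?_⟩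
      rw [hB']
      have e3 : (β * (m₂ : ℤ) - α * m₁) ^ 2 = 1 - 4 * α * β * (m₁ * m₂) := by
        linear_combination (α * (m₁ : ℤ) + β * m₂ + 1) * hαβ
      rw [mul_pow, e3, ← hmz]
      linear_combination hC
    have hF1 : MemN (-4 * n) ⟨m₁, 2 * B', m₂ * C'⟩ :=
      memN_of_coprime hp1 (hco hd1) (by rw [← hC', hmz]; ring)
    have hF2 : MemN (-4 * n) ⟨m₂, 2 * B', m₁ * C'⟩ :=
      memN_of_coprime hp2 (hco hd2) (by rw [← hC', hmz]; ring)
    have hG1 : MemN (-4 * n) ⟨m₁, 2 * B, m₂ * C⟩ :=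
      memN_of_coprime hp1 (hco hd1) (by rw [← hC, hmz]; ring)
    have hG2 : MemN (-4 * n) ⟨m₂, 2 * B, m₁ * C⟩ :=
      memN_of_coprime hp2 (hco hd2) (by rw [← hC, hmz]; ring)
    have k1 : cls _ hF1 = cls _ hG1 := by
      refine cls_eq_iff.mpr (eqv_of_b_congr (t := 2 * α * B) rfl hp1.ne' ?_ ?_)
      · rw [hF1.2.1, hG1.2.1]
      · show 2 * B = 2 * B' + 2 * m₁ * (2 * α * B)
        rw [e1]
        ring
    have k2 : cls _ hF2 = cls _ hG2 := by
      rw [hexp _ hG2, hinv _ hG2]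
      refine cls_eq_iff.mpr (eqv_of_b_congr (t := -(2 * β * B)) rfl hp2.ne' ?_ ?_)
      · rw [hF2.2.1, hG2.op.2.1]
      · show -(2 * B) = 2 * B' + 2 * m₂ * -(2 * β * B)
        rw [e2]
        ring
    have k3 := hmul m₁ m₂ (2 * B') C' hF1 hF2
    have k4 := hmul m₁ m₂ (2 * B) C hG1 hG2
    have k5 : cls _ (hF1.comp hF2) = cls _ (hG1.comp hG2) := by rw [← k3, ← k4, k1, k2]
    have k6 : (⟨1, 0, n⟩ : BForm).Eqv ⟨m, 2 * B', C'⟩ := by
      refine hE.trans ?_
      have k7 := (cls_eq_iff.mp k5).symm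
      rw [← hmz] at k7
      exact k7
    obtain ⟨u, v, huv, hdvd⟩ := exists_rep_of_eqv k6
    have hnat : m = u.natAbs ^ 2 + n * v.natAbs ^ 2 := by
      zify
      rw [sq_abs, sq_abs]
      exact huv
    obtain ⟨hu, hv⟩ := huniq _ _ hnat
    have hmpos : (0 : ℤ) < m := by omega
    have key1 : (m : ℤ) ∣ x + B' * y → False := by
      intro hd
      have h6 : (m : ℤ) ∣ (B' - B) * y := by
        have h7 : (B' - B) * y = (x + B' * y) - (x + B * y) := by ring
        rw [h7]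
        exact dvd_sub hd hBy
      have h7 : (m₂ : ℤ) ∣ B' - B := hd2.trans (hym.dvd_of_dvd_mul_right h6)
      refine hnd m₂ (by omega) hd2 ?_
      have h8 : 2 * B = -(B' - B) + m₂ * (2 * β * B) := by linear_combination e2
      rw [h8]
      exact dvd_add (dvd_neg.mpr h7) (dvd_mul_right _ _)
    have key2 : (m : ℤ) ∣ x - B' * y → False := by
      intro hd
      have h6 : (m : ℤ) ∣ (B' + B) * y := by
        have h7 : (B' + B) * y = (x + B * y) - (x - B' * y) := by ring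
        rw [h7]
        exact dvd_sub hBy hd
      have h7 : (m₁ : ℤ) ∣ B' + B := hd1.trans (hym.dvd_of_dvd_mul_right h6)
      refine hnd m₁ (by omega) hd1 ?_
      have h8 : 2 * B = (B' + B) - m₁ * (-2 * α * B) := by linear_combination (-1) * e1
      rw [h8]
      exact dvd_sub h7 (dvd_mul_right _ _)
    rcases Int.natAbs_eq u with h6 | h6 <;> rcases Int.natAbs_eq v with h7 | h7 <;>
      rw [h6, h7, hu, hv] at hdvd
    · exact key1 hdvd
    · refine key2 ?_
      rwa [mul_neg, ← sub_eq_add_neg] at hdvd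
    · refine key2 ?_
      rw [← dvd_neg] at hdvd
      rwa [show -(-(x : ℤ) + B' * y) = x - B' * y by ring] at hdvd
    · refine key1 ?_
      rw [← dvd_neg] at hdvd
      rwa [show -(-(x : ℤ) + B' * -(y : ℤ)) = x + B' * y by ring] at hdvd
  -- the prime power
  set q := m.minFac with hq
  have hqp : q.Prime := Nat.minFac_prime (by omega)
  obtain ⟨k, m', hm', hmk⟩ := Nat.exists_eq_pow_mul_and_not_dvd (show m ≠ 0 by omega) q
    hqp.ne_one
  have hk : k ≠ 0 := by
    rintro rfl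
    apply hm'
    have : q ∣ m := Nat.minFac_dvd m
    rwa [hmk, pow_zero, one_mul] at this
  have hm1 : m' = 1 := by
    by_contra hne
    have h0 : m' ≠ 0 := by
      rintro rfl
      exact hm' (dvd_zero q)
    exact hpp (q ^ k) m' (Nat.one_lt_pow hk hqp.one_lt) (by omega)
      (Nat.Coprime.pow_left k ((Nat.Prime.coprime_iff_not_dvd hqp).mpr hm')) hmk
  rw [hm1, mul_one] at hmk
  rcases Nat.lt_or_ge k 2 with hk2 | hk2
  · have : k = 1 := by omega
    rw [hmk, this, pow_one]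
    exact hqp
  exfalso
  obtain ⟨j, rfl⟩ := Nat.exists_eq_add_of_le hk2
  have hmz : (m : ℤ) = (q : ℤ) ^ j * (q ^ 2 : ℤ) := by
    rw [hmk]
    push_cast
    ring
  have hq0 : (0 : ℤ) < q := by exact_mod_cast hqp.pos
  have hA : MemN (-4 * n) ⟨(q : ℤ) ^ j, 2 * B, (q : ℤ) ^ 2 * C⟩ :=
    memN_of_coprime (by positivity) (hco ⟨_, hmz⟩) (by rw [← hC, hmz]; ring)
  have hA2 : MemN (-4 * n) ⟨(q : ℤ) ^ 2, 2 * B, (q : ℤ) ^ j * C⟩ :=
    memN_of_coprime (by positivity) (hco ⟨(q : ℤ) ^ j, by rw [hmz]; ring⟩)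
      (by rw [← hC, hmz]; ring)
  have hQ : MemN (-4 * n) ⟨q, 2 * B, q * ((q : ℤ) ^ j * C)⟩ :=
    memN_of_coprime hq0 (hco ⟨(q : ℤ) ^ j * q, by rw [hmz]; ring⟩) (by rw [← hC, hmz]; ring)
  have k1 := hmul _ _ (2 * B) C hA hA2
  have k2 := hmul _ _ (2 * B) _ hQ hQ
  have k3 : cls _ (hQ.comp hQ) = 1 := by
    rw [← k2]
    nth_rewrite 1 [hexp _ hQ]
    exact inv_mul_cancel _
  have k4 : cls _ hA2 = 1 := by
    rw [← k3]
    refine cls_eq_iff.mpr ?_
    rw [sq]
    exact Eqv.refl _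
  have k5 : cls _ (hA.comp hA2) = 1 := by
    rw [← h1n]
    refine (cls_eq_iff.mpr ?_)
    have := hE.symm
    rw [hmz] at this
    exact this
  rw [k4, mul_one, k5, ← h1n] at k1
  obtain ⟨u, v, huv, -⟩ := exists_rep_of_eqv (cls_eq_iff.mp k1).symm
  have hnat : m = (q * u.natAbs) ^ 2 + n * (q * v.natAbs) ^ 2 := by
    zify
    rw [mul_pow, mul_pow, sq_abs, sq_abs, hmz, huv]
    ring
  obtain ⟨hu, hv⟩ := huniq _ _ hnat
  have h6 : q ∣ Nat.gcd x y := Nat.dvd_gcd ⟨_, hu.symm⟩ ⟨_, hv.symm⟩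
  rw [Nat.coprime_iff_gcd_eq_one.mp hxy] at h6
  exact hqp.one_lt.ne' (Nat.dvd_one.mp h6)

/-- **Euler's primality test.** Let `n` be one of Euler's 65 idoneal numbers and let `m > 1` be odd
and prime to `n`. If `m = x² + n y²` with `x`, `y` coprime, and this is the only representation of
`m` by `x² + n y²` in natural numbers, then `m` is prime. -/
theorem euler_prime_test {n : ℕ} (hn : n ∈ idoneal) {m x y : ℕ} (hm : 1 < m) (hodd : Odd m)
    (hmn : m.Coprime n) (hxy : x.Coprime y) (h : m = x ^ 2 + n * y ^ 2)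
    (huniq : ∀ x' y' : ℕ, m = x' ^ 2 + n * y' ^ 2 → x' = x ∧ y' = y) : m.Prime := by
  have hn0 : 0 < n := (idonCheck_idoneal n hn).1
  exact prime_of_unique hn0 (fun f hf => eqv_op_of_eulerProp hn0
    (fun p hp h2 => euler_idoneal hn hp h2) hf) hm hodd hmn hxy h huniq

/-! ### Euler's example -/

/-- the integral parts of the square roots of `18518809 - 1848 y²`, `y < 100` -/
def eulerTable : List ℕ := [
  4303, 4303, 4302, 4301, 4299, 4297, 4295, 4292, 4289, 4285, 4281, 4277, 4272, 4266, 4261, 4254,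
  4248, 4240, 4233, 4225, 4216, 4207, 4198, 4188, 4177, 4166, 4155, 4143, 4131, 4118, 4105, 4091,
  4077, 4062, 4047, 4031, 4015, 3998, 3981, 3963, 3944, 3925, 3906, 3886, 3865, 3844, 3822, 3799,
  3776, 3752, 3728, 3702, 3677, 3650, 3623, 3595, 3566, 3537, 3507, 3476, 3444, 3412, 3378, 3344,
  3308, 3272, 3235, 3197, 3158, 3117, 3076, 3033, 2989, 2944, 2898, 2850, 2800, 2749, 2697, 2642,
  2586, 2528, 2468, 2405, 2340, 2273, 2202, 2128, 2051, 1969, 1884, 1793, 1696, 1592, 1479, 1356,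
  1219, 1063, 877, 637]

theorem eulerTable_spec : ∀ y ∈ List.range 100,
    (eulerTable.getD y 0) ^ 2 + 1848 * y ^ 2 < 18518809 ∧
      18518809 < (eulerTable.getD y 0 + 1) ^ 2 + 1848 * y ^ 2 := by
  decide +kernel

/-- **Euler 1778**: `18518809 = 197² + 1848 · 100²` is prime, because this is its only
representation by `x² + 1848 y²`. -/
theorem prime_18518809 : Nat.Prime 18518809 := by
  refine euler_prime_test (n := 1848) (x := 197) (y := 100) (by decide) (by norm_num) (by decide)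
    (by norm_num) (by norm_num) (by norm_num) fun x' y' h => ?_
  have hy : y' ≤ 100 := by
    by_contra hcon
    push Not at hcon
    nlinarith
  rcases hy.lt_or_eq with h1 | h1
  · exfalso
    obtain ⟨h2, h3⟩ := eulerTable_spec y' (List.mem_range.mpr h1)
    generalize eulerTable.getD y' 0 = s at h2 h3
    have h4 : s < x' := by
      by_contra hcon
      push Not at hcon
      nlinarith
    have h5 : x' < s + 1 := by
      by_contra hcon
      push Not at hcon
      nlinarith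
    omega
  · refine ⟨?_, h1⟩
    subst h1
    have h2 : x' ^ 2 = 197 ^ 2 := by omega
    exact Nat.pow_left_injective (n := 2) (by norm_num) h2

end Fermat.Agent.Cor.Ray
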