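import Fermat.Agent.Corollaries.Ray.EulerTest

/-!
# Numeri idonei in Euler's original sense

`TestProp n`: Euler's primality test holds for `n`. `ExpTwo n`: every primitive form of discriminant
`-4n` is properly equivalent to its opposite.

* `testProp_iff_expTwo`: `TestProp n ↔ ExpTwo n` for every `n ≥ 1`.
* `testProp_iff_mem_idoneal`: for `n ≤ 10000` this holds exactly for Euler's 65 numbers.
* `finite_expTwo`, `finite_testProp`: only finitely many `n` have these properties (Chowla 1934).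
-/

set_option autoImplicit false

noncomputable section

open NumberField QuadraticAlgebra Filter Topology
open scoped nonZeroDivisors

namespace Fermat.Agent.Cor.Ray

open BForm Fermat.Agent.Cor.RayN

/-- every primitive positive definite form of discriminant `-4n` is equivalent to its opposite -/
def ExpTwo (n : ℕ) : Prop := ∀ f : BForm, MemN (-4 * n) f → f.Eqv f.op

/-- **Euler's primality test holds for `n`** -/
def TestProp (n : ℕ) : Prop :=
  ∀ m x y : ℕ, 1 < m → Odd m → m.Coprime n → x.Coprime y → m = x ^ 2 + n * y ^ 2 →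
    (∀ x' y' : ℕ, m = x' ^ 2 + n * y' ^ 2 → x' = x ∧ y' = y) → m.Prime

theorem EulerProp.expTwo {n : ℕ} (hn : 0 < n) (h : EulerProp n) : ExpTwo n :=
  fun _ hf => eqv_op_of_eulerProp hn h hf

theorem ExpTwo.testProp {n : ℕ} (hn : 0 < n) (h : ExpTwo n) : TestProp n :=
  fun _ _ _ hm hodd hmn hxy he hu => prime_of_unique hn h hm hodd hmn hxy he hu

/-- the square of a class is the principal class -/
theorem ExpTwo.eqv_sq {n : ℕ} (hn : 0 < n) (hE : ExpTwo n) {k B C : ℤ} (hk : 0 < k)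
    (hkn : IsCoprime k (2 * n)) (h : k ^ 2 * C = B ^ 2 + n) :
    (⟨1, 0, n⟩ : BForm).Eqv ⟨k ^ 2, 2 * B, C⟩ := by
  have hn0 : (0 : ℤ) < n := by exact_mod_cast hn
  have hsq : ¬ IsSquare (-4 * (n : ℤ)) := by
    rintro ⟨r, hr⟩
    nlinarith [mul_self_nonneg r]
  obtain ⟨inst, hmul, hinv, hone⟩ := gauss_composition hsq (Or.inl (by omega))
  have hQ : MemN (-4 * n) ⟨k, 2 * B, k * C⟩ := memN_of_coprime hk hkn (by rw [← h]; ring)
  have h1 := hmul _ _ (2 * B) _ hQ hQ
  have h2 : cls _ hQ = (cls _ hQ)⁻¹ := by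
    rw [hinv]
    exact cls_eq_iff.mpr (hE _ hQ)
  have h3 : cls _ (hQ.comp hQ) = cls (⟨1, 0, n⟩ : BForm) (memN_one (n := n)) := by
    rw [← h1, hone 0 n memN_one]
    nth_rewrite 1 [h2]
    exact inv_mul_cancel _
  have h4 := (cls_eq_iff.mp h3).symm
  rwa [← sq] at h4

theorem not_expTwo_of_small {n : ℕ} (hn : 0 < n) {k B C : ℤ} (hk : 1 < k)
    (hkn : IsCoprime k (2 * n)) (h : k ^ 2 * C = B ^ 2 + n)
    (h1 : ∀ X Y : ℤ, X ^ 2 + n * Y ^ 2 = k ^ 2 → Y = 0) : ¬ ExpTwo n := by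
  intro hE
  have h3 := hE.eqv_sq hn (by linarith) hkn h
  obtain ⟨X, Y, hXY⟩ := h3.symm.exists_val (x := 1) (y := 0)
  have h4 : k ^ 2 * X ^ 2 + 2 * B * X * Y + C * Y ^ 2 = 1 := by
    have : (⟨1, 0, n⟩ : BForm).val 1 0 = 1 := by simp only [val]; ring
    rw [← this, ← hXY]
    rfl
  have h5 : (k ^ 2 * X + B * Y) ^ 2 + n * Y ^ 2 = k ^ 2 := by
    linear_combination k ^ 2 * h4 - Y ^ 2 * h
  have h6 := h1 _ _ h5
  rw [h6] at h4
  have h7 : k ^ 2 ∣ 1 := ⟨X ^ 2, by linear_combination -h4⟩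
  have h8 := Int.le_of_dvd one_pos h7
  nlinarith

theorem not_expTwo_of_wit' {n k : ℕ} (hn : 0 < n) (h : IdonWit' n k) : ¬ ExpTwo n := by
  obtain ⟨hk, hco, ⟨B, -, hB⟩, hXY⟩ := h
  have hkn : IsCoprime (k : ℤ) (2 * n) := by
    have := Nat.isCoprime_iff_coprime.mpr (show Nat.Coprime k (2 * n) from hco)
    exact_mod_cast this
  obtain ⟨B', C, hC⟩ := exists_lift hkn hB
  refine not_expTwo_of_small hn (k := k) (by exact_mod_cast hk) hkn hC ?_
  intro X Y h
  by_contra hY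
  have hn0 : (0 : ℤ) < n := by exact_mod_cast hn
  have h1 : X.natAbs ^ 2 + n * Y.natAbs ^ 2 = k ^ 2 := by
    zify
    rw [sq_abs, sq_abs]
    exact h
  have hY1 : 1 ≤ Y.natAbs := Int.natAbs_pos.mpr hY
  have hX : X.natAbs ≤ k := by
    by_contra hcon
    push Not at hcon
    nlinarith
  have hYk : Y.natAbs ≤ k := by
    by_contra hcon
    push Not at hcon
    nlinarith
  refine hXY (Y.natAbs - 1) (List.mem_range.mpr (by omega)) X.natAbs
    (List.mem_range.mpr (by omega)) ?_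
  rw [Nat.sub_add_cancel hY1]
  exact h1

/-- **For `n ≤ 10000` the class group of the forms of discriminant `-4n` has exponent at most two
exactly for Euler's 65 numbers.** -/
theorem expTwo_iff_mem_idoneal {n : ℕ} (h0 : 0 < n) (hn : n ≤ 10000) :
    ExpTwo n ↔ n ∈ idoneal := by
  constructor
  · intro hE
    have h1 := wit_table (n / 100) (List.mem_range.mpr (by omega)) (n % 100)
      (List.mem_range.mpr (by omega))
    rw [Nat.div_add_mod] at h1
    rcases h1 with ⟨k, -, hk⟩ | h1 | ⟨k, -, hk⟩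
    · exact absurd hE (not_expTwo_of_wit' h0 hk.wit')
    · rcases List.mem_cons.mp h1 with h2 | h2
      · omega
      · exact h2
    · exact absurd hE (not_expTwo_of_wit' h0 hk)
  · intro h
    exact EulerProp.expTwo h0 fun p hp h2 => euler_idoneal h hp h2

/-! ### The converse of Euler's test -/

theorem exists_rep_of_eqv' {n : ℕ} {a B c : ℤ} (h : (⟨1, 0, n⟩ : BForm).Eqv ⟨a, 2 * B, c⟩) :
    ∃ u v : ℤ, IsCoprime u v ∧ a = u ^ 2 + n * v ^ 2 ∧ a ∣ u + B * v := by
  obtain ⟨p, q, r, s, h1, h2⟩ := h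
  have ha := congrArg BForm.a h2
  have hb := congrArg BForm.b h2
  simp only [subst, val] at ha hb
  refine ⟨p, r, ⟨s, -q, by linear_combination h1⟩, by rw [← ha]; ring, s, ?_⟩
  have hB : B = p * q + n * r * s := by
    have : 2 * B = 2 * (p * q + n * r * s) := by
      rw [← hb]
      ring
    linarith
  rw [hB, ← ha]
  linear_combination (-p) * h1

/-- a form which represents the prime `p` is equivalent to `(p, 2β, γ)` -/
theorem exists_eqv_prime {n p : ℕ} (hp : p.Prime) {f : BForm}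
    (hf : MemN (-4 * n) f) {u v : ℤ} (h : f.val u v = p) :
    ∃ β γ : ℤ, f.Eqv ⟨p, 2 * β, γ⟩ ∧ p * γ = β ^ 2 + n := by
  obtain ⟨r, s, -, h1, h2⟩ := f.exists_eqv_of_isCoprime (isCoprime_of_val_prime hp h)
  set g := f.subst u r v s with hg
  rw [h] at h2
  have hgd : g.b ^ 2 - 4 * g.a * g.c = -4 * n := by
    rw [← hf.2.1, ← h1.disc_eq]
    rfl
  obtain ⟨β, hβ⟩ : (2 : ℤ) ∣ g.b := by
    have : (2 : ℤ) ∣ g.b ^ 2 := ⟨2 * g.a * g.c - 2 * n, by linear_combination hgd⟩
    exact Int.prime_two.dvd_of_dvd_pow this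
  refine ⟨β, g.c, ?_, ?_⟩
  · rw [← h2, ← hβ]
    exact h1
  · rw [hβ, h2] at hgd
    linarith

/-- two representations with proportional roots are equal -/
theorem rep_unique {n : ℕ} (hn : 2 ≤ n) {m x y u v : ℤ} (hm : 0 < m) (h : m = x ^ 2 + n * y ^ 2)
    (h' : m = u ^ 2 + n * v ^ 2) (hd : m ∣ x * v - u * y) : u ^ 2 = x ^ 2 ∧ v ^ 2 = y ^ 2 := by
  have hn2 : (2 : ℤ) ≤ n := by exact_mod_cast hn
  obtain ⟨t, ht⟩ := hd
  have h1 : m ^ 2 = (x * u + n * y * v) ^ 2 + n * (m * t) ^ 2 := by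
    rw [← ht]
    calc m ^ 2 = m * m := sq m
      _ = (x ^ 2 + n * y ^ 2) * (u ^ 2 + n * v ^ 2) := by rw [← h, ← h']
      _ = _ := by ring
  have ht0 : t = 0 := by
    by_contra hne
    have h2 : 1 ≤ t ^ 2 := by
      have := Int.one_le_abs hne
      rw [← sq_abs]
      nlinarith
    have h3 : 0 < m ^ 2 := by positivity
    nlinarith [sq_nonneg (x * u + n * y * v), mul_le_mul hn2 h2 zero_le_one (by linarith)]
  rw [ht0, mul_zero] at ht
  have h4 : x ^ 2 * v ^ 2 = u ^ 2 * y ^ 2 := by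
    have : x * v = u * y := by linarith
    calc x ^ 2 * v ^ 2 = (x * v) ^ 2 := by ring
      _ = (u * y) ^ 2 := by rw [this]
      _ = _ := by ring
  have h5 : m * v ^ 2 = m * y ^ 2 := by
    have e1 : x ^ 2 = m - n * y ^ 2 := by linarith
    have e2 : u ^ 2 = m - n * v ^ 2 := by linarith
    rw [e1, e2] at h4
    linarith
  have h6 : v ^ 2 = y ^ 2 := mul_left_cancel₀ hm.ne' h5
  refine ⟨?_, h6⟩
  rw [h6] at h'
  linarith

/-- **The converse of Euler's primality test** -/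
theorem TestProp.expTwo {n : ℕ} (hn : 0 < n) (hT : TestProp n) : ExpTwo n := by
  intro f hf
  by_contra hne
  have hn0 : (0 : ℤ) < n := by exact_mod_cast hn
  have hn2 : 2 ≤ n := by
    by_contra hcon
    have h1 : n = 1 := by omega
    subst h1
    exact hne (((expTwo_iff_mem_idoneal one_pos (by norm_num)).mpr (by decide)) f hf)
  have hsq : ¬ IsSquare (-4 * (n : ℤ)) := by
    rintro ⟨r, hr⟩
    nlinarith [mul_self_nonneg r]
  obtain ⟨inst, hmul, hinv, hone⟩ := gauss_composition hsq (Or.inl (by omega))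
  have h1n : cls (⟨1, 0, n⟩ : BForm) (memN_one (n := n)) = 1 := hone 0 n memN_one
  have hfa : 0 < f.a := hf.2.2 (by linarith)
  have hinf := infinite_primes_of_prim (a := f.a) (b := f.b) (c := f.c) hf.1 hfa (by
    have : f.b ^ 2 - 4 * f.a * f.c = -4 * n := hf.2.1
    rw [this]
    linarith)
  obtain ⟨p, ⟨hp, u, v, huv⟩, hlt⟩ := hinf.exists_gt (2 * n)
  obtain ⟨q, ⟨hq, u', v', huv'⟩, hlt'⟩ := hinf.exists_gt p
  have hpq : p.Coprime q := (Nat.coprime_primes hp hq).mpr (by omega)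
  have hcop : ∀ {l : ℕ}, l.Prime → 2 * n < l → l.Coprime (2 * n) := fun hl h =>
    (Nat.Prime.coprime_iff_not_dvd hl).mpr fun hd => by
      have := Nat.le_of_dvd (by omega) hd
      omega
  have hpc := hcop hp hlt
  have hqc := hcop hq (by omega)
  have hpz : IsCoprime (p : ℤ) (2 * n) := by
    have := Nat.isCoprime_iff_coprime.mpr hpc
    exact_mod_cast this
  have hqz : IsCoprime (q : ℤ) (2 * n) := by
    have := Nat.isCoprime_iff_coprime.mpr hqc
    exact_mod_cast this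
  have hp0 : (0 : ℤ) < p := by exact_mod_cast hp.pos
  have hq0 : (0 : ℤ) < q := by exact_mod_cast hq.pos
  obtain ⟨β₁, γ₁, hE₁, hc₁⟩ := exists_eqv_prime hp hf huv
  obtain ⟨β₂, γ₂, hE₂, hc₂⟩ := exists_eqv_prime hq hf huv'
  -- the classes of the forms `(p, 2B, q C)` and `(q, 2B, p C)`
  have hclp : ∀ {B C : ℤ}, (p * q : ℤ) * C = B ^ 2 + n →
      ∃ hF : MemN (-4 * n) ⟨p, 2 * B, q * C⟩,
        ((p : ℤ) ∣ B - β₁ → cls _ hF = cls f hf) ∧ ((p : ℤ) ∣ B + β₁ → cls _ hF = (cls f hf)⁻¹) := by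
    intro B C hB
    have hF : MemN (-4 * n) ⟨p, 2 * B, q * C⟩ := memN_of_coprime hp0 hpz (by rw [← hB]; ring)
    have hG : MemN (-4 * n) ⟨p, 2 * β₁, γ₁⟩ := hf.of_eqv hE₁
    refine ⟨hF, ?_, ?_⟩
    · rintro ⟨t, ht⟩
      have hs : (⟨p, 2 * B, q * C⟩ : BForm).Eqv ⟨p, 2 * β₁, γ₁⟩ := by
        refine eqv_of_b_congr (t := -t) rfl hp0.ne' (by rw [hF.2.1, hG.2.1]) ?_
        show 2 * β₁ = 2 * B + 2 * p * -t
        linear_combination (-2) * ht
      exact cls_eq_iff.mpr (hs.trans hE₁.symm)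
    · rintro ⟨t, ht⟩
      rw [hinv]
      have hs : (⟨p, 2 * B, q * C⟩ : BForm).Eqv (⟨p, 2 * β₁, γ₁⟩ : BForm).op := by
        refine eqv_of_b_congr (t := -t) rfl hp0.ne' (by rw [hF.2.1, hG.op.2.1]) ?_
        show -(2 * β₁) = 2 * B + 2 * p * -t
        linear_combination (-2) * ht
      exact cls_eq_iff.mpr (hs.trans hE₁.symm.op)
  have hclq : ∀ {B C : ℤ}, (p * q : ℤ) * C = B ^ 2 + n →
      ∃ hF : MemN (-4 * n) ⟨q, 2 * B, p * C⟩,
        ((q : ℤ) ∣ B - β₂ → cls _ hF = cls f hf) ∧ ((q : ℤ) ∣ B + β₂ → cls _ hF = (cls f hf)⁻¹) := by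
    intro B C hB
    have hF : MemN (-4 * n) ⟨q, 2 * B, p * C⟩ := memN_of_coprime hq0 hqz (by rw [← hB]; ring)
    have hG : MemN (-4 * n) ⟨q, 2 * β₂, γ₂⟩ := hf.of_eqv hE₂
    refine ⟨hF, ?_, ?_⟩
    · rintro ⟨t, ht⟩
      have hs : (⟨q, 2 * B, p * C⟩ : BForm).Eqv ⟨q, 2 * β₂, γ₂⟩ := by
        refine eqv_of_b_congr (t := -t) rfl hq0.ne' (by rw [hF.2.1, hG.2.1]) ?_
        show 2 * β₂ = 2 * B + 2 * q * -t
        linear_combination (-2) * ht
      exact cls_eq_iff.mpr (hs.trans hE₂.symm)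
    · rintro ⟨t, ht⟩
      rw [hinv]
      have hs : (⟨q, 2 * B, p * C⟩ : BForm).Eqv (⟨q, 2 * β₂, γ₂⟩ : BForm).op := by
        refine eqv_of_b_congr (t := -t) rfl hq0.ne' (by rw [hF.2.1, hG.op.2.1]) ?_
        show -(2 * β₂) = 2 * B + 2 * q * -t
        linear_combination (-2) * ht
      exact cls_eq_iff.mpr (hs.trans hE₂.symm.op)
  have hne2 : cls f hf * cls f hf ≠ 1 := by
    intro h1
    apply hne
    have h2 : cls f hf = cls f.op hf.op := by
      rw [← hinv f hf]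
      exact (inv_eq_of_mul_eq_one_left h1).symm
    exact cls_eq_iff.mp h2
  -- the square root of `-n` modulo `p q`
  obtain ⟨α, β, hαβ⟩ := Nat.isCoprime_iff_coprime.mpr hpq
  set B := β₁ * (β * q) - β₂ * (α * p) with hBdef
  have hBp : (p : ℤ) ∣ B - β₁ := ⟨-α * (β₁ + β₂), by
    rw [hBdef]
    linear_combination β₁ * hαβ⟩
  have hBq : (q : ℤ) ∣ B + β₂ := ⟨β * (β₁ + β₂), by
    rw [hBdef]
    linear_combination (-β₂) * hαβ⟩
  have hpd : (p : ℤ) ∣ B ^ 2 + n := by
    have e : B ^ 2 + n = (B - β₁) * (B + β₁) + p * γ₁ := by rw [hc₁]; ring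
    rw [e]
    exact dvd_add (hBp.mul_right _) (dvd_mul_right _ _)
  have hqd : (q : ℤ) ∣ B ^ 2 + n := by
    have e : B ^ 2 + n = (B + β₂) * (B - β₂) + q * γ₂ := by rw [hc₂]; ring
    rw [e]
    exact dvd_add (hBq.mul_right _) (dvd_mul_right _ _)
  obtain ⟨C, hC⟩ := (Nat.isCoprime_iff_coprime.mpr hpq).mul_dvd hpd hqd
  obtain ⟨hFp, hFp1, -⟩ := hclp hC.symm
  obtain ⟨hFq, -, hFq1⟩ := hclq hC.symm
  have k1 := hmul _ _ (2 * B) C hFp hFq
  rw [hFp1 hBp, hFq1 hBq, mul_inv_cancel, ← h1n] at k1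
  obtain ⟨x, y, hxy, hm, hdvd⟩ := exists_rep_of_eqv' (cls_eq_iff.mp k1)
  have hm0 : (0 : ℤ) < p * q := mul_pos hp0 hq0
  have hmn : p * q = x.natAbs ^ 2 + n * y.natAbs ^ 2 := by
    zify
    rw [sq_abs, sq_abs]
    exact hm
  have hpodd : Odd p := hp.odd_of_ne_two (by omega)
  have hqodd : Odd q := hq.odd_of_ne_two (by omega)
  have hprime := hT (p * q) x.natAbs y.natAbs (by nlinarith [hp.two_le, hq.two_le])
    (hpodd.mul hqodd) (Nat.Coprime.mul_left hpc.coprime_mul_left_right hqc.coprime_mul_left_right)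
    (Int.isCoprime_iff_gcd_eq_one.mp hxy) hmn ?_
  · exact Nat.not_prime_mul hp.ne_one hq.ne_one hprime
  intro x' y' h'
  have hz' : ((p : ℤ) * q) = (x' : ℤ) ^ 2 + n * (y' : ℤ) ^ 2 := by exact_mod_cast h'
  have hco' : IsCoprime (x' : ℤ) y' := by
    rw [Nat.isCoprime_iff_coprime]
    refine Nat.Coprime.symm (Nat.coprime_of_dvd fun l hl hly hlx => ?_)
    have h2 : l * l ∣ p * q := by
      rw [h']
      obtain ⟨a, rfl⟩ := hlx
      obtain ⟨b, rfl⟩ := hly
      exact ⟨a ^ 2 + n * b ^ 2, by ring⟩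
    have h3 : Squarefree (p * q) :=
      (Nat.squarefree_mul_iff).mpr ⟨hpq, hp.prime.squarefree, hq.prime.squarefree⟩
    exact hl.one_lt.ne' (Nat.isUnit_iff.mp (h3 l h2))
  obtain ⟨B', C', hE', hC', hd'⟩ := exists_eqv_of_rep (n := n) hco' hz'
  obtain ⟨hGp, hGp1, hGp2⟩ := hclp hC'
  obtain ⟨hGq, hGq1, hGq2⟩ := hclq hC'
  have k2 := hmul _ _ (2 * B') C' hGp hGq
  have k3 : cls _ (hGp.comp hGq) = 1 := by
    rw [← h1n]
    exact cls_eq_iff.mpr hE'.symm
  rw [k3] at k2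
  have hpi : Prime (p : ℤ) := Nat.prime_iff_prime_int.mp hp
  have hqi : Prime (q : ℤ) := Nat.prime_iff_prime_int.mp hq
  have hp' : (p : ℤ) ∣ (B' - β₁) * (B' + β₁) := by
    have e : (B' - β₁) * (B' + β₁) = p * (q * C' - γ₁) := by linear_combination -hC' + hc₁
    rw [e]
    exact dvd_mul_right _ _
  have hq' : (q : ℤ) ∣ (B' - β₂) * (B' + β₂) := by
    have e : (B' - β₂) * (B' + β₂) = q * (p * C' - γ₂) := by linear_combination -hC' + hc₂
    rw [e]
    exact dvd_mul_right _ _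
  have hcopq : IsCoprime (p : ℤ) q := Nat.isCoprime_iff_coprime.mpr hpq
  have hconc : (x' : ℤ) ^ 2 = x ^ 2 ∧ (y' : ℤ) ^ 2 = y ^ 2 → x' = x.natAbs ∧ y' = y.natAbs := by
    rintro ⟨e1, e2⟩
    refine ⟨?_, ?_⟩
    · have : x' ^ 2 = x.natAbs ^ 2 := by
        zify
        rw [sq_abs]
        exact e1
      exact Nat.pow_left_injective (n := 2) (by norm_num) this
    · have : y' ^ 2 = y.natAbs ^ 2 := by
        zify
        rw [sq_abs]
        exact e2
      exact Nat.pow_left_injective (n := 2) (by norm_num) this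
  rcases hpi.dvd_or_dvd hp' with hp'' | hp'' <;> rcases hqi.dvd_or_dvd hq' with hq'' | hq''
  · exfalso
    rw [hGp1 hp'', hGq1 hq''] at k2
    exact hne2 k2
  · -- `B' = B`
    have h5 : (p * q : ℤ) ∣ B' - B := hcopq.mul_dvd
      (by have := dvd_sub hp'' hBp; rwa [sub_sub_sub_cancel_right] at this)
      (by have := dvd_sub hq'' hBq; rwa [add_sub_add_right_eq_sub] at this)
    apply hconc
    refine rep_unique hn2 hm0 hm hz' ?_
    have e : x * y' - x' * y = (x + B * y) * y' - (x' + B' * y') * y + (B' - B) * (y * y') := by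
      ring
    rw [e]
    exact dvd_add (dvd_sub (hdvd.mul_right _) (hd'.mul_right _)) (h5.mul_right _)
  · -- `B' = -B`
    have h5 : (p * q : ℤ) ∣ B' + B := hcopq.mul_dvd
      (by
        have := dvd_add hp'' hBp
        rwa [show B' + β₁ + (B - β₁) = B' + B by ring] at this)
      (by
        have := dvd_add hq'' hBq
        rwa [show B' - β₂ + (B + β₂) = B' + B by ring] at this)
    apply hconc
    have h6 := rep_unique (x := x) (y := -y) (u := x') (v := y') hn2 hm0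
      (by rw [hm]; ring) hz' (by
        have e : x * y' - x' * -y = (x + B * y) * y' + (x' + B' * y') * y -
            (B' + B) * (y * y') := by ring
        rw [e]
        exact dvd_sub (dvd_add (hdvd.mul_right _) (hd'.mul_right _)) (h5.mul_right _))
    rwa [neg_sq] at h6
  · exfalso
    rw [hGp2 hp'', hGq2 hq''] at k2
    apply hne2
    rw [← inv_eq_one, mul_inv]
    exact k2

/-- **Euler's numeri idonei**: Euler's primality test holds for `n` if and only if the class group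
of the forms of discriminant `-4n` has exponent at most two. -/
theorem testProp_iff_expTwo {n : ℕ} (hn : 0 < n) : TestProp n ↔ ExpTwo n :=
  ⟨fun h => h.expTwo hn, fun h => h.testProp hn⟩

/-- **For `n ≤ 10000` Euler's primality test holds exactly for Euler's 65 numbers.** -/
theorem testProp_iff_mem_idoneal {n : ℕ} (h0 : 0 < n) (hn : n ≤ 10000) :
    TestProp n ↔ n ∈ idoneal := by
  rw [testProp_iff_expTwo h0, expTwo_iff_mem_idoneal h0 hn]

/-! ### Finiteness -/

/-- the class group of `ℚ(√-n)` has exponent at most two -/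
theorem sq_eq_one_of_expTwo {n : ℕ} (hn : 0 < n) (hE : ExpTwo n)
    [hF : Fact (∀ r : ℚ, r ^ 2 ≠ -(((1 : ℤ) : ℚ) * (n : ℤ)) + -((0 : ℤ) : ℚ) * r)]
    (x : ClassGroup (𝓞 (QF 1 0 n))) : x ^ 2 = 1 := by
  have hn0 : (0 : ℤ) < n := by exact_mod_cast hn
  have hD : (0 : ℤ) ^ 2 - 4 * 1 * n = -4 * n := by ring
  have hsq : ¬ IsSquare ((0 : ℤ) ^ 2 - 4 * 1 * n) := by
    rintro ⟨r, hr⟩
    nlinarith [mul_self_nonneg r]
  obtain ⟨y, rfl⟩ := toCl_surjective hsq x
  obtain ⟨f, hf, rfl⟩ := exists_cls y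
  obtain ⟨a, B, C, ha, hco, h, hfe⟩ := exists_dup hn (hD ▸ hf)
  have hg : MemN ((0 : ℤ) ^ 2 - 4 * 1 * n) ⟨a, 2 * B, a * C⟩ := hf.of_eqv hfe
  have h1 := toCl_mul hsq hg hg
  have h2 : cls _ (hg.comp hg) = cls _ memN_principal :=
    cls_eq_iff.mpr (by
      have := (hE.eqv_sq hn ha hco h).symm
      rwa [sq] at this)
  have h3 : cls f hf = cls _ hg := cls_eq_iff.mpr hfe
  rw [h3, sq, ← h1, h2, toCl_cls, clI, ClassGroup.mk0_eq_one_iff]
  have h4 : idF 0 (n : ℤ) ⟨1, 0, n⟩ = ⊤ := by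
    rw [Ideal.eq_top_iff_one]
    have h5 := a_mem_idF (e := 0) (n := (n : ℤ)) ⟨1, 0, n⟩
    simpa using h5
  show (idF 0 (n : ℤ) ⟨1, 0, n⟩).IsPrincipal
  rw [h4]
  exact top_isPrincipal

/-- the small primes `u² + m v²` divide `2 m t` -/
theorem dvd_of_expTwo {m t : ℕ} (hm : 0 < m) (ht : 0 < t) (hE : ExpTwo (m * t ^ 2)) {k : ℕ}
    (hk : k.Prime) (hkt : k < t) {u v : ℕ} (h : k = u ^ 2 + m * v ^ 2) : k ∣ 2 * m * t := by
  by_contra hnd
  have hnd' : ¬ k ∣ 2 * (m * t ^ 2) := by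
    intro hd
    have h1 : k ∣ 2 * m * t * t := by
      have h2 : 2 * (m * t ^ 2) = 2 * m * t * t := by ring
      rwa [h2] at hd
    rcases hk.dvd_mul.mp h1 with h2 | h2
    · exact hnd h2
    · exact hnd (h2.mul_left _)
  have hkn : IsCoprime (k : ℤ) (2 * ((m * t ^ 2 : ℕ) : ℤ)) := by
    have := Nat.isCoprime_iff_coprime.mpr ((Nat.Prime.coprime_iff_not_dvd hk).mpr hnd')
    exact_mod_cast this
  have : Fact k.Prime := ⟨hk⟩
  have h0 : (u : ZMod k) ^ 2 + m * (v : ZMod k) ^ 2 = 0 := by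
    have h1 := congrArg (Nat.cast : ℕ → ZMod k) h
    rw [ZMod.natCast_self] at h1
    push_cast at h1
    exact h1.symm
  have hv : (v : ZMod k) ≠ 0 := by
    intro hv0
    rw [hv0] at h0
    have hu0 : (u : ZMod k) = 0 := by
      have h1 : (u : ZMod k) ^ 2 = 0 := by
        rw [← h0]
        ring
      exact pow_eq_zero_iff (two_ne_zero) |>.mp h1
    rw [ZMod.natCast_eq_zero_iff] at hv0 hu0
    obtain ⟨u', rfl⟩ := hu0
    obtain ⟨v', rfl⟩ := hv0
    have h1 : k ∣ 1 := by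
      refine ⟨u' ^ 2 + m * v' ^ 2, ?_⟩
      have h2 : k * 1 = k * (k * (u' ^ 2 + m * v' ^ 2)) := by
        rw [mul_one]
        calc k = (k * u') ^ 2 + m * (k * v') ^ 2 := h
          _ = _ := by ring
      exact Nat.eq_of_mul_eq_mul_left hk.pos h2
    exact hk.one_lt.ne' (Nat.dvd_one.mp h1)
  set w : ZMod k := u * (v : ZMod k)⁻¹ with hw
  have h1 : w ^ 2 + m = 0 := by
    have h2 : (v : ZMod k) ^ 2 * (w ^ 2 + m) = 0 := by
      rw [hw]
      field_simp
      linear_combination h0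
    rcases mul_eq_zero.mp h2 with h3 | h3
    · exact absurd ((pow_eq_zero_iff two_ne_zero).mp h3) hv
    · exact h3
  have h2 : (w.val * t * (w.val * t) + m * t ^ 2) % k = 0 := by
    refine Nat.mod_eq_zero_of_dvd ?_
    rw [← ZMod.natCast_eq_zero_iff]
    push_cast
    rw [ZMod.natCast_zmod_val]
    linear_combination (t : ZMod k) ^ 2 * h1
  obtain ⟨B, C, hC⟩ := exists_lift hkn h2
  have hn : 0 < m * t ^ 2 := by positivity
  refine not_expTwo_of_small hn (k := k) (by exact_mod_cast hk.one_lt) hkn hC ?_ hE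
  · intro X Y hXY
    by_contra hY
    have h3 : (1 : ℤ) ≤ Y ^ 2 := by
      have := Int.one_le_abs hY
      rw [← sq_abs]
      nlinarith
    have h4 : (k : ℤ) ^ 2 < t ^ 2 := by
      have : k ^ 2 < t ^ 2 := Nat.pow_lt_pow_left hkt two_ne_zero
      exact_mod_cast this
    have h5 : (t : ℤ) ^ 2 ≤ (m * t ^ 2 : ℕ) := by
      have : t ^ 2 ≤ m * t ^ 2 := Nat.le_mul_of_pos_left _ hm
      exact_mod_cast this
    have h6 : ((m * t ^ 2 : ℕ) : ℤ) ≤ (m * t ^ 2 : ℕ) * Y ^ 2 :=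
      le_mul_of_one_le_right (Int.natCast_nonneg _) h3
    nlinarith [sq_nonneg X]

theorem finite_expTwo_mul_sq {m : ℕ} (hm : 0 < m) : {t : ℕ | ExpTwo (m * t ^ 2)}.Finite := by
  by_contra hinf
  have hfreq : ∃ᶠ t in atTop, ExpTwo (m * t ^ 2) := Nat.frequently_atTop_iff_infinite.mpr hinf
  have hlim := density_sq_add_mul hm
  have hpos : (0 : ℝ) < 1 / (2 * formClassNumber (-4 * m)) := by
    have h1 : 0 < formClassNumber (-4 * m) := by
      rw [show formClassNumber (-4 * (m : ℤ)) = hForm (-4 * (m : ℤ)) from rfl]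
      have h2 : (0 : ℤ) < m := by exact_mod_cast hm
      exact hForm_pos (by linarith) (Or.inl (by omega))
    have h2 : (0 : ℝ) < formClassNumber (-4 * m) := by exact_mod_cast h1
    positivity
  have hl1 : Tendsto (fun x : ℝ => Real.log x / x) atTop (𝓝 0) := by
    have := Real.isLittleO_log_id_atTop.tendsto_div_nhds_zero
    exact this
  have hl2 : Tendsto (fun x : ℝ => Real.log x ^ 2 / x) atTop (𝓝 0) := by
    have := (Real.isLittleO_pow_log_id_atTop (n := 2)).tendsto_div_nhds_zero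
    exact this
  have hG : Tendsto (fun t : ℕ => Real.log (2 * m) / Real.log 2 * (Real.log t / t) +
      1 / Real.log 2 * (Real.log t ^ 2 / t)) atTop (𝓝 0) := by
    have h1 := (hl1.comp tendsto_natCast_atTop_atTop).const_mul (Real.log (2 * m) / Real.log 2)
    have h2 := (hl2.comp tendsto_natCast_atTop_atTop).const_mul (1 / Real.log 2)
    have h3 := h1.add h2
    rw [mul_zero, mul_zero, add_zero] at h3
    exact h3
  have hsub := hlim.sub hG
  rw [sub_zero] at hsub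
  have hev := hsub.eventually (lt_mem_nhds hpos)
  obtain ⟨t, hE, hlt, ht⟩ := (hfreq.and_eventually (hev.and (eventually_gt_atTop 0))).exists
  have hcard : Nat.card {p : ℕ // p ≤ t ∧ p.Prime ∧ ∃ u v : ℕ, p = u ^ 2 + m * v ^ 2} ≤
      (2 * m * t).primeFactors.card := by
    have hmem : ∀ p : {p : ℕ // p ≤ t ∧ p.Prime ∧ ∃ u v : ℕ, p = u ^ 2 + m * v ^ 2},
        p.1 ∈ (2 * m * t).primeFactors := by
      rintro ⟨p, hpt, hp, u, v, huv⟩
      rw [Nat.mem_primeFactors]
      refine ⟨hp, ?_, by positivity⟩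
      rcases hpt.lt_or_eq with h1 | h1
      · exact dvd_of_expTwo hm ht hE hp h1 huv
      · show p ∣ 2 * m * t
        rw [h1]
        exact dvd_mul_left t _
    rw [← Fintype.card_coe, ← Nat.card_eq_fintype_card]
    exact Nat.card_le_card_of_injective (fun p => (⟨p.1, hmem p⟩ : (2 * m * t).primeFactors))
      fun p q hpq => Subtype.ext (congrArg (fun z : (2 * m * t).primeFactors => (z : ℕ)) hpq)
  have ht1 : (1 : ℝ) ≤ t := by exact_mod_cast ht
  have hlt0 : 0 ≤ Real.log t := Real.log_nonneg ht1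
  have hlog2 : 0 < Real.log 2 := Real.log_pos (by norm_num)
  have h1 := card_primeFactors_mul_log_le (N := 2 * m * t) (by positivity)
  have hm0 : (0 : ℝ) < m := by exact_mod_cast hm
  have h2 : Real.log ((2 * m * t : ℕ) : ℝ) = Real.log (2 * m) + Real.log t := by
    push_cast
    rw [Real.log_mul (by positivity) (by positivity)]
  rw [h2] at h1
  set c := Nat.card {p : ℕ // p ≤ t ∧ p.Prime ∧ ∃ u v : ℕ, p = u ^ 2 + m * v ^ 2} with hc
  have h3 : (c : ℝ) ≤ (Real.log (2 * m) + Real.log t) / Real.log 2 := by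
    rw [le_div_iff₀ hlog2]
    refine le_trans ?_ h1
    have : (c : ℝ) ≤ (2 * m * t).primeFactors.card := by exact_mod_cast hcard
    exact mul_le_mul_of_nonneg_right this hlog2.le
  have h4 : (c : ℝ) * Real.log t / t ≤ Real.log (2 * m) / Real.log 2 * (Real.log t / t) +
      1 / Real.log 2 * (Real.log t ^ 2 / t) := by
    have h5 : (c : ℝ) * Real.log t / t ≤
        (Real.log (2 * m) + Real.log t) / Real.log 2 * Real.log t / t := by
      gcongr
    refine h5.trans (le_of_eq ?_)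
    field_simp
  linarith

/-- **There are only finitely many discriminants `-4n` with one class per genus** (conjectured by
Gauss, proved by Chowla 1934), for all `n` and not only for fundamental discriminants: only
finitely many `n ≥ 1` are such that every primitive positive definite form of discriminant `-4n` is
properly equivalent to its opposite. -/
theorem finite_expTwo : {n : ℕ | 0 < n ∧ ExpTwo n}.Finite := by
  obtain ⟨B, hB⟩ := Siegel.chowla_exponent_two
  have hfin : (⋃ m ∈ Set.Icc 1 B, (fun t : ℕ => m * t ^ 2) ''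
      {t : ℕ | ExpTwo (m * t ^ 2)}).Finite :=
    (Set.finite_Icc 1 B).biUnion fun m hm => (finite_expTwo_mul_sq hm.1).image _
  refine hfin.subset ?_
  rintro n ⟨hn, hE'⟩
  obtain ⟨m, t, hmt, hsf⟩ := Nat.sq_mul_squarefree n
  have ht : t ≠ 0 := by
    rintro rfl
    rw [← hmt] at hn
    simp at hn
  have hm : 0 < m := Nat.pos_of_ne_zero hsf.ne_zero
  have hn0 : (0 : ℤ) < n := by exact_mod_cast hn
  have hsq : ¬ IsSquare ((0 : ℤ) ^ 2 - 4 * 1 * n) := by
    rintro ⟨r, hr⟩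
    nlinarith [mul_self_nonneg r]
  have hF : Fact (∀ r : ℚ, r ^ 2 ≠ -(((1 : ℤ) : ℚ) * (n : ℤ)) + -((0 : ℤ) : ℚ) * r) :=
    fact_of_not_isSquare hsq
  -- a square root of `-m`
  obtain ⟨w, hw⟩ : ∃ w : QF 1 0 n, w ^ 2 = -(n : QF 1 0 n) := by
    refine ⟨⟨0, 1⟩, ?_⟩
    rw [sq, QuadraticAlgebra.mk_mul_mk]
    ext <;> simp
  have ht' : (t : QF 1 0 n) ≠ 0 := by exact_mod_cast ht
  have hδ : (w / (t : QF 1 0 n)) ^ 2 = -(m : QF 1 0 n) := by
    have h0 := congrArg (Nat.cast : ℕ → QF 1 0 n) hmt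
    push_cast at h0
    rw [div_pow, hw, neg_div, neg_inj, div_eq_iff (pow_ne_zero 2 ht')]
    exact h0.symm.trans (mul_comm _ _)
  have : IsTotallyComplex (QF 1 0 n) := isTotallyComplex_of_sq hm hδ
  have h1 := hB (QF 1 0 n) (QuadraticAlgebra.finrank_eq_two _ _) (sq_eq_one_of_expTwo hn hE')
  have h2 := le_abs_discr (K := QF 1 0 n) (QuadraticAlgebra.finrank_eq_two _ _) hsf hδ
  have h3 : m ≤ B := by exact_mod_cast h2.trans h1
  refine Set.mem_biUnion (Set.mem_Icc.mpr ⟨hm, h3⟩) ⟨t, ?_, ?_⟩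
  · show ExpTwo (m * t ^ 2)
    rw [mul_comm, hmt]
    exact hE'
  · show m * t ^ 2 = n
    rw [mul_comm, hmt]

/-- **There are only finitely many numeri idonei** in Euler's original sense: for only finitely many
`n ≥ 1` Euler's primality test holds. -/
theorem finite_testProp : {n : ℕ | 0 < n ∧ TestProp n}.Finite :=
  finite_expTwo.subset fun _ h => ⟨h.1, h.2.expTwo h.1⟩

end Fermat.Agent.Cor.Ray
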