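import Fermat.Agent.Corollaries.Ray.Defs
import Fermat.Agent.Classic.Zeta.Torus
import Fermat.Agent.Classic.Zeta.Decay
import Fermat.Agent.Classic.Zeta.Gamma
import Fermat.Agent.Classic.Zeta.MellinFin

/-!
# The Mellin transform of the weighted theta functions

For `1 < Re s` the Mellin transform of `Fw β φ - φ 0 * B β` at `n s` is
`c * gam K s * ∑ φ(x) |N x|^{-s}`, the sum over the non-zero elements of `𝔟` modulo units.
-/

set_option autoImplicit false

noncomputable section

namespace Fermat.Agent.Cor.Ray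

open NumberField NumberField.InfinitePlace NumberField.Units MeasureTheory Set
open NumberField.Units.dirichletUnitTheorem
open Fermat.Agent.Classic.Zeta
open scoped nonZeroDivisors Classical Real

universe u

variable {K : Type u} [Field K] [NumberField K]

/-- Termwise Mellin transform of `∑ φ_i ∫ k_i x y` with `k_i` non-negative and bounded `φ_i`. -/
theorem mellinW_unfold {ι Y : Type*} [Countable ι] [MeasurableSpace Y] {ν : Measure Y} [SFinite ν]
    {f : ℝ → ℂ} {k : ι → ℝ → Y → ℝ} (hk : ∀ i, Measurable fun p : ℝ × Y => k i p.1 p.2)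
    (hk0 : ∀ i x y, 0 ≤ k i x y) {φ : ι → ℂ} {M : ℝ} (hφ : ∀ i, ‖φ i‖ ≤ M)
    (hf : ∀ x, 0 < x → HasSum (fun i => φ i * ((∫ y, k i x y ∂ν : ℝ) : ℂ)) (f x)) {s : ℂ}
    (hI : ∀ i, IntegrableOn (fun p : ℝ × Y => (p.1 : ℂ) ^ ((s.re : ℂ) - 1) * (k i p.1 p.2 : ℂ))
      (Ioi 0 ×ˢ univ) (volume.prod ν))
    (hA : Summable fun i => ∫ x in Ioi (0 : ℝ), ∫ y, (x : ℂ) ^ ((s.re : ℂ) - 1) *
      (k i x y : ℂ) ∂ν) :
    HasSum (fun i => φ i * ∫ x in Ioi (0 : ℝ), ∫ y, (x : ℂ) ^ (s - 1) * (k i x y : ℂ) ∂ν)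
      (mellin f s) := by
  classical
  have hM0 : ∀ i, 0 ≤ M := fun i => (norm_nonneg _).trans (hφ i)
  have hμ : (volume.prod ν).restrict (Ioi (0 : ℝ) ×ˢ (univ : Set Y)) =
      (volume.restrict (Ioi (0 : ℝ))).prod ν := by
    rw [← Measure.prod_restrict, Measure.restrict_univ]
  let a : ι → ℝ → ℝ := fun i x => ∫ y, k i x y ∂ν
  have ha0 : ∀ i x, 0 ≤ a i x := fun i x => integral_nonneg fun y => hk0 i x y
  have ham : ∀ i, Measurable (a i) := by
    intro i
    have h1 : ∀ x, a i x = (∫⁻ y, ENNReal.ofReal (k i x y) ∂ν).toReal := fun x =>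
      integral_eq_lintegral_of_nonneg_ae (Filter.Eventually.of_forall fun y => hk0 i x y)
        ((hk i).comp measurable_prodMk_left).aestronglyMeasurable
    rw [show a i = fun x => (∫⁻ y, ENNReal.ofReal (k i x y) ∂ν).toReal from funext h1]
    exact (Measurable.lintegral_prod_right'
      (ENNReal.measurable_ofReal.comp (hk i))).ennreal_toReal
  have hac : ∀ (i : ι) (z : ℂ) (x : ℝ), ∫ y, (x : ℂ) ^ z * (k i x y : ℂ) ∂ν =
      (x : ℂ) ^ z * (a i x : ℂ) := by
    intro i z x
    rw [integral_const_mul, integral_complex_ofReal]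
  -- the real integrals
  have hint : ∀ i, Integrable (fun x : ℝ => x ^ (s.re - 1) * a i x)
      (volume.restrict (Ioi (0 : ℝ))) := by
    intro i
    have h1 := hI i
    rw [IntegrableOn, hμ] at h1
    have h2 := h1.integral_prod_left.norm
    refine h2.congr ?_
    filter_upwards [ae_restrict_mem measurableSet_Ioi] with x hx
    rw [hac, norm_mul, Complex.norm_cpow_eq_rpow_re_of_pos hx, Complex.norm_real,
      Real.norm_of_nonneg (ha0 i x)]
    simp
  have hcast : ∀ i, ((∫ x in Ioi (0 : ℝ), x ^ (s.re - 1) * a i x : ℝ) : ℂ) =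
      ∫ x in Ioi (0 : ℝ), ∫ y, (x : ℂ) ^ ((s.re : ℂ) - 1) * (k i x y : ℂ) ∂ν := by
    intro i
    rw [← integral_complex_ofReal]
    refine setIntegral_congr_fun measurableSet_Ioi fun x hx => ?_
    rw [hac, Complex.ofReal_mul, Complex.ofReal_cpow (le_of_lt hx), Complex.ofReal_sub,
      Complex.ofReal_one]
  have hA' : Summable fun i => ∫ x in Ioi (0 : ℝ), x ^ (s.re - 1) * a i x := by
    rw [← Complex.summable_ofReal]
    exact hA.congr fun i => (hcast i).symm
  -- the complex version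
  let Fc : ι → ℝ → ℂ := fun i x => (x : ℂ) ^ (s - 1) * (φ i * (a i x : ℂ))
  have hFm : ∀ i, AEStronglyMeasurable (Fc i) (volume.restrict (Ioi (0 : ℝ))) := by
    intro i
    refine AEStronglyMeasurable.mul ?_ ?_
    · refine ContinuousOn.aestronglyMeasurable ?_ measurableSet_Ioi
      intro x hx
      exact (Complex.continuousAt_ofReal_cpow_const _ _ (Or.inr (ne_of_gt hx))).continuousWithinAt
    · exact ((Complex.measurable_ofReal.comp (ham i)).const_mul _).aestronglyMeasurable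
  have hFn : ∀ i, ∀ x ∈ Ioi (0 : ℝ), ‖Fc i x‖ = ‖φ i‖ * (x ^ (s.re - 1) * a i x) := by
    intro i x hx
    rw [norm_mul, norm_mul, norm_cpow_sub_one hx, Complex.norm_real,
      Real.norm_of_nonneg (ha0 i x)]
    ring
  have hFi : ∀ i, Integrable (Fc i) (volume.restrict (Ioi (0 : ℝ))) := by
    intro i
    refine ((hint i).const_mul ‖φ i‖).mono' (hFm i) ?_
    filter_upwards [ae_restrict_mem measurableSet_Ioi] with x hx
    exact (hFn i x hx).le
  have hFs : Summable fun i => ∫ x in Ioi (0 : ℝ), ‖Fc i x‖ := by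
    refine Summable.of_nonneg_of_le (fun i => integral_nonneg fun x => norm_nonneg _)
      (fun i => ?_) (hA'.mul_left M)
    rw [setIntegral_congr_fun measurableSet_Ioi (hFn i), integral_const_mul]
    exact mul_le_mul_of_nonneg_right (hφ i) (setIntegral_nonneg measurableSet_Ioi fun x hx =>
      mul_nonneg (Real.rpow_nonneg (le_of_lt hx) _) (ha0 i x))
  have key := hasSum_integral_of_summable_integral_norm hFi hFs
  have h6 : ∀ i, ∫ x in Ioi (0 : ℝ), Fc i x =
      φ i * ∫ x in Ioi (0 : ℝ), ∫ y, (x : ℂ) ^ (s - 1) * (k i x y : ℂ) ∂ν := by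
    intro i
    rw [← integral_const_mul]
    refine setIntegral_congr_fun measurableSet_Ioi fun x _ => ?_
    simp only [Fc]
    rw [hac]
    ring
  have h7 : ∫ x in Ioi (0 : ℝ), ∑' i, Fc i x = mellin f s := by
    rw [mellin]
    refine setIntegral_congr_fun measurableSet_Ioi fun x hx => ?_
    simp only [Fc, smul_eq_mul]
    rw [tsum_mul_left, (hf x hx).tsum_eq]
  rw [h7] at key
  simpa only [h6] using key

/-- **The Mellin transform of the weighted theta functions**, from the unfolding. -/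
theorem mellinWStmt_of (hU : UnfoldWStmt K) (hM : MellinStmt K) (hG : GammaStmt K) :
    MellinWStmt K := by
  obtain ⟨c, hc, hG⟩ := hG
  obtain ⟨_, _, hM⟩ := hM
  refine ⟨c, hc, fun β hβ 𝔟 𝔠 φ hφ ι g hg s hs => ?_⟩
  have := Mel.gen_countable hg
  obtain ⟨M, hbd⟩ := hφ.bdd
  set n := Module.finrank ℚ K with hn
  have hn0 : (0 : ℝ) < n := by exact_mod_cast Module.finrank_pos
  have hsr : ((n : ℂ) * s).re = n * s.re := by simp
  have hs0 : 0 < s.re := by linarith
  have h3 : (((n : ℂ) * s).re : ℂ) = (n : ℂ) * (s.re : ℂ) := by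
    rw [hsr]
    push_cast
    ring
  have hσ : Summable fun i => (((|Algebra.norm ℚ (g i)| : ℚ) : ℂ)) ^ (-(s.re : ℂ)) :=
    (hM β hβ 𝔟 hφ.hb ι g hg (s.re : ℂ) (by rwa [Complex.ofReal_re])).1
  have hN : ∀ i, (0 : ℝ) < ((|Algebra.norm ℚ (g i)| : ℚ) : ℝ) := by
    intro i
    exact_mod_cast abs_pos.mpr (Algebra.norm_ne_zero_iff.mpr (hg.ne_zero i))
  have hNc : ∀ i, (((|Algebra.norm ℚ (g i)| : ℚ) : ℝ) : ℂ) = ((|Algebra.norm ℚ (g i)| : ℚ) : ℂ) :=
    fun i => Complex.ofReal_ratCast _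
  have hsumm : Summable fun i => φ (g i) * (((|Algebra.norm ℚ (g i)| : ℚ) : ℂ)) ^ (-s) := by
    refine Summable.of_norm (Summable.of_nonneg_of_le (fun i => norm_nonneg _) (fun i => ?_)
      (hσ.norm.mul_left M))
    rw [norm_mul, ← hNc i, Complex.norm_cpow_eq_rpow_re_of_pos (hN i),
      Complex.norm_cpow_eq_rpow_re_of_pos (hN i)]
    simp only [Complex.neg_re, Complex.ofReal_re]
    exact mul_le_mul_of_nonneg_right (hbd _) (Real.rpow_nonneg (hN i).le _)
  refine ⟨hsumm, ?_⟩
  have key := mellinW_unfold (ν := volume) (k := fun i x y => E (tt x y) (g i))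
    (fun i => Mel.measurable_E_tt (g i)) (fun i x y => Mel.E_nonneg _ _)
    (φ := fun i => φ (g i)) (fun i => hbd (g i))
    (f := fun x => Fw β φ x - φ 0 * (B β : ℂ)) (hU β hβ 𝔟 𝔠 φ hφ ι g hg) (s := (n : ℂ) * s)
    (fun i => by
      rw [h3, ← Measure.volume_eq_prod]
      exact (hG (g i) (hg.ne_zero i) (s.re : ℂ) (by rwa [Complex.ofReal_re])).1)
    (by
      rw [h3]
      refine (hσ.mul_left ((c : ℂ) * gam K (s.re : ℂ))).congr fun i => ?_
      exact (hG (g i) (hg.ne_zero i) (s.re : ℂ) (by rwa [Complex.ofReal_re])).2.symm)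
  rw [← key.tsum_eq, ← tsum_mul_left]
  refine tsum_congr fun i => ?_
  rw [(hG (g i) (hg.ne_zero i) s hs0).2]
  ring

/-- (D) -/
theorem mellinWStmt (hU : UnfoldWStmt K) : MellinWStmt K :=
  mellinWStmt_of hU (mellinStmt_of' (torusStmt (thetaStmt K)) (decayStmt K) (gammaStmt K))
    (gammaStmt K)

end Fermat.Agent.Cor.Ray
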