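import Fermat.Agent.Corollaries.Ray.Defs
import Fermat.Agent.Corollaries.Ray.Coprime
import Fermat.Agent.Corollaries.ZetaK.PsiNonVan
import Fermat.Agent.Corollaries.ZetaK.PrimeCountK

/-!
# Non-vanishing of the L-functions of ray class characters on `Re s ≥ 1`
-/

set_option autoImplicit false
set_option linter.unusedSectionVars false

noncomputable section

open NumberField nonZeroDivisors Complex Filter Topology

open scoped Classical

namespace Fermat.Agent.Cor.Ray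

open Fermat.Agent.ClassL Fermat.Agent.Classic.Zeta

universe u

variable {K : Type u} [Field K] [NumberField K] {𝔪 : Ideal (𝓞 K)}

theorem Ls_eq_Lp (ψ : (Ideal (𝓞 K))⁰ →* ℂ) (s : ℂ) : Ls ψ s = Psi.Lp ψ s := rfl

/-- an ideal prime to `𝔪` has a power which is generated by an element `≡ 1` modulo `𝔪` -/
theorem exists_pow_eq_span (h𝔪 : 𝔪 ≠ ⊥) {I : (Ideal (𝓞 K))⁰} (hI : IsCoprime (I : Ideal (𝓞 K)) 𝔪) :
    ∃ n : ℕ, n ≠ 0 ∧ ∃ a : 𝓞 K, ((I ^ n : (Ideal (𝓞 K))⁰) : Ideal (𝓞 K)) = Ideal.span {a} ∧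
      a - 1 ∈ 𝔪 := by
  have h1 : ClassGroup.mk0 (I ^ Nat.card (ClassGroup (𝓞 K))) = 1 := by
    rw [map_pow, pow_card_eq_one']
  have h2 : ((I ^ Nat.card (ClassGroup (𝓞 K)) : (Ideal (𝓞 K))⁰) : Ideal (𝓞 K)).IsPrincipal :=
    (ClassGroup.mk0_eq_one_iff (I ^ Nat.card (ClassGroup (𝓞 K))).2).mp h1
  obtain ⟨a, ha⟩ := h2
  rw [← Ideal.span] at ha
  have h3 : IsCoprime (Ideal.span {a}) 𝔪 := by
    rw [← ha, SubmonoidClass.coe_pow]
    exact hI.pow_left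
  obtain ⟨b, hb⟩ := isCoprime_span_iff.mp h3
  have : Finite (𝓞 K ⧸ 𝔪) := Ideal.finiteQuotientOfFreeOfNeBot 𝔪 h𝔪
  have h4 : Ideal.Quotient.mk 𝔪 b * Ideal.Quotient.mk 𝔪 a = 1 := by
    rw [← map_mul, ← map_one (Ideal.Quotient.mk 𝔪), Ideal.Quotient.eq]
    exact hb
  obtain ⟨w, hw⟩ : IsUnit (Ideal.Quotient.mk 𝔪 a) := IsUnit.of_mul_eq_one_right _ h4
  have h5 : w ^ Nat.card (𝓞 K ⧸ 𝔪)ˣ = 1 := pow_card_eq_one'
  refine ⟨Nat.card (ClassGroup (𝓞 K)) * Nat.card (𝓞 K ⧸ 𝔪)ˣ,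
    mul_ne_zero Nat.card_pos.ne' Nat.card_pos.ne', a ^ Nat.card (𝓞 K ⧸ 𝔪)ˣ, ?_, ?_⟩
  · rw [pow_mul, SubmonoidClass.coe_pow, ha, Ideal.span_singleton_pow]
  · rw [← Ideal.Quotient.eq, map_pow, map_one, ← hw, ← Units.val_pow_eq_pow_val, h5,
      Units.val_one]

theorem RayChar.isUnitary (h𝔪 : 𝔪 ≠ ⊥) {ψ : (Ideal (𝓞 K))⁰ →* ℂ} (hψ : RayChar 𝔪 ψ) :
    Psi.IsUnitary ψ := by
  intro I
  by_cases hI : IsCoprime (I : Ideal (𝓞 K)) 𝔪
  · left
    obtain ⟨n, hn, a, ha, ha1⟩ := exists_pow_eq_span h𝔪 hI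
    have h1 : ψ I ^ n = 1 := by
      rw [← map_pow]
      exact hψ.cong _ a ha ha1
    exact Complex.norm_eq_one_of_pow_eq_one h1 hn
  · exact Or.inr (hψ.eq_zero I hI)

theorem RayChar.sq {ψ : (Ideal (𝓞 K))⁰ →* ℂ} (hψ : RayChar 𝔪 ψ) : RayChar 𝔪 (ψ ^ 2) where
  norm_le I := by
    rw [MonoidHom.pow_apply, norm_pow]
    exact pow_le_one₀ (norm_nonneg _) (hψ.norm_le I)
  eq_zero I hI := by
    rw [MonoidHom.pow_apply, hψ.eq_zero I hI, zero_pow two_ne_zero]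
  cong I a ha ha1 := by
    rw [MonoidHom.pow_apply, hψ.cong I a ha ha1, one_pow]

/-- finitely many primes are not prime to `𝔪` -/
theorem finite_bad (h𝔪 : 𝔪 ≠ ⊥) :
    {P : Pr K | ¬ IsCoprime ((P.1 : (Ideal (𝓞 K))⁰) : Ideal (𝓞 K)) 𝔪}.Finite := by
  refine (finite_nP K (Ideal.absNorm 𝔪)).subset fun P hP => ?_
  have hpr : ((P.1 : (Ideal (𝓞 K))⁰) : Ideal (𝓞 K)).IsPrime := Ideal.isPrime_of_prime P.2
  have hmax : ((P.1 : (Ideal (𝓞 K))⁰) : Ideal (𝓞 K)).IsMaximal :=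
    hpr.isMaximal (nonZeroDivisors.coe_ne_zero P.1)
  have h1 : 𝔪 ≤ ((P.1 : (Ideal (𝓞 K))⁰) : Ideal (𝓞 K)) := by
    by_contra h
    apply hP
    rw [Ideal.isCoprime_iff_sup_eq]
    exact hmax.1.2 _ (lt_of_le_of_ne le_sup_left fun h2 => h (by
      rw [h2]
      exact le_sup_right))
  have h2 : nP P ∣ Ideal.absNorm 𝔪 := Ideal.absNorm_dvd_absNorm_of_le h1
  exact Nat.le_of_dvd (Nat.pos_of_ne_zero fun h => h𝔪 (Ideal.absNorm_eq_zero_iff.mp h)) h2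

/-- (G) **The L-functions of the non-trivial ray class characters do not vanish on `Re s ≥ 1`.** -/
theorem nonVan (hE : EntireStmt K) : NonVanStmt K := by
  intro 𝔪 h𝔪 ψ hψ hnt
  obtain ⟨L, hLd, hL⟩ := hE 𝔪 h𝔪 ψ hψ hnt
  have hu := hψ.isUnitary h𝔪
  refine ⟨L, hLd, hL, fun s hs => ?_⟩
  rcases hs.eq_or_lt with h1 | h1
  · have hs' : s = 1 + I * s.im := by
      conv_lhs => rw [← Complex.re_add_im s, ← h1, Complex.ofReal_one, mul_comm]
    by_cases h2 : ∃ J : (Ideal (𝓞 K))⁰, IsCoprime (J : Ideal (𝓞 K)) 𝔪 ∧ (ψ ^ 2) J ≠ 1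
    · obtain ⟨L₂, hd₂, hL₂⟩ := hE 𝔪 h𝔪 (ψ ^ 2) hψ.sq h2
      rw [hs']
      exact Psi.ne_zero_of_continuation hu hL hL₂ (hLd _) (hd₂ _).continuousAt
    · have h3 : ∀ J : (Ideal (𝓞 K))⁰, IsCoprime (J : Ideal (𝓞 K)) 𝔪 → ψ J ^ 2 = 1 := by
        intro J hJ
        by_contra h4
        exact h2 ⟨J, hJ, by rwa [MonoidHom.pow_apply]⟩
      by_cases h4 : s.im = 0
      · rw [h4, Complex.ofReal_zero, mul_zero, add_zero] at hs'
        rw [hs']
        refine Psi.ne_zero_of_real (ψ := ψ) (fun J => ?_) hLd hL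
        by_cases hJ : IsCoprime (J : Ideal (𝓞 K)) 𝔪
        · exact Or.inr (sq_eq_one_iff.1 (h3 J hJ))
        · exact Or.inl (hψ.eq_zero J hJ)
      · rw [hs']
        refine Psi.ne_zero_of_continuation (ψ := ψ) hu hL
          (L₂ := fun w => zetaK K w * Psi.badE (finite_bad h𝔪).toFinset w) (fun w hw => ?_)
          (hLd _) ?_
        · refine (Psi.Lp_eq_badE (hu.pow two_ne_zero) (fun P hP => ?_) (fun P hP => ?_) hw).symm
          · rw [Set.Finite.mem_toFinset] at hP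
            rw [MonoidHom.pow_apply, hψ.eq_zero P.1 hP, zero_pow two_ne_zero]
          · rw [Set.Finite.mem_toFinset] at hP
            rw [MonoidHom.pow_apply]
            exact h3 P.1 (not_not.mp hP)
        · refine ContinuousAt.mul ?_ (Psi.differentiable_badE _).continuous.continuousAt
          refine (differentiableAt_LF (K := K) (fun _ => 1) ?_).continuousAt
          intro h5
          have h6 := congrArg Complex.im h5
          simp at h6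
          exact h4 h6
  · rw [hL s h1]
    exact Psi.Lp_ne_zero hu.le h1

end Fermat.Agent.Cor.Ray

end
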