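import Fermat.Agent.Corollaries.Ray.Defs
import Fermat.Agent.Corollaries.ZetaK.LFun

/-!
# Weighted zeta functions: continuation with the only possible pole at `1` (RAY (E))
-/

set_option autoImplicit false

noncomputable section

namespace Fermat.Agent.Cor.Ray

open NumberField NumberField.InfinitePlace NumberField.Units MeasureTheory Set
open NumberField.Units.dirichletUnitTheorem
open Fermat.Agent.Classic.Zeta
open scoped nonZeroDivisors Classical Real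

universe u

variable {K : Type u} [Field K] [NumberField K]

section pair

variable {β : logSpace K → ℝ} (hβ : IsBeta β) (hT : TorusWStmt K) (hD : DecayWStmt K)
  {𝔟 𝔠 : FractionalIdeal (𝓞 K)⁰ K} {φ φ' : K → ℂ} (hφ : IsWt 𝔟 𝔠 φ)
  (hφ' : IsWt (dualF 𝔠) (dualF 𝔟) φ') (hI : IsInv 𝔠 φ φ')

include hT in
/-- the functional equation pair of a weight -/
def feW : WeakFEPair ℂ where
  f := Fw β φ
  g := Fw β φ'
  k := Module.finrank ℚ K
  ε := (((√|(discr K : ℝ)| * nF 𝔠)⁻¹ : ℝ) : ℂ)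
  f₀ := φ 0 * (B β : ℂ)
  g₀ := φ' 0 * (B β : ℂ)
  hf_int := (hD β hβ _ _ φ hφ).1
  hg_int := (hD β hβ _ _ φ' hφ').1
  hk := finrank_pos' K
  hε := by
    rw [Complex.ofReal_ne_zero]
    exact inv_ne_zero (mul_ne_zero (Real.sqrt_ne_zero'.mpr (disc_pos K)) (nF_pos hφ.hc).ne')
  h_feq x hx := by
    have h := hT β hβ _ _ φ φ' hφ hφ' hI x hx
    rw [one_div, h, Real.rpow_natCast, smul_eq_mul]
    push_cast
    ring
  hf_top r := (hD β hβ _ _ φ hφ).2 r
  hg_top r := (hD β hβ _ _ φ' hφ').2 r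

end pair

/-- **(E)**: continuation of the weighted zeta functions. -/
theorem poleStmt_of (hA : ThetaWStmt K) (hT : TorusWStmt K) (hD : DecayWStmt K)
    (hM : MellinWStmt K) : PoleStmt K := by
  obtain ⟨β, hβ⟩ := (torusStmt (thetaStmt K)).1
  obtain ⟨c, hc, hM⟩ := hM
  have hc' : (c : ℂ) ≠ 0 := by exact_mod_cast hc.ne'
  have hn : (0 : ℝ) < (Module.finrank ℚ K : ℝ) := finrank_pos' K
  have hn' : (Module.finrank ℚ K : ℂ) ≠ 0 := by exact_mod_cast hn.ne'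
  refine ⟨(c : ℂ)⁻¹ * ((√|(discr K : ℝ)| : ℝ) : ℂ)⁻¹ * (B β : ℂ) / (Module.finrank ℚ K : ℂ),
    fun 𝔟 𝔠 φ hφ => ?_⟩
  obtain ⟨-, φ', hφ', hI, hR⟩ := hA 𝔟 𝔠 φ hφ
  set P : WeakFEPair ℂ := feW hβ hT hD hφ hφ' hI with hP
  refine ⟨fun s => (c : ℂ)⁻¹ * (gi K s * P.Λ₀ ((Module.finrank ℚ K : ℂ) * s) -
    gs K s * (φ 0 * (B β : ℂ) / (Module.finrank ℚ K : ℂ))), ?_, ?_⟩
  · have h1 : Differentiable ℂ fun s : ℂ => P.Λ₀ ((Module.finrank ℚ K : ℂ) * s) :=
      P.differentiable_Λ₀.comp (differentiable_id.const_mul _)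
    exact ((differentiable_gi.mul h1).sub (differentiable_gs.mul_const _)).const_mul _
  · intro R hRR ι g hg s hs
    have hs0 := ne_zero_of_re hs
    have hs1 := ne_one_of_re hs
    have hs1' : s - 1 ≠ 0 := sub_ne_zero.mpr hs1
    have hs1'' : 1 - s ≠ 0 := sub_ne_zero.mpr (Ne.symm hs1)
    have hgam : gam K s ≠ 0 := gam_ne_zero_base (zero_lt_one.trans hs)
    obtain ⟨-, hmel⟩ := hM β hβ 𝔟 𝔠 φ hφ ι g hg s hs
    have hk : P.k < ((Module.finrank ℚ K : ℂ) * s).re := by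
      change (Module.finrank ℚ K : ℝ) < _
      rw [← Complex.ofReal_natCast, Complex.re_ofReal_mul]
      nlinarith
    have h1 : mellin (fun x : ℝ => Fw β φ x - φ 0 * (B β : ℂ)) ((Module.finrank ℚ K : ℂ) * s) =
        P.Λ ((Module.finrank ℚ K : ℂ) * s) := (P.hasMellin hk).2
    have h2 : P.Λ ((Module.finrank ℚ K : ℂ) * s) = P.Λ₀ ((Module.finrank ℚ K : ℂ) * s) -
        (1 / ((Module.finrank ℚ K : ℂ) * s)) • (φ 0 * (B β : ℂ)) -
        ((((√|(discr K : ℝ)| * nF 𝔠)⁻¹ : ℝ) : ℂ) /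
          (((Module.finrank ℚ K : ℝ) : ℂ) - (Module.finrank ℚ K : ℂ) * s)) •
          (φ' 0 * (B β : ℂ)) := rfl
    rw [h1, h2] at hmel
    have h3 : ∑' i, φ (g i) * (((|Algebra.norm ℚ (g i)| : ℚ) : ℂ)) ^ (-s) =
        (c : ℂ)⁻¹ * (gam K s)⁻¹ * (c * gam K s *
          ∑' i, φ (g i) * (((|Algebra.norm ℚ (g i)| : ℚ) : ℂ)) ^ (-s)) := by
      field_simp
    rw [h3, ← hmel]
    beta_reduce
    rw [gs_eq hs0, gi, hR R hRR, smul_eq_mul, smul_eq_mul]
    have hnF : (nF 𝔠 : ℂ) ≠ 0 := by exact_mod_cast (nF_pos hφ.hc).ne'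
    have hsq : ((√|(discr K : ℝ)| : ℝ) : ℂ) ≠ 0 := by
      exact_mod_cast Real.sqrt_ne_zero'.mpr (disc_pos K)
    have hden : ((Module.finrank ℚ K : ℝ) : ℂ) - (Module.finrank ℚ K : ℂ) * s ≠ 0 := by
      have : ((Module.finrank ℚ K : ℝ) : ℂ) - (Module.finrank ℚ K : ℂ) * s =
          (Module.finrank ℚ K : ℂ) * (1 - s) := by push_cast; ring
      rw [this]
      exact mul_ne_zero hn' hs1''
    have hden' : ((Module.finrank ℚ K : ℝ) : ℂ) - (Module.finrank ℚ K : ℂ) * s =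
        -((Module.finrank ℚ K : ℂ) * (s - 1)) := by push_cast; ring
    rw [hden']
    push_cast
    field_simp
    ring

end Fermat.Agent.Cor.Ray

end
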