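import Fermat.Agent.Corollaries.Ray.ThetaW
import Fermat.Agent.Corollaries.Ray.UnfoldW
import Fermat.Agent.Corollaries.Ray.DecayW
import Fermat.Agent.Corollaries.Ray.MellinW
import Fermat.Agent.Corollaries.Ray.PoleW
import Fermat.Agent.Corollaries.Ray.Entire
import Fermat.Agent.Corollaries.Ray.NonVan

/-!
# Hecke's theorem on the `L`-functions of ray class characters

`K` a number field, `𝔪` a nonzero ideal, `ψ` a ray class character modulo `𝔪` (no condition at the
real places) which is not trivial: `L(s, ψ)` is entire and has no zero on `Re s ≥ 1` (Hecke, 1917).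
-/

set_option autoImplicit false

noncomputable section

namespace Fermat.Agent.Cor.Ray

open NumberField
open scoped nonZeroDivisors

universe u

/-- **The zeta function of a weight** (of a fractional ideal, or of a class modulo an ideal) is
entire up to a simple pole at `1`, whose residue is proportional to the mean of the weight. -/
theorem poleStmt (K : Type u) [Field K] [NumberField K] : PoleStmt K :=
  poleStmt_of (thetaWStmt K) (torusWStmt K) (decayWStmt K) (mellinWStmt (unfoldWStmt K))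

/-- **Hecke**: the `L`-function of a non-trivial ray class character is entire. -/
theorem entireStmt (K : Type u) [Field K] [NumberField K] : EntireStmt K :=
  entireStmt_of (poleStmt K)

/-- **Hecke**: it has no zero on `Re s ≥ 1`. -/
theorem nonVanStmt (K : Type u) [Field K] [NumberField K] : NonVanStmt K :=
  nonVan (entireStmt K)

variable {K : Type u} [Field K] [NumberField K]

/-- **Hecke's theorem** (1917), with all definitions unfolded. `ψ` is a completely multiplicative
function on the nonzero ideals, zero exactly outside the ideals prime to `𝔪`, equal to `1` on the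
principal ideals `(a)`, `a ≡ 1 mod 𝔪`, and not identically `1` on the ideals prime to `𝔪`: its
`L`-series extends to an entire function without zeros on `Re s ≥ 1`. -/
theorem exists_entire_L {𝔪 : Ideal (𝓞 K)} (hm : 𝔪 ≠ ⊥) (ψ : (Ideal (𝓞 K))⁰ →* ℂ)
    (h1 : ∀ I, ‖ψ I‖ ≤ 1)
    (h2 : ∀ I : (Ideal (𝓞 K))⁰, ¬ IsCoprime (I : Ideal (𝓞 K)) 𝔪 → ψ I = 0)
    (h3 : ∀ (I : (Ideal (𝓞 K))⁰) (a : 𝓞 K), (I : Ideal (𝓞 K)) = Ideal.span {a} → a - 1 ∈ 𝔪 →
      ψ I = 1)
    (h4 : ∃ I : (Ideal (𝓞 K))⁰, IsCoprime (I : Ideal (𝓞 K)) 𝔪 ∧ ψ I ≠ 1) :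
    ∃ L : ℂ → ℂ, Differentiable ℂ L ∧
      (∀ s : ℂ, 1 < s.re →
        L s = ∑' I : (Ideal (𝓞 K))⁰, ψ I * (Ideal.absNorm (I : Ideal (𝓞 K)) : ℂ) ^ (-s)) ∧
      ∀ s : ℂ, 1 ≤ s.re → L s ≠ 0 :=
  nonVanStmt K 𝔪 hm ψ ⟨h1, h2, h3⟩ h4

end Fermat.Agent.Cor.Ray
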