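import Fermat.Agent.Corollaries.Ray.Density
import Fermat.Agent.Corollaries.Ray.Hecke
import Fermat.Agent.Corollaries.Ray.Group

/-!
# Hecke, Landau: prime ideals in ray classes, Dirichlet's theorem in every number field

No hypotheses: `entireStmt` (Hecke) and `groupStmt` are theorems.
-/

set_option autoImplicit false

noncomputable section

open NumberField nonZeroDivisors Filter Topology

namespace Fermat.Agent.Cor.Ray

open Fermat.Agent.ClassL

universe u

variable {K : Type u} [Field K] [NumberField K] {𝔪 : Ideal (𝓞 K)}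

/-- **The prime ideal theorem for ray classes** (no condition at the real places): for every
non-zero modulus `𝔪` and every ideal `J` prime to `𝔪`, the number of prime ideals `P` of norm at
most `x` in the ray class of `J` is asymptotic to `x / (h_𝔪 log x)`. -/
theorem prime_ideal_theorem_ray (h𝔪 : 𝔪 ≠ ⊥) {J : (Ideal (𝓞 K))⁰}
    (hJ : IsCoprime (J : Ideal (𝓞 K)) 𝔪) :
    Tendsto (fun x : ℕ => (Nat.card {P : Pr K //
      Ideal.absNorm ((P.1 : (Ideal (𝓞 K))⁰) : Ideal (𝓞 K)) ≤ x ∧ RayEq 𝔪 P.1 J} : ℝ) *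
      Real.log x / x) atTop (𝓝 (1 / (rayNumber 𝔪 : ℝ))) := by
  rw [one_div]
  exact tendsto_card_ray (entireStmt K) (groupStmt K) h𝔪 hJ

/-- the number of ray classes is finite and not zero -/
theorem rayNumber_ne_zero (h𝔪 : 𝔪 ≠ ⊥) : rayNumber 𝔪 ≠ 0 :=
  (rayNumber_pos (entireStmt K) (groupStmt K) h𝔪).ne'

/-- **Every ray class contains infinitely many prime ideals.** -/
theorem infinite_primes_in_ray_class (h𝔪 : 𝔪 ≠ ⊥) {J : (Ideal (𝓞 K))⁰}
    (hJ : IsCoprime (J : Ideal (𝓞 K)) 𝔪) :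
    {P : (Ideal (𝓞 K))⁰ | (P : Ideal (𝓞 K)).IsPrime ∧ RayEq 𝔪 P J}.Infinite :=
  primesStmt (entireStmt K) (groupStmt K) 𝔪 h𝔪 J hJ

/-- **Dirichlet's theorem on primes in arithmetic progressions, in every number field, with the
natural density**: if `α` is prime to `𝔪`, then the number of prime ideals `(π)`, `π ≡ α` modulo
`𝔪`, of norm at most `x` is asymptotic to `x / (h_𝔪 log x)`. -/
theorem dirichlet_density (h𝔪 : 𝔪 ≠ ⊥) {α : 𝓞 K} (hα : IsCoprime (Ideal.span {α}) 𝔪) :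
    Tendsto (fun x : ℕ => (Nat.card {P : Pr K //
      Ideal.absNorm ((P.1 : (Ideal (𝓞 K))⁰) : Ideal (𝓞 K)) ≤ x ∧
      ∃ π : 𝓞 K, π - α ∈ 𝔪 ∧ ((P.1 : (Ideal (𝓞 K))⁰) : Ideal (𝓞 K)) = Ideal.span {π}} : ℝ) *
      Real.log x / x) atTop (𝓝 (1 / (rayNumber 𝔪 : ℝ))) := by
  rw [one_div]
  exact tendsto_card_generated (entireStmt K) (groupStmt K) h𝔪 hα

/-- **Dirichlet's theorem in every number field**: if `α` is prime to `𝔪`, there are infinitely
many prime elements `π ≡ α` modulo `𝔪`, no two of them associated. -/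
theorem dirichlet (h𝔪 : 𝔪 ≠ ⊥) {α : 𝓞 K} (hα : IsCoprime (Ideal.span {α}) 𝔪) :
    {P : Ideal (𝓞 K) | ∃ π : 𝓞 K, Prime π ∧ π - α ∈ 𝔪 ∧ P = Ideal.span {π}}.Infinite :=
  infinite_primes (entireStmt K) (groupStmt K) h𝔪 hα

end Fermat.Agent.Cor.Ray

end
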