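import Fermat.Agent.Corollaries.Ray.FormIdeal
import Fermat.Agent.Corollaries.Ray.FormsMain

/-!
# The form class number as the index of a subgroup of the ray class group

`G` = ray class group modulo `2D` of `K = ℚ(√D)`, `H` = classes of the ideals `(α)`, `α` in the
order of discriminant `D`. The proper equivalence classes of primitive positive definite forms of
discriminant `D < 0` correspond to `G / H`.
-/

set_option autoImplicit false

noncomputable section

open NumberField QuadraticAlgebra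
open scoped nonZeroDivisors

namespace Fermat.Agent.Cor.Ray

open Fermat.Agent.ClassL

/-! ### The form class number -/

/-- primitive positive definite forms of discriminant `D` -/
def FormSet (D : ℤ) : Type := {f : BForm // f.Prim ∧ f.disc = D ∧ 0 < f.a}

/-- proper equivalence -/
def formSetoid (D : ℤ) : Setoid (FormSet D) where
  r f g := f.1.Eqv g.1
  iseqv := ⟨fun f => BForm.Eqv.refl f.1, fun h => h.symm, fun h h' => h.trans h'⟩

/-- **the form class number**: the number of proper equivalence classes of primitive positive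
definite binary quadratic forms of discriminant `D` -/
def formClassNumber (D : ℤ) : ℕ := Nat.card (Quotient (formSetoid D))

theorem mk_eq_mk_iff_mul {G : Type*} [CommGroup G] (H : Subgroup G) {x y z : G}
    (h : y * z ∈ H) : (QuotientGroup.mk x : G ⧸ H) = QuotientGroup.mk y ↔ x * z ∈ H := by
  rw [QuotientGroup.eq]
  have e1 : x * z = (x⁻¹ * y)⁻¹ * (y * z) := by
    rw [mul_inv_rev, inv_inv, mul_comm y⁻¹ x, mul_assoc, inv_mul_cancel_left]
  have e2 : x⁻¹ * y = (x * z)⁻¹ * (y * z) := by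
    rw [mul_inv, mul_assoc, mul_comm y z, inv_mul_cancel_left]
  constructor
  · intro h1
    rw [e1]
    exact H.mul_mem (H.inv_mem h1) h
  · intro h1
    rw [e2]
    exact H.mul_mem (H.inv_mem h1) h

section Field

variable {e n : ℤ} [hF : Fact (∀ r : ℚ, r ^ 2 ≠ -(((1 : ℤ) : ℚ) * n) + -(e : ℚ) * r)]

variable (e n) in
/-- the modulus `2D` -/
def mod2D : Ideal (𝓞 (QF 1 e n)) :=
  Ideal.span {((2 * (e ^ 2 - 4 * 1 * n) : ℤ) : 𝓞 (QF 1 e n))}

theorem mod2D_ne_bot (hD : e ^ 2 - 4 * 1 * n ≠ 0) : mod2D e n ≠ ⊥ := by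
  rw [mod2D, Ne, Ideal.span_singleton_eq_bot]
  exact_mod_cast mul_ne_zero (two_ne_zero (α := ℤ)) hD

theorem isCoprime_idF {f : BForm} (hcop : IsCoprime f.a (2 * (e ^ 2 - 4 * 1 * n))) :
    IsCoprime (idF e n f) (mod2D e n) := by
  have h1 := isCoprime_span_intCast (a := 1) (b := e) (c := n) hcop
  rw [Ideal.isCoprime_iff_sup_eq] at h1 ⊢
  refine top_le_iff.mp (h1.symm.le.trans (sup_le_sup_right ?_ _))
  rw [Ideal.span_singleton_le_iff_mem]
  exact a_mem_idF f

/-- the ideal of a form as an element of `Cop` -/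
def copF {f : BForm} (hf : f.disc = e ^ 2 - 4 * 1 * n)
    (hcop : IsCoprime f.a (2 * (e ^ 2 - 4 * 1 * n))) (ha : f.a ≠ 0) : Cop (mod2D e n) :=
  ⟨⟨idF e n f, mem_nonZeroDivisors_of_ne_zero (idF_ne_bot hf hcop ha)⟩, isCoprime_idF hcop⟩

/-- the norm of a prime ideal of degree one prime to `2D` -/
theorem isCoprime_of_isCoprime {P : Ideal (𝓞 (QF 1 e n))} (hPp : P.IsPrime) {p : ℕ}
    (hp : p.Prime) (hP : Ideal.absNorm P = p) (h : IsCoprime P (mod2D e n)) :
    IsCoprime (p : ℤ) (2 * (e ^ 2 - 4 * 1 * n)) := by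
  refine (Prime.coprime_iff_not_dvd (Nat.prime_iff_prime_int.mp hp)).mpr fun hdvd => ?_
  have hpP : ((p : ℤ) : 𝓞 (QF 1 e n)) ∈ P := by
    have := Ideal.absNorm_mem P
    rw [hP] at this
    exact_mod_cast this
  have h1 : mod2D e n ≤ P := by
    rw [mod2D, Ideal.span_singleton_le_iff_mem]
    obtain ⟨w, hw⟩ := hdvd
    rw [hw, Int.cast_mul]
    exact P.mul_mem_right _ hpP
  rw [Ideal.isCoprime_iff_sup_eq, sup_eq_left.mpr h1] at h
  exact hPp.ne_top h

theorem isCoprime_of_norm {P : Ideal (𝓞 (QF 1 e n))} {p : ℕ} (hP : Ideal.absNorm P = p)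
    (h : IsCoprime (p : ℤ) (2 * (e ^ 2 - 4 * 1 * n))) : IsCoprime P (mod2D e n) := by
  have h1 := isCoprime_span_intCast (a := 1) (b := e) (c := n) h
  rw [Ideal.isCoprime_iff_sup_eq] at h1 ⊢
  refine top_le_iff.mp (h1.symm.le.trans (sup_le_sup_right ?_ _))
  rw [Ideal.span_singleton_le_iff_mem]
  have := Ideal.absNorm_mem P
  rw [hP] at this
  exact_mod_cast this

section Group

variable {G : Type} [CommGroup G] [Finite G] (cl : Cop (mod2D e n) →* G)

/-- the classes of the ideals `(α)`, `α` in the order -/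
def subH : Subgroup G where
  carrier := {g | ∃ (I : Cop (mod2D e n)) (α : 𝓞 (QF 1 e n)), α ∈ ordO e n ∧
    ((I.1 : (Ideal (𝓞 (QF 1 e n)))⁰) : Ideal (𝓞 (QF 1 e n))) = Ideal.span {α} ∧ cl I = g}
  mul_mem' := by
    rintro _ _ ⟨I, α, hα, hI, rfl⟩ ⟨J, β, hβ, hJ, rfl⟩
    refine ⟨I * J, α * β, (ordO e n).mul_mem hα hβ, ?_, map_mul _ _ _⟩
    rw [← Ideal.span_singleton_mul_span_singleton, ← hI, ← hJ]
    rfl
  one_mem' := ⟨1, 1, (ordO e n).one_mem, by
    rw [Ideal.span_singleton_one, ← Ideal.one_eq_top]; rfl, map_one _⟩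
  inv_mem' := by
    rintro _ ⟨I, α, hα, hI, rfl⟩
    have h0 : 0 < Nat.card G := Nat.card_pos
    refine ⟨I ^ (Nat.card G - 1), α ^ (Nat.card G - 1), (ordO e n).pow_mem hα _, ?_, ?_⟩
    · rw [← Ideal.span_singleton_pow, ← hI]
      rfl
    · rw [map_pow, eq_inv_iff_mul_eq_one, ← pow_succ, Nat.sub_add_cancel h0, pow_card_eq_one']

variable (hcl : ∀ I J : Cop (mod2D e n), cl I = cl J ↔ RayEq (mod2D e n) I.1 J.1)

include hcl in
theorem mem_subH_iff (I : Cop (mod2D e n)) : cl I ∈ subH cl ↔ ∃ α ∈ ordO e n,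
    ((I.1 : (Ideal (𝓞 (QF 1 e n)))⁰) : Ideal (𝓞 (QF 1 e n))) = Ideal.span {α} := by
  constructor
  · rintro ⟨J, β, hβ, hJ, hcJ⟩
    obtain ⟨a, b, ha, hb, hco, hab, hIJ⟩ := (hcl I J).mp hcJ.symm
    rw [hJ, Ideal.span_singleton_mul_span_singleton] at hIJ
    have h1 : b * β ∈ Ideal.span {a} := by
      have h2 : b * β ∈ Ideal.span {a} * ((I.1 : (Ideal (𝓞 (QF 1 e n)))⁰) :
          Ideal (𝓞 (QF 1 e n))) := by
        rw [hIJ]
        exact Ideal.mem_span_singleton_self _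
      have h3 : Ideal.span {a} * ((I.1 : (Ideal (𝓞 (QF 1 e n)))⁰) :
          Ideal (𝓞 (QF 1 e n))) ≤ Ideal.span {a} := Ideal.mul_le_left
      exact h3 h2
    obtain ⟨α, hα⟩ := Ideal.mem_span_singleton'.mp h1
    refine ⟨α, two_disc_mul_mem' hβ ?_, ?_⟩
    · obtain ⟨c, hc⟩ := isCoprime_span_iff.mp hco
      have h4 : α - β = -(c * a - 1) * (α - β) + c * (-(a - b) * β) := by
        linear_combination c * hα
      rw [h4]
      exact (mod2D e n).add_mem ((mod2D e n).mul_mem_right _ ((mod2D e n).neg_mem hc))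
        ((mod2D e n).mul_mem_left _ ((mod2D e n).mul_mem_right _ ((mod2D e n).neg_mem hab)))
    · have h4 : Ideal.span {a} * ((I.1 : (Ideal (𝓞 (QF 1 e n)))⁰) : Ideal (𝓞 (QF 1 e n))) =
          Ideal.span {a} * Ideal.span {α} := by
        rw [hIJ, Ideal.span_singleton_mul_span_singleton, ← hα, mul_comm a]
      have hsa : Ideal.span {a} ≠ 0 := by rwa [Ne, Ideal.zero_eq_bot, Ideal.span_singleton_eq_bot]
      exact mul_left_cancel₀ hsa h4
  · rintro ⟨α, hα, hI⟩
    exact ⟨I, α, hα, hI, rfl⟩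

/-! ### Prime ideals of degree one -/

variable (e n) in
/-- the prime ideals of residue degree one prime to `2D` -/
def P1 : Type := {P : Pr (QF 1 e n) // (Ideal.absNorm (P.1 : Ideal (𝓞 (QF 1 e n)))).Prime ∧
  IsCoprime (P.1 : Ideal (𝓞 (QF 1 e n))) (mod2D e n)}

/-- the ideal -/
def P1.id (P : P1 e n) : Ideal (𝓞 (QF 1 e n)) := (P.1.1 : Ideal (𝓞 (QF 1 e n)))

/-- the norm -/
def P1.nm (P : P1 e n) : ℕ := Ideal.absNorm P.id

/-- the class -/
def P1.cop (P : P1 e n) : Cop (mod2D e n) := ⟨P.1.1, P.2.2⟩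

theorem P1.isPrime (P : P1 e n) : P.id.IsPrime := Ideal.isPrime_of_prime P.1.2

theorem P1.isCoprime (P : P1 e n) : IsCoprime (P.nm : ℤ) (2 * (e ^ 2 - 4 * 1 * n)) :=
  isCoprime_of_isCoprime P.isPrime P.2.1 rfl P.2.2

theorem P1.exists_form (P : P1 e n) : ∃ F : BForm, F.a = P.nm ∧ F.disc = e ^ 2 - 4 * 1 * n ∧
    F.Prim ∧ idF e n F = P.id :=
  exists_form_of_prime P.isPrime P.2.1 rfl P.isCoprime

/-- the form -/
def P1.form (P : P1 e n) : BForm := P.exists_form.choose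

theorem P1.form_a (P : P1 e n) : P.form.a = P.nm := P.exists_form.choose_spec.1

theorem P1.form_disc (P : P1 e n) : P.form.disc = e ^ 2 - 4 * 1 * n :=
  P.exists_form.choose_spec.2.1

theorem P1.form_prim (P : P1 e n) : P.form.Prim := P.exists_form.choose_spec.2.2.1

theorem P1.idF_form (P : P1 e n) : idF e n P.form = P.id := P.exists_form.choose_spec.2.2.2

theorem P1.form_cop (P : P1 e n) : IsCoprime P.form.a (2 * (e ^ 2 - 4 * 1 * n)) := by
  rw [P.form_a]
  exact P.isCoprime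

theorem P1.form_a_pos (P : P1 e n) : 0 < P.form.a := by
  rw [P.form_a]
  exact_mod_cast P.2.1.pos

variable (hD : e ^ 2 - 4 * 1 * n < 0)

include hcl hD in
/-- Lemma A -/
theorem mul_mem_subH_iff (P : P1 e n) {f : BForm} (hf : f.disc = e ^ 2 - 4 * 1 * n)
    (hcop : IsCoprime f.a (2 * (e ^ 2 - 4 * 1 * n))) (ha : 0 < f.a) :
    cl P.cop * cl (copF hf hcop ha.ne') ∈ subH cl ↔ ∃ u r v s : ℤ, u * s - r * v = 1 ∧
      (f.subst u r v s).a = P.nm ∧ P.id = idF e n (f.subst u r v s).op := by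
  rw [← map_mul, mem_subH_iff cl hcl]
  exact rel_iff hf hD ha hcop P.2.1 rfl

include hcl in
/-- a form and its opposite have inverse classes modulo `H` -/
theorem cop_mul_cop_op_mem {f : BForm} (hf : f.disc = e ^ 2 - 4 * 1 * n)
    (hcop : IsCoprime f.a (2 * (e ^ 2 - 4 * 1 * n))) (ha : f.a ≠ 0)
    (hf' : f.op.disc = e ^ 2 - 4 * 1 * n) (hcop' : IsCoprime f.op.a (2 * (e ^ 2 - 4 * 1 * n)))
    (ha' : f.op.a ≠ 0) : cl (copF hf hcop ha) * cl (copF hf' hcop' ha') ∈ subH cl := by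
  rw [← map_mul, mem_subH_iff cl hcl]
  exact ⟨(f.a : 𝓞 (QF 1 e n)), intCast_mem _ _, idF_mul_idF_op_self hf hcop⟩

include hcl hD in
/-- Lemma B -/
theorem mk_eq_mk_iff (P Q : P1 e n) :
    (QuotientGroup.mk (cl P.cop) : G ⧸ subH cl) = QuotientGroup.mk (cl Q.cop) ↔
      P.form.Eqv Q.form := by
  have hQd : Q.form.op.disc = e ^ 2 - 4 * 1 * n := by rw [BForm.disc_op, Q.form_disc]
  have hQc : IsCoprime Q.form.op.a (2 * (e ^ 2 - 4 * 1 * n)) := Q.form_cop
  have hQa : 0 < Q.form.op.a := Q.form_a_pos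
  have h1 := cop_mul_cop_op_mem cl hcl Q.form_disc Q.form_cop Q.form_a_pos.ne' hQd hQc hQa.ne'
  have h2 : cl (copF Q.form_disc Q.form_cop Q.form_a_pos.ne') = cl Q.cop := by
    congr 1
    apply Subtype.ext
    apply Subtype.ext
    exact Q.idF_form
  rw [h2] at h1
  rw [mk_eq_mk_iff_mul (subH cl) h1, mul_mem_subH_iff cl hcl hD P hQd hQc hQa]
  constructor
  · rintro ⟨u, r, v, s, hdet, hga, hP⟩
    have hg : Q.form.op.Eqv (Q.form.op.subst u r v s) := ⟨u, r, v, s, hdet, rfl⟩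
    have hgd : (Q.form.op.subst u r v s).op.disc = e ^ 2 - 4 * 1 * n := by
      rw [BForm.disc_op, hg.disc_eq, hQd]
    have h5 : P.form.Eqv (Q.form.op.subst u r v s).op := by
      refine eqv_of_idF_eq P.form_disc hgd P.form_cop ?_ P.form_a_pos.ne' ?_
      · rw [P.form_a, ← hga]
        rfl
      · rw [P.idF_form, hP]
    have h6 := hg.op
    rw [BForm.op_op] at h6
    exact h5.trans h6.symm
  · intro h
    obtain ⟨u, r, v, s, hdet, hg⟩ := h.op.symm
    refine ⟨u, r, v, s, hdet, ?_, ?_⟩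
    · rw [hg, ← P.form_a]
      rfl
    · rw [hg, BForm.op_op, P.idF_form]

omit [Finite G] in
include hcl in
/-- every class of `G` contains a prime ideal of degree one -/
theorem exists_P1 (hsurj : Function.Surjective cl) (hD0 : e ^ 2 - 4 * 1 * n ≠ 0) (g : G) :
    ∃ P : P1 e n, cl P.cop = g := by
  obtain ⟨J, rfl⟩ := hsurj g
  obtain ⟨P, hPJ, hPp⟩ := (rayDegOne (QF 1 e n) (mod2D e n) (mod2D_ne_bot hD0) J.1 J.2).nonempty
  exact ⟨⟨P, hPp, hPJ.coprime J.2⟩, (hcl _ _).mpr hPJ⟩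

include hcl hD in
/-- **the form class number is the index of `H` in the ray class group.** -/
theorem card_quotient_eq (hsurj : Function.Surjective cl) :
    Nat.card (G ⧸ subH cl) = formClassNumber (e ^ 2 - 4 * 1 * n) := by
  let φ : P1 e n → G ⧸ subH cl := fun P => QuotientGroup.mk (cl P.cop)
  let ψ : P1 e n → Quotient (formSetoid (e ^ 2 - 4 * 1 * n)) := fun P =>
    Quotient.mk _ ⟨P.form, P.form_prim, P.form_disc, P.form_a_pos⟩
  have hφ : Function.Surjective φ := by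
    intro x
    obtain ⟨g, rfl⟩ := QuotientGroup.mk_surjective x
    obtain ⟨P, hP⟩ := exists_P1 cl hcl hsurj hD.ne g
    exact ⟨P, by simp only [φ]; rw [hP]⟩
  have hψ : Function.Surjective ψ := by
    intro x
    obtain ⟨⟨f, hfp, hfd, hfa⟩, rfl⟩ := Quotient.exists_rep x
    have h2 : 2 ≤ (2 * (e ^ 2 - 4 * 1 * n)).natAbs := by omega
    obtain ⟨f₁, hff₁, hco⟩ := exists_eqv_coprime hfp h2
    have hco' : IsCoprime f₁.a (2 * (e ^ 2 - 4 * 1 * n)) := by
      rcases Int.natAbs_eq (2 * (e ^ 2 - 4 * 1 * n)) with h | h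
      · rwa [← h] at hco
      · rw [h]
        exact hco.neg_right
    have hf₁d : f₁.op.disc = e ^ 2 - 4 * 1 * n := by rw [BForm.disc_op, hff₁.disc_eq, hfd]
    have hf₁a : 0 < f₁.op.a := hff₁.a_pos hfa (by rw [hfd]; exact hD)
    have hf₁c : IsCoprime f₁.op.a (2 * (e ^ 2 - 4 * 1 * n)) := hco'
    obtain ⟨P, hP⟩ := exists_P1 cl hcl hsurj hD.ne (cl (copF hf₁d hf₁c hf₁a.ne'))⁻¹
    have h3 : cl P.cop * cl (copF hf₁d hf₁c hf₁a.ne') ∈ subH cl := by
      rw [hP, inv_mul_cancel]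
      exact (subH cl).one_mem
    obtain ⟨u, r, v, s, hdet, hga, hPi⟩ := (mul_mem_subH_iff cl hcl hD P hf₁d hf₁c hf₁a).mp h3
    have hg : f₁.op.Eqv (f₁.op.subst u r v s) := ⟨u, r, v, s, hdet, rfl⟩
    have hgd : (f₁.op.subst u r v s).op.disc = e ^ 2 - 4 * 1 * n := by
      rw [BForm.disc_op, hg.disc_eq, hf₁d]
    have h5 : P.form.Eqv (f₁.op.subst u r v s).op := by
      refine eqv_of_idF_eq P.form_disc hgd P.form_cop ?_ P.form_a_pos.ne' ?_
      · rw [P.form_a, ← hga]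
        rfl
      · rw [P.idF_form, hPi]
    have h6 := hg.op
    rw [BForm.op_op] at h6
    refine ⟨P, Quotient.sound ?_⟩
    exact (h5.trans h6.symm).trans hff₁.symm
  have hker : Setoid.ker φ = Setoid.ker ψ := by
    ext P Q
    rw [Setoid.ker_def, Setoid.ker_def]
    refine (mk_eq_mk_iff cl hcl hD P Q).trans ?_
    exact (Quotient.eq (r := formSetoid (e ^ 2 - 4 * 1 * n))
      (x := ⟨P.form, P.form_prim, P.form_disc, P.form_a_pos⟩)
      (y := ⟨Q.form, Q.form_prim, Q.form_disc, Q.form_a_pos⟩)).symm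
  rw [formClassNumber, ← Nat.card_congr (Setoid.quotientKerEquivOfSurjective φ hφ), hker,
    Nat.card_congr (Setoid.quotientKerEquivOfSurjective ψ hψ)]

end Group

end Field

end Fermat.Agent.Cor.Ray
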