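import Fermat.Agent.Corollaries.Ray.FormClass

/-!
# The natural density of the primes represented by a binary quadratic form

`f` a primitive positive definite binary quadratic form of discriminant `D`, `h(D)` the number of
proper equivalence classes of such forms: the primes represented by `f` have the natural density
`1 / 2h(D)` if `f` is properly equivalent to its opposite `(a, -b, c)`, and `1 / h(D)` otherwise
(Weber, de la Vallée-Poussin, Landau; Cox, *Primes of the form `x² + n y²`*, Theorem 9.12).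
-/

set_option autoImplicit false

noncomputable section

open NumberField QuadraticAlgebra Filter Topology
open scoped nonZeroDivisors

namespace Fermat.Agent.Cor.Ray

open Fermat.Agent.ClassL

section Field

variable {e n : ℤ} [hF : Fact (∀ r : ℚ, r ^ 2 ≠ -(((1 : ℤ) : ℚ) * n) + -(e : ℚ) * r)]

section Group

variable {G : Type} [CommGroup G] [Finite G] (cl : Cop (mod2D e n) →* G)

open scoped Classical in
/-- the prime ideals of degree one and norm `≤ x` whose class lies in `c⁻¹ H` -/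
def setD (c : G) (x : ℕ) : Finset (Pr (QF 1 e n)) :=
  (prLe (QF 1 e n) x).filter fun P => (Ideal.absNorm (P.1 : Ideal (𝓞 (QF 1 e n)))).Prime ∧
    ∃ h : IsCoprime (P.1 : Ideal (𝓞 (QF 1 e n))) (mod2D e n), cl ⟨P.1, h⟩ * c ∈ subH cl

theorem mem_setD {c : G} {x : ℕ} {P : Pr (QF 1 e n)} : P ∈ setD cl c x ↔
    Ideal.absNorm (P.1 : Ideal (𝓞 (QF 1 e n))) ≤ x ∧
      (Ideal.absNorm (P.1 : Ideal (𝓞 (QF 1 e n)))).Prime ∧
      ∃ h : IsCoprime (P.1 : Ideal (𝓞 (QF 1 e n))) (mod2D e n), cl ⟨P.1, h⟩ * c ∈ subH cl := by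
  classical
  rw [setD, Finset.mem_filter, mem_prLe]

variable (hcl : ∀ I J : Cop (mod2D e n), cl I = cl J ↔ RayEq (mod2D e n) I.1 J.1)
variable (hD : e ^ 2 - 4 * 1 * n < 0)

include hcl hD in
theorem tendsto_setD (hsurj : Function.Surjective cl) (c : G) :
    Tendsto (fun x : ℕ => ((setD cl c x).card : ℝ) * Real.log x / x) atTop
      (𝓝 (1 / (formClassNumber (e ^ 2 - 4 * 1 * n) : ℝ))) := by
  classical
  have : Fintype G := Fintype.ofFinite G
  choose J hJ using hsurj
  set S : Finset G := Finset.univ.filter fun g => g * c ∈ subH cl with hS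
  -- the decomposition
  have hcard : ∀ x : ℕ, (setD cl c x).card = ∑ g ∈ S, ((prLe (QF 1 e n) x).filter fun P =>
      RayEq (mod2D e n) P.1 (J g).1 ∧
        (Ideal.absNorm (P.1 : Ideal (𝓞 (QF 1 e n)))).Prime).card := by
    intro x
    rw [← Finset.card_biUnion]
    · congr 1
      ext P
      rw [mem_setD, Finset.mem_biUnion]
      constructor
      · rintro ⟨h1, h2, h3, h4⟩
        refine ⟨cl ⟨P.1, h3⟩, ?_, ?_⟩
        · rw [hS, Finset.mem_filter]
          exact ⟨Finset.mem_univ _, h4⟩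
        · rw [Finset.mem_filter, mem_prLe]
          exact ⟨h1, (hcl ⟨P.1, h3⟩ _).mp (hJ _).symm, h2⟩
      · rintro ⟨g, hg, hP⟩
        rw [Finset.mem_filter, mem_prLe] at hP
        obtain ⟨h1, h2, h3⟩ := hP
        have h4 : IsCoprime (P.1 : Ideal (𝓞 (QF 1 e n))) (mod2D e n) := h2.coprime (J g).2
        refine ⟨h1, h3, h4, ?_⟩
        rw [(hcl ⟨P.1, h4⟩ (J g)).mpr h2, hJ]
        exact (Finset.mem_filter.mp hg).2
    · intro g _ g' _ hne
      rw [Function.onFun, Finset.disjoint_left]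
      intro P hP hP'
      rw [Finset.mem_filter] at hP hP'
      have h4 : IsCoprime (P.1 : Ideal (𝓞 (QF 1 e n))) (mod2D e n) := hP.2.1.coprime (J g).2
      have h5 := (hcl ⟨P.1, h4⟩ (J g)).mpr hP.2.1
      have h6 := (hcl ⟨P.1, h4⟩ (J g')).mpr hP'.2.1
      rw [hJ] at h5 h6
      exact hne (h5.symm.trans h6)
  have hlim : Tendsto (fun x : ℕ => ∑ g ∈ S, (((prLe (QF 1 e n) x).filter fun P =>
      RayEq (mod2D e n) P.1 (J g).1 ∧
        (Ideal.absNorm (P.1 : Ideal (𝓞 (QF 1 e n)))).Prime).card : ℝ) * Real.log x / x) atTop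
      (𝓝 (∑ _g ∈ S, 1 / (rayNumber (mod2D e n) : ℝ))) :=
    tendsto_finsetSum S fun g _ =>
      prime_ideal_theorem_ray_deg_one (mod2D_ne_bot hD.ne) (J g).2
  -- the limit
  have hSc : S.card = Nat.card (subH cl) := by
    have e1 : {g : G // g * c ∈ subH cl} ≃ subH cl :=
      { toFun := fun g => ⟨g.1 * c, g.2⟩
        invFun := fun h => ⟨h.1 * c⁻¹, by rw [inv_mul_cancel_right]; exact h.2⟩
        left_inv := fun g => Subtype.ext (mul_inv_cancel_right _ _)
        right_inv := fun h => Subtype.ext (inv_mul_cancel_right _ _) }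
    rw [← Nat.card_congr e1, Nat.subtype_card]
    intro g
    rw [hS, Finset.mem_filter]
    exact ⟨fun h => h.2, fun h => ⟨Finset.mem_univ _, h⟩⟩
  have hG : (rayNumber (mod2D e n) : ℝ) =
      (formClassNumber (e ^ 2 - 4 * 1 * n) : ℝ) * Nat.card (subH cl) := by
    rw [← card_quotient_eq cl hcl hD fun g => ⟨J g, hJ g⟩,
      ← natCard_eq_rayNumber cl (fun g => ⟨J g, hJ g⟩) hcl,
      Subgroup.card_eq_card_quotient_mul_card_subgroup (subH cl)]
    push_cast
    rfl
  have hH0 : (Nat.card (subH cl) : ℝ) ≠ 0 := by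
    have : 0 < Nat.card (subH cl) := Nat.card_pos
    exact_mod_cast this.ne'
  have hval : ∑ _g ∈ S, 1 / (rayNumber (mod2D e n) : ℝ) =
      1 / (formClassNumber (e ^ 2 - 4 * 1 * n) : ℝ) := by
    rw [Finset.sum_const, nsmul_eq_mul, hSc, hG]
    rw [mul_one_div, div_mul_cancel_right₀ hH0, one_div]
  rw [hval] at hlim
  refine hlim.congr fun x => ?_
  rw [hcard x]
  push_cast
  rw [Finset.sum_mul, Finset.sum_div]

/-! ### The fibres -/

open scoped Classical in
/-- `2` if `f` is properly equivalent to its opposite, else `1` -/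
def wF (f : BForm) : ℕ := if f.Eqv f.op then 2 else 1

include hcl hD in
/-- the prime ideals of norm `p` in the class of `f` -/
theorem card_fiber_form {f : BForm} (hf : f.disc = e ^ 2 - 4 * 1 * n)
    (hcop : IsCoprime f.a (2 * (e ^ 2 - 4 * 1 * n))) (ha : 0 < f.a) {p : ℕ} (hp : p.Prime)
    (hp2 : IsCoprime (p : ℤ) (2 * (e ^ 2 - 4 * 1 * n))) (hex : ∃ u v : ℤ, f.val u v = p)
    {F : Finset (Pr (QF 1 e n))}
    (hFm : ∀ P : Pr (QF 1 e n), P ∈ F ↔ Ideal.absNorm (P.1 : Ideal (𝓞 (QF 1 e n))) = p ∧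
      ∃ h : IsCoprime (P.1 : Ideal (𝓞 (QF 1 e n))) (mod2D e n),
        cl ⟨P.1, h⟩ * cl (copF hf hcop ha.ne') ∈ subH cl) :
    F.card = wF f := by
  classical
  obtain ⟨u, v, huv⟩ := hex
  obtain ⟨r, s, hdet, hfg, hga⟩ := f.exists_eqv_of_isCoprime
    (BForm.isCoprime_of_val_prime hp huv)
  set g := f.subst u r v s with hg
  rw [huv] at hga
  have hgd : g.disc = e ^ 2 - 4 * 1 * n := by rw [hfg.disc_eq, hf]
  have hgc : IsCoprime g.a (2 * (e ^ 2 - 4 * 1 * n)) := by rw [hga]; exact hp2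
  have hga0 : g.a ≠ 0 := by rw [hga]; exact_mod_cast hp.ne_zero
  have hgd' : g.op.disc = e ^ 2 - 4 * 1 * n := by rw [BForm.disc_op, hgd]
  have hgc' : IsCoprime g.op.a (2 * (e ^ 2 - 4 * 1 * n)) := hgc
  have hga0' : g.op.a ≠ 0 := hga0
  -- the two prime ideals
  have key : ∀ q : BForm, q.disc = e ^ 2 - 4 * 1 * n → q.a = p →
      ∃ Q : Pr (QF 1 e n), (Q.1 : Ideal (𝓞 (QF 1 e n))) = idF e n q ∧
        Ideal.absNorm (Q.1 : Ideal (𝓞 (QF 1 e n))) = p ∧
        IsCoprime (Q.1 : Ideal (𝓞 (QF 1 e n))) (mod2D e n) := by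
    intro q hqd hqa
    have hqc : IsCoprime q.a (2 * (e ^ 2 - 4 * 1 * n)) := by rw [hqa]; exact hp2
    have hN : Ideal.absNorm (idF e n q) = p := by rw [absNorm_idF hqd hqc, hqa]; simp
    have h0 : idF e n q ≠ ⊥ := idF_ne_bot hqd hqc (by rw [hqa]; exact_mod_cast hp.ne_zero)
    have hpr : (idF e n q).IsPrime := Ideal.isPrime_of_irreducible_absNorm (by rw [hN]; exact hp)
    exact ⟨⟨⟨_, mem_nonZeroDivisors_of_ne_zero h0⟩, Ideal.prime_of_isPrime h0 hpr⟩, rfl, hN,
      isCoprime_idF hqc⟩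
  obtain ⟨P₀, hP₀, hP₀N, hP₀c⟩ := key g.op hgd' hga
  obtain ⟨Q₀, hQ₀, hQ₀N, hQ₀c⟩ := key g hgd hga
  have hne : P₀ ≠ Q₀ := by
    rintro rfl
    have h1 : idF e n g.op = idF e n g := hP₀.symm.trans hQ₀
    have h2 : ((g.b : ℤ) : 𝓞 (QF 1 e n)) ∈ idF e n g := by
      have h3 : ((g.b : ℤ) : 𝓞 (QF 1 e n)) = thF e n g.op - thF e n g := by
        rw [thF, thF]
        have h4 := two_mul_kF hgd
        have h5 := two_mul_kF hgd'
        have h6 : kF e g.op - kF e g = g.b := by
          have h7 : g.op.b = -g.b := rfl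
          rw [h7] at h5
          linarith
        rw [← h6]
        push_cast
        ring
      rw [h3]
      exact (idF e n g).sub_mem (h1 ▸ thF_mem_idF g.op) (thF_mem_idF g)
    have h3 : g.a ∣ g.b := (intCast_mem_idF hgd hgc).mp h2
    have h4 : g.a ∣ 2 * (e ^ 2 - 4 * 1 * n) := by
      rw [← hgd, BForm.disc]
      exact Dvd.dvd.mul_left (dvd_sub (h3.trans (dvd_pow_self _ two_ne_zero))
        (Dvd.intro_left _ (by ring : 4 * g.c * g.a = 4 * g.a * g.c))) 2
    have h5 : IsUnit g.a := hgc.isUnit_of_dvd' dvd_rfl h4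
    rw [hga] at h5
    exact (Nat.prime_iff_prime_int.mp hp).not_isUnit h5
  -- all prime ideals of norm `p`
  have hall : ∀ R : Pr (QF 1 e n), Ideal.absNorm (R.1 : Ideal (𝓞 (QF 1 e n))) = p →
      R = P₀ ∨ R = Q₀ := by
    intro R hR
    have h4 : (R.1 : Ideal (𝓞 (QF 1 e n))) ∣
        (Q₀.1 : Ideal (𝓞 (QF 1 e n))) * (P₀.1 : Ideal (𝓞 (QF 1 e n))) := by
      rw [hQ₀, hP₀, idF_mul_idF_op_self hgd hgc, hga]
      refine Ideal.dvd_span_singleton.mpr ?_
      have := Ideal.absNorm_mem (R.1 : Ideal (𝓞 (QF 1 e n)))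
      rw [hR] at this
      exact_mod_cast this
    rcases R.2.dvd_or_dvd h4 with h | h
    · right
      refine pr_dvd_pr ?_
      rw [nonZeroDivisors_dvd_iff_dvd_coe]
      exact h
    · left
      refine pr_dvd_pr ?_
      rw [nonZeroDivisors_dvd_iff_dvd_coe]
      exact h
  -- membership in terms of forms
  have hmem : ∀ (R : Pr (QF 1 e n)) (hR : Ideal.absNorm (R.1 : Ideal (𝓞 (QF 1 e n))) = p)
      (hRc : IsCoprime (R.1 : Ideal (𝓞 (QF 1 e n))) (mod2D e n)),
      R ∈ F ↔ ∃ u r v s : ℤ, u * s - r * v = 1 ∧ (f.subst u r v s).a = p ∧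
        (R.1 : Ideal (𝓞 (QF 1 e n))) = idF e n (f.subst u r v s).op := by
    intro R hR hRc
    have h1 := mul_mem_subH_iff cl hcl hD ⟨R, by rw [hR]; exact hp, hRc⟩ hf hcop ha
    rw [hFm]
    constructor
    · rintro ⟨-, h2, h3⟩
      obtain ⟨u, r, v, s, e1, e2, e3⟩ := h1.mp h3
      refine ⟨u, r, v, s, e1, ?_, e3⟩
      rw [e2]
      exact congrArg (Nat.cast : ℕ → ℤ) hR
    · rintro ⟨u, r, v, s, e1, e2, e3⟩
      refine ⟨hR, hRc, h1.mpr ⟨u, r, v, s, e1, ?_, e3⟩⟩
      rw [e2]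
      exact congrArg (Nat.cast : ℕ → ℤ) hR.symm
  have hP₀F : P₀ ∈ F := (hmem P₀ hP₀N hP₀c).mpr ⟨u, r, v, s, hdet, hga, hP₀⟩
  have hQ₀F : Q₀ ∈ F ↔ f.Eqv f.op := by
    rw [hmem Q₀ hQ₀N hQ₀c]
    constructor
    · rintro ⟨u', r', v', s', e1, e2, e3⟩
      have h1 : f.Eqv (f.subst u' r' v' s') := ⟨u', r', v', s', e1, rfl⟩
      have h2 : g.Eqv (f.subst u' r' v' s').op := by
        refine eqv_of_idF_eq hgd ?_ hgc ?_ hga0 ?_
        · rw [BForm.disc_op, h1.disc_eq, hf]
        · rw [hga, ← e2]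
          rfl
        · rw [← hQ₀, e3]
      exact (hfg.trans h2).trans h1.op.symm
    · intro h
      obtain ⟨u', r', v', s', e1, e2⟩ := h.trans hfg.op
      refine ⟨u', r', v', s', e1, ?_, ?_⟩
      · rw [e2]
        exact hga
      · rw [e2, BForm.op_op, hQ₀]
  have hsub : F ⊆ {P₀, Q₀} := by
    intro R hR
    rw [Finset.mem_insert, Finset.mem_singleton]
    exact hall R ((hFm R).mp hR).1
  by_cases hC : f.Eqv f.op
  · have hFe : F = {P₀, Q₀} := by
      refine Finset.Subset.antisymm hsub fun R hR => ?_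
      rw [Finset.mem_insert, Finset.mem_singleton] at hR
      rcases hR with rfl | rfl
      · exact hP₀F
      · exact hQ₀F.mpr hC
    rw [hFe, Finset.card_pair hne, wF, if_pos hC]
  · have hFe : F = {P₀} := by
      refine Finset.Subset.antisymm (fun R hR => ?_) fun R hR => ?_
      · have h3 := hsub hR
        rw [Finset.mem_insert, Finset.mem_singleton] at h3
        rw [Finset.mem_singleton]
        rcases h3 with h3 | h3
        · exact h3
        · exact absurd (hQ₀F.mp (h3 ▸ hR)) hC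
      · rw [Finset.mem_singleton] at hR
        rw [hR]
        exact hP₀F
    rw [hFe, Finset.card_singleton, wF, if_neg hC]

end Group

theorem wF_pos (f : BForm) : 0 < wF f := by
  unfold wF
  split_ifs <;> norm_num

theorem wF_le (f : BForm) : wF f ≤ 2 := by
  unfold wF
  split_ifs <;> norm_num

theorem wF_eq {f g : BForm} (h : f.Eqv g) : wF f = wF g := by
  have h1 : f.Eqv f.op ↔ g.Eqv g.op :=
    ⟨fun h' => (h.symm.trans h').trans h.op, fun h' => (h.trans h').trans h.op.symm⟩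
  classical
  unfold wF
  by_cases h2 : f.Eqv f.op
  · rw [if_pos h2, if_pos (h1.mp h2)]
  · rw [if_neg h2, if_neg fun h3 => h2 (h1.mpr h3)]

/-- the case of a first coefficient prime to `2D`, in a fixed field -/
theorem density_form_coprime (hD : e ^ 2 - 4 * 1 * n < 0) {f : BForm}
    (hf : f.disc = e ^ 2 - 4 * 1 * n) (hcop : IsCoprime f.a (2 * (e ^ 2 - 4 * 1 * n)))
    (ha : 0 < f.a) :
    Tendsto (fun x : ℕ => (Nat.card {p : ℕ // p ≤ x ∧ p.Prime ∧ ∃ u v : ℤ, f.val u v = p} : ℝ) *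
      Real.log x / x) atTop
      (𝓝 (1 / (wF f * formClassNumber (e ^ 2 - 4 * 1 * n)))) := by
  classical
  obtain ⟨G, _, _, cl, hsurj, hcl⟩ :=
    groupStmt (QF 1 e n) (mod2D e n) (mod2D_ne_bot hD.ne)
  set c : G := cl (copF hf hcop ha.ne') with hc
  set R : ℕ → Finset ℕ := fun x => (Finset.range (x + 1)).filter fun p => p.Prime ∧
    ∃ u v : ℤ, f.val u v = p with hRdef
  have hR : ∀ x p, p ∈ R x ↔ p ≤ x ∧ p.Prime ∧ ∃ u v : ℤ, f.val u v = p := by
    intro x p
    rw [hRdef, Finset.mem_filter, Finset.mem_range, Nat.lt_succ_iff]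
  have hcard : ∀ x : ℕ, Nat.card {p : ℕ // p ≤ x ∧ p.Prime ∧ ∃ u v : ℤ, f.val u v = p} =
      (R x).card := by
    intro x
    rw [Nat.subtype_card]
    intro p
    exact hR x p
  suffices hmain : Tendsto (fun x : ℕ => ((R x).card : ℝ) * Real.log x / x) atTop
      (𝓝 (1 / (wF f * formClassNumber (e ^ 2 - 4 * 1 * n)))) by
    refine hmain.congr fun x => ?_
    rw [hcard x]
  set w : ℕ := wF f with hw
  have hw0 : (w : ℝ) ≠ 0 := by exact_mod_cast (wF_pos f).ne'
  set T : ℕ := (2 * (e ^ 2 - 4 * 1 * n)).natAbs with hT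
  have hT0 : T ≠ 0 := Int.natAbs_ne_zero.mpr (mul_ne_zero two_ne_zero hD.ne)
  set M : ℕ := T.divisors.card with hM
  -- the comparison
  have key : ∀ x : ℕ, |((setD cl c x).card : ℝ) - w * (R x).card| ≤ 0 * Nat.sqrt x + 2 * M := by
    intro x
    have h3 : (setD cl c x).card = ∑ p ∈ R x, ((setD cl c x).filter fun P =>
        Ideal.absNorm (P.1 : Ideal (𝓞 (QF 1 e n))) = p).card := by
      refine Finset.card_eq_sum_card_fiberwise fun P hP => ?_
      obtain ⟨h1, h2, h4, h5⟩ := (mem_setD cl).mp hP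
      obtain ⟨u, r, v, s, e1, e2, -⟩ := (mul_mem_subH_iff cl hcl hD ⟨P, h2, h4⟩ hf hcop ha).mp h5
      exact (hR x _).mpr ⟨h1, h2, u, v, e2⟩
    have h4 : ∀ p ∈ R x, |(((setD cl c x).filter fun P =>
        Ideal.absNorm (P.1 : Ideal (𝓞 (QF 1 e n))) = p).card : ℝ) - w| ≤
        if p ∣ T then 2 else 0 := by
      intro p hp
      obtain ⟨hpx, hpp, hex⟩ := (hR x p).mp hp
      by_cases hpd : p ∣ T
      · rw [if_pos hpd]
        have h5 : ((setD cl c x).filter fun P =>
            Ideal.absNorm (P.1 : Ideal (𝓞 (QF 1 e n))) = p) = ∅ := by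
          rw [Finset.filter_eq_empty_iff]
          intro P hP hPp
          obtain ⟨h1, h2, h4, h5⟩ := (mem_setD cl).mp hP
          have h6 := isCoprime_of_isCoprime (Ideal.isPrime_of_prime P.2) hpp hPp h4
          have h7 : (p : ℤ) ∣ 2 * (e ^ 2 - 4 * 1 * n) := by
            rw [← Int.dvd_natAbs]
            exact_mod_cast hpd
          exact (Nat.prime_iff_prime_int.mp hpp).not_isUnit (h6.isUnit_of_dvd' dvd_rfl h7)
        rw [h5, Finset.card_empty]
        have h8 : (w : ℝ) ≤ 2 := by exact_mod_cast wF_le f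
        have h9 : (0 : ℝ) ≤ w := Nat.cast_nonneg _
        rw [abs_le]
        push_cast
        constructor <;> linarith
      · rw [if_neg hpd]
        have hp2 : IsCoprime (p : ℤ) (2 * (e ^ 2 - 4 * 1 * n)) := by
          refine (Prime.coprime_iff_not_dvd (Nat.prime_iff_prime_int.mp hpp)).mpr fun h => hpd ?_
          rw [← Int.dvd_natAbs] at h
          exact_mod_cast h
        rw [card_fiber_form cl hcl hD hf hcop ha hpp hp2 hex, sub_self, abs_zero]
        intro P
        rw [Finset.mem_filter, mem_setD]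
        constructor
        · rintro ⟨⟨-, -, h6⟩, h7⟩
          exact ⟨h7, h6⟩
        · rintro ⟨h5, h6⟩
          exact ⟨⟨h5.le.trans hpx, by rw [h5]; exact hpp, h6⟩, h5⟩
    have h5 : ((setD cl c x).card : ℝ) - w * (R x).card = ∑ p ∈ R x,
        ((((setD cl c x).filter fun P =>
          Ideal.absNorm (P.1 : Ideal (𝓞 (QF 1 e n))) = p).card : ℝ) - w) := by
      rw [Finset.sum_sub_distrib, Finset.sum_const, nsmul_eq_mul, mul_comm (w : ℝ)]
      congr 1
      exact_mod_cast h3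
    rw [h5, zero_mul, zero_add]
    refine (Finset.abs_sum_le_sum_abs _ _).trans ((Finset.sum_le_sum h4).trans ?_)
    rw [← Finset.sum_filter, Finset.sum_const, nsmul_eq_mul, mul_comm]
    have h6 : ((R x).filter fun p => p ∣ T) ⊆ T.divisors := by
      intro p hp
      rw [Nat.mem_divisors]
      exact ⟨(Finset.mem_filter.mp hp).2, hT0⟩
    have h7 : (((R x).filter fun p => p ∣ T).card : ℝ) ≤ M := by
      exact_mod_cast Finset.card_le_card h6
    linarith
  have h3 := qd_tendsto_of_bounded key (tendsto_setD cl hcl hD hsurj c)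
  have h4 := h3.const_mul ((w : ℝ)⁻¹)
  have h5 : (w : ℝ)⁻¹ * (1 / (formClassNumber (e ^ 2 - 4 * 1 * n) : ℝ)) =
      1 / (w * formClassNumber (e ^ 2 - 4 * 1 * n)) := by
    rw [one_div, one_div, mul_inv]
  rw [h5] at h4
  refine h4.congr fun x => ?_
  field_simp

end Field

/-! ### The theorem -/

/-- **The natural density of the primes represented by a primitive positive definite binary
quadratic form** of discriminant `D`: `1 / 2h(D)` if the form is properly equivalent to its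
opposite, `1 / h(D)` otherwise. -/
theorem density_form {f : BForm} (hf : f.Prim) (ha : 0 < f.a) (hD : f.disc < 0) :
    Tendsto (fun x : ℕ => (Nat.card {p : ℕ // p ≤ x ∧ p.Prime ∧ ∃ u v : ℤ, f.val u v = p} : ℝ) *
      Real.log x / x) atTop (𝓝 (1 / (wF f * formClassNumber f.disc))) := by
  -- the field
  set e : ℤ := f.b with he
  set n : ℤ := f.a * f.c with hn
  have hdisc : f.disc = e ^ 2 - 4 * 1 * n := by
    rw [BForm.disc, he, hn]
    ring
  have hsq : ¬ IsSquare (e ^ 2 - 4 * 1 * n) := by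
    rintro ⟨t, ht⟩
    have := mul_self_nonneg t
    rw [← ht, ← hdisc] at this
    linarith
  have : Fact (∀ r : ℚ, r ^ 2 ≠ -(((1 : ℤ) : ℚ) * n) + -(e : ℚ) * r) := fact_of_not_isSquare hsq
  have hD' : e ^ 2 - 4 * 1 * n < 0 := by rw [← hdisc]; exact hD
  have h2 : 2 ≤ (2 * (e ^ 2 - 4 * 1 * n)).natAbs := by omega
  obtain ⟨f₁, hff₁, hco⟩ := exists_eqv_coprime hf h2
  have hco' : IsCoprime f₁.a (2 * (e ^ 2 - 4 * 1 * n)) := by
    rcases Int.natAbs_eq (2 * (e ^ 2 - 4 * 1 * n)) with h | h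
    · rwa [← h] at hco
    · rw [h]
      exact hco.neg_right
  have hf₁d : f₁.disc = e ^ 2 - 4 * 1 * n := by rw [hff₁.disc_eq, hdisc]
  have h := density_form_coprime hD' hf₁d hco' (hff₁.a_pos ha hD)
  rw [← hdisc, ← wF_eq hff₁] at h
  refine h.congr fun x => ?_
  congr 3
  refine Nat.card_congr (Equiv.subtypeEquivRight fun p => ?_)
  exact and_congr_right fun _ => and_congr_right fun _ => hff₁.repr_iff.symm

/-- **The natural density of the primes `x² + n y²`** is `1 / 2h(-4n)`, for every `n ≥ 1`. -/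
theorem density_sq_add_mul {n : ℕ} (hn : 0 < n) :
    Tendsto (fun x : ℕ => (Nat.card {p : ℕ // p ≤ x ∧ p.Prime ∧
        ∃ u v : ℕ, p = u ^ 2 + n * v ^ 2} : ℝ) * Real.log x / x) atTop
      (𝓝 (1 / (2 * formClassNumber (-4 * n)))) := by
  have hprim : (⟨1, 0, n⟩ : BForm).Prim := by
    rintro q hq ⟨h1, -, -⟩
    exact (Nat.prime_iff_prime_int.mp hq).not_isUnit (isUnit_of_dvd_one h1)
  have hdisc : (⟨1, 0, n⟩ : BForm).disc = -4 * n := by
    simp only [BForm.disc]
    ring
  have hneg : (⟨1, 0, n⟩ : BForm).disc < 0 := by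
    rw [hdisc]
    have : (0 : ℤ) < n := by exact_mod_cast hn
    linarith
  have h := density_form hprim one_pos hneg
  have hw : wF (⟨1, 0, n⟩ : BForm) = 2 := by
    rw [wF, if_pos]
    have h1 : (⟨1, 0, n⟩ : BForm).op = ⟨1, 0, n⟩ := by
      simp [BForm.op]
    rw [h1]
    exact BForm.Eqv.refl _
  rw [hw, hdisc] at h
  refine h.congr fun x => ?_
  congr 3
  refine Nat.card_congr (Equiv.subtypeEquivRight fun p => ?_)
  refine and_congr_right fun _ => and_congr_right fun _ => ⟨?_, ?_⟩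
  · rintro ⟨u, v, huv⟩
    refine ⟨u.natAbs, v.natAbs, ?_⟩
    have h1 : (p : ℤ) = (u.natAbs : ℤ) ^ 2 + (n : ℤ) * (v.natAbs : ℤ) ^ 2 := by
      rw [Int.natAbs_sq, Int.natAbs_sq, ← huv]
      simp only [BForm.val]
      ring
    exact_mod_cast h1
  · rintro ⟨u, v, rfl⟩
    exact ⟨u, v, by simp only [BForm.val]; push_cast; ring⟩

end Fermat.Agent.Cor.Ray
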