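import Fermat.Agent.Corollaries.Ray.BForm

/-!
# Forms and ideals in a fixed quadratic field

`K = ℚ(θ)`, `θ² + e θ + n = 0`, `D = e² - 4n`. A form `f = (a, b, c)` of discriminant `D` gives
`θ_f = (-b + √D) / 2 ∈ ℤ + ℤ θ` and the ideal `(a, θ_f)`.
-/

set_option autoImplicit false

open NumberField QuadraticAlgebra
open scoped nonZeroDivisors

namespace Fermat.Agent.Cor.Ray

section Field

variable {e n : ℤ} [hF : Fact (∀ r : ℚ, r ^ 2 ≠ -(((1 : ℤ) : ℚ) * n) + -(e : ℚ) * r)]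

theorem th_sq : thetaQ 1 e n * thetaQ 1 e n =
    -((n : ℤ) : 𝓞 (QF 1 e n)) - ((e : ℤ) : 𝓞 (QF 1 e n)) * thetaQ 1 e n := by
  have h := thetaQ_sq (a := 1) (b := e) (c := n)
  have h1 : ((1 : ℤ) : 𝓞 (QF 1 e n)) = 1 := Int.cast_one
  linear_combination h - (n : 𝓞 (QF 1 e n)) * h1

/-! ### The order `ℤ + ℤ θ` -/

variable (e n) in
/-- the order `ℤ + ℤ θ` -/
def ordO : Subring (𝓞 (QF 1 e n)) where
  carrier := {α | ∃ x y : ℤ, α = x + y * thetaQ 1 e n}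
  mul_mem' := by
    rintro _ _ ⟨x, y, rfl⟩ ⟨x', y', rfl⟩
    refine ⟨x * x' - n * y * y', x * y' + x' * y - e * y * y', ?_⟩
    push_cast
    linear_combination ((y : 𝓞 (QF 1 e n)) * y') * th_sq (e := e) (n := n)
  one_mem' := ⟨1, 0, by push_cast; ring⟩
  add_mem' := by
    rintro _ _ ⟨x, y, rfl⟩ ⟨x', y', rfl⟩
    exact ⟨x + x', y + y', by push_cast; ring⟩
  zero_mem' := ⟨0, 0, by push_cast; ring⟩
  neg_mem' := by
    rintro _ ⟨x, y, rfl⟩
    exact ⟨-x, -y, by push_cast; ring⟩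

theorem mem_ordO {α : 𝓞 (QF 1 e n)} :
    α ∈ ordO e n ↔ ∃ x y : ℤ, α = x + y * thetaQ 1 e n := Iff.rfl

theorem two_disc_mul_mem (z : 𝓞 (QF 1 e n)) :
    ((2 * (e ^ 2 - 4 * 1 * n) : ℤ) : 𝓞 (QF 1 e n)) * z ∈ ordO e n := by
  obtain ⟨x, y, h⟩ := exists_comb_mul (a := 1) (b := e) (c := n) z
  exact ⟨x, y, h⟩

theorem two_disc_mul_mem' {z α : 𝓞 (QF 1 e n)} (hα : α ∈ ordO e n)
    (hz : z - α ∈ Ideal.span {((2 * (e ^ 2 - 4 * 1 * n) : ℤ) : 𝓞 (QF 1 e n))}) :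
    z ∈ ordO e n := by
  obtain ⟨w, hw⟩ := Ideal.mem_span_singleton'.mp hz
  have h1 : z = α + ((2 * (e ^ 2 - 4 * 1 * n) : ℤ) : 𝓞 (QF 1 e n)) * w := by
    linear_combination -hw
  rw [h1]
  exact (ordO e n).add_mem hα (two_disc_mul_mem w)

/-! ### Forms of discriminant `e² - 4n` -/

/-- `(e - b) / 2` -/
def kF (e : ℤ) (f : BForm) : ℤ := (e - f.b) / 2

omit hF in
theorem two_mul_kF {f : BForm} (hf : f.disc = e ^ 2 - 4 * 1 * n) : 2 * kF e f = e - f.b := by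
  rw [kF]
  refine Int.mul_ediv_cancel' ?_
  rw [BForm.disc] at hf
  have h1 : (2 : ℤ) ∣ (e - f.b) ^ 2 :=
    ⟨e ^ 2 - e * f.b + 2 * f.a * f.c - 2 * n, by linear_combination hf⟩
  exact Int.prime_two.dvd_of_dvd_pow h1

omit hF in
theorem kF_rel {f : BForm} (hf : f.disc = e ^ 2 - 4 * 1 * n) :
    kF e f ^ 2 - e * kF e f + n = f.a * f.c := by
  have h1 := two_mul_kF hf
  rw [BForm.disc] at hf
  have h2 : (4 : ℤ) * (kF e f ^ 2 - e * kF e f + n) = 4 * (f.a * f.c) := by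
    linear_combination (2 * kF e f + e - f.b - 2 * e) * h1 + hf
  exact mul_left_cancel₀ four_ne_zero h2

/-- `θ_f = (-b + √D) / 2` -/
noncomputable def thF (e n : ℤ) [Fact (∀ r : ℚ, r ^ 2 ≠ -(((1 : ℤ) : ℚ) * n) + -(e : ℚ) * r)]
    (f : BForm) : 𝓞 (QF 1 e n) := thetaQ 1 e n + ((kF e f : ℤ) : 𝓞 (QF 1 e n))

theorem thF_sq {f : BForm} (hf : f.disc = e ^ 2 - 4 * 1 * n) :
    thF e n f * thF e n f = -((f.a : 𝓞 (QF 1 e n)) * f.c) - (f.b : 𝓞 (QF 1 e n)) * thF e n f := by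
  have h1 : (2 : 𝓞 (QF 1 e n)) * (kF e f : ℤ) = (e : 𝓞 (QF 1 e n)) - f.b := by
    exact_mod_cast congrArg (Int.cast : ℤ → 𝓞 (QF 1 e n)) (two_mul_kF hf)
  have h2 : ((kF e f : ℤ) : 𝓞 (QF 1 e n)) ^ 2 - e * (kF e f : ℤ) + n =
      (f.a : 𝓞 (QF 1 e n)) * f.c := by
    exact_mod_cast congrArg (Int.cast : ℤ → 𝓞 (QF 1 e n)) (kF_rel hf)
  simp only [thF]
  linear_combination th_sq (e := e) (n := n) - h2 +
    (thetaQ 1 e n + ((kF e f : ℤ) : 𝓞 (QF 1 e n))) * h1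

theorem thF_mem_ordO (f : BForm) : thF e n f ∈ ordO e n :=
  ⟨kF e f, 1, by rw [thF]; push_cast; ring⟩

theorem exists_comb_thF (f : BForm) {α : 𝓞 (QF 1 e n)} (hα : α ∈ ordO e n) :
    ∃ x y : ℤ, α = x + y * thF e n f := by
  obtain ⟨x, y, rfl⟩ := hα
  refine ⟨x - y * kF e f, y, ?_⟩
  rw [thF]
  push_cast
  ring

theorem comb_thF_inj (f : BForm) {x y x' y' : ℤ}
    (h : (x : 𝓞 (QF 1 e n)) + y * thF e n f = x' + y' * thF e n f) : x = x' ∧ y = y' := by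
  have h1 : ((x + y * kF e f : ℤ) : 𝓞 (QF 1 e n)) + y * thetaQ 1 e n =
      ((x' + y' * kF e f : ℤ) : 𝓞 (QF 1 e n)) + y' * thetaQ 1 e n := by
    rw [thF] at h
    push_cast
    linear_combination h
  obtain ⟨h2, rfl⟩ := comb_inj h1
  exact ⟨by linarith, rfl⟩

theorem norm_comb_thF {f : BForm} (hf : f.disc = e ^ 2 - 4 * 1 * n) (x y : ℤ) :
    Algebra.norm ℤ (((x * f.a : ℤ) : 𝓞 (QF 1 e n)) + y * thF e n f) =
      f.a * f.val x (-y) := by
  have h1 : ((x * f.a : ℤ) : 𝓞 (QF 1 e n)) + y * thF e n f =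
      ((((x * f.a + y * kF e f) * 1 : ℤ)) : 𝓞 (QF 1 e n)) + y * thetaQ 1 e n := by
    rw [thF]
    push_cast
    ring
  rw [h1, norm_comb]
  simp only [BForm.val]
  linear_combination (y ^ 2) * kF_rel hf + (-(x * f.a * y)) * (-two_mul_kF hf)

/-! ### The ideal of a form -/

/-- the ideal `(a, θ_f)` -/
noncomputable def idF (e n : ℤ) [Fact (∀ r : ℚ, r ^ 2 ≠ -(((1 : ℤ) : ℚ) * n) + -(e : ℚ) * r)]
    (f : BForm) : Ideal (𝓞 (QF 1 e n)) := Ideal.span {(f.a : 𝓞 (QF 1 e n)), thF e n f}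

theorem a_mem_idF (f : BForm) : (f.a : 𝓞 (QF 1 e n)) ∈ idF e n f :=
  Ideal.subset_span (Set.mem_insert _ _)

theorem thF_mem_idF (f : BForm) : thF e n f ∈ idF e n f :=
  Ideal.subset_span (Set.mem_insert_of_mem _ rfl)

theorem dvd_of_comb_thF_mem {f : BForm} (hf : f.disc = e ^ 2 - 4 * 1 * n)
    (hcop : IsCoprime f.a (2 * (e ^ 2 - 4 * 1 * n))) {x y : ℤ}
    (h : (x : 𝓞 (QF 1 e n)) + y * thF e n f ∈ idF e n f) : f.a ∣ x := by
  obtain ⟨u, v, huv⟩ := Ideal.mem_span_pair.mp h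
  obtain ⟨u0, u1, hu⟩ := exists_comb_thF f (two_disc_mul_mem u)
  obtain ⟨v0, v1, hv⟩ := exists_comb_thF f (two_disc_mul_mem v)
  have h1 : ((2 * (e ^ 2 - 4 * 1 * n) * x : ℤ) : 𝓞 (QF 1 e n)) +
      ((2 * (e ^ 2 - 4 * 1 * n) * y : ℤ) : 𝓞 (QF 1 e n)) * thF e n f =
      ((f.a * u0 - f.a * f.c * v1 : ℤ) : 𝓞 (QF 1 e n)) +
      ((f.a * u1 + v0 - f.b * v1 : ℤ) : 𝓞 (QF 1 e n)) * thF e n f := by
    push_cast
    push_cast at hu hv
    linear_combination (-(2 * ((e : 𝓞 (QF 1 e n)) ^ 2 - 4 * 1 * n))) * huv +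
      (f.a : 𝓞 (QF 1 e n)) * hu + thF e n f * hv +
      (v1 : 𝓞 (QF 1 e n)) * thF_sq hf
  have h2 := (comb_thF_inj f h1).1
  refine hcop.dvd_of_dvd_mul_left ⟨u0 - f.c * v1, ?_⟩
  rw [h2]
  ring

/-- the elements of the order in the ideal -/
theorem exists_of_mem_idF {f : BForm} (hf : f.disc = e ^ 2 - 4 * 1 * n)
    (hcop : IsCoprime f.a (2 * (e ^ 2 - 4 * 1 * n))) {α : 𝓞 (QF 1 e n)} (hα : α ∈ ordO e n)
    (h : α ∈ idF e n f) : ∃ x y : ℤ, α = ((x * f.a : ℤ) : 𝓞 (QF 1 e n)) + y * thF e n f := by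
  obtain ⟨x, y, rfl⟩ := exists_comb_thF f hα
  obtain ⟨w, rfl⟩ := dvd_of_comb_thF_mem hf hcop h
  exact ⟨w, y, by push_cast; ring⟩

theorem intCast_mem_idF {f : BForm} (hf : f.disc = e ^ 2 - 4 * 1 * n)
    (hcop : IsCoprime f.a (2 * (e ^ 2 - 4 * 1 * n))) {m : ℤ} :
    ((m : ℤ) : 𝓞 (QF 1 e n)) ∈ idF e n f ↔ f.a ∣ m := by
  constructor
  · intro h
    refine dvd_of_comb_thF_mem hf hcop (x := m) (y := 0) ?_
    rwa [Int.cast_zero, zero_mul, add_zero]
  · rintro ⟨k, rfl⟩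
    rw [Int.cast_mul]
    exact Ideal.mul_mem_right _ _ (a_mem_idF f)

theorem absNorm_idF {f : BForm} (hf : f.disc = e ^ 2 - 4 * 1 * n)
    (hcop : IsCoprime f.a (2 * (e ^ 2 - 4 * 1 * n))) :
    Ideal.absNorm (idF e n f) = f.a.natAbs := by
  let φ : ℤ →+* 𝓞 (QF 1 e n) ⧸ idF e n f :=
    (Ideal.Quotient.mk (idF e n f)).comp (Int.castRingHom _)
  have hsurj : Function.Surjective φ := by
    intro q
    obtain ⟨z, rfl⟩ := Ideal.Quotient.mk_surjective q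
    obtain ⟨x, y, hxy⟩ := exists_comb_thF f (two_disc_mul_mem z)
    have hcop' := hcop
    obtain ⟨u, v, huv⟩ := hcop'
    refine ⟨v * x, ?_⟩
    change Ideal.Quotient.mk (idF e n f) ((v * x : ℤ) : 𝓞 (QF 1 e n)) = _
    rw [Ideal.Quotient.eq]
    have huv' : (u : 𝓞 (QF 1 e n)) * f.a +
        v * ((2 * (e ^ 2 - 4 * 1 * n) : ℤ) : 𝓞 (QF 1 e n)) = 1 := by
      exact_mod_cast congrArg (Int.cast : ℤ → 𝓞 (QF 1 e n)) huv
    have h1 : ((v * x : ℤ) : 𝓞 (QF 1 e n)) - z =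
        -((u : 𝓞 (QF 1 e n)) * z) * f.a + -((v * y : ℤ) : 𝓞 (QF 1 e n)) * thF e n f := by
      push_cast
      push_cast at hxy huv'
      linear_combination z * huv' - (v : 𝓞 (QF 1 e n)) * hxy
    rw [h1]
    exact Ideal.add_mem _ (Ideal.mul_mem_left _ _ (a_mem_idF f))
      (Ideal.mul_mem_left _ _ (thF_mem_idF f))
  have hker : RingHom.ker φ = Ideal.span {f.a} := by
    ext m
    rw [RingHom.mem_ker, Ideal.mem_span_singleton, ← intCast_mem_idF hf hcop]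
    exact Ideal.Quotient.eq_zero_iff_mem
  have e1 := (Ideal.quotEquivOfEq hker).symm.trans (RingHom.quotientKerEquivOfSurjective hsurj)
  have e2 := Int.quotientSpanEquivZMod f.a
  rw [Ideal.absNorm_apply, Submodule.cardQuot_apply, ← Nat.card_congr e1.toEquiv,
    Nat.card_congr e2.toEquiv, Nat.card_zmod]

/-- **composition with the opposite form**: for `g(x, y) = f(u x + r y, v x + s y)`,
`(a_f, θ_f) (a_g, θ_{op g}) = (u a_f - v θ_f)`. -/
theorem idF_mul_idF_op {f : BForm} (hf : f.disc = e ^ 2 - 4 * 1 * n)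
    (hcop : IsCoprime f.a (2 * (e ^ 2 - 4 * 1 * n))) {u r v s : ℤ} (hdet : u * s - r * v = 1) :
    idF e n f * idF e n (f.subst u r v s).op =
      Ideal.span {((u * f.a : ℤ) : 𝓞 (QF 1 e n)) - v * thF e n f} := by
  set g := f.subst u r v s with hg
  have hgd : g.op.disc = e ^ 2 - 4 * 1 * n := by
    rw [BForm.disc_op, hg, BForm.disc_subst, hf, hdet]
    ring
  set α : 𝓞 (QF 1 e n) := ((u * f.a : ℤ) : 𝓞 (QF 1 e n)) - v * thF e n f with hα
  -- `θ_{op g}`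
  have hk : kF e g.op = kF e f + (f.a * u * r + f.b * u * s + f.c * v * s) := by
    have h1 := two_mul_kF hf
    have h2 := two_mul_kF hgd
    have h3 : g.op.b = -(2 * f.a * u * r + f.b * (u * s + r * v) + 2 * f.c * v * s) := rfl
    have h4 : (2 : ℤ) * kF e g.op =
        2 * (kF e f + (f.a * u * r + f.b * u * s + f.c * v * s)) := by
      rw [h3] at h2
      linear_combination h2 - h1 - f.b * hdet
    exact mul_left_cancel₀ two_ne_zero h4
  have hη : thF e n g.op = thF e n f +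
      (((f.a * u * r + f.b * u * s + f.c * v * s : ℤ)) : 𝓞 (QF 1 e n)) := by
    rw [thF, thF, hk]
    push_cast
    ring
  have hga : (g.op.a : 𝓞 (QF 1 e n)) =
      (f.a : 𝓞 (QF 1 e n)) * u ^ 2 + f.b * u * v + f.c * v ^ 2 := by
    have : g.op.a = f.a * u ^ 2 + f.b * u * v + f.c * v ^ 2 := rfl
    rw [this]
    push_cast
    ring
  have hdet' : (u : 𝓞 (QF 1 e n)) * s - r * v = 1 := by
    exact_mod_cast congrArg (Int.cast : ℤ → 𝓞 (QF 1 e n)) hdet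
  have hsq := thF_sq (n := n) hf
  -- the four products
  have E1 : (f.a : 𝓞 (QF 1 e n)) * g.op.a = α * (u * f.a + v * f.b + v * thF e n f) := by
    rw [hga, hα]
    push_cast
    linear_combination (v : 𝓞 (QF 1 e n)) ^ 2 * hsq
  have E2 : (f.a : 𝓞 (QF 1 e n)) * thF e n g.op = α * (r * f.a + s * f.b + s * thF e n f) := by
    rw [hη, hα]
    push_cast
    linear_combination ((v : 𝓞 (QF 1 e n)) * s) * hsq - (f.a : 𝓞 (QF 1 e n)) * thF e n f * hdet'
  have E3 : thF e n f * g.op.a = α * (u * thF e n f - v * f.c) := by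
    rw [hga, hα]
    push_cast
    linear_combination ((u : 𝓞 (QF 1 e n)) * v) * hsq
  have E4 : thF e n f * thF e n g.op = α * (r * thF e n f - s * f.c) := by
    rw [hη, hα]
    push_cast
    linear_combination (1 + (v : 𝓞 (QF 1 e n)) * r) * hsq +
      (f.b * thF e n f + f.a * f.c : 𝓞 (QF 1 e n)) * hdet'
  rw [idF, idF, Ideal.span_pair_mul_span_pair]
  refine le_antisymm ?_ ?_
  · rw [Ideal.span_le]
    rintro z (rfl | rfl | rfl | rfl)
    · exact Ideal.mem_span_singleton.mpr (Dvd.intro _ E1.symm)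
    · exact Ideal.mem_span_singleton.mpr (Dvd.intro _ E2.symm)
    · exact Ideal.mem_span_singleton.mpr (Dvd.intro _ E3.symm)
    · exact Ideal.mem_span_singleton.mpr (Dvd.intro _ E4.symm)
  · rw [Ideal.span_singleton_le_iff_mem]
    set I : Ideal (𝓞 (QF 1 e n)) := Ideal.span {(f.a : 𝓞 (QF 1 e n)) * g.op.a,
      (f.a : 𝓞 (QF 1 e n)) * thF e n g.op, thF e n f * g.op.a, thF e n f * thF e n g.op} with hI
    have m1 : (f.a : 𝓞 (QF 1 e n)) * g.op.a ∈ I := Ideal.subset_span (by simp)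
    have m2 : (f.a : 𝓞 (QF 1 e n)) * thF e n g.op ∈ I := Ideal.subset_span (by simp)
    have m3 : thF e n f * g.op.a ∈ I := Ideal.subset_span (by simp)
    have m4 : thF e n f * thF e n g.op ∈ I := Ideal.subset_span (by simp)
    -- `α a ∈ I`
    have n1 : α * (f.a : 𝓞 (QF 1 e n)) ∈ I := by
      have h1 : α * (f.a : 𝓞 (QF 1 e n)) = s * ((f.a : 𝓞 (QF 1 e n)) * g.op.a) -
          v * ((f.a : 𝓞 (QF 1 e n)) * thF e n g.op) := by
        rw [E1, E2]
        linear_combination (-(α * f.a)) * hdet'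
      rw [h1]
      exact I.sub_mem (I.mul_mem_left _ m1) (I.mul_mem_left _ m2)
    -- `α b ∈ I`
    have n2 : α * (f.b : 𝓞 (QF 1 e n)) ∈ I := by
      have h1 : α * (f.b : 𝓞 (QF 1 e n)) = u * ((f.a : 𝓞 (QF 1 e n)) * thF e n g.op) -
          r * ((f.a : 𝓞 (QF 1 e n)) * g.op.a) - (s * (thF e n f * g.op.a) -
            v * (thF e n f * thF e n g.op)) := by
        rw [E1, E2, E3, E4]
        linear_combination (-(α * f.b)) * hdet'
      rw [h1]
      exact I.sub_mem (I.sub_mem (I.mul_mem_left _ m2) (I.mul_mem_left _ m1))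
        (I.sub_mem (I.mul_mem_left _ m3) (I.mul_mem_left _ m4))
    obtain ⟨A, B, hAB⟩ := hcop
    have hD' : ((e ^ 2 - 4 * 1 * n : ℤ) : 𝓞 (QF 1 e n)) =
        (f.b : 𝓞 (QF 1 e n)) ^ 2 - 4 * f.a * f.c := by
      rw [← hf, BForm.disc]
      push_cast
      ring
    have hAB' : (A : 𝓞 (QF 1 e n)) * f.a + B * (2 * ((e ^ 2 - 4 * 1 * n : ℤ) : 𝓞 (QF 1 e n))) =
        1 := by
      exact_mod_cast congrArg (Int.cast : ℤ → 𝓞 (QF 1 e n)) hAB
    rw [hD'] at hAB'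
    have h1 : α = (A - 8 * B * f.c) * (α * f.a) + (2 * B * f.b) * (α * f.b) := by
      linear_combination (-α) * hAB'
    rw [h1]
    exact I.add_mem (I.mul_mem_left _ n1) (I.mul_mem_left _ n2)

/-- the product with the conjugate ideal -/
theorem idF_mul_idF_op_self {f : BForm} (hf : f.disc = e ^ 2 - 4 * 1 * n)
    (hcop : IsCoprime f.a (2 * (e ^ 2 - 4 * 1 * n))) :
    idF e n f * idF e n f.op = Ideal.span {(f.a : 𝓞 (QF 1 e n))} := by
  have h := idF_mul_idF_op hf hcop (u := 1) (r := 0) (v := 0) (s := 1) (by norm_num)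
  rw [BForm.subst_id] at h
  rw [h]
  congr 1
  push_cast
  ring_nf

theorem idF_ne_bot {f : BForm} (hf : f.disc = e ^ 2 - 4 * 1 * n)
    (hcop : IsCoprime f.a (2 * (e ^ 2 - 4 * 1 * n))) (ha : f.a ≠ 0) : idF e n f ≠ ⊥ := by
  intro h
  have h1 := absNorm_idF hf hcop
  rw [h, Ideal.absNorm_bot] at h1
  exact ha (Int.natAbs_eq_zero.mp h1.symm)

/-- the ideal determines the form up to proper equivalence -/
theorem eqv_of_idF_eq {F G : BForm} (hFd : F.disc = e ^ 2 - 4 * 1 * n)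
    (hGd : G.disc = e ^ 2 - 4 * 1 * n) (hcop : IsCoprime F.a (2 * (e ^ 2 - 4 * 1 * n)))
    (ha : F.a = G.a) (ha0 : F.a ≠ 0) (h : idF e n F = idF e n G) : F.Eqv G := by
  have h1 : ((kF e G - kF e F : ℤ) : 𝓞 (QF 1 e n)) ∈ idF e n F := by
    have h2 : ((kF e G - kF e F : ℤ) : 𝓞 (QF 1 e n)) = thF e n G - thF e n F := by
      rw [thF, thF]
      push_cast
      ring
    rw [h2]
    exact (idF e n F).sub_mem (h ▸ thF_mem_idF G) (thF_mem_idF F)
  obtain ⟨t, ht⟩ := (intCast_mem_idF hFd hcop).mp h1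
  refine BForm.eqv_of_b_congr ha ha0 (hFd.trans hGd.symm) (t := -t) ?_
  have h3 := two_mul_kF hFd
  have h4 := two_mul_kF hGd
  linear_combination h4 - h3 - 2 * ht

/-- **the prime ideals `P` such that `P (a, θ_f)` is generated by an element of the order.** -/
theorem rel_iff {f : BForm} (hf : f.disc = e ^ 2 - 4 * 1 * n) (hD : e ^ 2 - 4 * 1 * n < 0)
    (ha : 0 < f.a) (hcop : IsCoprime f.a (2 * (e ^ 2 - 4 * 1 * n)))
    {P : Ideal (𝓞 (QF 1 e n))} {p : ℕ} (hp : p.Prime) (hP : Ideal.absNorm P = p) :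
    (∃ α ∈ ordO e n, P * idF e n f = Ideal.span {α}) ↔
      ∃ u r v s : ℤ, u * s - r * v = 1 ∧ (f.subst u r v s).a = p ∧
        P = idF e n (f.subst u r v s).op := by
  constructor
  · rintro ⟨α, hα, hPα⟩
    have hαf : α ∈ idF e n f := by
      have h1 : α ∈ P * idF e n f := by
        rw [hPα]
        exact Ideal.mem_span_singleton_self α
      have h2 : P * idF e n f ≤ idF e n f := Ideal.mul_le_right
      exact h2 h1
    obtain ⟨x, y, rfl⟩ := exists_of_mem_idF hf hcop hα hαf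
    have hN : (f.a * f.val x (-y)).natAbs = p * f.a.natAbs := by
      rw [← norm_comb_thF hf, ← Ideal.absNorm_span_singleton, ← hPα, map_mul, hP,
        absNorm_idF hf hcop]
    rw [Int.natAbs_mul, mul_comm] at hN
    have h1 := Nat.eq_of_mul_eq_mul_right (Int.natAbs_pos.mpr ha.ne') hN
    have h2 : f.val x (-y) = p := by
      have hne : x ≠ 0 ∨ -y ≠ 0 := by
        by_contra hcon
        push Not at hcon
        rw [hcon.1, hcon.2] at h1
        simp only [BForm.val] at h1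
        norm_num at h1
        exact hp.ne_zero h1.symm
      have h3 := BForm.val_pos ha (by rw [hf]; exact hD) hne
      rw [← h1]
      exact (Int.natAbs_of_nonneg h3.le).symm
    obtain ⟨r, s, hdet, -, hga⟩ := f.exists_eqv_of_isCoprime (BForm.isCoprime_of_val_prime hp h2)
    refine ⟨x, r, -y, s, hdet, by rw [hga, h2], ?_⟩
    have h3 := idF_mul_idF_op hf hcop hdet
    have h4 : ((x * f.a : ℤ) : 𝓞 (QF 1 e n)) - ((-y : ℤ) : 𝓞 (QF 1 e n)) * thF e n f =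
        ((x * f.a : ℤ) : 𝓞 (QF 1 e n)) + y * thF e n f := by
      push_cast
      ring
    rw [h4, ← hPα, mul_comm P] at h3
    exact (mul_left_cancel₀ (idF_ne_bot hf hcop ha.ne') h3).symm
  · rintro ⟨u, r, v, s, hdet, -, rfl⟩
    refine ⟨((u * f.a : ℤ) : 𝓞 (QF 1 e n)) - v * thF e n f, ?_, ?_⟩
    · exact (ordO e n).sub_mem (intCast_mem _ _) ((ordO e n).mul_mem (intCast_mem _ _)
        (thF_mem_ordO f))
    · exact (mul_comm _ _).trans (idF_mul_idF_op hf hcop hdet)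

theorem eq_of_le_of_absNorm {I J : Ideal (𝓞 (QF 1 e n))} (h : I ≤ J)
    (hN : Ideal.absNorm I = Ideal.absNorm J) (h0 : Ideal.absNorm J ≠ 0) : I = J := by
  obtain ⟨L, rfl⟩ := Ideal.dvd_iff_le.mpr h
  rw [map_mul] at hN
  have h1 : Ideal.absNorm L = 1 := by
    refine Nat.eq_of_mul_eq_mul_left (Nat.pos_of_ne_zero h0) ?_
    rw [hN, mul_one]
  rw [Ideal.absNorm_eq_one_iff] at h1
  rw [h1, Ideal.mul_top]

/-- **every prime ideal of residue degree one prime to `2D` is the ideal of a primitive form** -/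
theorem exists_form_of_prime {P : Ideal (𝓞 (QF 1 e n))} (hPp : P.IsPrime) {p : ℕ} (hp : p.Prime)
    (hP : Ideal.absNorm P = p) (hcop : IsCoprime (p : ℤ) (2 * (e ^ 2 - 4 * 1 * n))) :
    ∃ F : BForm, F.a = p ∧ F.disc = e ^ 2 - 4 * 1 * n ∧ F.Prim ∧ idF e n F = P := by
  have hpP : ((p : ℤ) : 𝓞 (QF 1 e n)) ∈ P := by
    have := Ideal.absNorm_mem P
    rw [hP] at this
    exact_mod_cast this
  -- an integer congruent to `-θ`
  obtain ⟨k, hk⟩ : ∃ k : ℤ, thetaQ 1 e n + (k : 𝓞 (QF 1 e n)) ∈ P := by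
    have : Fact p.Prime := ⟨hp⟩
    have hcard : Nat.card (𝓞 (QF 1 e n) ⧸ P) = p := by
      rw [← Submodule.cardQuot_apply, ← Ideal.absNorm_apply, hP]
    have h1 : (Ideal.Quotient.mk P 1) ≠ 0 := by
      rw [Ne, Ideal.Quotient.eq_zero_iff_mem]
      exact fun h => hPp.ne_top ((Ideal.eq_top_iff_one P).mpr h)
    obtain ⟨k, hk⟩ := mem_zmultiples_of_prime_card hcard h1
      (g' := Ideal.Quotient.mk P (-thetaQ 1 e n))
    refine ⟨k, Ideal.Quotient.eq_zero_iff_mem.mp ?_⟩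
    have h2 : k • Ideal.Quotient.mk P 1 = Ideal.Quotient.mk P (-thetaQ 1 e n) := hk
    calc Ideal.Quotient.mk P (thetaQ 1 e n + (k : 𝓞 (QF 1 e n)))
        = Ideal.Quotient.mk P (thetaQ 1 e n) +
            Ideal.Quotient.mk P (k • (1 : 𝓞 (QF 1 e n))) := by rw [zsmul_one, map_add]
      _ = Ideal.Quotient.mk P (thetaQ 1 e n) + k • Ideal.Quotient.mk P 1 := by rw [map_zsmul]
      _ = 0 := by rw [h2, map_neg, add_neg_cancel]
  -- its norm
  have hm : ((k ^ 2 - e * k + n : ℤ) : 𝓞 (QF 1 e n)) ∈ P := by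
    have h1 : ((k ^ 2 - e * k + n : ℤ) : 𝓞 (QF 1 e n)) =
        (-(e : 𝓞 (QF 1 e n)) - thetaQ 1 e n + k) * (thetaQ 1 e n + (k : 𝓞 (QF 1 e n))) := by
      push_cast
      linear_combination th_sq (e := e) (n := n)
    rw [h1]
    exact P.mul_mem_left _ hk
  obtain ⟨c, hc⟩ : (p : ℤ) ∣ k ^ 2 - e * k + n := by
    by_contra hcon
    obtain ⟨x, y, hxy⟩ := (Prime.coprime_iff_not_dvd (Nat.prime_iff_prime_int.mp hp)).mpr hcon
    refine hPp.ne_top ((Ideal.eq_top_iff_one P).mpr ?_)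
    have h1 : (1 : 𝓞 (QF 1 e n)) = x * ((p : ℤ) : 𝓞 (QF 1 e n)) +
        y * ((k ^ 2 - e * k + n : ℤ) : 𝓞 (QF 1 e n)) := by
      have := congrArg (Int.cast : ℤ → 𝓞 (QF 1 e n)) hxy
      rw [Int.cast_add, Int.cast_mul, Int.cast_mul] at this
      rw [this]
      exact Int.cast_one.symm
    rw [h1]
    exact P.add_mem (P.mul_mem_left _ hpP) (P.mul_mem_left _ hm)
  have hFd : (⟨p, e - 2 * k, c⟩ : BForm).disc = e ^ 2 - 4 * 1 * n := by
    simp only [BForm.disc]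
    linear_combination 4 * hc
  have hkF : kF e (⟨p, e - 2 * k, c⟩ : BForm) = k := by
    have h1 := two_mul_kF hFd
    have h2 : (2 : ℤ) * kF e (⟨p, e - 2 * k, c⟩ : BForm) = 2 * k := by
      rw [h1]
      ring
    exact mul_left_cancel₀ two_ne_zero h2
  refine ⟨⟨p, e - 2 * k, c⟩, rfl, hFd, ?_, ?_⟩
  · rintro q hq ⟨h1, h2, h3⟩
    have h4 : (q : ℤ) ∣ 2 * (e ^ 2 - 4 * 1 * n) := by
      rw [← hFd, BForm.disc]
      exact Dvd.dvd.mul_left (dvd_sub (Dvd.dvd.trans h2 (dvd_pow_self _ two_ne_zero))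
        (Dvd.dvd.mul_left h3 _)) 2
    have h5 : IsUnit (q : ℤ) := hcop.isUnit_of_dvd' h1 h4
    exact (Nat.prime_iff_prime_int.mp hq).not_isUnit h5
  · refine eq_of_le_of_absNorm ?_ ?_ ?_
    · rw [idF, Ideal.span_le]
      rintro z (rfl | rfl)
      · exact hpP
      · change thetaQ 1 e n + ((kF e (⟨p, e - 2 * k, c⟩ : BForm) : ℤ) : 𝓞 (QF 1 e n)) ∈ P
        rw [hkF]
        exact hk
    · rw [absNorm_idF hFd hcop, hP]
      simp
    · rw [hP]
      exact hp.ne_zero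

end Field

end Fermat.Agent.Cor.Ray
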