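import Fermat.Agent.Corollaries.Ray.FormDensity
import Fermat.Agent.Corollaries.Ray.Ambig

/-!
# The density of the primes represented by a reduced form, and explicit values

A reduced primitive form `(a, b, c)` of discriminant `D < 0` represents a set of primes of natural
density `1 / (w h(D))`, `w = 2` if `b = 0`, `b = a` or `a = c`, and `w = 1` otherwise; `h(D)` is the
number of reduced primitive forms of discriminant `D` (computed by `decide`).
-/

set_option autoImplicit false

open Filter Topology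

namespace Fermat.Agent.Cor.Ray

open BForm

/-- The class number of `FormDensity` is the number of reduced forms of `ClassNum`. -/
theorem formClassNumber_eq (D : ℤ) : formClassNumber D = hForm D := rfl

theorem formClassNumber_pos {D : ℤ} (hD : D < 0) (h : D % 4 = 0 ∨ D % 4 = 1) :
    0 < formClassNumber D := by
  rw [formClassNumber_eq]
  exact hForm_pos hD h

/-- The class number of the discriminant `-n` as the number of the reduced forms. -/
theorem formClassNumber_eq_card {n A : ℕ} (hn : 0 < n) (hA : n < 3 * (A + 1) ^ 2) :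
    formClassNumber (-(n : ℤ)) = (redSet n A).card :=
  (formClassNumber_eq _).trans (hForm_eq hn hA)

/-- The weight of a reduced form. -/
def wRed (f : BForm) : ℕ := if f.b = 0 ∨ f.b = f.a ∨ f.a = f.c then 2 else 1

theorem wF_eq_wRed {f : BForm} (ha : 0 < f.a) (hr : f.Red) : wF f = wRed f := by
  have h := hr.eqv_op_iff ha
  rw [wF, wRed]
  by_cases h1 : f.Eqv f.op
  · rw [if_pos h1, if_pos (h.mp h1)]
  · rw [if_neg h1, if_neg (fun h2 => h1 (h.mpr h2))]

/-- **The density of the primes represented by a reduced form.** -/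
theorem density_reduced {f : BForm} (hf : f.Prim) (ha : 0 < f.a) (hD : f.disc < 0)
    (hr : f.Red) :
    Tendsto (fun x : ℕ => (Nat.card {p : ℕ // p ≤ x ∧ p.Prime ∧ ∃ u v : ℤ, f.val u v = p} : ℝ) *
      Real.log x / x) atTop (𝓝 (1 / (wRed f * formClassNumber f.disc))) := by
  rw [← wF_eq_wRed ha hr]
  exact density_form hf ha hD

/-- **The density of the primes represented by a reduced form**, explicitly: all hypotheses are
decidable. -/
theorem density_explicit (a b c : ℤ) (n A h : ℕ) (ha : 0 < a) (hn : 0 < n)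
    (hA : n < 3 * (A + 1) ^ 2) (hD : b ^ 2 - 4 * a * c = -(n : ℤ))
    (hp : Int.gcd a (Int.gcd b c) = 1) (hr : IsRed a b c) (hh : (redSet n A).card = h) :
    Tendsto (fun x : ℕ => (Nat.card {p : ℕ // p ≤ x ∧ p.Prime ∧
        ∃ u v : ℤ, a * u ^ 2 + b * u * v + c * v ^ 2 = p} : ℝ) * Real.log x / x) atTop
      (𝓝 (1 / ((if b = 0 ∨ b = a ∨ a = c then 2 else 1 : ℕ) * h))) := by
  have hdisc : (⟨a, b, c⟩ : BForm).disc = -(n : ℤ) := hD
  have h1 := density_reduced (f := ⟨a, b, c⟩) (prim_iff.mpr hp) ha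
    (by rw [hdisc]; omega) hr
  rw [hdisc, formClassNumber_eq_card hn hA, hh] at h1
  exact h1

/-- **The density of the primes `x² + n y²`**: `1 / 2h(-4n)`, where `h(-4n)` is the number of the
reduced forms. -/
theorem density_sq_add_mul_card (n A h : ℕ) (hn : 0 < n) (hA : 4 * n < 3 * (A + 1) ^ 2)
    (hh : (redSet (4 * n) A).card = h) :
    Tendsto (fun x : ℕ => (Nat.card {p : ℕ // p ≤ x ∧ p.Prime ∧
        ∃ u v : ℕ, p = u ^ 2 + n * v ^ 2} : ℝ) * Real.log x / x) atTop
      (𝓝 (1 / (2 * h))) := by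
  have h1 := density_sq_add_mul hn
  have h2 : (-4 * (n : ℤ)) = -((4 * n : ℕ) : ℤ) := by push_cast; ring
  rw [h2, formClassNumber_eq_card (by omega) hA, hh] at h1
  exact h1

/-! ### Examples -/

/-- The primes `x² + y²` have density `1/2`. -/
theorem density_1 : Tendsto (fun x : ℕ => (Nat.card {p : ℕ // p ≤ x ∧ p.Prime ∧
      ∃ u v : ℕ, p = u ^ 2 + 1 * v ^ 2} : ℝ) * Real.log x / x) atTop (𝓝 (1 / 2)) := by
  have h := density_sq_add_mul_card 1 1 1 (by norm_num) (by norm_num) (by decide +kernel)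
  norm_num at h ⊢
  exact h

/-- The primes `x² + 5 y²` have density `1/4`. -/
theorem density_5 : Tendsto (fun x : ℕ => (Nat.card {p : ℕ // p ≤ x ∧ p.Prime ∧
      ∃ u v : ℕ, p = u ^ 2 + 5 * v ^ 2} : ℝ) * Real.log x / x) atTop (𝓝 (1 / 4)) := by
  have h := density_sq_add_mul_card 5 2 2 (by norm_num) (by norm_num) (by decide +kernel)
  norm_num at h ⊢
  exact h

/-- The primes `x² + 14 y²` have density `1/8`. -/
theorem density_14 : Tendsto (fun x : ℕ => (Nat.card {p : ℕ // p ≤ x ∧ p.Prime ∧
      ∃ u v : ℕ, p = u ^ 2 + 14 * v ^ 2} : ℝ) * Real.log x / x) atTop (𝓝 (1 / 8)) := by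
  have h := density_sq_add_mul_card 14 4 4 (by norm_num) (by norm_num) (by decide +kernel)
  norm_num at h ⊢
  exact h

/-- The primes `x² + 27 y²` (i.e. `p ≡ 1 mod 3` with `2` a cube modulo `p`) have density `1/6`. -/
theorem density_27 : Tendsto (fun x : ℕ => (Nat.card {p : ℕ // p ≤ x ∧ p.Prime ∧
      ∃ u v : ℕ, p = u ^ 2 + 27 * v ^ 2} : ℝ) * Real.log x / x) atTop (𝓝 (1 / 6)) := by
  have h := density_sq_add_mul_card 27 6 3 (by norm_num) (by norm_num) (by decide +kernel)
  norm_num at h ⊢
  exact h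

/-- The primes `x² + 64 y²` (i.e. `p ≡ 1 mod 4` with `2` a fourth power modulo `p`) have density
`1/8`. -/
theorem density_64 : Tendsto (fun x : ℕ => (Nat.card {p : ℕ // p ≤ x ∧ p.Prime ∧
      ∃ u v : ℕ, p = u ^ 2 + 64 * v ^ 2} : ℝ) * Real.log x / x) atTop (𝓝 (1 / 8)) := by
  have h := density_sq_add_mul_card 64 9 4 (by norm_num) (by norm_num) (by decide +kernel)
  norm_num at h ⊢
  exact h

/-- The primes `x² + 1848 y²` (the largest known idoneal number) have density `1/32`. -/
theorem density_1848 : Tendsto (fun x : ℕ => (Nat.card {p : ℕ // p ≤ x ∧ p.Prime ∧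
      ∃ u v : ℕ, p = u ^ 2 + 1848 * v ^ 2} : ℝ) * Real.log x / x) atTop (𝓝 (1 / 32)) := by
  have h := density_sq_add_mul_card 1848 49 16 (by norm_num) (by norm_num) (by decide +kernel)
  norm_num at h ⊢
  exact h

/-- The primes `x² + x y + 41 y²` have density `1/2`. -/
theorem density_163 : Tendsto (fun x : ℕ => (Nat.card {p : ℕ // p ≤ x ∧ p.Prime ∧
      ∃ u v : ℤ, u ^ 2 + u * v + 41 * v ^ 2 = p} : ℝ) * Real.log x / x) atTop (𝓝 (1 / 2)) := by
  have h := density_explicit 1 1 41 163 7 1 (by norm_num) (by norm_num) (by norm_num)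
    (by norm_num) (by decide) (by decide) (by decide +kernel)
  norm_num at h ⊢
  exact h

/-- Of the primes, one sixth is of the form `x² + x y + 6 y²`. -/
theorem density_23a : Tendsto (fun x : ℕ => (Nat.card {p : ℕ // p ≤ x ∧ p.Prime ∧
      ∃ u v : ℤ, u ^ 2 + u * v + 6 * v ^ 2 = p} : ℝ) * Real.log x / x) atTop (𝓝 (1 / 6)) := by
  have h := density_explicit 1 1 6 23 2 3 (by norm_num) (by norm_num) (by norm_num)
    (by norm_num) (by decide) (by decide) (by decide +kernel)
  norm_num at h ⊢
  exact h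

/-- Of the primes, one third is of the form `2 x² + x y + 3 y²`. -/
theorem density_23b : Tendsto (fun x : ℕ => (Nat.card {p : ℕ // p ≤ x ∧ p.Prime ∧
      ∃ u v : ℤ, 2 * u ^ 2 + u * v + 3 * v ^ 2 = p} : ℝ) * Real.log x / x) atTop (𝓝 (1 / 3)) := by
  have h := density_explicit 2 1 3 23 2 3 (by norm_num) (by norm_num) (by norm_num)
    (by norm_num) (by decide) (by decide) (by decide +kernel)
  norm_num at h ⊢
  exact h

end Fermat.Agent.Cor.Ray
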