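import Fermat.Agent.Corollaries.Ray.Final
import Fermat.Agent.Corollaries.ZetaK.PsiIdeals

/-!
# The ideals are equidistributed in the ray classes (Weber 1896)

`eulerAt 𝔪 = ∏_{P ∣ 𝔪} (1 - 1 / NP)`. For every `J` prime to `𝔪` the number of ideals of norm at
most `x` in the ray class of `J` is asymptotic to `κ eulerAt 𝔪 x / h`, `κ` the residue of the
Dedekind zeta function at `1` and `h` the number of ray classes modulo `𝔪`.
-/

set_option autoImplicit false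
set_option linter.unusedSectionVars false

noncomputable section

open NumberField nonZeroDivisors Filter Topology

open scoped Classical

namespace Fermat.Agent.Cor.Ray

open Fermat.Agent.ClassL

universe u

variable {K : Type u} [Field K] [NumberField K] {𝔪 : Ideal (𝓞 K)}

/-- `∏_{P ∣ 𝔪} (1 - 1 / NP)` -/
def eulerAt (𝔪 : Ideal (𝓞 K)) : ℝ :=
  ∏ P ∈ (UniqueFactorizationMonoid.normalizedFactors 𝔪).toFinset,
    (1 - (Ideal.absNorm P : ℝ)⁻¹)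

theorem eulerAt_pos (h𝔪 : 𝔪 ≠ ⊥) : 0 < eulerAt 𝔪 := by
  refine Finset.prod_pos fun P hP => ?_
  rw [Multiset.mem_toFinset, Ideal.mem_normalizedFactors_iff h𝔪] at hP
  have hP0 : P ≠ ⊥ := by
    rintro rfl
    exact h𝔪 (le_bot_iff.mp hP.2)
  have h1 : 1 < Ideal.absNorm P := by
    have h2 : Ideal.absNorm P ≠ 0 := fun h => hP0 (Ideal.absNorm_eq_zero_iff.mp h)
    have h3 : Ideal.absNorm P ≠ 1 := fun h => hP.1.ne_top (Ideal.absNorm_eq_one_iff.mp h)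
    omega
  have h4 : (1 : ℝ) < Ideal.absNorm P := by exact_mod_cast h1
  rw [sub_pos]
  exact inv_lt_one_of_one_lt₀ h4

/-- the product over the primes not prime to `𝔪` -/
theorem prod_bad_eq (h𝔪 : 𝔪 ≠ ⊥) {S : Finset (Pr K)}
    (hS : ∀ P : Pr K, P ∈ S ↔ ¬ IsCoprime ((P.1 : (Ideal (𝓞 K))⁰) : Ideal (𝓞 K)) 𝔪) :
    ∏ P ∈ S, (1 - (nP P : ℝ)⁻¹) = eulerAt 𝔪 := by
  have hcop : ∀ P : Ideal (𝓞 K), P.IsMaximal → (¬ IsCoprime P 𝔪 ↔ 𝔪 ≤ P) := by
    intro P hP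
    rw [Ideal.isCoprime_iff_sup_eq]
    constructor
    · intro h
      by_contra h2
      apply h
      by_contra h3
      have h4 := hP.eq_of_le h3 le_sup_left
      exact h2 (by rw [h4]; exact le_sup_right)
    · intro h h2
      rw [sup_eq_left.mpr h] at h2
      exact hP.ne_top h2
  rw [eulerAt]
  refine Finset.prod_bij (fun P _ => ((P.1 : (Ideal (𝓞 K))⁰) : Ideal (𝓞 K))) ?_ ?_ ?_ ?_
  · intro P hP
    have hpr : ((P.1 : (Ideal (𝓞 K))⁰) : Ideal (𝓞 K)).IsPrime := Ideal.isPrime_of_prime P.2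
    rw [Multiset.mem_toFinset, Ideal.mem_normalizedFactors_iff h𝔪]
    exact ⟨hpr, (hcop _ (hpr.isMaximal (nonZeroDivisors.coe_ne_zero P.1))).mp ((hS P).mp hP)⟩
  · intro P _ Q _ h
    exact Subtype.ext (Subtype.ext h)
  · intro Q hQ
    rw [Multiset.mem_toFinset, Ideal.mem_normalizedFactors_iff h𝔪] at hQ
    have hQ0 : Q ≠ ⊥ := by
      rintro rfl
      exact h𝔪 (le_bot_iff.mp hQ.2)
    refine ⟨⟨⟨Q, mem_nonZeroDivisors_of_ne_zero hQ0⟩, Ideal.prime_of_isPrime hQ0 hQ.1⟩, ?_, rfl⟩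
    rw [hS]
    exact (hcop Q (hQ.1.isMaximal hQ0)).mpr hQ.2
  · intro P _
    rfl

/-- **Weber's theorem: the ideals are equidistributed in the ray classes.** -/
theorem ideals_in_ray_class (h𝔪 : 𝔪 ≠ ⊥) {J : (Ideal (𝓞 K))⁰}
    (hJ : IsCoprime (J : Ideal (𝓞 K)) 𝔪) :
    Tendsto (fun x : ℕ => (Nat.card {I : (Ideal (𝓞 K))⁰ //
      Ideal.absNorm (I : Ideal (𝓞 K)) ≤ x ∧ RayEq 𝔪 I J} : ℝ) / x) atTop
      (𝓝 (dedekindZeta_residue K * eulerAt 𝔪 / rayNumber 𝔪)) := by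
  obtain ⟨G, _, _, cl, hsurj, hcl⟩ := groupStmt K 𝔪 h𝔪
  obtain ⟨L, hd, hL⟩ := exists_L cl (entireStmt K) h𝔪 hsurj hcl
  have key := Psi.tendsto_card_ideals (finite_cl0 cl h𝔪) hd hL (cl ⟨J, hJ⟩)
  rw [natCard_eq_rayNumber cl hsurj hcl, prod_bad_eq h𝔪 (fun P => by
    rw [Set.Finite.mem_toFinset]
    exact cl0_eq_zero_iff cl)] at key
  refine key.congr fun x => ?_
  have h1 : ∀ I : (Ideal (𝓞 K))⁰, (cl0 cl I = (cl ⟨J, hJ⟩ : WithZero G)) ↔ RayEq 𝔪 I J :=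
    fun I => by
      rw [cl0_eq_iff cl hcl hJ]
      exact ⟨fun h => h.2, fun h => ⟨h.coprime hJ, h⟩⟩
  simp only [h1]
  rfl

/-- **The ideals prime to `𝔪`.** -/
theorem ideals_coprime (h𝔪 : 𝔪 ≠ ⊥) :
    Tendsto (fun x : ℕ => (Nat.card {I : (Ideal (𝓞 K))⁰ //
      Ideal.absNorm (I : Ideal (𝓞 K)) ≤ x ∧ IsCoprime (I : Ideal (𝓞 K)) 𝔪} : ℝ) / x) atTop
      (𝓝 (dedekindZeta_residue K * eulerAt 𝔪)) := by
  let cl : Cop 𝔪 →* PUnit.{u + 1} := 1
  have hone : ∀ χ : PUnit.{u + 1} →* ℂˣ, χ = 1 := fun χ => MonoidHom.ext fun u => map_one χ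
  have key := Psi.tendsto_card_ideals (finite_cl0 cl h𝔪) (L := fun _ _ => 0)
    (fun χ hχ => absurd (hone χ) hχ) (fun χ hχ => absurd (hone χ) hχ) PUnit.unit
  rw [prod_bad_eq h𝔪 (fun P => by
    rw [Set.Finite.mem_toFinset]
    exact cl0_eq_zero_iff cl), Nat.card_unique, Nat.cast_one, div_one] at key
  refine key.congr fun x => ?_
  have h1 : ∀ I : (Ideal (𝓞 K))⁰, (cl0 cl I = ((PUnit.unit : PUnit.{u + 1}) : WithZero PUnit.{u + 1})) ↔
      IsCoprime (I : Ideal (𝓞 K)) 𝔪 := fun I => by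
    constructor
    · intro h
      by_contra h2
      rw [(cl0_eq_zero_iff cl).mpr h2] at h
      exact WithZero.coe_ne_zero h.symm
    · intro h
      exact cl0_pos cl h
  simp only [h1]
  rfl

/-- **The principal ideals generated by an element `≡ α` modulo `𝔪`.** -/
theorem principal_ideals_congr (h𝔪 : 𝔪 ≠ ⊥) {α : 𝓞 K} (hα : IsCoprime (Ideal.span {α}) 𝔪) :
    Tendsto (fun x : ℕ => (Nat.card {I : (Ideal (𝓞 K))⁰ //
      Ideal.absNorm (I : Ideal (𝓞 K)) ≤ x ∧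
      ∃ a : 𝓞 K, a - α ∈ 𝔪 ∧ (I : Ideal (𝓞 K)) = Ideal.span {a}} : ℝ) / x) atTop
      (𝓝 (dedekindZeta_residue K * eulerAt 𝔪 / rayNumber 𝔪)) := by
  obtain ⟨β, hβ0, hβ, hβα⟩ : ∃ β : 𝓞 K, β ≠ 0 ∧ IsCoprime (Ideal.span {β}) 𝔪 ∧ β - α ∈ 𝔪 := by
    by_cases h : α = 0
    · refine ⟨1, one_ne_zero, ?_, ?_⟩
      · rw [Ideal.span_singleton_one, ← Ideal.one_eq_top]
        exact isCoprime_one_left
      · obtain ⟨b, hb⟩ := isCoprime_span_iff.mp hα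
        rw [h, mul_zero, zero_sub] at hb
        rw [h, sub_zero]
        have := 𝔪.neg_mem hb
        rwa [neg_neg] at this
    · exact ⟨α, h, hα, by rw [sub_self]; exact 𝔪.zero_mem⟩
  have hmem : Ideal.span {β} ∈ (Ideal (𝓞 K))⁰ := by
    refine mem_nonZeroDivisors_of_ne_zero ?_
    rw [Ideal.zero_eq_bot, Ne, Ideal.span_singleton_eq_bot]
    exact hβ0
  refine (ideals_in_ray_class h𝔪 (J := ⟨Ideal.span {β}, hmem⟩) hβ).congr fun x => ?_
  have h1 : ∀ I : (Ideal (𝓞 K))⁰, RayEq 𝔪 I ⟨Ideal.span {β}, hmem⟩ ↔ ∃ a : 𝓞 K, a - α ∈ 𝔪 ∧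
      (I : Ideal (𝓞 K)) = Ideal.span {a} := by
    intro I
    rw [rayEq_span_iff hβ hβ0 rfl]
    refine exists_congr fun π => and_congr_left fun _ => ?_
    constructor
    · intro h
      have := 𝔪.add_mem h hβα
      rwa [sub_add_sub_cancel] at this
    · intro h
      have := 𝔪.sub_mem h hβα
      rwa [sub_sub_sub_cancel_right] at this
  simp only [h1]

end Fermat.Agent.Cor.Ray

end
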