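import Fermat.Agent.Corollaries.Ray.ClassNum

/-!
# Euler's idoneal numbers

For each of Euler's 65 idoneal numbers `n` (`1, 2, 3, ..., 1365, 1848`), a prime `p` not dividing
`2n` is of the form `x² + n y²` if and only if it is so modulo `4n` (`euler_idoneal`).
-/

set_option autoImplicit false

open NumberTheorySymbols

namespace Fermat.Agent.Cor.Ray

open BForm

/-- `J(-n | m) = 1` if `m = x² + n y²` is odd and prime to `n` -/
theorem jacobiSym_eq_one_of_form {n m : ℕ} (hm : Odd m) (hmn : m.Coprime n) {x y : ℤ}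
    (h : (m : ℤ) = x ^ 2 + n * y ^ 2) : J(-(n : ℤ) | m) = 1 := by
  have hgcd : 0 < Int.gcd x y := by
    rw [Int.gcd_pos_iff]
    by_contra hcon
    push Not at hcon
    rw [hcon.1, hcon.2] at h
    have : m = 0 := by
      have h1 : (m : ℤ) = 0 := by rw [h]; ring
      exact_mod_cast h1
    rw [this] at hm
    exact absurd hm (by decide)
  obtain ⟨g, x', y', hg, hco, rfl, rfl⟩ := Int.exists_gcd_one' hgcd
  have hco' : IsCoprime x' y' := Int.isCoprime_iff_gcd_eq_one.mpr hco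
  obtain ⟨m', hm'⟩ : ∃ m' : ℕ, (m' : ℤ) = x' ^ 2 + n * y' ^ 2 :=
    ⟨(x' ^ 2 + n * y' ^ 2).toNat, Int.toNat_of_nonneg (by positivity)⟩
  have hmm : m = g ^ 2 * m' := by
    have : (m : ℤ) = g ^ 2 * m' := by
      rw [h, hm']
      ring
    exact_mod_cast this
  have h0 : m ≠ 0 := by
    rintro rfl
    exact absurd hm (by decide)
  have hg2 : g ^ 2 ≠ 0 := pow_ne_zero 2 hg.ne'
  have hm0 : m' ≠ 0 := by
    rintro rfl
    exact h0 (by rw [hmm, mul_zero])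
  have hgn : g.Coprime n := Nat.Coprime.coprime_dvd_left ⟨g * m', by rw [hmm]; ring⟩ hmn
  have hmn' : m'.Coprime n := Nat.Coprime.coprime_dvd_left ⟨g ^ 2, by rw [hmm]; ring⟩ hmn
  have h1 : IsCoprime y' (m' : ℤ) := by
    rw [hm', show x' ^ 2 + (n : ℤ) * y' ^ 2 = x' ^ 2 + y' * (n * y') by ring]
    exact (hco'.symm.pow_right).add_mul_left_right _
  have h2 : IsCoprime x' (n : ℤ) := by
    have h3 : IsCoprime (m' : ℤ) n := Nat.isCoprime_iff_coprime.mpr hmn'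
    rw [hm', IsCoprime.add_mul_left_left_iff] at h3
    exact (IsCoprime.pow_left_iff (by norm_num)).mp h3
  have h3 : IsCoprime x' (m' : ℤ) := by
    rw [hm', show x' ^ 2 + (n : ℤ) * y' ^ 2 = n * y' ^ 2 + x' * x' by ring]
    exact (h2.mul_right hco'.pow_right).add_mul_left_right _
  have h4 : J(-(n : ℤ) * y' ^ 2 | m') = J(x' ^ 2 | m') := by
    refine jacobiSym.mod_left' ?_
    refine (Int.modEq_iff_dvd).mpr ⟨1, ?_⟩
    rw [hm']
    ring
  rw [jacobiSym.mul_left, jacobiSym.sq_one' (Int.isCoprime_iff_gcd_eq_one.mp h1),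
    jacobiSym.sq_one' (Int.isCoprime_iff_gcd_eq_one.mp h3), mul_one] at h4
  rw [hmm, jacobiSym.mul_right' _ hg2 hm0, h4, mul_one, jacobiSym.pow_right]
  refine jacobiSym.sq_one ?_
  rw [Int.neg_gcd, Int.gcd_natCast_natCast]
  exact hgn.symm

/-- `-n` is a square modulo `p` if `p ≡ x² + n y² mod 4n` -/
theorem exists_dvd_of_modEq {n p : ℕ} (hn : 0 < n) (hp : p.Prime) (h2 : ¬ p ∣ 2 * n) {x y : ℤ}
    (h : (p : ℤ) ≡ x ^ 2 + n * y ^ 2 [ZMOD 4 * n]) : ∃ β : ℤ, (p : ℤ) ∣ β ^ 2 + n := by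
  have hp2 : p ≠ 2 := by
    rintro rfl
    exact h2 (dvd_mul_right 2 n)
  have hpn : ¬ p ∣ n := fun hd => h2 (hd.mul_left 2)
  have hodd : Odd p := hp.odd_of_ne_two hp2
  obtain ⟨m, hm⟩ : ∃ m : ℕ, (m : ℤ) = x ^ 2 + n * y ^ 2 :=
    ⟨(x ^ 2 + n * y ^ 2).toNat, Int.toNat_of_nonneg (by positivity)⟩
  rw [← hm] at h
  have hmod : p ≡ m [MOD 4 * n] := by
    rw [← Int.natCast_modEq_iff]
    exact_mod_cast h
  have hmodd : Odd m := by
    have h3 : p ≡ m [MOD 2] := hmod.of_dvd ⟨2 * n, by ring⟩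
    rw [Nat.odd_iff] at hodd ⊢
    have h4 : p % 2 = m % 2 := h3
    omega
  have hco : m.Coprime n := by
    have h3 : p ≡ m [MOD n] := hmod.of_dvd ⟨4, by ring⟩
    have h4 : p.Coprime n := (Nat.Prime.coprime_iff_not_dvd hp).mpr hpn
    rw [Nat.coprime_iff_gcd_eq_one] at h4 ⊢
    rw [← h4]
    exact h3.gcd_eq.symm
  have h5 := jacobiSym_eq_one_of_form hmodd hco hm
  have h6 : J(-(n : ℤ) | p) = 1 := by
    rw [jacobiSym.mod_right _ hodd, Int.natAbs_neg, Int.natAbs_natCast]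
    rw [jacobiSym.mod_right _ hmodd, Int.natAbs_neg, Int.natAbs_natCast] at h5
    rw [show p % (4 * n) = m % (4 * n) from hmod, h5]
  have : Fact p.Prime := ⟨hp⟩
  obtain ⟨β, hβ⟩ := ZMod.isSquare_of_jacobiSym_eq_one h6
  refine ⟨(β.val : ℤ), ?_⟩
  rw [← ZMod.intCast_zmod_eq_zero_iff_dvd]
  push_cast
  rw [ZMod.natCast_zmod_val]
  push_cast at hβ
  linear_combination -hβ

/-- a reduced form with even middle coefficient which represents `p` -/
theorem exists_red_form {n p : ℕ} (hn : 0 < n) (hp : p.Prime) {β : ℤ}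
    (h : (p : ℤ) ∣ β ^ 2 + n) : ∃ (a b c : ℕ) (u v : ℤ), 0 < a ∧ 2 * b ≤ a ∧ a ≤ c ∧
      a * c = b ^ 2 + n ∧ (p : ℤ) = a * u ^ 2 + 2 * b * u * v + c * v ^ 2 := by
  obtain ⟨k, hk⟩ := h
  have hp0 : (0 : ℤ) < p := by exact_mod_cast hp.pos
  have hn0 : (0 : ℤ) < n := by exact_mod_cast hn
  set f : BForm := ⟨p, 2 * β, k⟩ with hf
  have hd : f.disc = -4 * n := by
    rw [hf, disc]
    linear_combination 4 * hk
  obtain ⟨g, hfg, hg⟩ := exists_red (f := f) hp0 (by rw [hd]; linarith)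
  have hga : 0 < g.a := hfg.a_pos hp0 (by rw [hd]; linarith)
  have hgd : g.b ^ 2 - 4 * g.a * g.c = -4 * n := by
    rw [← hd, ← hfg.disc_eq]
    rfl
  obtain ⟨u, v, huv⟩ := hfg.symm.exists_val (x := 1) (y := 0)
  have hval : g.a * u ^ 2 + g.b * u * v + g.c * v ^ 2 = p := by
    have h1 : f.val 1 0 = p := by
      rw [hf, val]
      ring
    rw [← h1, ← huv]
    rfl
  obtain ⟨b₀, hb₀⟩ : (2 : ℤ) ∣ g.b := by
    have : (2 : ℤ) ∣ g.b ^ 2 := ⟨2 * g.a * g.c - 2 * n, by linear_combination hgd⟩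
    exact Int.prime_two.dvd_of_dvd_pow this
  obtain ⟨h1, h2, -⟩ := hg
  have hac : g.a * g.c = b₀ ^ 2 + n := by
    rw [hb₀] at hgd
    linarith
  have hb : |g.b| = 2 * |b₀| := by rw [hb₀, abs_mul]; norm_num
  obtain ⟨a, ha⟩ : ∃ a : ℕ, (a : ℤ) = g.a := ⟨g.a.toNat, Int.toNat_of_nonneg hga.le⟩
  obtain ⟨b, hb'⟩ : ∃ b : ℕ, (b : ℤ) = |b₀| := ⟨|b₀|.toNat, Int.toNat_of_nonneg (abs_nonneg _)⟩
  obtain ⟨c, hc⟩ : ∃ c : ℕ, (c : ℤ) = g.c :=
    ⟨g.c.toNat, Int.toNat_of_nonneg (hga.le.trans h2)⟩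
  have hac' : a * c = b ^ 2 + n := by
    have : (a : ℤ) * c = b ^ 2 + n := by rw [ha, hc, hb', sq_abs, hac]
    exact_mod_cast this
  rcases abs_choice b₀ with h3 | h3
  · refine ⟨a, b, c, u, v, by omega, by omega, by omega, hac', ?_⟩
    rw [ha, hb', hc, h3, ← hval, hb₀]
  · refine ⟨a, b, c, u, -v, by omega, by omega, by omega, hac', ?_⟩
    rw [ha, hb', hc, h3, ← hval, hb₀]
    ring

/-! ### Certificates -/

/-- the odd primes which divide idoneal numbers -/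
def idonPrimes : List ℕ := [3, 5, 7, 11, 13, 17, 19, 23, 29, 31, 37, 59]

/-- the form `(a, 2b, c)` does not represent primes `≡ x² + n y² mod 4n`, prime to `2n` -/
def IdonCert (n a b c : ℕ) : Prop :=
  a = 1 ∨
  (∃ l ∈ idonPrimes, l ∣ n ∧
    ((∀ z ∈ List.range l, z ^ 2 % l ≠ a % l) ∨ ∀ z ∈ List.range l, z ^ 2 % l ≠ c % l)) ∨
  (∃ q ∈ [4, 8], q ∣ 4 * n ∧ ∀ r ∈ List.range 4, ∀ r' ∈ List.range 4, ∀ s ∈ List.range 4,
    ∀ s' ∈ List.range 4, (a * r ^ 2 + 2 * b * r * r' + c * r' ^ 2) % 2 = 0 ∨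
      (a * r ^ 2 + 2 * b * r * r' + c * r' ^ 2) % q ≠ (s ^ 2 + n * s' ^ 2) % q) ∨
  ∃ l ∈ 2 :: idonPrimes, l ∣ 2 * n ∧ l ∣ a ∧ l ∣ 2 * b ∧ l ∣ c

instance (n a b c : ℕ) : Decidable (IdonCert n a b c) :=
  inferInstanceAs (Decidable (_ ∨ _))

/-- every reduced form of discriminant `-4n` has a certificate (`a ≤ A`) -/
def IdonCheck (n A : ℕ) : Prop :=
  ∀ a ∈ List.range (A + 1), ∀ b ∈ List.range (A / 2 + 1), 0 < a → 2 * b ≤ a →
    (b ^ 2 + n) % a = 0 → a ≤ (b ^ 2 + n) / a → IdonCert n a b ((b ^ 2 + n) / a)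

instance (n A : ℕ) : Decidable (IdonCheck n A) :=
  inferInstanceAs (Decidable (∀ a ∈ List.range (A + 1), _))

theorem false_of_nonres {n p l a b c : ℕ} (hp : p.Prime) (h2 : ¬ p ∣ 2 * n) (hl : l.Prime)
    (hln : l ∣ n) {u v x y : ℤ} (hac : a * c = b ^ 2 + n)
    (hv : (p : ℤ) = a * u ^ 2 + 2 * b * u * v + c * v ^ 2)
    (h : (p : ℤ) ≡ x ^ 2 + n * y ^ 2 [ZMOD 4 * n])
    (hz : ∀ z ∈ List.range l, z ^ 2 % l ≠ a % l) : False := by
  have : Fact l.Prime := ⟨hl⟩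
  have hn0 : (n : ZMod l) = 0 := (ZMod.natCast_eq_zero_iff _ _).mpr hln
  have hp0 : (p : ZMod l) ≠ 0 := by
    rw [Ne, ZMod.natCast_eq_zero_iff, Nat.prime_dvd_prime_iff_eq hl hp]
    rintro rfl
    exact h2 (hln.mul_left 2)
  have h3 : (p : ZMod l) = (x : ZMod l) ^ 2 := by
    obtain ⟨k, hk⟩ := h.dvd
    have h4 := congrArg (Int.cast : ℤ → ZMod l) hk
    push_cast at h4
    rw [hn0] at h4
    linear_combination -h4
  have h4 : (a : ZMod l) * p = (a * u + b * v : ZMod l) ^ 2 := by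
    have h5 := congrArg (Int.cast : ℤ → ZMod l) hv
    have h6 := congrArg (Nat.cast : ℕ → ZMod l) hac
    push_cast at h5 h6
    rw [hn0] at h6
    rw [h5]
    linear_combination (v : ZMod l) ^ 2 * h6
  have hx : (x : ZMod l) ≠ 0 := by
    intro h0
    rw [h0] at h3
    exact hp0 (by rw [h3]; ring)
  set r : ZMod l := (a * u + b * v) / x with hr
  have h5 : (a : ZMod l) = r ^ 2 := by
    rw [hr, div_pow, eq_div_iff (pow_ne_zero 2 hx), ← h4, h3]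
  refine hz r.val (List.mem_range.mpr (ZMod.val_lt r)) ?_
  rw [← ZMod.natCast_eq_natCast_iff']
  push_cast
  rw [ZMod.natCast_zmod_val, h5]

theorem false_of_two {n p q a b c : ℕ} (hp : p.Prime) (h2 : ¬ p ∣ 2 * n) (hq : q ∈ [4, 8])
    (hqn : q ∣ 4 * n) {u v x y : ℤ}
    (hv : (p : ℤ) = a * u ^ 2 + 2 * b * u * v + c * v ^ 2)
    (h : (p : ℤ) ≡ x ^ 2 + n * y ^ 2 [ZMOD 4 * n])
    (hz : ∀ r ∈ List.range 4, ∀ r' ∈ List.range 4, ∀ s ∈ List.range 4,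
      ∀ s' ∈ List.range 4, (a * r ^ 2 + 2 * b * r * r' + c * r' ^ 2) % 2 = 0 ∨
      (a * r ^ 2 + 2 * b * r * r' + c * r' ^ 2) % q ≠ (s ^ 2 + n * s' ^ 2) % q) : False := by
  have hp2 : p % 2 = 1 := by
    rcases hp.eq_two_or_odd with rfl | h3
    · exact absurd (dvd_mul_right 2 n) h2
    · exact h3
  have key : ∀ w : ℤ, ∃ (r : ℕ) (k : ℤ), r ∈ List.range 4 ∧ w = 4 * k + r := fun w =>
    ⟨(w % 4).toNat, w / 4, by rw [List.mem_range]; omega, by omega⟩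
  obtain ⟨r, k₁, hr, rfl⟩ := key u
  obtain ⟨r', k₂, hr', rfl⟩ := key v
  obtain ⟨s, k₃, hs, rfl⟩ := key x
  obtain ⟨s', k₄, hs', rfl⟩ := key y
  have h5 : (p : ℤ) - (a * r ^ 2 + 2 * b * r * r' + c * r' ^ 2 : ℕ) = 8 *
      (a * (2 * k₁ ^ 2 + k₁ * r) + b * (4 * k₁ * k₂ + k₁ * r' + k₂ * r) +
        c * (2 * k₂ ^ 2 + k₂ * r')) := by
    rw [hv]
    push_cast
    ring
  have h6 : ((4 * k₃ + s) ^ 2 + n * (4 * k₄ + s') ^ 2 : ℤ) - (s ^ 2 + n * s' ^ 2 : ℕ) = 8 *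
      (2 * k₃ ^ 2 + k₃ * s + n * (2 * k₄ ^ 2 + k₄ * s')) := by
    push_cast
    ring
  have h7 : (q : ℤ) ∣ ((4 * k₃ + s) ^ 2 + n * (4 * k₄ + s') ^ 2 : ℤ) - p :=
    (by exact_mod_cast hqn : (q : ℤ) ∣ 4 * n).trans h.dvd
  have h8 := hz r hr r' hr' s hs s' hs'
  generalize (a * (2 * k₁ ^ 2 + k₁ * r) + b * (4 * k₁ * k₂ + k₁ * r' + k₂ * r) +
        c * (2 * k₂ ^ 2 + k₂ * r') : ℤ) = K₁ at h5
  generalize (2 * k₃ ^ 2 + k₃ * s + n * (2 * k₄ ^ 2 + k₄ * s') : ℤ) = K₂ at h6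
  generalize ((4 * k₃ + s) ^ 2 + n * (4 * k₄ + s') ^ 2 : ℤ) = X at h6 h7
  generalize a * r ^ 2 + 2 * b * r * r' + c * r' ^ 2 = V at h5 h8
  generalize s ^ 2 + n * s' ^ 2 = W at h6 h8
  rw [List.mem_cons, List.mem_singleton] at hq
  rcases hq with rfl | rfl
  · omega
  · omega

/-- **Euler's criterion**, from the certificates -/
theorem euler_of_check {n A : ℕ} (hn : 0 < n) (hA : 4 * n < 3 * (A + 1) ^ 2)
    (hc : IdonCheck n A) {p : ℕ} (hp : p.Prime) (h2 : ¬ p ∣ 2 * n) :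
    (∃ x y : ℤ, (p : ℤ) = x ^ 2 + n * y ^ 2) ↔
      ∃ x y : ℤ, (p : ℤ) ≡ x ^ 2 + n * y ^ 2 [ZMOD 4 * n] := by
  constructor
  · rintro ⟨x, y, h⟩
    exact ⟨x, y, by rw [h]⟩
  · rintro ⟨x, y, h⟩
    obtain ⟨β, hβ⟩ := exists_dvd_of_modEq hn hp h2 h
    obtain ⟨a, b, c, u, v, ha, hba, hac, he, hv⟩ := exists_red_form hn hp hβ
    have hA' : a ≤ A := by
      by_contra hcon
      push Not at hcon
      nlinarith
    have hdiv : (b ^ 2 + n) / a = c := by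
      rw [← he, Nat.mul_div_cancel_left _ ha]
    have h3 := hc a (List.mem_range.mpr (by omega)) b (List.mem_range.mpr (by omega)) ha hba
      (by rw [← he, Nat.mul_mod_right]) (by rw [hdiv]; exact hac)
    rw [hdiv] at h3
    rcases h3 with h3 | ⟨l, hl, hln, h3⟩ | ⟨q, hq, hqn, h3⟩ | ⟨l, hl, hln, hla, hlb, hlc⟩
    · subst h3
      have hb0 : b = 0 := by omega
      subst hb0
      have hcn : c = n := by omega
      subst hcn
      exact ⟨u, v, by rw [hv]; push_cast; ring⟩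
    · exfalso
      have hlp : l.Prime := (by decide +kernel : ∀ l ∈ idonPrimes, l.Prime) l hl
      rcases h3 with h3 | h3
      · exact false_of_nonres hp h2 hlp hln he hv h h3
      · exact false_of_nonres hp h2 hlp hln (by rw [mul_comm, he])
          (show (p : ℤ) = c * v ^ 2 + 2 * b * v * u + a * u ^ 2 by rw [hv]; ring) h h3
    · exact (false_of_two hp h2 hq hqn hv h h3).elim
    · exfalso
      have hl1 : l ≠ 1 := by
        rintro rfl
        revert hl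
        decide
      have hlp : l ∣ p := by
        have h4 : (l : ℤ) ∣ p := by
          rw [hv]
          have e1 : (l : ℤ) ∣ a := by exact_mod_cast hla
          have e2 : (l : ℤ) ∣ 2 * b := by exact_mod_cast hlb
          have e3 : (l : ℤ) ∣ c := by exact_mod_cast hlc
          exact dvd_add (dvd_add (e1.mul_right _) ((e2.mul_right _).mul_right _))
            (e3.mul_right _)
        exact_mod_cast h4
      rcases (Nat.dvd_prime hp).mp hlp with h4 | h4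
      · exact hl1 h4
      · exact h2 (h4 ▸ hln)

/-! ### Euler's list -/

/-- **Euler's 65 idoneal numbers** -/
def idoneal : List ℕ := [1, 2, 3, 4, 5, 6, 7, 8, 9, 10, 12, 13, 15, 16, 18, 21, 22, 24, 25, 28, 30,
  33, 37, 40, 42, 45, 48, 57, 58, 60, 70, 72, 78, 85, 88, 93, 102, 105, 112, 120, 130, 133, 165,
  168, 177, 190, 210, 232, 240, 253, 273, 280, 312, 330, 345, 357, 385, 408, 462, 520, 760, 840,
  1320, 1365, 1848]

theorem length_idoneal : idoneal.length = 65 := rfl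

/-- the bound for the first coefficient -/
def idonBound (n : ℕ) : ℕ := if n ≤ 107 then 11 else if n ≤ 420 then 23 else 49

theorem idonCheck_idoneal : ∀ n ∈ idoneal,
    0 < n ∧ 4 * n < 3 * (idonBound n + 1) ^ 2 ∧ IdonCheck n (idonBound n) := by
  decide +kernel

/-- **Euler's theorem on the idoneal numbers.** Let `n` be one of Euler's 65 idoneal numbers
`1, 2, 3, 4, 5, 6, 7, 8, 9, 10, 12, ..., 1365, 1848` and let `p` be a prime not dividing `2n`.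
The equation `p = x² + n y²` has a solution in integers if and only if the congruence
`p ≡ x² + n y² mod 4n` has a solution. -/
theorem euler_idoneal {n : ℕ} (hn : n ∈ idoneal) {p : ℕ} (hp : p.Prime) (h2 : ¬ p ∣ 2 * n) :
    (∃ x y : ℤ, (p : ℤ) = x ^ 2 + n * y ^ 2) ↔
      ∃ x y : ℤ, (p : ℤ) ≡ x ^ 2 + n * y ^ 2 [ZMOD 4 * n] :=
  euler_of_check (idonCheck_idoneal n hn).1 (idonCheck_idoneal n hn).2.1
    (idonCheck_idoneal n hn).2.2 hp h2

/-- For an idoneal number `n`, whether the prime `p` is of the form `x² + n y²` depends only on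
`p mod 4n`. -/
theorem idoneal_congr {n : ℕ} (hn : n ∈ idoneal) {p q : ℕ} (hp : p.Prime) (hq : q.Prime)
    (hp2 : ¬ p ∣ 2 * n) (hq2 : ¬ q ∣ 2 * n) (h : p ≡ q [MOD 4 * n]) :
    (∃ x y : ℤ, (p : ℤ) = x ^ 2 + n * y ^ 2) ↔ ∃ x y : ℤ, (q : ℤ) = x ^ 2 + n * y ^ 2 := by
  have h1 : (p : ℤ) ≡ q [ZMOD 4 * n] := by exact_mod_cast (Int.natCast_modEq_iff.mpr h)
  rw [euler_idoneal hn hp hp2, euler_idoneal hn hq hq2]
  exact ⟨fun ⟨x, y, hxy⟩ => ⟨x, y, h1.symm.trans hxy⟩, fun ⟨x, y, hxy⟩ => ⟨x, y, h1.trans hxy⟩⟩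

/-- `11` is not idoneal: `3 ≡ 6² + 11 · 1² mod 44`, but `3` is not of the form `x² + 11 y²`. -/
theorem not_euler_11 : (∃ x y : ℤ, (3 : ℤ) ≡ x ^ 2 + 11 * y ^ 2 [ZMOD 4 * 11]) ∧
    ¬ ∃ x y : ℤ, (3 : ℤ) = x ^ 2 + 11 * y ^ 2 := by
  refine ⟨⟨6, 1, by decide⟩, ?_⟩
  rintro ⟨x, y, h⟩
  have hy : y = 0 := by
    by_contra hy
    have : 1 ≤ y ^ 2 := Int.one_le_abs hy |>.trans (by rw [← sq_abs]; nlinarith [Int.one_le_abs hy])
    nlinarith [sq_nonneg x]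
  subst hy
  have h1 : x ^ 2 = 3 := by linarith
  have h2 : x ≤ 1 := by nlinarith
  have h3 : -1 ≤ x := by nlinarith
  interval_cases x <;> norm_num at h1

end Fermat.Agent.Cor.Ray
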