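import Fermat.Agent.Corollaries.Ray.Idoneal
import Fermat.Agent.Corollaries.Ray.FormsMain

/-!
# Euler's idoneal numbers: the converse up to 10000

If a form of discriminant `-4n`, which is not equivalent to `x² + n y²`, represents a square prime
to `2n`, there are infinitely many primes `p ≡ x² + n y² mod 4n` which are not of the form
`x² + n y²`. For all `n ≤ 10000`, except Euler's 65 numbers, there is such a form.
-/

set_option autoImplicit false

namespace Fermat.Agent.Cor.Ray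

open BForm

/-- two forms of the same discriminant which represent the same odd prime number are equivalent or
opposite -/
theorem eqv_or_op_eqv {f g : BForm} {p : ℕ} (hp : p.Prime) (hp2 : p ≠ 2) (hD : f.disc = g.disc)
    {x y u v : ℤ} (hf : f.val x y = p) (hg : g.val u v = p) : f.Eqv g ∨ f.op.Eqv g := by
  have hpi : Prime (p : ℤ) := Nat.prime_iff_prime_int.mp hp
  obtain ⟨r, s, -, h1, h2⟩ := f.exists_eqv_of_isCoprime (isCoprime_of_val_prime hp hf)
  obtain ⟨r', s', -, h1', h2'⟩ := g.exists_eqv_of_isCoprime (isCoprime_of_val_prime hp hg)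
  set f₁ := f.subst x r y s with hf₁
  set g₁ := g.subst u r' v s' with hg₁
  rw [hf] at h2
  rw [hg] at h2'
  have h3 : f₁.disc = g₁.disc := by rw [h1.disc_eq, h1'.disc_eq, hD]
  have h4 : (g₁.b - f₁.b) * (g₁.b + f₁.b) = 4 * p * (g₁.c - f₁.c) := by
    simp only [disc] at h3
    rw [h2, h2'] at h3
    linear_combination -h3
  have hodd : ¬ (2 : ℤ) ∣ p := by
    intro h
    have h5 : 2 ∣ p := by exact_mod_cast h
    exact hp2 ((Nat.prime_dvd_prime_iff_eq Nat.prime_two hp).mp h5).symm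
  have heven : (2 : ℤ) ∣ g₁.b - f₁.b := by
    have h5 : (2 : ℤ) ∣ (g₁.b - f₁.b) * (g₁.b + f₁.b) :=
      ⟨2 * p * (g₁.c - f₁.c), by linear_combination h4⟩
    rcases Int.prime_two.dvd_or_dvd h5 with h6 | h6 <;> omega
  have hp0 : (p : ℤ) ≠ 0 := by exact_mod_cast hp.ne_zero
  have h5 : (p : ℤ) ∣ (g₁.b - f₁.b) * (g₁.b + f₁.b) :=
    ⟨4 * (g₁.c - f₁.c), by linear_combination h4⟩
  have hco : IsCoprime (2 : ℤ) p := (Int.prime_two.coprime_iff_not_dvd).mpr hodd
  rcases hpi.dvd_or_dvd h5 with h6 | h6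
  · left
    obtain ⟨t, ht⟩ := hco.mul_dvd heven h6
    have h7 : f₁.Eqv g₁ := eqv_of_b_congr (by rw [h2, h2']) (by rw [h2]; exact hp0) h3 (t := t)
      (by rw [h2]; linear_combination ht)
    exact (h1.trans h7).trans h1'.symm
  · right
    obtain ⟨t, ht⟩ := hco.mul_dvd (show (2 : ℤ) ∣ g₁.b + f₁.b by omega) h6
    have h7 : f₁.op.Eqv g₁ := by
      refine eqv_of_b_congr (t := t) ?_ ?_ ?_ ?_
      · show f₁.a = g₁.a
        rw [h2, h2']
      · show f₁.a ≠ 0
        rw [h2]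
        exact hp0
      · rw [disc_op, h3]
      · show g₁.b = -f₁.b + 2 * f₁.a * t
        rw [h2]
        linear_combination ht
    exact (h1.op.trans h7).trans h1'.symm

/-- **Failure of Euler's criterion.** Let `(k², 2B, C)` be a form of discriminant `-4n`, `k > 1`
prime to `2n`, and not equivalent to `x² + n y²`. There are infinitely many primes `p`, prime to
`2n` and of the form `x² + n y²` modulo `4n`, which are not of the form `x² + n y²`. -/
theorem infinite_not_euler {n : ℕ} (hn : 0 < n) {k B C : ℤ} (hk : 1 < k)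
    (hkn : IsCoprime k (2 * n)) (h : k ^ 2 * C = B ^ 2 + n)
    (h1 : ∀ X Y : ℤ, X ^ 2 + n * Y ^ 2 = k ^ 2 → Y = 0) :
    {p : ℕ | p.Prime ∧ ¬ p ∣ 2 * n ∧ (∃ x y : ℤ, (p : ℤ) ≡ x ^ 2 + n * y ^ 2 [ZMOD 4 * n]) ∧
      ¬ ∃ x y : ℤ, (p : ℤ) = x ^ 2 + n * y ^ 2}.Infinite := by
  have hn0 : (0 : ℤ) < n := by exact_mod_cast hn
  have hdisc : (⟨k ^ 2, 2 * B, C⟩ : BForm).disc = -4 * n := by
    simp only [disc]
    linear_combination -4 * h
  have hprim : ∀ q : ℕ, q.Prime → ¬ ((q : ℤ) ∣ k ^ 2 ∧ (q : ℤ) ∣ 2 * B ∧ (q : ℤ) ∣ C) := by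
    rintro q hq ⟨ha, hb, -⟩
    have hqi : Prime (q : ℤ) := Nat.prime_iff_prime_int.mp hq
    have hqk : (q : ℤ) ∣ k := hqi.dvd_of_dvd_pow ha
    have hnot : ∀ {m : ℤ}, (q : ℤ) ∣ m → m ∣ 2 * n → False := fun h3 h4 =>
      hqi.not_isUnit (hkn.isUnit_of_dvd' hqk (h3.trans h4))
    rcases hqi.dvd_or_dvd hb with h3 | h3
    · exact hnot h3 ⟨n, rfl⟩
    · have h4 : (q : ℤ) ∣ n := by
        have h5 : (n : ℤ) = k ^ 2 * C - B * B := by linear_combination -h
        rw [h5]
        exact dvd_sub (ha.mul_right _) (h3.mul_right _)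
      exact hnot h4 ⟨2, by ring⟩
  have hk4 : IsCoprime (k ^ 2) (4 * n : ℤ) := by
    have h3 : IsCoprime k (2 : ℤ) := hkn.of_mul_right_left
    have h4 : IsCoprime k (n : ℤ) := hkn.of_mul_right_right
    have h5 : IsCoprime k (4 * n : ℤ) := by
      rw [show (4 * n : ℤ) = 2 * (2 * n) by ring]
      exact h3.mul_right hkn
    exact h5.pow_left
  have hinf := infinite_primes_form_modEq (a := k ^ 2) (b := 2 * B) (c := C) hprim
    (by positivity) (by
      have h3 : (2 * B) ^ 2 - 4 * k ^ 2 * C = -4 * n := hdisc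
      rw [h3]
      linarith) (M := 4 * n) (by positivity) (r := k ^ 2) hk4 (x₀ := 1) (y₀ := 0)
    (by ring_nf; rfl)
  refine hinf.mono ?_
  rintro p ⟨hp, hpk, u, v, huv⟩
  have hpn : ¬ p ∣ 2 * n := by
    intro hd
    have hpi : Prime (p : ℤ) := Nat.prime_iff_prime_int.mp hp
    have h3 : (p : ℤ) ∣ 4 * n := by
      have h4 : (p : ℤ) ∣ 2 * n := by exact_mod_cast hd
      exact h4.trans ⟨2, by ring⟩
    have h4 : (p : ℤ) ∣ k ^ 2 := by
      obtain ⟨t, ht⟩ := hpk.dvd
      have h5 : k ^ 2 = p + 4 * n * t := by linear_combination ht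
      rw [h5]
      exact dvd_add dvd_rfl (h3.mul_right _)
    exact hpi.not_isUnit (hk4.isUnit_of_dvd' h4 h3)
  refine ⟨hp, hpn, ⟨k, 0, ?_⟩, ?_⟩
  · rw [show k ^ 2 + (n : ℤ) * 0 ^ 2 = k ^ 2 by ring]
    exact hpk
  · rintro ⟨x, y, hxy⟩
    have hp2 : p ≠ 2 := by
      rintro rfl
      exact hpn (dvd_mul_right 2 n)
    have h3 : (⟨1, 0, n⟩ : BForm).Eqv ⟨k ^ 2, 2 * B, C⟩ := by
      have h4 := eqv_or_op_eqv (f := ⟨1, 0, n⟩) (g := ⟨k ^ 2, 2 * B, C⟩) hp hp2
        (by rw [hdisc]; simp only [disc]; ring) (x := x) (y := y) (u := u) (v := v)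
        (by simp only [val]; rw [hxy]; ring) (by simp only [val]; exact huv)
      rcases h4 with h4 | h4
      · exact h4
      · have h5 : (⟨1, 0, n⟩ : BForm).op = ⟨1, 0, n⟩ := by simp [op]
        rwa [h5] at h4
    obtain ⟨X, Y, hXY⟩ := h3.symm.exists_val (x := 1) (y := 0)
    have h4 : k ^ 2 * X ^ 2 + 2 * B * X * Y + C * Y ^ 2 = 1 := by
      have : (⟨1, 0, n⟩ : BForm).val 1 0 = 1 := by simp only [val]; ring
      rw [← this, ← hXY]
      rfl
    have h5 : (k ^ 2 * X + B * Y) ^ 2 + n * Y ^ 2 = k ^ 2 := by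
      linear_combination k ^ 2 * h4 - Y ^ 2 * h
    have h6 := h1 _ _ h5
    rw [h6] at h4
    have h7 : k ^ 2 ∣ 1 := ⟨X ^ 2, by linear_combination -h4⟩
    have h8 := Int.le_of_dvd one_pos h7
    nlinarith

/-- **Euler's property**: a prime `p` not dividing `2n` is of the form `x² + n y²` iff it is so
modulo `4n`. -/
def EulerProp (n : ℕ) : Prop :=
  ∀ p : ℕ, p.Prime → ¬ p ∣ 2 * n → ((∃ x y : ℤ, (p : ℤ) = x ^ 2 + n * y ^ 2) ↔
    ∃ x y : ℤ, (p : ℤ) ≡ x ^ 2 + n * y ^ 2 [ZMOD 4 * n])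

/-! ### Witnesses -/

/-- a small witness for the failure of Euler's property -/
def IdonWit (n k : ℕ) : Prop :=
  k * k < n ∧ 1 < k ∧ Nat.gcd k (2 * n) = 1 ∧ ∃ B ∈ List.range k, (B * B + n) % k = 0

instance (n k : ℕ) : Decidable (IdonWit n k) := inferInstanceAs (Decidable (_ ∧ _))

/-- a witness for the failure of Euler's property -/
def IdonWit' (n k : ℕ) : Prop :=
  1 < k ∧ Nat.gcd k (2 * n) = 1 ∧ (∃ B ∈ List.range k, (B * B + n) % k = 0) ∧
    ∀ Y ∈ List.range k, ∀ X ∈ List.range (k + 1), X ^ 2 + n * (Y + 1) ^ 2 ≠ k ^ 2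

instance (n k : ℕ) : Decidable (IdonWit' n k) := inferInstanceAs (Decidable (_ ∧ _))

/-- lifting of a square root of `-n` from `k` to `k²` -/
theorem exists_lift {n k B : ℕ} (hkn : IsCoprime (k : ℤ) (2 * n))
    (hB : (B * B + n) % k = 0) : ∃ B' C : ℤ, (k : ℤ) ^ 2 * C = B' ^ 2 + n := by
  obtain ⟨m, hm⟩ := Nat.dvd_of_mod_eq_zero hB
  have hm' : (B : ℤ) * B + n = k * m := by exact_mod_cast hm
  have h1 : IsCoprime (k : ℤ) (B : ℤ) := by
    have h2 : IsCoprime (k : ℤ) (n : ℤ) := hkn.of_mul_right_right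
    have h3 : IsCoprime (k : ℤ) (B * B : ℤ) := by
      have h4 : (B : ℤ) * B = -n + k * m := by linear_combination hm'
      rw [h4]
      exact (h2.neg_right).add_mul_left_right _
    exact h3.of_mul_right_left
  have h2 : IsCoprime (k : ℤ) (2 * B) := hkn.of_mul_right_left.mul_right h1
  obtain ⟨x, y, hxy⟩ := h2
  refine ⟨B + k * (-m * y), m * x + (m * y) ^ 2, ?_⟩
  linear_combination hm' * (-1) + k * m * hxy

theorem not_eulerProp_of_wit' {n k : ℕ} (hn : 0 < n) (h : IdonWit' n k) : ¬ EulerProp n := by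
  obtain ⟨hk, hco, ⟨B, -, hB⟩, hXY⟩ := h
  have hkn : IsCoprime (k : ℤ) (2 * n) := by
    have := Nat.isCoprime_iff_coprime.mpr (show Nat.Coprime k (2 * n) from hco)
    exact_mod_cast this
  obtain ⟨B', C, hC⟩ := exists_lift hkn hB
  have hinf := infinite_not_euler hn (k := k) (by exact_mod_cast hk) hkn hC ?_
  · intro hE
    obtain ⟨p, hp, hpn, h1, h2⟩ := hinf.nonempty
    exact h2 ((hE p hp hpn).mpr h1)
  · intro X Y h
    by_contra hY
    have hn0 : (0 : ℤ) < n := by exact_mod_cast hn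
    have h1 : X.natAbs ^ 2 + n * Y.natAbs ^ 2 = k ^ 2 := by
      zify
      rw [sq_abs, sq_abs]
      exact h
    have hY1 : 1 ≤ Y.natAbs := Int.natAbs_pos.mpr hY
    have hX : X.natAbs ≤ k := by
      by_contra hcon
      push Not at hcon
      nlinarith
    have hYk : Y.natAbs ≤ k := by
      by_contra hcon
      push Not at hcon
      nlinarith
    refine hXY (Y.natAbs - 1) (List.mem_range.mpr (by omega)) X.natAbs
      (List.mem_range.mpr (by omega)) ?_
    rw [Nat.sub_add_cancel hY1]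
    exact h1

theorem IdonWit.wit' {n k : ℕ} (h : IdonWit n k) : IdonWit' n k := by
  obtain ⟨h1, h2, h3, h4⟩ := h
  refine ⟨h2, h3, h4, fun Y _ X _ h => ?_⟩
  nlinarith [Nat.zero_le (X ^ 2), Nat.zero_le Y, Nat.zero_le (n * Y ^ 2), Nat.zero_le (n * Y)]

/-- the odd primes up to `53` -/
def witPrimes : List ℕ := [3, 5, 7, 11, 13, 17, 19, 23, 29, 31, 37, 41, 43, 47, 53]

theorem wit_table : ∀ i ∈ List.range 101, ∀ j ∈ List.range 100,
    (∃ k ∈ witPrimes, IdonWit (100 * i + j) k) ∨ (100 * i + j) ∈ 0 :: idoneal ∨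
      ∃ k ∈ witPrimes, IdonWit' (100 * i + j) k := by
  decide +kernel

/-- **The numbers `n ≤ 10000` with Euler's property are exactly Euler's 65 idoneal numbers.** -/
theorem eulerProp_iff_mem_idoneal {n : ℕ} (h0 : 0 < n) (hn : n ≤ 10000) :
    EulerProp n ↔ n ∈ idoneal := by
  constructor
  · intro hE
    have h1 := wit_table (n / 100) (List.mem_range.mpr (by omega)) (n % 100)
      (List.mem_range.mpr (by omega))
    rw [Nat.div_add_mod] at h1
    rcases h1 with ⟨k, -, hk⟩ | h1 | ⟨k, -, hk⟩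
    · exact absurd hE (not_eulerProp_of_wit' h0 hk.wit')
    · rcases List.mem_cons.mp h1 with h2 | h2
      · omega
      · exact h2
    · exact absurd hE (not_eulerProp_of_wit' h0 hk)
  · intro h p hp h2
    exact euler_idoneal h hp h2

end Fermat.Agent.Cor.Ray
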