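import Fermat.Agent.Corollaries.Ray.IdonealConv
import Fermat.Agent.Corollaries.Ray.FormTable
import Fermat.Agent.Corollaries.RayN.ComposeCl
import Fermat.Agent.Corollaries.Siegel.ChowlaFin

/-!
# There are only finitely many idoneal numbers

* `eqv_op_of_eulerProp`: if `n` has Euler's property, every primitive form of discriminant `-4n` is
  properly equivalent to its opposite (Gauss's class group has exponent at most two).
* `sq_eq_one_of_eulerProp`: then the class group of `ℚ(√-n)` has exponent at most two.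
* `finite_eulerProp`: only finitely many `n` have Euler's property (Chowla 1934).
-/

set_option autoImplicit false

noncomputable section

open NumberField QuadraticAlgebra Filter Topology
open scoped nonZeroDivisors

namespace Fermat.Agent.Cor.Ray

open BForm Fermat.Agent.Cor.RayN

/-- **Failure of Euler's criterion**, with an arbitrary class -/
theorem infinite_not_euler_of_not_eqv {n : ℕ} (hn : 0 < n) {k B C : ℤ} (hk0 : k ≠ 0)
    (hkn : IsCoprime k (2 * n)) (h : k ^ 2 * C = B ^ 2 + n)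
    (hne : ¬ (⟨1, 0, n⟩ : BForm).Eqv ⟨k ^ 2, 2 * B, C⟩) :
    {p : ℕ | p.Prime ∧ ¬ p ∣ 2 * n ∧ (∃ x y : ℤ, (p : ℤ) ≡ x ^ 2 + n * y ^ 2 [ZMOD 4 * n]) ∧
      ¬ ∃ x y : ℤ, (p : ℤ) = x ^ 2 + n * y ^ 2}.Infinite := by
  have hn0 : (0 : ℤ) < n := by exact_mod_cast hn
  have hdisc : (⟨k ^ 2, 2 * B, C⟩ : BForm).disc = -4 * n := by
    simp only [disc]
    linear_combination -4 * h
  have hprim : ∀ q : ℕ, q.Prime → ¬ ((q : ℤ) ∣ k ^ 2 ∧ (q : ℤ) ∣ 2 * B ∧ (q : ℤ) ∣ C) := by
    rintro q hq ⟨ha, hb, -⟩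
    have hqi : Prime (q : ℤ) := Nat.prime_iff_prime_int.mp hq
    have hqk : (q : ℤ) ∣ k := hqi.dvd_of_dvd_pow ha
    have hnot : ∀ {m : ℤ}, (q : ℤ) ∣ m → m ∣ 2 * n → False := fun h3 h4 =>
      hqi.not_isUnit (hkn.isUnit_of_dvd' hqk (h3.trans h4))
    rcases hqi.dvd_or_dvd hb with h3 | h3
    · exact hnot h3 ⟨n, rfl⟩
    · have h4 : (q : ℤ) ∣ n := by
        have h5 : (n : ℤ) = k ^ 2 * C - B * B := by linear_combination -h
        rw [h5]
        exact dvd_sub (ha.mul_right _) (h3.mul_right _)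
      exact hnot h4 ⟨2, by ring⟩
  have hk4 : IsCoprime (k ^ 2) (4 * n : ℤ) := by
    have h3 : IsCoprime k (2 : ℤ) := hkn.of_mul_right_left
    have h5 : IsCoprime k (4 * n : ℤ) := by
      rw [show (4 * n : ℤ) = 2 * (2 * n) by ring]
      exact h3.mul_right hkn
    exact h5.pow_left
  have hinf := infinite_primes_form_modEq (a := k ^ 2) (b := 2 * B) (c := C) hprim
    (by positivity) (by
      have h3 : (2 * B) ^ 2 - 4 * k ^ 2 * C = -4 * n := hdisc
      rw [h3]
      linarith) (M := 4 * n) (by positivity) (r := k ^ 2) hk4 (x₀ := 1) (y₀ := 0)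
    (by ring_nf; rfl)
  refine hinf.mono ?_
  rintro p ⟨hp, hpk, u, v, huv⟩
  have hpn : ¬ p ∣ 2 * n := by
    intro hd
    have hpi : Prime (p : ℤ) := Nat.prime_iff_prime_int.mp hp
    have h3 : (p : ℤ) ∣ 4 * n := by
      have h4 : (p : ℤ) ∣ 2 * n := by exact_mod_cast hd
      exact h4.trans ⟨2, by ring⟩
    have h4 : (p : ℤ) ∣ k ^ 2 := by
      obtain ⟨t, ht⟩ := hpk.dvd
      have h5 : k ^ 2 = p + 4 * n * t := by linear_combination ht
      rw [h5]
      exact dvd_add dvd_rfl (h3.mul_right _)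
    exact hpi.not_isUnit (hk4.isUnit_of_dvd' h4 h3)
  refine ⟨hp, hpn, ⟨k, 0, ?_⟩, ?_⟩
  · rw [show k ^ 2 + (n : ℤ) * 0 ^ 2 = k ^ 2 by ring]
    exact hpk
  · rintro ⟨x, y, hxy⟩
    have hp2 : p ≠ 2 := by
      rintro rfl
      exact hpn (dvd_mul_right 2 n)
    have h4 := eqv_or_op_eqv (f := ⟨1, 0, n⟩) (g := ⟨k ^ 2, 2 * B, C⟩) hp hp2
      (by rw [hdisc]; simp only [disc]; ring) (x := x) (y := y) (u := u) (v := v)
      (by simp only [val]; rw [hxy]; ring) (by simp only [val]; exact huv)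
    rcases h4 with h4 | h4
    · exact hne h4
    · have h5 : (⟨1, 0, n⟩ : BForm).op = ⟨1, 0, n⟩ := by simp [op]
      exact hne (h5 ▸ h4)

/-- the duplication of a class: `f ~ (a, 2B, a C)`, whose square is `(a², 2B, C)` -/
theorem exists_dup {n : ℕ} (hn : 0 < n) {f : BForm} (hf : MemN (-4 * n) f) :
    ∃ a B C : ℤ, 0 < a ∧ IsCoprime a (2 * n) ∧ a ^ 2 * C = B ^ 2 + n ∧
      f.Eqv ⟨a, 2 * B, a * C⟩ := by
  have hn0 : (0 : ℤ) < n := by exact_mod_cast hn
  have hneg : f.disc < 0 := by rw [hf.2.1]; linarith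
  obtain ⟨g, hfg, hco, hga⟩ := exists_eqv_coprime_pos hf.1
    (by
      rintro ⟨r, hr⟩
      nlinarith [mul_self_nonneg r]) (fun _ => hf.2.2 (by linarith)) (n := 2 * n) (by omega)
  have hco' : IsCoprime g.a (2 * n) := by exact_mod_cast hco
  have hgd : g.b ^ 2 - 4 * g.a * g.c = -4 * n := by
    rw [← hf.2.1, ← hfg.disc_eq]
    rfl
  obtain ⟨β, hβ⟩ : (2 : ℤ) ∣ g.b := by
    have : (2 : ℤ) ∣ g.b ^ 2 := ⟨2 * g.a * g.c - 2 * n, by linear_combination hgd⟩
    exact Int.prime_two.dvd_of_dvd_pow this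
  have hac : g.a * g.c = β ^ 2 + n := by
    rw [hβ] at hgd
    linarith
  have h1 : IsCoprime g.a β := by
    have h2 : IsCoprime g.a (n : ℤ) := hco'.of_mul_right_right
    have h3 : IsCoprime g.a (β * β) := by
      have h4 : β * β = -n + g.a * g.c := by linear_combination -hac
      rw [h4]
      exact (h2.neg_right).add_mul_left_right _
    exact h3.of_mul_right_left
  obtain ⟨x, y, hxy⟩ := hco'.of_mul_right_left.mul_right h1
  refine ⟨g.a, β + g.a * (-g.c * y), g.c * x + (g.c * y) ^ 2, hga, hco', ?_, ?_⟩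
  · linear_combination (-1) * hac * (-1) + g.a * g.c * hxy
  · refine hfg.trans (eqv_of_b_congr (t := -g.c * y) rfl hga.ne' ?_ ?_)
    · simp only [disc]
      rw [hβ]
      linear_combination 4 * g.a * g.c * hxy
    · simp only
      rw [hβ]
      ring

/-- with Euler's property the square of each class is the principal class -/
theorem eqv_dup_of_eulerProp {n : ℕ} (hn : 0 < n) (hE : EulerProp n) {a B C : ℤ} (ha : 0 < a)
    (hco : IsCoprime a (2 * n)) (h : a ^ 2 * C = B ^ 2 + n) :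
    (⟨1, 0, n⟩ : BForm).Eqv ⟨a ^ 2, 2 * B, C⟩ := by
  by_contra hne
  obtain ⟨p, hp, hpn, h1, h2⟩ := (infinite_not_euler_of_not_eqv hn ha.ne' hco h hne).nonempty
  exact h2 ((hE p hp hpn).mpr h1)

theorem memN_one {n : ℕ} : MemN (-4 * n) ⟨1, 0, n⟩ := by
  refine ⟨?_, ?_, fun _ => one_pos⟩
  · rintro q hq ⟨h, -, -⟩
    exact (Nat.prime_iff_prime_int.mp hq).not_isUnit (isUnit_of_dvd_one h)
  · simp only [disc]
    ring

/-- **Euler's property implies that Gauss's class group has exponent at most two**: every primitive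
positive definite form of discriminant `-4n` is properly equivalent to its opposite. -/
theorem eqv_op_of_eulerProp {n : ℕ} (hn : 0 < n) (hE : EulerProp n) {f : BForm}
    (hf : MemN (-4 * n) f) : f.Eqv f.op := by
  have hn0 : (0 : ℤ) < n := by exact_mod_cast hn
  have hsq : ¬ IsSquare (-4 * (n : ℤ)) := by
    rintro ⟨r, hr⟩
    nlinarith [mul_self_nonneg r]
  obtain ⟨inst, hmul, hinv, hone⟩ := gauss_composition hsq (Or.inl (by omega))
  obtain ⟨a, B, C, ha, hco, h, hfe⟩ := exists_dup hn hf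
  have hg : MemN (-4 * n) ⟨a, 2 * B, a * C⟩ := hf.of_eqv hfe
  have h1 := hmul a a (2 * B) C hg hg
  have h2 : cls _ (hg.comp hg) = cls _ memN_one :=
    cls_eq_iff.mpr (by
      have := (eqv_dup_of_eulerProp hn hE ha hco h).symm
      rwa [sq] at this)
  rw [h2, hone 0 n memN_one] at h1
  have h3 : cls f hf = cls _ hg := cls_eq_iff.mpr hfe
  rw [← h3] at h1
  have h4 : cls f hf = cls f.op hf.op := by
    rw [← hinv f hf]
    exact (inv_eq_of_mul_eq_one_left h1).symm
  exact cls_eq_iff.mp h4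

/-- **Euler's property implies that the class group of `ℚ(√-n)` has exponent at most two.** -/
theorem sq_eq_one_of_eulerProp {n : ℕ} (hn : 0 < n) (hE : EulerProp n)
    [hF : Fact (∀ r : ℚ, r ^ 2 ≠ -(((1 : ℤ) : ℚ) * (n : ℤ)) + -((0 : ℤ) : ℚ) * r)]
    (x : ClassGroup (𝓞 (QF 1 0 n))) : x ^ 2 = 1 := by
  have hn0 : (0 : ℤ) < n := by exact_mod_cast hn
  have hD : (0 : ℤ) ^ 2 - 4 * 1 * n = -4 * n := by ring
  have hsq : ¬ IsSquare ((0 : ℤ) ^ 2 - 4 * 1 * n) := by
    rintro ⟨r, hr⟩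
    nlinarith [mul_self_nonneg r]
  obtain ⟨y, rfl⟩ := toCl_surjective hsq x
  obtain ⟨f, hf, rfl⟩ := exists_cls y
  obtain ⟨a, B, C, ha, hco, h, hfe⟩ := exists_dup hn (hD ▸ hf)
  have hg : MemN ((0 : ℤ) ^ 2 - 4 * 1 * n) ⟨a, 2 * B, a * C⟩ := hf.of_eqv hfe
  have h1 := toCl_mul hsq hg hg
  have h2 : cls _ (hg.comp hg) = cls _ memN_principal :=
    cls_eq_iff.mpr (by
      have := (eqv_dup_of_eulerProp hn hE ha hco h).symm
      rwa [sq] at this)
  have h3 : cls f hf = cls _ hg := cls_eq_iff.mpr hfe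
  rw [h3, sq, ← h1, h2, toCl_cls, clI, ClassGroup.mk0_eq_one_iff]
  have h4 : idF 0 (n : ℤ) ⟨1, 0, n⟩ = ⊤ := by
    rw [Ideal.eq_top_iff_one]
    have h5 := a_mem_idF (e := 0) (n := (n : ℤ)) ⟨1, 0, n⟩
    simpa using h5
  show (idF 0 (n : ℤ) ⟨1, 0, n⟩).IsPrincipal
  rw [h4]
  exact top_isPrincipal

/-! ### Finiteness -/

theorem isTotallyComplex_of_sq {K : Type*} [Field K] [NumberField K] {δ : K} {m : ℕ} (hm : 0 < m)
    (h : δ ^ 2 = -(m : K)) : IsTotallyComplex K := by
  refine ⟨fun v => ?_⟩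
  rw [← InfinitePlace.not_isReal_iff_isComplex]
  intro hv
  have h1 := congrArg (InfinitePlace.embedding_of_isReal hv) h
  rw [map_pow, map_neg, map_natCast] at h1
  have h2 : (0 : ℝ) < m := by exact_mod_cast hm
  nlinarith [sq_nonneg (InfinitePlace.embedding_of_isReal hv δ)]

theorem le_abs_discr {K : Type*} [Field K] [NumberField K] (h2 : Module.finrank ℚ K = 2) {m : ℕ}
    (hm : Squarefree m) {δ : K} (h : δ ^ 2 = -(m : K)) : (m : ℤ) ≤ |discr K| := by
  have hsf : Squarefree (-(m : ℤ)) := by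
    rw [← Int.squarefree_natAbs, Int.natAbs_neg, Int.natAbs_natCast]
    exact hm
  have hm4 : m % 4 ≠ 0 := by
    intro h0
    obtain ⟨r, hr⟩ := Nat.dvd_of_mod_eq_zero h0
    have := hm 2 ⟨r, by omega⟩
    exact absurd (Nat.isUnit_iff.mp this) (by norm_num)
  by_cases h3 : m % 4 = 3
  · have hD : IsFundDiscr (-(m : ℤ)) := Or.inl ⟨by omega, hsf, by omega⟩
    have h4 := Bin.discr_eq_of_sq h2 hD (δ := δ) (by rw [h]; push_cast; ring)
    rw [h4, abs_neg, Nat.abs_cast]
  · have hD : IsFundDiscr (4 * -(m : ℤ)) := Or.inr ⟨-m, rfl, by omega, hsf⟩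
    have h4 := Bin.discr_eq_of_sq h2 hD (δ := 2 * δ) (by rw [mul_pow, h]; push_cast; ring)
    rw [h4, abs_mul, abs_neg, Nat.abs_cast, abs_of_pos (by norm_num : (0 : ℤ) < 4)]
    omega

/-- if `m t²` has Euler's property, the small primes `u² + m v²` divide `2 m t` -/
theorem dvd_of_eulerProp {m t : ℕ} (hm : 0 < m) (ht : 0 < t) (hE : EulerProp (m * t ^ 2)) {k : ℕ}
    (hk : k.Prime) (hkt : k < t) {u v : ℕ} (h : k = u ^ 2 + m * v ^ 2) : k ∣ 2 * m * t := by
  by_contra hnd
  have hnd' : ¬ k ∣ 2 * (m * t ^ 2) := by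
    intro hd
    have h1 : k ∣ 2 * m * t * t := by
      have h2 : 2 * (m * t ^ 2) = 2 * m * t * t := by ring
      rwa [h2] at hd
    rcases hk.dvd_mul.mp h1 with h2 | h2
    · exact hnd h2
    · exact hnd (h2.mul_left _)
  have hkn : IsCoprime (k : ℤ) (2 * ((m * t ^ 2 : ℕ) : ℤ)) := by
    have := Nat.isCoprime_iff_coprime.mpr ((Nat.Prime.coprime_iff_not_dvd hk).mpr hnd')
    exact_mod_cast this
  have : Fact k.Prime := ⟨hk⟩
  have h0 : (u : ZMod k) ^ 2 + m * (v : ZMod k) ^ 2 = 0 := by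
    have h1 := congrArg (Nat.cast : ℕ → ZMod k) h
    rw [ZMod.natCast_self] at h1
    push_cast at h1
    exact h1.symm
  have hv : (v : ZMod k) ≠ 0 := by
    intro hv0
    rw [hv0] at h0
    have hu0 : (u : ZMod k) = 0 := by
      have h1 : (u : ZMod k) ^ 2 = 0 := by
        rw [← h0]
        ring
      exact pow_eq_zero_iff (two_ne_zero) |>.mp h1
    rw [ZMod.natCast_eq_zero_iff] at hv0 hu0
    obtain ⟨u', rfl⟩ := hu0
    obtain ⟨v', rfl⟩ := hv0
    have h1 : k ∣ 1 := by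
      refine ⟨u' ^ 2 + m * v' ^ 2, ?_⟩
      have h2 : k * 1 = k * (k * (u' ^ 2 + m * v' ^ 2)) := by
        rw [mul_one]
        calc k = (k * u') ^ 2 + m * (k * v') ^ 2 := h
          _ = _ := by ring
      exact Nat.eq_of_mul_eq_mul_left hk.pos h2
    exact hk.one_lt.ne' (Nat.dvd_one.mp h1)
  set w : ZMod k := u * (v : ZMod k)⁻¹ with hw
  have h1 : w ^ 2 + m = 0 := by
    have h2 : (v : ZMod k) ^ 2 * (w ^ 2 + m) = 0 := by
      rw [hw]
      field_simp
      linear_combination h0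
    rcases mul_eq_zero.mp h2 with h3 | h3
    · exact absurd ((pow_eq_zero_iff two_ne_zero).mp h3) hv
    · exact h3
  have h2 : (w.val * t * (w.val * t) + m * t ^ 2) % k = 0 := by
    refine Nat.mod_eq_zero_of_dvd ?_
    rw [← ZMod.natCast_eq_zero_iff]
    push_cast
    rw [ZMod.natCast_zmod_val]
    linear_combination (t : ZMod k) ^ 2 * h1
  obtain ⟨B, C, hC⟩ := exists_lift hkn h2
  have hn : 0 < m * t ^ 2 := by positivity
  have hinf := infinite_not_euler hn (k := k) (by exact_mod_cast hk.one_lt) hkn hC ?_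
  · obtain ⟨p, hp, hpn, h3, h4⟩ := hinf.nonempty
    exact h4 ((hE p hp hpn).mpr h3)
  · intro X Y hXY
    by_contra hY
    have h3 : (1 : ℤ) ≤ Y ^ 2 := by
      have := Int.one_le_abs hY
      rw [← sq_abs]
      nlinarith
    have h4 : (k : ℤ) ^ 2 < t ^ 2 := by
      have : k ^ 2 < t ^ 2 := Nat.pow_lt_pow_left hkt two_ne_zero
      exact_mod_cast this
    have h5 : (t : ℤ) ^ 2 ≤ (m * t ^ 2 : ℕ) := by
      have : t ^ 2 ≤ m * t ^ 2 := Nat.le_mul_of_pos_left _ hm
      exact_mod_cast this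
    have h6 : ((m * t ^ 2 : ℕ) : ℤ) ≤ (m * t ^ 2 : ℕ) * Y ^ 2 :=
      le_mul_of_one_le_right (Int.natCast_nonneg _) h3
    nlinarith [sq_nonneg X]

theorem card_primeFactors_mul_log_le {N : ℕ} (hN : 0 < N) :
    (N.primeFactors.card : ℝ) * Real.log 2 ≤ Real.log N := by
  have h1 : 2 ^ N.primeFactors.card ≤ N :=
    (Finset.pow_card_le_prod _ _ _ fun p hp => (Nat.prime_of_mem_primeFactors hp).two_le).trans
      (Nat.le_of_dvd hN (Nat.prod_primeFactors_dvd N))
  have h2 : ((2 : ℝ) ^ N.primeFactors.card) ≤ N := by exact_mod_cast h1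
  have h3 := Real.log_le_log (by positivity) h2
  rwa [Real.log_pow] at h3

/-- for a given `m` there are only finitely many `t` such that `m t²` has Euler's property -/
theorem finite_eulerProp_mul_sq {m : ℕ} (hm : 0 < m) : {t : ℕ | EulerProp (m * t ^ 2)}.Finite := by
  by_contra hinf
  have hfreq : ∃ᶠ t in atTop, EulerProp (m * t ^ 2) := Nat.frequently_atTop_iff_infinite.mpr hinf
  have hlim := density_sq_add_mul hm
  have hpos : (0 : ℝ) < 1 / (2 * formClassNumber (-4 * m)) := by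
    have h1 : 0 < formClassNumber (-4 * m) := by
      rw [show formClassNumber (-4 * (m : ℤ)) = hForm (-4 * (m : ℤ)) from rfl]
      have h2 : (0 : ℤ) < m := by exact_mod_cast hm
      exact hForm_pos (by linarith) (Or.inl (by omega))
    have h2 : (0 : ℝ) < formClassNumber (-4 * m) := by exact_mod_cast h1
    positivity
  have hl1 : Tendsto (fun x : ℝ => Real.log x / x) atTop (𝓝 0) := by
    have := Real.isLittleO_log_id_atTop.tendsto_div_nhds_zero
    exact this
  have hl2 : Tendsto (fun x : ℝ => Real.log x ^ 2 / x) atTop (𝓝 0) := by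
    have := (Real.isLittleO_pow_log_id_atTop (n := 2)).tendsto_div_nhds_zero
    exact this
  have hG : Tendsto (fun t : ℕ => Real.log (2 * m) / Real.log 2 * (Real.log t / t) +
      1 / Real.log 2 * (Real.log t ^ 2 / t)) atTop (𝓝 0) := by
    have h1 := (hl1.comp tendsto_natCast_atTop_atTop).const_mul (Real.log (2 * m) / Real.log 2)
    have h2 := (hl2.comp tendsto_natCast_atTop_atTop).const_mul (1 / Real.log 2)
    have h3 := h1.add h2
    rw [mul_zero, mul_zero, add_zero] at h3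
    exact h3
  have hsub := hlim.sub hG
  rw [sub_zero] at hsub
  have hev := hsub.eventually (lt_mem_nhds hpos)
  obtain ⟨t, hE, hlt, ht⟩ := (hfreq.and_eventually (hev.and (eventually_gt_atTop 0))).exists
  have hcard : Nat.card {p : ℕ // p ≤ t ∧ p.Prime ∧ ∃ u v : ℕ, p = u ^ 2 + m * v ^ 2} ≤
      (2 * m * t).primeFactors.card := by
    have hmem : ∀ p : {p : ℕ // p ≤ t ∧ p.Prime ∧ ∃ u v : ℕ, p = u ^ 2 + m * v ^ 2},
        p.1 ∈ (2 * m * t).primeFactors := by
      rintro ⟨p, hpt, hp, u, v, huv⟩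
      rw [Nat.mem_primeFactors]
      refine ⟨hp, ?_, by positivity⟩
      rcases hpt.lt_or_eq with h1 | h1
      · exact dvd_of_eulerProp hm ht hE hp h1 huv
      · show p ∣ 2 * m * t
        rw [h1]
        exact dvd_mul_left t _
    rw [← Fintype.card_coe, ← Nat.card_eq_fintype_card]
    exact Nat.card_le_card_of_injective (fun p => (⟨p.1, hmem p⟩ : (2 * m * t).primeFactors))
      fun p q hpq => Subtype.ext (congrArg (fun z : (2 * m * t).primeFactors => (z : ℕ)) hpq)
  have ht1 : (1 : ℝ) ≤ t := by exact_mod_cast ht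
  have hlt0 : 0 ≤ Real.log t := Real.log_nonneg ht1
  have hlog2 : 0 < Real.log 2 := Real.log_pos (by norm_num)
  have h1 := card_primeFactors_mul_log_le (N := 2 * m * t) (by positivity)
  have hm0 : (0 : ℝ) < m := by exact_mod_cast hm
  have h2 : Real.log ((2 * m * t : ℕ) : ℝ) = Real.log (2 * m) + Real.log t := by
    push_cast
    rw [Real.log_mul (by positivity) (by positivity)]
  rw [h2] at h1
  set c := Nat.card {p : ℕ // p ≤ t ∧ p.Prime ∧ ∃ u v : ℕ, p = u ^ 2 + m * v ^ 2} with hc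
  have h3 : (c : ℝ) ≤ (Real.log (2 * m) + Real.log t) / Real.log 2 := by
    rw [le_div_iff₀ hlog2]
    refine le_trans ?_ h1
    have : (c : ℝ) ≤ (2 * m * t).primeFactors.card := by exact_mod_cast hcard
    exact mul_le_mul_of_nonneg_right this hlog2.le
  have h4 : (c : ℝ) * Real.log t / t ≤ Real.log (2 * m) / Real.log 2 * (Real.log t / t) +
      1 / Real.log 2 * (Real.log t ^ 2 / t) := by
    have h5 : (c : ℝ) * Real.log t / t ≤
        (Real.log (2 * m) + Real.log t) / Real.log 2 * Real.log t / t := by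
      gcongr
    refine h5.trans (le_of_eq ?_)
    field_simp
  linarith

/-- **There are only finitely many idoneal numbers** (Chowla 1934): only finitely many `n` have
Euler's property that a prime `p` not dividing `2n` is of the form `x² + n y²` if and only if it is
so modulo `4n`. -/
theorem finite_eulerProp : {n : ℕ | EulerProp n}.Finite := by
  obtain ⟨B, hB⟩ := Siegel.chowla_exponent_two
  have hfin : (⋃ m ∈ Set.Icc 1 B, (fun t : ℕ => m * t ^ 2) ''
      {t : ℕ | EulerProp (m * t ^ 2)}).Finite :=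
    (Set.finite_Icc 1 B).biUnion fun m hm => (finite_eulerProp_mul_sq hm.1).image _
  refine (hfin.union (Set.finite_singleton 0)).subset fun n hE => ?_
  have hE' : EulerProp n := hE
  rcases Nat.eq_zero_or_pos n with rfl | hn
  · exact Or.inr rfl
  left
  obtain ⟨m, t, hmt, hsf⟩ := Nat.sq_mul_squarefree n
  have ht : t ≠ 0 := by
    rintro rfl
    rw [← hmt] at hn
    simp at hn
  have hm : 0 < m := Nat.pos_of_ne_zero hsf.ne_zero
  have hn0 : (0 : ℤ) < n := by exact_mod_cast hn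
  have hsq : ¬ IsSquare ((0 : ℤ) ^ 2 - 4 * 1 * n) := by
    rintro ⟨r, hr⟩
    nlinarith [mul_self_nonneg r]
  have hF : Fact (∀ r : ℚ, r ^ 2 ≠ -(((1 : ℤ) : ℚ) * (n : ℤ)) + -((0 : ℤ) : ℚ) * r) :=
    fact_of_not_isSquare hsq
  -- a square root of `-m`
  obtain ⟨w, hw⟩ : ∃ w : QF 1 0 n, w ^ 2 = -(n : QF 1 0 n) := by
    refine ⟨⟨0, 1⟩, ?_⟩
    rw [sq, QuadraticAlgebra.mk_mul_mk]
    ext <;> simp
  have ht' : (t : QF 1 0 n) ≠ 0 := by exact_mod_cast ht
  have hδ : (w / (t : QF 1 0 n)) ^ 2 = -(m : QF 1 0 n) := by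
    have h0 := congrArg (Nat.cast : ℕ → QF 1 0 n) hmt
    push_cast at h0
    rw [div_pow, hw, neg_div, neg_inj, div_eq_iff (pow_ne_zero 2 ht')]
    exact h0.symm.trans (mul_comm _ _)
  have : IsTotallyComplex (QF 1 0 n) := isTotallyComplex_of_sq hm hδ
  have h1 := hB (QF 1 0 n) (QuadraticAlgebra.finrank_eq_two _ _) (sq_eq_one_of_eulerProp hn hE')
  have h2 := le_abs_discr (K := QF 1 0 n) (QuadraticAlgebra.finrank_eq_two _ _) hsf hδ
  have h3 : m ≤ B := by exact_mod_cast h2.trans h1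
  refine Set.mem_biUnion (Set.mem_Icc.mpr ⟨hm, h3⟩) ⟨t, ?_, ?_⟩
  · show EulerProp (m * t ^ 2)
    rw [mul_comm, hmt]
    exact hE'
  · show m * t ^ 2 = n
    rw [mul_comm, hmt]

end Fermat.Agent.Cor.Ray
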