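import Fermat.Agent.Corollaries.Ray.IdonealConv
import Fermat.Agent.Corollaries.Ray.FormTable

/-!
# Landau's theorem: `h(-4n) = 1` for `n = 1, 2, 3, 4, 7` only

* `hForm_eq_one_iff` (Landau 1902): `h(-4n) = 1` iff `n = 1, 2, 3, 4, 7`.
* `fermatProp_iff`: these are the `n` such that `p = x² + n y²` iff `-n` is a square modulo `p`
  (`p` prime, not dividing `2n`).
* Congruence conditions for `p = x² + n y²`, `n = 5, 6, 7, 10, 13, 15, 21, 22, 30`, from Euler's
  theorem on idoneal numbers.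
-/

set_option autoImplicit false

namespace Fermat.Agent.Cor.Ray

open BForm

theorem prim_one {n : ℤ} : (⟨1, 0, n⟩ : BForm).Prim := by
  rintro q hq ⟨h, -, -⟩
  exact (Nat.prime_iff_prime_int.mp hq).not_isUnit (isUnit_of_dvd_one h)

theorem hForm_ne_one {n : ℕ} (hn : 0 < n) {g : BForm} (hp : g.Prim) (hd : g.disc = -4 * n)
    (hr : g.Red) (ha : 1 < g.a) : hForm (-4 * n) ≠ 1 := by
  intro h1
  have hn0 : (0 : ℤ) < n := by exact_mod_cast hn
  rw [hForm_eq_card_red (by linarith), Nat.card_eq_one_iff_unique] at h1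
  obtain ⟨hs, -⟩ := h1
  have hone : (⟨1, 0, n⟩ : BForm).Red := by
    refine ⟨by simp, ?_, fun _ => le_refl _⟩
    show (1 : ℤ) ≤ n
    omega
  have h2 : (⟨⟨g, hp, hd, by linarith⟩, hr⟩ : RForm (-4 * n)) =
      ⟨⟨⟨1, 0, n⟩, prim_one, by simp only [disc]; ring, one_pos⟩, hone⟩ := Subsingleton.elim _ _
  have h3 : g = ⟨1, 0, n⟩ := congrArg (fun z => z.1.1) h2
  rw [h3] at ha
  exact absurd ha (lt_irrefl 1)

theorem exists_coprime_factor {m : ℕ} (hm : 0 < m) (heven : 2 ∣ m) :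
    (∃ k, m = 2 ^ k) ∨ ∃ a c : ℕ, 1 < a ∧ a < c ∧ a.Coprime c ∧ m = a * c := by
  obtain ⟨k, m', hm', rfl⟩ := Nat.exists_eq_pow_mul_and_not_dvd hm.ne' 2 (by norm_num)
  by_cases h1 : m' = 1
  · exact Or.inl ⟨k, by rw [h1, mul_one]⟩
  right
  have hk : k ≠ 0 := by
    rintro rfl
    exact hm' (by simpa using heven)
  have hm1 : 1 < m' := by
    have : m' ≠ 0 := by
      rintro rfl
      exact hm' (dvd_zero 2)
    omega
  have h2k : 1 < 2 ^ k := Nat.one_lt_pow hk (by norm_num)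
  have hco : (2 ^ k).Coprime m' :=
    Nat.Coprime.pow_left k ((Nat.Prime.coprime_iff_not_dvd Nat.prime_two).mpr hm')
  rcases lt_trichotomy (2 ^ k) m' with h2 | h2 | h2
  · exact ⟨2 ^ k, m', h2k, h2, hco, rfl⟩
  · exfalso
    rw [h2, Nat.coprime_self] at hco
    exact h1 hco
  · exact ⟨m', 2 ^ k, hm1, h2, hco.symm, mul_comm _ _⟩

theorem hForm_ne_one_of_factor {n a c : ℕ} (ha : 1 < a) (hac : a < c) (hco : a.Coprime c)
    (h : n = a * c) : hForm (-4 * n) ≠ 1 := by
  have hn : 0 < n := by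
    rw [h]
    exact Nat.mul_pos (by omega) (by omega)
  refine hForm_ne_one (g := ⟨a, 0, c⟩) hn ?_ ?_ ?_
    (show (1 : ℤ) < (a : ℤ) by exact_mod_cast ha)
  · rw [prim_iff]
    show Int.gcd a (Int.gcd 0 c) = 1
    rw [Int.gcd_zero_left, Int.natAbs_natCast, Int.gcd_natCast_natCast]
    exact hco
  · simp only [disc]
    rw [h]
    push_cast
    ring
  · refine ⟨?_, ?_, fun _ => le_refl _⟩
    · show |(0 : ℤ)| ≤ a
      rw [abs_zero]
      positivity
    · show (a : ℤ) ≤ c
      exact_mod_cast hac.le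

theorem hForm_ne_one_of_factor' {n a c : ℕ} (hn : 0 < n) (ha : 1 < a) (hac : a < c)
    (hco : a.Coprime c) (h : n + 1 = a * c) : hForm (-4 * n) ≠ 1 := by
  refine hForm_ne_one (g := ⟨a, 2, c⟩) hn ?_ ?_ ?_
    (show (1 : ℤ) < (a : ℤ) by exact_mod_cast ha)
  · rintro q hq ⟨h1, -, h3⟩
    have h1' : (q : ℤ) ∣ (a : ℤ) := h1
    have h3' : (q : ℤ) ∣ (c : ℤ) := h3
    have h4 : q ∣ a := by exact_mod_cast h1'
    have h5 : q ∣ c := by exact_mod_cast h3'
    have h6 := Nat.dvd_gcd h4 h5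
    rw [Nat.coprime_iff_gcd_eq_one.mp hco] at h6
    exact hq.one_lt.ne' (Nat.dvd_one.mp h6)
  · simp only [disc]
    have : (n : ℤ) + 1 = a * c := by exact_mod_cast h
    linear_combination 4 * this
  · refine ⟨?_, ?_, fun _ => by norm_num⟩
    · show |(2 : ℤ)| ≤ a
      rw [abs_of_pos (by norm_num)]
      omega
    · show (a : ℤ) ≤ c
      exact_mod_cast hac.le

/-- **Landau's theorem** (1902): the class number of the forms of discriminant `-4n` is one if and
only if `n = 1, 2, 3, 4, 7`. -/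
theorem hForm_eq_one_iff {n : ℕ} (hn : 0 < n) :
    hForm (-4 * n) = 1 ↔ n = 1 ∨ n = 2 ∨ n = 3 ∨ n = 4 ∨ n = 7 := by
  constructor
  · intro h
    rcases Nat.even_or_odd n with he | ho
    · rcases exists_coprime_factor hn he.two_dvd with ⟨k, hk⟩ | ⟨a, c, ha, hac, hco, h1⟩
      · rcases Nat.lt_or_ge k 4 with h4 | h4
        · interval_cases k
          · left
            rw [hk]
            norm_num
          · right; left
            rw [hk]
            norm_num
          · right; right; right; left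
            rw [hk]
            norm_num
          · exfalso
            refine hForm_ne_one (g := ⟨3, 2, 3⟩) hn ?_ ?_ ?_ (by norm_num) h
            · rw [prim_iff]
              decide
            · simp only [disc]
              rw [hk]
              norm_num
            · refine ⟨?_, le_refl _, fun _ => by norm_num⟩
              show |(2 : ℤ)| ≤ 3
              norm_num
        · exfalso
          obtain ⟨j, rfl⟩ := Nat.exists_eq_add_of_le h4
          have hk' : n = 4 * (4 * 2 ^ j) := by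
            rw [hk, pow_add]
            ring
          have hj : 1 ≤ 2 ^ j := Nat.one_le_two_pow
          refine hForm_ne_one (g := ⟨4, 4, 4 * 2 ^ j + 1⟩) hn ?_ ?_ ?_ (by norm_num) h
          · rintro q hq ⟨h1, -, h3⟩
            have h4 : (q : ℤ) ∣ 1 := by
              have h5 : (1 : ℤ) = (4 * 2 ^ j + 1) - 4 * 2 ^ j := by ring
              rw [h5]
              exact dvd_sub h3 (h1.mul_right _)
            exact (Nat.prime_iff_prime_int.mp hq).not_isUnit (isUnit_of_dvd_one h4)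
          · simp only [disc]
            rw [hk']
            push_cast
            ring
          · refine ⟨?_, ?_, fun _ => by norm_num⟩
            · show |(4 : ℤ)| ≤ 4
              norm_num
            · show (4 : ℤ) ≤ 4 * 2 ^ j + 1
              have : (1 : ℤ) ≤ 2 ^ j := by exact_mod_cast hj
              linarith
      · exact absurd h (hForm_ne_one_of_factor ha hac hco h1)
    · have he : 2 ∣ n + 1 := by
        rw [Nat.odd_iff] at ho
        omega
      rcases exists_coprime_factor (Nat.succ_pos n) he with ⟨k, hk⟩ | ⟨a, c, ha, hac, hco, h1⟩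
      · rcases Nat.lt_or_ge k 6 with h4 | h4
        · have hn' : n = 2 ^ k - 1 := by omega
          interval_cases k
          · omega
          · left
            rw [hn']
            norm_num
          · right; right; left
            rw [hn']
            norm_num
          · right; right; right; right
            rw [hn']
            norm_num
          · exact absurd h (hForm_ne_one_of_factor (a := 3) (c := 5) (by norm_num) (by norm_num)
              (by norm_num) hn')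
          · exfalso
            refine hForm_ne_one (g := ⟨5, 4, 7⟩) hn ?_ ?_ ?_ (by norm_num) h
            · rw [prim_iff]
              decide
            · simp only [disc]
              rw [hn']
              norm_num
            · refine ⟨?_, ?_, fun _ => by norm_num⟩
              · show |(4 : ℤ)| ≤ 5
                norm_num
              · show (5 : ℤ) ≤ 7
                norm_num
        · exfalso
          obtain ⟨j, rfl⟩ := Nat.exists_eq_add_of_le h4
          have hk' : n + 1 = 8 * (8 * 2 ^ j) := by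
            rw [show n + 1 = 2 ^ (6 + j) from hk, pow_add]
            ring
          have hj : 1 ≤ 2 ^ j := Nat.one_le_two_pow
          refine hForm_ne_one (g := ⟨8, 6, 8 * 2 ^ j + 1⟩) hn ?_ ?_ ?_ (by norm_num) h
          · rintro q hq ⟨h1, -, h3⟩
            have h4 : (q : ℤ) ∣ 1 := by
              have h5 : (1 : ℤ) = (8 * 2 ^ j + 1) - 8 * 2 ^ j := by ring
              rw [h5]
              exact dvd_sub h3 (h1.mul_right _)
            exact (Nat.prime_iff_prime_int.mp hq).not_isUnit (isUnit_of_dvd_one h4)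
          · simp only [disc]
            have : (n : ℤ) + 1 = 8 * (8 * 2 ^ j) := by exact_mod_cast hk'
            linear_combination 4 * this
          · refine ⟨?_, ?_, fun _ => by norm_num⟩
            · show |(6 : ℤ)| ≤ 8
              norm_num
            · show (8 : ℤ) ≤ 8 * 2 ^ j + 1
              have : (1 : ℤ) ≤ 2 ^ j := by exact_mod_cast hj
              linarith
      · exact absurd h (hForm_ne_one_of_factor' hn ha hac hco h1)
  · rintro (rfl | rfl | rfl | rfl | rfl)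
    · exact (hForm_eq (n := 4) (A := 1) (by norm_num) (by norm_num)).trans (by decide +kernel)
    · exact (hForm_eq (n := 8) (A := 1) (by norm_num) (by norm_num)).trans (by decide +kernel)
    · exact (hForm_eq (n := 12) (A := 2) (by norm_num) (by norm_num)).trans (by decide +kernel)
    · exact (hForm_eq (n := 16) (A := 2) (by norm_num) (by norm_num)).trans (by decide +kernel)
    · exact (hForm_eq (n := 28) (A := 3) (by norm_num) (by norm_num)).trans (by decide +kernel)

/-! ### Fermat's form of the theorem -/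

/-- `-n` is a square modulo the prime `p` if `p = x² + n y²`, `p` not dividing `2n` -/
theorem isSquare_of_form {n p : ℕ} (hp : p.Prime) {x y : ℤ}
    (h : (p : ℤ) = x ^ 2 + n * y ^ 2) : IsSquare (-(n : ℤ) : ZMod p) := by
  have : Fact p.Prime := ⟨hp⟩
  have h0 : (x : ZMod p) ^ 2 + n * (y : ZMod p) ^ 2 = 0 := by
    have h1 := congrArg (Int.cast : ℤ → ZMod p) h
    push_cast at h1
    rw [ZMod.natCast_self] at h1
    exact h1.symm
  have hy : (y : ZMod p) ≠ 0 := by
    intro hy0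
    rw [hy0] at h0
    have hx0 : (x : ZMod p) = 0 := by
      have h1 : (x : ZMod p) ^ 2 = 0 := by
        rw [← h0]
        ring
      exact (pow_eq_zero_iff two_ne_zero).mp h1
    rw [ZMod.intCast_zmod_eq_zero_iff_dvd] at hy0 hx0
    obtain ⟨x', rfl⟩ := hx0
    obtain ⟨y', rfl⟩ := hy0
    have h1 : (p : ℤ) ∣ 1 := by
      refine ⟨x' ^ 2 + n * y' ^ 2, ?_⟩
      have hp0 : (p : ℤ) ≠ 0 := by exact_mod_cast hp.ne_zero
      refine mul_left_cancel₀ hp0 ?_
      rw [mul_one]
      calc (p : ℤ) = (p * x') ^ 2 + n * (p * y') ^ 2 := h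
        _ = _ := by ring
    exact (Nat.prime_iff_prime_int.mp hp).not_isUnit (isUnit_of_dvd_one h1)
  refine ⟨x * (y : ZMod p)⁻¹, ?_⟩
  push_cast
  field_simp
  linear_combination -h0

/-- a square root of `-n` modulo `p` gives a value `p` of a reduced form -/
theorem exists_red_form_of_isSquare {n p : ℕ} (hn : 0 < n) (hp : p.Prime)
    (h : IsSquare (-(n : ℤ) : ZMod p)) : ∃ g : BForm, g.disc = -4 * n ∧ 0 < g.a ∧ g.Red ∧
      ∃ u v : ℤ, g.val u v = p := by
  have : Fact p.Prime := ⟨hp⟩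
  obtain ⟨β, hβ⟩ := h
  have hdvd : (p : ℤ) ∣ (β.val : ℤ) ^ 2 + n := by
    rw [← ZMod.intCast_zmod_eq_zero_iff_dvd]
    push_cast
    rw [ZMod.natCast_zmod_val]
    push_cast at hβ
    linear_combination -hβ
  obtain ⟨k, hk⟩ := hdvd
  have hp0 : (0 : ℤ) < p := by exact_mod_cast hp.pos
  have hn0 : (0 : ℤ) < n := by exact_mod_cast hn
  have hd : (⟨p, 2 * (β.val : ℤ), k⟩ : BForm).disc = -4 * n := by
    simp only [disc]
    linear_combination 4 * hk
  obtain ⟨g, hfg, hg⟩ := exists_red (f := ⟨p, 2 * (β.val : ℤ), k⟩) hp0 (by rw [hd]; linarith)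
  refine ⟨g, by rw [hfg.disc_eq, hd], hfg.a_pos hp0 (by rw [hd]; linarith), hg, ?_⟩
  refine hfg.repr_iff.mp ⟨1, 0, ?_⟩
  simp only [val]
  ring

/-- **Landau's theorem in Fermat's form.** Let `n ≥ 1`. For all primes `p` not dividing `2n`,
"`p = x² + n y²` iff `-n` is a square modulo `p`", holds if and only if `n = 1, 2, 3, 4, 7`. -/
theorem fermatProp_iff {n : ℕ} (hn : 0 < n) :
    (∀ p : ℕ, p.Prime → ¬ p ∣ 2 * n →
      ((∃ x y : ℤ, (p : ℤ) = x ^ 2 + n * y ^ 2) ↔ IsSquare (-(n : ℤ) : ZMod p))) ↔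
      n = 1 ∨ n = 2 ∨ n = 3 ∨ n = 4 ∨ n = 7 := by
  have hn0 : (0 : ℤ) < n := by exact_mod_cast hn
  have hone : (⟨1, 0, n⟩ : BForm).Red := by
    refine ⟨by simp, ?_, fun _ => le_refl _⟩
    show (1 : ℤ) ≤ n
    omega
  rw [← hForm_eq_one_iff hn, hForm_eq_card_red (by linarith), Nat.card_eq_one_iff_unique]
  constructor
  · intro h
    refine ⟨⟨fun f g => ?_⟩, ⟨⟨⟨⟨1, 0, n⟩, prim_one, by simp only [disc]; ring, one_pos⟩, hone⟩⟩⟩
    -- every reduced form is the principal one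
    have key : ∀ f : RForm (-4 * (n : ℤ)), f.1.1 = ⟨1, 0, n⟩ := by
      rintro ⟨⟨f, hfp, hfd, hfa⟩, hfr⟩
      have hfr' : f.Red := hfr
      show f = ⟨1, 0, n⟩
      have hinf := infinite_primes_of_prim (a := f.a) (b := f.b) (c := f.c) hfp hfa (by
        have : f.b ^ 2 - 4 * f.a * f.c = -4 * n := hfd
        rw [this]
        linarith)
      obtain ⟨p, ⟨hp, u, v, huv⟩, hlt⟩ := hinf.exists_gt (2 * n)
      have hpn : ¬ p ∣ 2 * n := fun hd => by
        have := Nat.le_of_dvd (by omega) hd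
        omega
      have hp2 : p ≠ 2 := by omega
      have hsqr : IsSquare (-(n : ℤ) : ZMod p) := by
        have : Fact p.Prime := ⟨hp⟩
        obtain ⟨r, s, -, h1, h2⟩ := f.exists_eqv_of_isCoprime (isCoprime_of_val_prime hp huv)
        have h3 : (f.subst u r v s).disc = -4 * n := by rw [h1.disc_eq, hfd]
        have h4 : (f.subst u r v s).a = p := h2.trans huv
        have h5 : (f.subst u r v s).b ^ 2 - 4 * (p : ℤ) * (f.subst u r v s).c = -4 * n := by
          rw [← h4]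
          exact h3
        have h6 := congrArg (Int.cast : ℤ → ZMod p) h5
        push_cast at h6
        rw [ZMod.natCast_self] at h6
        have h20 : (2 : ZMod p) ≠ 0 := by
          intro h7
          have h8 : ((2 : ℕ) : ZMod p) = 0 := by exact_mod_cast h7
          rw [ZMod.natCast_eq_zero_iff] at h8
          exact hp2 ((Nat.prime_dvd_prime_iff_eq hp Nat.prime_two).mp h8)
        refine ⟨((f.subst u r v s).b : ZMod p) / 2, ?_⟩
        push_cast
        field_simp
        linear_combination -h6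
      obtain ⟨x, y, hxy⟩ := (h p hp hpn).mpr hsqr
      have h4 := eqv_or_op_eqv (f := ⟨1, 0, n⟩) (g := f) hp hp2
        (by rw [hfd]; simp only [disc]; ring) (x := x) (y := y) (u := u) (v := v)
        (by simp only [val]; rw [hxy]; ring) huv
      have h5 : (⟨1, 0, n⟩ : BForm).op = ⟨1, 0, n⟩ := by simp [op]
      rw [h5, or_self] at h4
      exact (Red.eq_of_eqv one_pos hone hfr' h4).symm
    exact Subtype.ext (Subtype.ext ((key f).trans (key g).symm))
  · rintro ⟨hs, -⟩ p hp hpn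
    refine ⟨fun ⟨x, y, h⟩ => isSquare_of_form hp h, fun h => ?_⟩
    obtain ⟨g, hgd, hga, hgr, u, v, huv⟩ := exists_red_form_of_isSquare hn hp h
    have hgp : g.Prim := by
      rintro q hq ⟨h1, h2, h3⟩
      have hqp : (q : ℤ) ∣ p := by
        rw [← huv]
        exact dvd_add (dvd_add (h1.mul_right _) ((h2.mul_right _).mul_right _)) (h3.mul_right _)
      have hqp' : q = p := (Nat.prime_dvd_prime_iff_eq hq hp).mp (by exact_mod_cast hqp)
      subst hqp'
      obtain ⟨a', ha'⟩ := h1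
      obtain ⟨b', hb'⟩ := h2
      obtain ⟨c', hc'⟩ := h3
      have h4 : (q : ℤ) ^ 2 * (b' ^ 2 - 4 * a' * c') = -4 * n := by
        rw [← hgd, disc, ha', hb', hc']
        ring
      have h5 : (q : ℤ) ∣ 2 * (2 * n) := ⟨-q * (b' ^ 2 - 4 * a' * c'), by linear_combination h4⟩
      rcases (Nat.prime_iff_prime_int.mp hq).dvd_or_dvd h5 with h6 | h6
      · have h7 : q ∣ 2 := by exact_mod_cast h6
        exact hpn (h7.trans (dvd_mul_right 2 n))
      · exact hpn (by exact_mod_cast h6)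
    have h2 : (⟨⟨g, hgp, hgd, hga⟩, hgr⟩ : RForm (-4 * n)) =
        ⟨⟨⟨1, 0, n⟩, prim_one, by simp only [disc]; ring, one_pos⟩, hone⟩ := Subsingleton.elim _ _
    have h3 : g = ⟨1, 0, n⟩ := congrArg (fun z => z.1.1) h2
    rw [h3] at huv
    simp only [val] at huv
    exact ⟨u, v, by rw [← huv]; ring⟩

/-! ### Congruence conditions -/

/-- Euler's criterion as a finite check -/
theorem euler_residues {n : ℕ} (hn : n ∈ idoneal) {p : ℕ} (hp : p.Prime) (h2 : ¬ p ∣ 2 * n) :
    (∃ x y : ℤ, (p : ℤ) = x ^ 2 + n * y ^ 2) ↔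
      ∃ x ∈ List.range (2 * n), ∃ y ∈ List.range 2, (x ^ 2 + n * y ^ 2) % (4 * n) = p % (4 * n) := by
  have hn0 : (0 : ℤ) < n := by exact_mod_cast (idonCheck_idoneal n hn).1
  rw [euler_idoneal hn hp h2]
  constructor
  · rintro ⟨x, y, h⟩
    have hx := Int.emod_nonneg x (show (2 * n : ℤ) ≠ 0 by linarith)
    have hx' := Int.emod_lt_of_pos x (show (0 : ℤ) < 2 * n by linarith)
    obtain ⟨x', hx1⟩ : ∃ x' : ℕ, (x' : ℤ) = x % (2 * n) := ⟨(x % (2 * n)).toNat,
      Int.toNat_of_nonneg hx⟩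
    obtain ⟨y', hy1⟩ : ∃ y' : ℕ, (y' : ℤ) = y % 2 := ⟨(y % 2).toNat,
      Int.toNat_of_nonneg (by omega)⟩
    refine ⟨x', List.mem_range.mpr (by zify; rw [hx1]; exact hx'), y',
      List.mem_range.mpr (by omega), ?_⟩
    have h3 : ((x' ^ 2 + n * y' ^ 2 : ℕ) : ℤ) ≡ p [ZMOD (4 * n : ℕ)] := by
      push_cast
      refine Int.ModEq.trans ?_ h.symm
      have hx2 : x = x' + 2 * n * (x / (2 * n)) := by
        rw [hx1]
        exact (Int.emod_add_mul_ediv x (2 * n)).symm
      have hy2 : y = y' + 2 * (y / 2) := by omega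
      refine Int.modEq_iff_dvd.mpr ⟨x / (2 * n) * x' + n * (x / (2 * n)) ^ 2 +
        (y / 2 * y' + (y / 2) ^ 2), ?_⟩
      generalize x / (2 * n : ℤ) = k at hx2
      generalize y / 2 = l at hy2
      rw [hx2, hy2]
      ring
    exact Int.natCast_modEq_iff.mp h3
  · rintro ⟨x, -, y, -, h⟩
    refine ⟨x, y, ?_⟩
    have h3 : p ≡ x ^ 2 + n * y ^ 2 [MOD 4 * n] := Eq.symm h
    have h4 := Int.natCast_modEq_iff.mpr h3
    push_cast at h4
    exact h4

/-- **Congruence conditions for `p = x² + n y²`**, `n` idoneal -/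
theorem euler_mod {n : ℕ} (hn : n ∈ idoneal) (S : List ℕ)
    (hS : ∀ r ∈ List.range (4 * n), Nat.gcd r (4 * n) = 1 →
      ((∃ x ∈ List.range (2 * n), ∃ y ∈ List.range 2, (x ^ 2 + n * y ^ 2) % (4 * n) = r) ↔ r ∈ S))
    {p : ℕ} (hp : p.Prime) (h2 : ¬ p ∣ 2 * n) :
    (∃ x y : ℤ, (p : ℤ) = x ^ 2 + n * y ^ 2) ↔ p % (4 * n) ∈ S := by
  have hn0 : 0 < n := (idonCheck_idoneal n hn).1
  rw [euler_residues hn hp h2]
  refine hS (p % (4 * n)) (List.mem_range.mpr (Nat.mod_lt _ (by omega))) ?_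
  rw [← Nat.gcd_rec, Nat.gcd_comm]
  refine (Nat.Prime.coprime_iff_not_dvd hp).mpr fun hd => ?_
  rw [show 4 * n = 2 * (2 * n) by ring, hp.dvd_mul] at hd
  rcases hd with h3 | h3
  · exact h2 (h3.trans (dvd_mul_right 2 n))
  · exact h2 h3

/-- `p = x² + 5 y²` iff `p ≡ 1, 9 mod 20` -/
theorem prime_eq_sq_add_5 {p : ℕ} (hp : p.Prime) (h2 : ¬ p ∣ 10) :
    (∃ x y : ℤ, (p : ℤ) = x ^ 2 + 5 * y ^ 2) ↔ p % 20 ∈ [1, 9] :=
  euler_mod (n := 5) (by decide) [1, 9] (by decide +kernel) hp h2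

/-- `p = x² + 6 y²` iff `p ≡ 1, 7 mod 24` -/
theorem prime_eq_sq_add_6 {p : ℕ} (hp : p.Prime) (h2 : ¬ p ∣ 12) :
    (∃ x y : ℤ, (p : ℤ) = x ^ 2 + 6 * y ^ 2) ↔ p % 24 ∈ [1, 7] :=
  euler_mod (n := 6) (by decide) [1, 7] (by decide +kernel) hp h2

/-- `p = x² + 7 y²` iff `p ≡ 1, 9, 11, 15, 23, 25 mod 28` -/
theorem prime_eq_sq_add_7 {p : ℕ} (hp : p.Prime) (h2 : ¬ p ∣ 14) :
    (∃ x y : ℤ, (p : ℤ) = x ^ 2 + 7 * y ^ 2) ↔ p % 28 ∈ [1, 9, 11, 15, 23, 25] :=
  euler_mod (n := 7) (by decide) [1, 9, 11, 15, 23, 25] (by decide +kernel) hp h2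

/-- `p = x² + 10 y²` iff `p ≡ 1, 9, 11, 19 mod 40` -/
theorem prime_eq_sq_add_10 {p : ℕ} (hp : p.Prime) (h2 : ¬ p ∣ 20) :
    (∃ x y : ℤ, (p : ℤ) = x ^ 2 + 10 * y ^ 2) ↔ p % 40 ∈ [1, 9, 11, 19] :=
  euler_mod (n := 10) (by decide) [1, 9, 11, 19] (by decide +kernel) hp h2

/-- `p = x² + 13 y²` iff `p ≡ 1, 9, 17, 25, 29, 49 mod 52` -/
theorem prime_eq_sq_add_13 {p : ℕ} (hp : p.Prime) (h2 : ¬ p ∣ 26) :
    (∃ x y : ℤ, (p : ℤ) = x ^ 2 + 13 * y ^ 2) ↔ p % 52 ∈ [1, 9, 17, 25, 29, 49] :=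
  euler_mod (n := 13) (by decide) [1, 9, 17, 25, 29, 49] (by decide +kernel) hp h2

/-- `p = x² + 15 y²` iff `p ≡ 1, 19, 31, 49 mod 60` -/
theorem prime_eq_sq_add_15 {p : ℕ} (hp : p.Prime) (h2 : ¬ p ∣ 30) :
    (∃ x y : ℤ, (p : ℤ) = x ^ 2 + 15 * y ^ 2) ↔ p % 60 ∈ [1, 19, 31, 49] :=
  euler_mod (n := 15) (by decide) [1, 19, 31, 49] (by decide +kernel) hp h2

/-- `p = x² + 21 y²` iff `p ≡ 1, 25, 37 mod 84` -/
theorem prime_eq_sq_add_21 {p : ℕ} (hp : p.Prime) (h2 : ¬ p ∣ 42) :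
    (∃ x y : ℤ, (p : ℤ) = x ^ 2 + 21 * y ^ 2) ↔ p % 84 ∈ [1, 25, 37] :=
  euler_mod (n := 21) (by decide) [1, 25, 37] (by decide +kernel) hp h2

/-- `p = x² + 22 y²` iff `p ≡ 1, 9, 15, 23, 25, 31, 47, 49, 71, 81 mod 88` -/
theorem prime_eq_sq_add_22 {p : ℕ} (hp : p.Prime) (h2 : ¬ p ∣ 44) :
    (∃ x y : ℤ, (p : ℤ) = x ^ 2 + 22 * y ^ 2) ↔
      p % 88 ∈ [1, 9, 15, 23, 25, 31, 47, 49, 71, 81] :=
  euler_mod (n := 22) (by decide) [1, 9, 15, 23, 25, 31, 47, 49, 71, 81] (by decide +kernel) hp h2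

/-- `p = x² + 30 y²` iff `p ≡ 1, 31, 49, 79 mod 120` -/
theorem prime_eq_sq_add_30 {p : ℕ} (hp : p.Prime) (h2 : ¬ p ∣ 60) :
    (∃ x y : ℤ, (p : ℤ) = x ^ 2 + 30 * y ^ 2) ↔ p % 120 ∈ [1, 31, 49, 79] :=
  euler_mod (n := 30) (by decide) [1, 31, 49, 79] (by decide +kernel) hp h2

end Fermat.Agent.Cor.Ray
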