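import Fermat.Agent.Corollaries.Ray.BForm

/-!
# Indefinite binary quadratic forms: the river (Gauss, Conway)

Let `D > 0` be a discriminant which is not a square. A form `(a, b, c)` of discriminant `D` with
`a > 0 > c` is called a river form; there are finitely many. Every form of discriminant `D` is
properly equivalent to a river form, and two river forms are properly equivalent if and only if
they are in the same orbit of the map `nxt` (Gauss: the cycles of reduced forms).
-/

set_option autoImplicit false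

namespace Fermat.Agent.Cor.Ray

namespace BForm

instance : DecidableEq BForm := fun f g =>
  decidable_of_iff (f.a = g.a ∧ f.b = g.b ∧ f.c = g.c)
    ⟨fun h => BForm.ext h.1 h.2.1 h.2.2, fun h => by rw [h]; exact ⟨rfl, rfl, rfl⟩⟩

/-- river forms: `a > 0 > c` -/
def Riv (f : BForm) : Prop := 0 < f.a ∧ f.c < 0

instance : DecidablePred Riv := fun f => inferInstanceAs (Decidable (0 < f.a ∧ f.c < 0))

/-- the next form along the river -/
def nxt (f : BForm) : BForm :=
  if 0 < f.a + f.b + f.c then ⟨f.a + f.b + f.c, f.b + 2 * f.c, f.c⟩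
  else ⟨f.a, f.b + 2 * f.a, f.a + f.b + f.c⟩

theorem nxt_of_pos {f : BForm} (h : 0 < f.a + f.b + f.c) : f.nxt = f.subst 1 0 1 1 := by
  rw [nxt, if_pos h]
  ext <;> simp only [subst, val] <;> ring

theorem nxt_of_not_pos {f : BForm} (h : ¬ 0 < f.a + f.b + f.c) : f.nxt = f.subst 1 1 0 1 := by
  rw [nxt, if_neg h]
  ext <;> simp only [subst, val] <;> ring

theorem eqv_nxt (f : BForm) : f.Eqv f.nxt := by
  by_cases h : 0 < f.a + f.b + f.c
  · exact ⟨1, 0, 1, 1, by ring, (nxt_of_pos h).symm⟩
  · exact ⟨1, 1, 0, 1, by ring, (nxt_of_not_pos h).symm⟩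

theorem eqv_iterate_nxt (f : BForm) (k : ℕ) : f.Eqv (nxt^[k] f) := by
  induction k with
  | zero => exact Eqv.refl f
  | succ k ih =>
    rw [Function.iterate_succ_apply']
    exact ih.trans (eqv_nxt _)

theorem sum_ne_zero {f : BForm} (hsq : ¬ IsSquare f.disc) : f.a + f.b + f.c ≠ 0 := by
  intro h
  refine hsq ⟨f.a - f.c, ?_⟩
  simp only [disc]
  have h1 : f.b = -(f.a + f.c) := by linarith
  rw [h1]
  ring

theorem Riv.nxt {f : BForm} (hf : f.Riv) (hsq : ¬ IsSquare f.disc) : f.nxt.Riv := by
  by_cases h : 0 < f.a + f.b + f.c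
  · rw [BForm.nxt, if_pos h]
    exact ⟨h, hf.2⟩
  · rw [BForm.nxt, if_neg h]
    exact ⟨hf.1, lt_of_le_of_ne (not_lt.mp h) (sum_ne_zero hsq)⟩

theorem Riv.iterate_nxt {f : BForm} (hf : f.Riv) (hsq : ¬ IsSquare f.disc) (k : ℕ) :
    (BForm.nxt^[k] f).Riv := by
  induction k with
  | zero => exact hf
  | succ k ih =>
    rw [Function.iterate_succ_apply']
    exact ih.nxt (by rw [(eqv_iterate_nxt f k).disc_eq]; exact hsq)

/-! ### The sign in a quadrant -/

/-- in the first quadrant the form changes its sign once -/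
theorem Riv.lt_of_val {f : BForm} (h : f.Riv) {x y x' y' : ℤ} (hx : 0 ≤ x) (hy : 0 ≤ y)
    (hx' : 0 ≤ x') (hy' : 0 ≤ y') (h1 : 0 < f.val x y) (h2 : f.val x' y' < 0) :
    x' * y < x * y' := by
  by_contra hcon
  rw [not_lt] at hcon
  have key : x * y * f.val x' y' = f.a * x * x' * (x' * y - x * y') + x' * y' * f.val x y +
      (-f.c) * y * y' * (x' * y - x * y') := by
    simp only [val]
    ring
  have ha := h.1
  have hc := h.2
  have h3 : 0 ≤ x' * y - x * y' := by linarith
  have h4 : 0 ≤ x * y * f.val x' y' := by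
    rw [key]
    have e1 : 0 ≤ f.a * x * x' * (x' * y - x * y') := by positivity
    have e2 : 0 ≤ x' * y' * f.val x y := by positivity
    have e3 : 0 ≤ (-f.c) * y * y' * (x' * y - x * y') := by
      have : 0 < -f.c := by linarith
      positivity
    linarith
  have hx0 : x ≠ 0 := by
    rintro rfl
    simp only [val] at h1
    have : 0 ≤ (-f.c) * y ^ 2 := mul_nonneg (by linarith) (sq_nonneg _)
    linarith
  have hxp : 0 < x := lt_of_le_of_ne hx hx0.symm
  by_cases hy0 : y = 0
  · subst hy0
    have h5 : x * y' ≤ 0 := by linarith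
    have h6 : y' ≤ 0 := by
      by_contra hn
      rw [not_le] at hn
      have := mul_pos hxp hn
      linarith
    have h7 : y' = 0 := le_antisymm h6 hy'
    subst h7
    simp only [val] at h2
    have : 0 ≤ f.a * x' ^ 2 := mul_nonneg ha.le (sq_nonneg _)
    linarith
  · have hyp : 0 < y := lt_of_le_of_ne hy (Ne.symm hy0)
    have h5 : x * y * f.val x' y' < 0 := mul_neg_of_pos_of_neg (mul_pos hxp hyp) h2
    linarith

/-! ### Uniqueness -/

theorem exists_iterate_of_nonneg (N : ℕ) : ∀ {f : BForm}, f.Riv → ¬ IsSquare f.disc →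
    ∀ {p q r s : ℤ}, 0 ≤ p → 0 ≤ q → 0 ≤ r → 0 ≤ s → p * s - q * r = 1 →
      (f.subst p q r s).Riv → p + q + r + s ≤ N → ∃ k, BForm.nxt^[k] f = f.subst p q r s := by
  induction N with
  | zero =>
    intro f _ _ p q r s hp hq hr hs hdet _ hN
    exfalso
    have h1 : p = 0 := by push_cast at hN; linarith
    have h2 : q = 0 := by push_cast at hN; linarith
    rw [h1, h2] at hdet
    norm_num at hdet
  | succ N ih =>
    intro f hf hsq p q r s hp hq hr hs hdet hriv hN
    have hu : 0 < f.val p r := hriv.1
    have hv : f.val q s < 0 := hriv.2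
    by_cases hI : p = 1 ∧ q = 0 ∧ r = 0 ∧ s = 1
    · obtain ⟨rfl, rfl, rfl, rfl⟩ := hI
      exact ⟨0, (f.subst_id).symm⟩
    -- the alternative: `p ≤ r` or `s ≤ q`
    have halt : r < p → q < s → False := by
      intro h1 h2
      have h3 : (r + 1) * (q + 1) ≤ p * s := mul_le_mul h1 h2 (by linarith) hp
      have h4 : r + q ≤ 0 := by linarith
      have h5 : r = 0 := by linarith
      have h6 : q = 0 := by linarith
      subst h5 h6
      have h7 : p * s = 1 := by linarith
      have h8 := Int.eq_one_or_neg_one_of_mul_eq_one h7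
      have h9 : p = 1 := by
        rcases h8 with h8 | h8
        · exact h8
        · linarith
      subst h9
      exact hI ⟨rfl, rfl, rfl, by linarith⟩
    by_cases ht : 0 < f.a + f.b + f.c
    · -- `M = (1 0; 1 1) M'`
      have h11 : 0 < f.val 1 1 := by simp only [val]; linarith
      have hqs : q < s := by
        have := hf.lt_of_val (x := 1) (y := 1) (x' := q) (y' := s) zero_le_one zero_le_one hq hs
          h11 hv
        linarith
      have hpr : p ≤ r := not_lt.mp fun h => halt h hqs
      have hM : (f.subst 1 0 1 1).subst p q (r - p) (s - q) = f.subst p q r s := by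
        rw [subst_subst]
        congr 1 <;> ring
      have h0 : 0 < p + q := by
        by_contra hn
        have h1 : p = 0 := by linarith
        have h2 : q = 0 := by linarith
        rw [h1, h2] at hdet
        norm_num at hdet
      obtain ⟨k, hk⟩ := ih (hf.nxt hsq) (by rw [(eqv_nxt f).disc_eq]; exact hsq) (p := p) (q := q)
        (r := r - p) (s := s - q) hp hq (by linarith) (by linarith) (by linarith)
        (by rw [nxt_of_pos ht, hM]; exact hriv) (by push_cast at hN; linarith)
      refine ⟨k + 1, ?_⟩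
      rw [Function.iterate_succ_apply, hk, nxt_of_pos ht, hM]
    · -- `M = (1 1; 0 1) M'`
      have h11 : f.val 1 1 < 0 := by
        have h1 := lt_of_le_of_ne (not_lt.mp ht) (sum_ne_zero hsq)
        simp only [val]
        linarith
      have hrp : r < p := by
        have := hf.lt_of_val (x := p) (y := r) (x' := 1) (y' := 1) hp hr zero_le_one zero_le_one
          hu h11
        linarith
      have hsq' : s ≤ q := not_lt.mp fun h => halt hrp h
      have hM : (f.subst 1 1 0 1).subst (p - r) (q - s) r s = f.subst p q r s := by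
        rw [subst_subst]
        congr 1 <;> ring
      have h0 : 0 < r + s := by
        by_contra hn
        have h1 : r = 0 := by linarith
        have h2 : s = 0 := by linarith
        rw [h1, h2] at hdet
        norm_num at hdet
      obtain ⟨k, hk⟩ := ih (hf.nxt hsq) (by rw [(eqv_nxt f).disc_eq]; exact hsq) (p := p - r)
        (q := q - s) (r := r) (s := s) (by linarith) (by linarith) hr hs (by linarith)
        (by rw [nxt_of_not_pos ht, hM]; exact hriv) (by push_cast at hN; linarith)
      refine ⟨k + 1, ?_⟩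
      rw [Function.iterate_succ_apply, hk, nxt_of_not_pos ht, hM]

theorem subst_neg (f : BForm) (p q r s : ℤ) : f.subst (-p) (-q) (-r) (-s) = f.subst p q r s := by
  ext <;> simp only [subst, val] <;> ring

/-- **Gauss**: two river forms are properly equivalent if and only if one is an iterate of the
other. -/
theorem Riv.eqv_iff_iterate {f g : BForm} (hf : f.Riv) (hg : g.Riv) (hsq : ¬ IsSquare f.disc) :
    f.Eqv g ↔ (∃ k, BForm.nxt^[k] f = g) ∨ ∃ k, BForm.nxt^[k] g = f := by
  constructor
  · rintro ⟨p, q, r, s, hdet, hM⟩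
    have hsqg : ¬ IsSquare g.disc := by
      rw [← hM, disc_subst, hdet, one_pow, one_mul]
      exact hsq
    -- the case `p > 0`
    have key : ∀ p q r s : ℤ, p * s - q * r = 1 → f.subst p q r s = g → 0 < p →
        (∃ k, BForm.nxt^[k] f = g) ∨ ∃ k, BForm.nxt^[k] g = f := by
      intro p q r s hdet hM hp
      have hu : 0 < f.val p r := by rw [← hM] at hg; exact hg.1
      have hv : f.val q s < 0 := by rw [← hM] at hg; exact hg.2
      have hs0 : s ≠ 0 := by
        rintro rfl
        simp only [val] at hv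
        have : 0 ≤ f.a * q ^ 2 := mul_nonneg hf.1.le (sq_nonneg _)
        linarith
      rcases lt_or_gt_of_ne hs0 with hs | hs
      · -- impossible
        exfalso
        have hps : p * s < 0 := mul_neg_of_pos_of_neg hp hs
        have hqr : q * r < 0 := by linarith
        rcases lt_trichotomy q 0 with hq | hq | hq
        · have hr : 0 < r := by
            by_contra hn
            have := mul_nonneg_of_nonpos_of_nonpos hq.le (not_lt.mp hn)
            linarith
          have h1 : f.val (-q) (-s) < 0 := by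
            have : f.val (-q) (-s) = f.val q s := by simp only [val]; ring
            rw [this]
            exact hv
          have h2 := hf.lt_of_val (x := p) (y := r) (x' := -q) (y' := -s) hp.le hr.le
            (by linarith) (by linarith) hu h1
          linarith
        · rw [hq, zero_mul] at hqr
          exact lt_irrefl _ hqr
        · have hr : r < 0 := by
            by_contra hn
            have := mul_nonneg hq.le (not_lt.mp hn)
            linarith
          have hop : f.op.Riv := hf
          have h1 : 0 < f.op.val p (-r) := by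
            have : f.op.val p (-r) = f.val p r := by simp only [val, BForm.op]; ring
            rw [this]
            exact hu
          have h2 : f.op.val q (-s) < 0 := by
            have : f.op.val q (-s) = f.val q s := by simp only [val, BForm.op]; ring
            rw [this]
            exact hv
          have h3 := hop.lt_of_val (x := p) (y := -r) (x' := q) (y' := -s) hp.le (by linarith)
            hq.le (by linarith) h1 h2
          linarith
      · have hps : 0 < p * s := mul_pos hp hs
        have hqr : 0 ≤ q * r := by linarith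
        by_cases hq : 0 ≤ q ∧ 0 ≤ r
        · left
          obtain ⟨k, hk⟩ := exists_iterate_of_nonneg (p + q + r + s).toNat hf hsq hp.le hq.1 hq.2
            hs.le hdet (by rw [hM]; exact hg) (by rw [Int.toNat_of_nonneg (by linarith [hq.1, hq.2])])
          exact ⟨k, hk.trans hM⟩
        · have hq' : q ≤ 0 ∧ r ≤ 0 := by
            rcases mul_nonneg_iff.mp hqr with h | h
            · exact absurd h hq
            · exact h
          right
          have hM' : g.subst s (-q) (-r) p = f := by
            rw [← hM, subst_subst]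
            have e1 : p * s + q * -r = 1 := by linarith
            have e2 : p * -q + q * p = 0 := by ring
            have e3 : r * s + s * -r = 0 := by ring
            have e4 : r * -q + s * p = 1 := by linarith
            rw [e1, e2, e3, e4, subst_id]
          obtain ⟨k, hk⟩ := exists_iterate_of_nonneg (s + -q + -r + p).toNat hg hsqg (p := s)
            (q := -q) (r := -r) (s := p) hs.le (by linarith [hq'.1]) (by linarith [hq'.2]) hp.le
            (by linarith)
            (by rw [hM']; exact hf)
            (by rw [Int.toNat_of_nonneg (by linarith [hq'.1, hq'.2])])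
          exact ⟨k, hk.trans hM'⟩
    have hp0 : p ≠ 0 := by
      rintro rfl
      have hu : 0 < f.val 0 r := by rw [← hM] at hg; exact hg.1
      simp only [val] at hu
      have : 0 ≤ (-f.c) * r ^ 2 := mul_nonneg (by linarith [hf.2]) (sq_nonneg _)
      linarith
    rcases lt_or_gt_of_ne hp0 with hp | hp
    · exact key (-p) (-q) (-r) (-s) (by linarith) (by rw [subst_neg]; exact hM) (by linarith)
    · exact key p q r s hdet hM hp
  · rintro (⟨k, rfl⟩ | ⟨k, rfl⟩)
    · exact eqv_iterate_nxt f k
    · exact (eqv_iterate_nxt g k).symm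

/-! ### Existence -/

/-- **every form of positive non-square discriminant is properly equivalent to a river form** -/
theorem exists_riv {f : BForm} (hD : 0 < f.disc) (hsq : ¬ IsSquare f.disc) :
    ∃ g : BForm, f.Eqv g ∧ g.Riv := by
  classical
  -- a form with minimal `|a|`
  have hne : ∃ m : ℕ, ∃ g : BForm, f.Eqv g ∧ g.a.natAbs = m := ⟨_, f, Eqv.refl f, rfl⟩
  obtain ⟨g, hfg, hgm⟩ := Nat.find_spec hne
  have hmin : ∀ h : BForm, f.Eqv h → g.a.natAbs ≤ h.a.natAbs := by
    intro h hh
    rw [hgm]
    exact Nat.find_min' hne ⟨h, hh, rfl⟩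
  have hgD : g.disc = f.disc := hfg.disc_eq
  have ha0 : g.a ≠ 0 := by
    intro h0
    refine hsq ⟨g.b, ?_⟩
    rw [← hgD, disc, h0]
    ring
  -- translate to `|b| ≤ |a|`
  obtain ⟨t, ht⟩ : ∃ t : ℤ, |g.b + 2 * g.a * t| ≤ |g.a| := by
    have h1 : 2 * g.a ≠ 0 := mul_ne_zero two_ne_zero ha0
    refine ⟨-((g.b + |g.a|) / (2 * g.a)), ?_⟩
    have h2 := Int.emod_add_mul_ediv (g.b + |g.a|) (2 * g.a)
    have h3 := Int.emod_nonneg (g.b + |g.a|) h1
    have h4 := Int.emod_lt_abs (g.b + |g.a|) h1
    rw [abs_mul, abs_two] at h4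
    have h5 : g.b + 2 * g.a * -((g.b + |g.a|) / (2 * g.a)) =
        (g.b + |g.a|) % (2 * g.a) - |g.a| := by linarith
    rw [h5, abs_le]
    constructor <;> linarith
  set h : BForm := g.subst 1 t 0 1 with hh
  have hgh : g.Eqv h := ⟨1, t, 0, 1, by ring, rfl⟩
  have hha : h.a = g.a := by rw [hh]; simp only [subst, val]; ring
  have hhb : h.b = g.b + 2 * g.a * t := by rw [hh]; simp only [subst, val]; ring
  have hhD : h.disc = f.disc := by rw [hgh.disc_eq, hgD]
  have hsw : h.Eqv ⟨h.c, -h.b, h.a⟩ := by
    refine ⟨0, -1, 1, 0, by ring, ?_⟩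
    ext <;> simp only [subst, val] <;> ring
  have h1 : |h.a| ≤ |h.c| := by
    have := hmin _ ((hfg.trans hgh).trans hsw)
    rw [← hha] at this
    rw [Int.abs_eq_natAbs, Int.abs_eq_natAbs]
    exact_mod_cast this
  have h2 : |h.b| ≤ |h.a| := by rw [hhb, hha]; exact ht
  have h3 : h.b ^ 2 ≤ h.a ^ 2 := sq_le_sq.mpr h2
  have h4 : h.a ^ 2 ≤ |h.a * h.c| := by
    rw [abs_mul, ← sq_abs h.a, sq]
    exact mul_le_mul_of_nonneg_left h1 (abs_nonneg _)
  have h5 : h.b ^ 2 - 4 * h.a * h.c = f.disc := hhD
  have h6 : h.a * h.c < 0 := by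
    by_contra hn
    rw [abs_of_nonneg (not_lt.mp hn)] at h4
    nlinarith [sq_nonneg h.a]
  rcases lt_or_gt_of_ne (show h.a ≠ 0 by rw [hha]; exact ha0) with h7 | h7
  · refine ⟨_, (hfg.trans hgh).trans hsw, ?_, h7⟩
    exact pos_of_mul_neg_right h6 h7.le
  · exact ⟨h, hfg.trans hgh, h7, neg_of_mul_neg_right h6 h7.le⟩

/-! ### Cycles -/

/-- the first `n` forms of the orbit -/
def orb : ℕ → BForm → List BForm
  | 0, _ => []
  | n + 1, f => f :: orb n f.nxt

theorem mem_orb {n : ℕ} {f g : BForm} : g ∈ orb n f ↔ ∃ k < n, BForm.nxt^[k] f = g := by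
  induction n generalizing f with
  | zero => simp [orb]
  | succ n ih =>
    rw [orb, List.mem_cons, ih]
    constructor
    · rintro (rfl | ⟨k, hk, rfl⟩)
      · exact ⟨0, Nat.succ_pos n, rfl⟩
      · exact ⟨k + 1, Nat.succ_lt_succ hk, rfl⟩
    · rintro ⟨k, hk, rfl⟩
      cases k with
      | zero => exact Or.inl rfl
      | succ k => exact Or.inr ⟨k, Nat.lt_of_succ_lt_succ hk, rfl⟩

/-- going back along a cycle -/
theorem exists_iterate_symm {f g : BForm} {n : ℕ} (hn : 0 < n) (hg : BForm.nxt^[n] g = g) {k : ℕ}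
    (h : BForm.nxt^[k] g = f) : ∃ m, BForm.nxt^[m] f = g := by
  have hper : ∀ j : ℕ, BForm.nxt^[n * j] g = g := by
    intro j
    induction j with
    | zero => rfl
    | succ j ih => rw [Nat.mul_succ, Function.iterate_add_apply, hg, ih]
  refine ⟨n * k - k, ?_⟩
  have h1 : k ≤ n * k := Nat.le_mul_of_pos_left k hn
  rw [← h, ← Function.iterate_add_apply, Nat.sub_add_cancel h1, hper]

/-- all iterates are in the list of the cycle -/
theorem iterate_mem_orb {f : BForm} {n : ℕ} (hn : 0 < n) (hf : BForm.nxt^[n] f = f) (k : ℕ) :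
    BForm.nxt^[k] f ∈ orb n f := by
  refine mem_orb.mpr ⟨k % n, Nat.mod_lt _ hn, ?_⟩
  have hper : ∀ j : ℕ, BForm.nxt^[n * j] f = f := by
    intro j
    induction j with
    | zero => rfl
    | succ j ih => rw [Nat.mul_succ, Function.iterate_add_apply, hf, ih]
  conv_rhs => rw [← Nat.mod_add_div k n, Function.iterate_add_apply, hper]

/-- `nxt` is injective on river forms -/
theorem Riv.nxt_inj {f g : BForm} (hf : f.Riv) (hg : g.Riv) (h : f.nxt = g.nxt) : f = g := by
  obtain ⟨hf1, hf2⟩ := hf
  obtain ⟨hg1, hg2⟩ := hg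
  have ha := congrArg BForm.a h
  have hb := congrArg BForm.b h
  have hc := congrArg BForm.c h
  by_cases h1 : 0 < f.a + f.b + f.c <;> by_cases h2 : 0 < g.a + g.b + g.c
  · rw [BForm.nxt, BForm.nxt, if_pos h1, if_pos h2] at ha hb hc
    simp only at ha hb hc
    exact BForm.ext (by linarith) (by linarith) hc
  · rw [BForm.nxt, BForm.nxt, if_pos h1, if_neg h2] at ha hb hc
    simp only at ha hb hc
    exfalso
    linarith
  · rw [BForm.nxt, BForm.nxt, if_neg h1, if_pos h2] at ha hb hc
    simp only at ha hb hc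
    exfalso
    linarith
  · rw [BForm.nxt, BForm.nxt, if_neg h1, if_neg h2] at ha hb hc
    simp only at ha hb hc
    exact BForm.ext ha (by linarith) (by linarith)

theorem Riv.iterate_inj (k : ℕ) : ∀ {f g : BForm}, f.Riv → g.Riv → ¬ IsSquare f.disc →
    ¬ IsSquare g.disc → BForm.nxt^[k] f = BForm.nxt^[k] g → f = g := by
  induction k with
  | zero => exact fun _ _ _ _ h => h
  | succ k ih =>
    intro f g hf hg h1 h2 h
    rw [Function.iterate_succ_apply, Function.iterate_succ_apply] at h
    exact hf.nxt_inj hg (ih (hf.nxt h1) (hg.nxt h2) (by rw [(eqv_nxt f).disc_eq]; exact h1)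
      (by rw [(eqv_nxt g).disc_eq]; exact h2) h)

/-- **Gauss**: a river form is properly equivalent to the river form `f` if and only if it is in
the cycle of `f`. -/
theorem Riv.eqv_iff_mem_orb {f g : BForm} (hf : f.Riv) (hg : g.Riv) (hsq : ¬ IsSquare f.disc)
    {N : ℕ} (hN : 0 < N) (hper : BForm.nxt^[N] f = f) : f.Eqv g ↔ g ∈ orb N f := by
  constructor
  · intro h
    obtain ⟨k, rfl⟩ : ∃ k, BForm.nxt^[k] f = g := by
      rcases (hf.eqv_iff_iterate hg hsq).mp h with h1 | ⟨k, hk⟩
      · exact h1
      · have hp : ∀ j : ℕ, BForm.nxt^[N * j] f = f := by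
          intro j
          induction j with
          | zero => rfl
          | succ j ih => rw [Nat.mul_succ, Function.iterate_add_apply, hper, ih]
        refine ⟨N * k - k, ?_⟩
        have h1 : k ≤ N * k := Nat.le_mul_of_pos_left k hN
        refine Riv.iterate_inj k (hf.iterate_nxt hsq _) hg ?_ (by rw [h.disc_eq]; exact hsq) ?_
        · rw [(eqv_iterate_nxt f _).disc_eq]
          exact hsq
        · rw [← Function.iterate_add_apply, Nat.add_sub_cancel' h1, hp, hk]
    exact iterate_mem_orb hN hper k
  · intro h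
    obtain ⟨k, -, rfl⟩ := mem_orb.mp h
    exact eqv_iterate_nxt f k

/-! ### The equation `x² - n y² = -1` -/

/-- **the negative Pell equation and the principal cycle** -/
theorem neg_pell_iff_eqv (n : ℕ) : (∃ x y : ℤ, x ^ 2 - n * y ^ 2 = -1) ↔
    (⟨1, 0, -n⟩ : BForm).Eqv ⟨n, 0, -1⟩ := by
  have hval : ∀ x y : ℤ, (⟨1, 0, -n⟩ : BForm).val x y = x ^ 2 - n * y ^ 2 := fun x y => by
    simp only [val]
    ring
  constructor
  · rintro ⟨x, y, hxy⟩
    have hco : IsCoprime x y := ⟨-x, n * y, by linear_combination -hxy⟩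
    obtain ⟨r, s, -, h1, h2⟩ := (⟨1, 0, -n⟩ : BForm).exists_eqv_of_isCoprime hco
    set g := (⟨1, 0, -n⟩ : BForm).subst x r y s with hg
    rw [hval, hxy] at h2
    have h3 : g.disc = 4 * n := by
      rw [h1.disc_eq, disc]
      ring
    have h4 : g.b ^ 2 + 4 * g.c = 4 * n := by
      rw [disc, h2] at h3
      linear_combination h3
    obtain ⟨t, ht⟩ : (2 : ℤ) ∣ g.b := by
      have : (2 : ℤ) ∣ g.b ^ 2 := ⟨2 * n - 2 * g.c, by linear_combination h4⟩
      exact Int.prime_two.dvd_of_dvd_pow this
    have h5 : g.Eqv ⟨-1, 0, n⟩ := by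
      refine eqv_of_b_congr h2 (by rw [h2]; norm_num) ?_ (t := t) ?_
      · rw [h3, disc]
        ring
      · rw [h2, ht]
        ring
    refine (h1.trans h5).trans ⟨0, -1, 1, 0, by ring, ?_⟩
    ext <;> simp only [subst, val] <;> ring
  · intro h
    obtain ⟨x, y, hxy⟩ := h.exists_val (x := 0) (y := 1)
    refine ⟨x, y, ?_⟩
    rw [← hval, hxy]
    simp only [val]
    ring

/-- **decision of the negative Pell equation by the principal cycle** -/
theorem neg_pell_iff_mem_orb {n N : ℕ} (hn : 0 < n) (hsq : ¬ IsSquare ((4 * n : ℕ) : ℤ))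
    (hN : 0 < N) (hper : BForm.nxt^[N] (⟨1, 0, -n⟩ : BForm) = ⟨1, 0, -n⟩) :
    (∃ x y : ℤ, x ^ 2 - n * y ^ 2 = -1) ↔ (⟨n, 0, -1⟩ : BForm) ∈ orb N ⟨1, 0, -n⟩ := by
  have hn' : (0 : ℤ) < n := by exact_mod_cast hn
  have h1 : (⟨1, 0, -n⟩ : BForm).Riv := ⟨one_pos, neg_neg_of_pos hn'⟩
  have h2 : (⟨n, 0, -1⟩ : BForm).Riv := ⟨hn', by norm_num⟩
  have h3 : ¬ IsSquare (⟨1, 0, -n⟩ : BForm).disc := by
    have : (⟨1, 0, -n⟩ : BForm).disc = ((4 * n : ℕ) : ℤ) := by
      simp only [disc]
      push_cast
      ring
    rw [this]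
    exact hsq
  rw [neg_pell_iff_eqv, h1.eqv_iff_mem_orb h2 h3 hN hper]

/-- `x² - 34 y² = -1` has no solution in integers (it has solutions in all `ℤ_p` and in `ℝ`). -/
theorem neg_pell_34 : ¬ ∃ x y : ℤ, x ^ 2 - 34 * y ^ 2 = -1 := by
  have h := neg_pell_iff_mem_orb (n := 34) (N := 16) (by norm_num) (by decide +kernel)
    (by norm_num) (by decide +kernel)
  intro h1
  exact absurd (h.mp (by exact_mod_cast h1)) (by decide +kernel)

/-- `x² - 61 y² = -1` has a solution (the smallest one is `(29718, 3805)`). -/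
theorem neg_pell_61 : ∃ x y : ℤ, x ^ 2 - 61 * y ^ 2 = -1 := by
  have h := neg_pell_iff_mem_orb (n := 61) (N := 72) (by norm_num) (by decide +kernel)
    (by norm_num) (by decide +kernel)
  exact_mod_cast h.mpr (by decide +kernel)

end BForm

end Fermat.Agent.Cor.Ray
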