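import Fermat.Agent.Corollaries.Ray.Defs
import Fermat.Agent.Classic.Zeta.Theta

/-!
# Theta inversion with weights (piece (A) of the block RAY)

`K` any number field, `φ` a weight (supported in `𝔟`, periodic modulo `𝔠`, invariant under units).
The dual weight is `φ'(y) = ∑_{r ∈ 𝔟 / 𝔠} φ(r) e(Tr (y r))` on `𝔠*`, `0` elsewhere.
-/

set_option autoImplicit false

noncomputable section

namespace Fermat.Agent.Cor.Ray

open NumberField NumberField.InfinitePlace NumberField.mixedEmbedding Module MeasureTheory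
open Fermat.Agent.LT.Poisson Fermat.Agent.Classic.Zeta
open scoped nonZeroDivisors Real

universe u

variable {K : Type u} [Field K] [NumberField K]

section Shift

open scoped Classical

variable {t : InfinitePlace K → ℝ}

/-- convergence of the shifted theta series. -/
theorem summable_shift (ht : ∀ w, 0 < t w) {𝔠 : FractionalIdeal (𝓞 K)⁰ K} (h𝔠 : 𝔠 ≠ 0) (r : K) :
    Summable fun x : 𝔠 => ((E t (r + (x : K)) : ℝ) : ℂ) := by
  obtain ⟨C, hC⟩ := exists_decay (K := K) ht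
  have h1 := (isRealModel K).summable_of_decay (LK_eq (Units.mk0 𝔠 h𝔠)) lt_beta hC (jK K r)
  refine h1.congr fun x => ?_
  rw [← map_add, jK_apply, gau_eq]

/-- the additive character `e(Tr (y r))` -/
def ch (y r : K) : ℂ := Complex.exp (2 * π * Complex.I * ((Algebra.trace ℚ K (y * r) : ℚ) : ℝ))

/-- **Shifted theta inversion.** -/
theorem hasSum_shift (ht : ∀ w, 0 < t w) {𝔠 : FractionalIdeal (𝓞 K)⁰ K} (h𝔠 : 𝔠 ≠ 0) (r : K) :
    HasSum (fun y : dualF 𝔠 => (cΘ 𝔠 t : ℂ) * ((E (fun w => (t w)⁻¹) (y : K) : ℝ) : ℂ) *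
      ch (y : K) r) (∑' x : 𝔠, ((E t (r + (x : K)) : ℝ) : ℂ)) := by
  set I : (FractionalIdeal (𝓞 K)⁰ K)ˣ := Units.mk0 𝔠 h𝔠 with hI
  have hI' : (I : FractionalIdeal (𝓞 K)⁰ K) = 𝔠 := rfl
  obtain ⟨C, hC⟩ := exists_decay (K := K) ht
  have ht' : ∀ w, 0 < (t w)⁻¹ := fun w => inv_pos.mpr (ht w)
  obtain ⟨C', hC'⟩ := exists_decay (K := K) (t := fun w => (t w)⁻¹) ht'
  have hB : ∀ y : K, fB volume (trB K) (gau (eK K) (wtK t)) (jK K y) =
      (volume : Measure (mixedSpace K)).real (parallelepiped (eK K)) *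
        (((∏ w : InfinitePlace K, t w ^ ((w.mult : ℝ) / 2))⁻¹ : ℝ) : ℂ) *
        ((E (fun w => (t w)⁻¹) y : ℝ) : ℂ) := by
    intro y
    rw [fB_gau volume (eK K) (sgnK_sq K) (trB_eq K) (wtK_re_pos ht), prod_wtK ht, wtK_inv,
      jK_apply, gau_eq]
  have hs : Summable fun y : (Algebra.traceForm ℚ K).dualSubmodule (LK I) =>
      fB volume (trB K) (gau (eK K) (wtK t)) (jK K y) := by
    simp_rw [hB]
    have h1 := (isRealModel K).summable_dual_of_decay (LK_eq I) lt_beta hC' 0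
    refine Summable.mul_left _ (h1.congr fun y => ?_)
    rw [zero_add, jK_apply, gau_eq]
  have h := (isRealModel K).hasSum_poisson volume (LK_eq I) (continuous_gau _ _) lt_beta hC hs
    (jK K r)
  have hb : (isRealModel K).realBasis (basisOfFractionalIdeal K I) =
      fractionalIdealLatticeBasis K I := by
    apply Basis.eq_of_apply_eq
    intro i
    rw [IsRealModel.realBasis_apply, fractionalIdealLatticeBasis_apply, jK_apply]
  rw [hb] at h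
  have h5 : ∑' x : LK I, gau (eK K) (wtK t) (jK K r + jK K x) =
      ∑' x : 𝔠, ((E t (r + (x : K)) : ℝ) : ℂ) := by
    refine tsum_congr fun x => ?_
    rw [← map_add, jK_apply, gau_eq]
  rw [h5] at h
  have h6 : HasSum (fun y : (Algebra.traceForm ℚ K).dualSubmodule (LK I) =>
      (cΘ 𝔠 t : ℂ) * ((E (fun w => (t w)⁻¹) (y : K) : ℝ) : ℂ) * ch (y : K) r)
      (∑' x : 𝔠, ((E t (r + (x : K)) : ℝ) : ℂ)) := by
    convert h using 1
    funext y
    rw [hB, (isRealModel K).map, Algebra.traceForm_apply, ← hI', cΘ_eq, ch]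
    push_cast
    ring
  exact (Equiv.subtypeEquivRight (mem_dualSubmodule_iff I)).hasSum_iff.mp h6

end Shift

/-! ### Representatives -/

section Reps

variable {𝔟 𝔠 : FractionalIdeal (𝓞 K)⁰ K}

omit [NumberField K] in
theorem mem_add {x y : K} (hx : x ∈ 𝔟) (hy : y ∈ 𝔟) : x + y ∈ 𝔟 :=
  (𝔟 : Submodule (𝓞 K) K).add_mem hx hy

omit [NumberField K] in
theorem mem_sub {x y : K} (hx : x ∈ 𝔟) (hy : y ∈ 𝔟) : x - y ∈ 𝔟 :=
  (𝔟 : Submodule (𝓞 K) K).sub_mem hx hy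

omit [NumberField K] in
theorem mem_smul (a : 𝓞 K) {x : K} (hx : x ∈ 𝔟) : (a : K) * x ∈ 𝔟 := by
  have := (𝔟 : Submodule (𝓞 K) K).smul_mem a hx
  rwa [Algebra.smul_def] at this

/-- every element of `K` has a multiple in a given ideal. -/
theorem exists_int_mul_mem (h𝔠 : 𝔠 ≠ 0) (x : K) : ∃ n : ℤ, n ≠ 0 ∧ (n : K) * x ∈ 𝔠 := by
  obtain ⟨a, ha, ha0⟩ : ∃ a ∈ 𝔠, a ≠ 0 := by
    by_contra hcon
    push Not at hcon
    exact h𝔠 (FractionalIdeal.eq_zero_iff.mpr hcon)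
  have halg : IsAlgebraic ℤ (x / a) :=
    (IsFractionRing.isAlgebraic_iff ℤ ℚ K).mpr (Algebra.IsAlgebraic.isAlgebraic _)
  obtain ⟨n, hn, hint⟩ := halg.exists_integral_multiple
  refine ⟨n, hn, ?_⟩
  have h1 := mem_smul (𝔟 := 𝔠) (⟨n • (x / a), hint⟩ : 𝓞 K) ha
  have h2 : (((⟨n • (x / a), hint⟩ : 𝓞 K)) : K) * a = (n : K) * x := by
    change (n • (x / a)) * a = (n : K) * x
    rw [zsmul_eq_mul]
    field_simp
  exact h2 ▸ h1

/-- **`𝔟 / 𝔠` is finite.** -/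
theorem exists_reps (h𝔠 : 𝔠 ≠ 0) : ∃ R : Finset K, IsReps 𝔟 𝔠 R := by
  classical
  let C : Submodule ℤ 𝔟 := ((𝔠 : Submodule (𝓞 K) K).restrictScalars ℤ).comap
    ((𝔟 : Submodule (𝓞 K) K).subtype.restrictScalars ℤ)
  have hmem : ∀ x : 𝔟, x ∈ C ↔ (x : K) ∈ 𝔠 := fun x => Iff.rfl
  have htor : Module.IsTorsion ℤ (𝔟 ⧸ C) := by
    intro m
    obtain ⟨x, rfl⟩ := Submodule.Quotient.mk_surjective C m
    obtain ⟨n, hn, hx⟩ := exists_int_mul_mem h𝔠 (x : K)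
    refine ⟨⟨n, mem_nonZeroDivisors_of_ne_zero hn⟩, ?_⟩
    change n • (Submodule.Quotient.mk x : 𝔟 ⧸ C) = 0
    rw [← Submodule.Quotient.mk_smul, Submodule.Quotient.mk_eq_zero, hmem]
    have : ((n • x : 𝔟) : K) = (n : K) * x := by
      rw [← zsmul_eq_mul]
      rfl
    rw [this]
    exact hx
  have : Finite (𝔟 ⧸ C) := Module.finite_of_fg_torsion _ htor
  have := Fintype.ofFinite (𝔟 ⧸ C)
  have hout : ∀ m : 𝔟 ⧸ C, (Submodule.Quotient.mk (Quotient.out m) : 𝔟 ⧸ C) = m :=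
    fun m => Quotient.out_eq m
  refine ⟨Finset.univ.image fun m : 𝔟 ⧸ C => ((Quotient.out m : 𝔟) : K), ?_, fun x hx => ?_⟩
  · intro r hr
    rw [Finset.mem_image] at hr
    obtain ⟨m, _, rfl⟩ := hr
    exact (Quotient.out m : 𝔟).2
  · refine ⟨((Quotient.out (Submodule.Quotient.mk ⟨x, hx⟩ : 𝔟 ⧸ C) : 𝔟) : K), ⟨?_, ?_⟩, ?_⟩
    · exact Finset.mem_image_of_mem _ (Finset.mem_univ _)
    · have h1 := (hout (Submodule.Quotient.mk ⟨x, hx⟩)).symm
      rw [Submodule.Quotient.eq, hmem] at h1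
      exact h1
    · rintro r ⟨hr, hxr⟩
      rw [Finset.mem_image] at hr
      obtain ⟨m, _, rfl⟩ := hr
      have h1 : (Submodule.Quotient.mk ⟨x, hx⟩ : 𝔟 ⧸ C) = m := by
        rw [← hout m, Submodule.Quotient.eq, hmem]
        exact hxr
      rw [h1]

omit [NumberField K] in
/-- Sums of periodic functions do not depend on the representatives. -/
theorem sum_reps {R R' : Finset K} (hR : IsReps 𝔟 𝔠 R) (hR' : IsReps 𝔟 𝔠 R') {g : K → ℂ}
    (hg : ∀ x, ∀ c ∈ 𝔠, g (x + c) = g x) : ∑ r ∈ R, g r = ∑ r ∈ R', g r := by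
  classical
  have hneg : ∀ x y : K, x - y ∈ 𝔠 → y - x ∈ 𝔠 := by
    intro x y h
    have := (𝔠 : Submodule (𝓞 K) K).neg_mem h
    rwa [neg_sub] at this
  refine Finset.sum_bij (fun r hr => (hR'.ex r (hR.mem r hr)).choose) ?_ ?_ ?_ ?_
  · intro r hr
    exact (hR'.ex r (hR.mem r hr)).choose_spec.1.1
  · intro r hr s hs hrs
    have h1 := (hR'.ex r (hR.mem r hr)).choose_spec.1.2
    have h2 := (hR'.ex s (hR.mem s hs)).choose_spec.1.2
    rw [← hrs] at h2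
    have h3 := mem_sub h1 h2
    rw [sub_sub_sub_cancel_right] at h3
    refine (hR.ex r (hR.mem r hr)).unique ⟨hr, ?_⟩ ⟨hs, h3⟩
    rw [sub_self]
    exact (𝔠 : Submodule (𝓞 K) K).zero_mem
  · intro s hs
    obtain ⟨r, ⟨hr, hrs⟩, _⟩ := hR.ex s (hR'.mem s hs)
    refine ⟨r, hr, ?_⟩
    exact (hR'.ex r (hR.mem r hr)).unique (hR'.ex r (hR.mem r hr)).choose_spec.1
      ⟨hs, hneg _ _ hrs⟩
  · intro r hr
    have h1 := (hR'.ex r (hR.mem r hr)).choose_spec.1.2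
    have h2 := hg r _ (hneg _ _ h1)
    rw [add_sub_cancel] at h2
    exact h2.symm

omit [NumberField K] in
/-- Units permute the classes. -/
theorem IsReps.unit_smul {R : Finset K} (hR : IsReps 𝔟 𝔠 R) (v : (𝓞 K)ˣ) :
    IsReps 𝔟 𝔠 (R.map ⟨fun x => ((v : 𝓞 K) : K) * x, mul_right_injective₀ (by simp)⟩) := by
  have hv : (((v⁻¹ : (𝓞 K)ˣ) : 𝓞 K) : K) * ((v : 𝓞 K) : K) = 1 := by
    have h1 : (((v⁻¹ : (𝓞 K)ˣ) : 𝓞 K)) * ((v : 𝓞 K)) = 1 := by simp
    exact_mod_cast congrArg (algebraMap (𝓞 K) K) h1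
  have hv' : ((v : 𝓞 K) : K) * (((v⁻¹ : (𝓞 K)ˣ) : 𝓞 K) : K) = 1 := by
    rw [mul_comm, hv]
  refine ⟨fun x hx => ?_, fun x hx => ?_⟩
  · rw [Finset.mem_map] at hx
    obtain ⟨r, hr, rfl⟩ := hx
    exact mem_smul (v : 𝓞 K) (hR.mem r hr)
  · obtain ⟨r, ⟨hr, hxr⟩, huniq⟩ := hR.ex _ (mem_smul ((v⁻¹ : (𝓞 K)ˣ) : 𝓞 K) hx)
    refine ⟨((v : 𝓞 K) : K) * r, ⟨Finset.mem_map.mpr ⟨r, hr, rfl⟩, ?_⟩, ?_⟩
    · have h1 := mem_smul (v : 𝓞 K) hxr
      rwa [mul_sub, ← mul_assoc, hv', one_mul] at h1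
    · rintro y ⟨hy, hxy⟩
      rw [Finset.mem_map] at hy
      obtain ⟨s, hs, rfl⟩ := hy
      change x - ((v : 𝓞 K) : K) * s ∈ 𝔠 at hxy
      have h1 := mem_smul ((v⁻¹ : (𝓞 K)ˣ) : 𝓞 K) hxy
      rw [mul_sub, ← mul_assoc, hv, one_mul] at h1
      have h2 := huniq s ⟨hs, h1⟩
      rw [h2]
      rfl

end Reps

/-! ### The dual weight -/

section Dual

variable {𝔟 𝔠 : FractionalIdeal (𝓞 K)⁰ K}

theorem ch_add_left (y z r : K) : ch (y + z) r = ch y r * ch z r := by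
  rw [ch, ch, ch, ← Complex.exp_add, add_mul, map_add]
  congr 1
  push_cast
  ring

theorem ch_add_right (y r s : K) : ch y (r + s) = ch y r * ch y s := by
  rw [ch, ch, ch, ← Complex.exp_add, mul_add, map_add]
  congr 1
  push_cast
  ring

theorem norm_ch (y r : K) : ‖ch y r‖ = 1 := by
  rw [ch, Complex.norm_exp]
  simp

/-- the character is trivial on the dual -/
theorem ch_eq_one (h𝔟 : 𝔟 ≠ 0) {y r : K} (hy : y ∈ dualF 𝔟) (hr : r ∈ 𝔟) : ch y r = 1 := by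
  rw [dualF, FractionalIdeal.mem_dual h𝔟] at hy
  obtain ⟨n, hn⟩ := hy r hr
  rw [Algebra.traceForm_apply] at hn
  rw [ch, ← hn]
  have : (2 * π * Complex.I * (((algebraMap ℤ ℚ n : ℚ) : ℝ) : ℂ)) =
      n * (2 * π * Complex.I) := by
    simp
    ring
  rw [this, Complex.exp_int_mul_two_pi_mul_I]

open scoped Classical in
/-- **The dual weight.** -/
def dw (𝔠 : FractionalIdeal (𝓞 K)⁰ K) (φ : K → ℂ) (R : Finset K) (y : K) : ℂ :=
  if y ∈ dualF 𝔠 then ∑ r ∈ R, φ r * ch y r else 0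

theorem dual_le (h𝔟 : 𝔟 ≠ 0) (h𝔠 : 𝔠 ≠ 0) (hle : 𝔠 ≤ 𝔟) : dualF 𝔟 ≤ dualF 𝔠 :=
  (FractionalIdeal.dual_le_dual ℤ ℚ h𝔟 h𝔠).mpr hle

theorem dualF_ne_zero (h𝔟 : 𝔟 ≠ 0) : dualF 𝔟 ≠ 0 := FractionalIdeal.dual_ne_zero ℤ ℚ h𝔟

theorem isWt_dw {φ : K → ℂ} (h : IsWt 𝔟 𝔠 φ) {R : Finset K} (hR : IsReps 𝔟 𝔠 R) :
    IsWt (dualF 𝔠) (dualF 𝔟) (dw 𝔠 φ R) where
  hb := dualF_ne_zero h.hc
  hc := dualF_ne_zero h.hb
  le := dual_le h.hb h.hc h.le
  supp y hy := if_neg hy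
  per y c hc := by
    have hle := dual_le h.hb h.hc h.le
    by_cases hy : y ∈ dualF 𝔠
    · have hyc : y + c ∈ dualF 𝔠 := mem_add hy (hle hc)
      rw [dw, dw, if_pos hy, if_pos hyc]
      refine Finset.sum_congr rfl fun r hr => ?_
      rw [ch_add_left, ch_eq_one h.hb hc (hR.mem r hr), mul_one]
    · have hyc : y + c ∉ dualF 𝔠 := fun h1 => hy (by
        have := mem_sub h1 (hle hc)
        rwa [add_sub_cancel_right] at this)
      rw [dw, dw, if_neg hy, if_neg hyc]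
  unit v y := by
    have hv : (((v⁻¹ : (𝓞 K)ˣ) : 𝓞 K) : K) * ((v : 𝓞 K) : K) = 1 := by
      have h1 : (((v⁻¹ : (𝓞 K)ˣ) : 𝓞 K)) * ((v : 𝓞 K)) = 1 := by simp
      exact_mod_cast congrArg (algebraMap (𝓞 K) K) h1
    by_cases hy : y ∈ dualF 𝔠
    · have hvy : ((v : 𝓞 K) : K) * y ∈ dualF 𝔠 := mem_smul _ hy
      rw [dw, dw, if_pos hy, if_pos hvy]
      have h1 := sum_reps hR (hR.unit_smul v) (g := fun x => φ x * ch y x) (fun x c hc => by
        rw [h.per x c hc, ch_add_right, ch_eq_one h.hc hy hc, mul_one])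
      rw [h1, Finset.sum_map]
      refine Finset.sum_congr rfl fun r _ => ?_
      simp only [Function.Embedding.coeFn_mk]
      rw [h.unit, ch, ch, mul_comm ((v : 𝓞 K) : K) y, mul_assoc y]
    · have hvy : ((v : 𝓞 K) : K) * y ∉ dualF 𝔠 := fun h1 => hy (by
        have := mem_smul ((v⁻¹ : (𝓞 K)ˣ) : 𝓞 K) h1
        rwa [← mul_assoc, hv, one_mul] at this)
      rw [dw, dw, if_neg hy, if_neg hvy]
  bdd := by
    refine ⟨∑ r ∈ R, ‖φ r‖, fun y => ?_⟩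
    rw [dw]
    split_ifs
    · refine (norm_sum_le _ _).trans_eq (Finset.sum_congr rfl fun r _ => ?_)
      rw [norm_mul, norm_ch, mul_one]
    · rw [norm_zero]
      exact Finset.sum_nonneg fun r _ => norm_nonneg _

theorem dw_zero {φ : K → ℂ} (h : IsWt 𝔟 𝔠 φ) {R R' : Finset K} (hR : IsReps 𝔟 𝔠 R)
    (hR' : IsReps 𝔟 𝔠 R') : dw 𝔠 φ R 0 = ∑ r ∈ R', φ r := by
  have h0 : (0 : K) ∈ dualF 𝔠 := (dualF 𝔠 : Submodule (𝓞 K) K).zero_mem
  rw [dw, if_pos h0, ← sum_reps hR hR' h.per]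
  refine Finset.sum_congr rfl fun r _ => ?_
  rw [ch, zero_mul, map_zero]
  simp

end Dual

/-! ### Theta inversion -/

section Inv

variable {𝔟 𝔠 : FractionalIdeal (𝓞 K)⁰ K} {t : InfinitePlace K → ℝ}

/-- Decomposition of the weighted theta series into classes modulo `𝔠`. -/
theorem hasSum_Θw (ht : ∀ w, 0 < t w) {φ : K → ℂ} (h : IsWt 𝔟 𝔠 φ) {R : Finset K}
    (hR : IsReps 𝔟 𝔠 R) : HasSum (fun x : K => φ x * ((E t x : ℝ) : ℂ))
      (∑ r ∈ R, φ r * ∑' x : 𝔠, ((E t (r + (x : K)) : ℝ) : ℂ)) := by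
  classical
  have h1 : ∀ r ∈ R, HasSum (fun x : K => if x - r ∈ 𝔠 then φ r * ((E t x : ℝ) : ℂ) else 0)
      (φ r * ∑' x : 𝔠, ((E t (r + (x : K)) : ℝ) : ℂ)) := by
    intro r _
    have hinj : Function.Injective fun x : 𝔠 => r + (x : K) := fun x y hxy =>
      Subtype.ext (add_left_cancel hxy)
    rw [← hinj.hasSum_iff]
    · have h3 := (summable_shift ht h.hc r).hasSum.mul_left (φ r)
      have h4 : ((fun x : K => if x - r ∈ 𝔠 then φ r * ((E t x : ℝ) : ℂ) else 0) ∘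
          fun x : 𝔠 => r + (x : K)) = fun x : 𝔠 => φ r * ((E t (r + (x : K)) : ℝ) : ℂ) := by
        funext x
        simp only [Function.comp_apply]
        rw [if_pos]
        rw [add_sub_cancel_left]
        exact x.2
      rw [h4]
      exact h3
    · intro x hx
      rw [if_neg]
      exact fun hxr => hx ⟨⟨x - r, hxr⟩, by simp⟩
  convert hasSum_sum h1 using 1
  funext x
  by_cases hx : x ∈ 𝔟
  · obtain ⟨r, ⟨hr, hxr⟩, huniq⟩ := hR.ex x hx
    rw [Finset.sum_eq_single_of_mem r hr, if_pos hxr]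
    · have h2 := h.per r (x - r) hxr
      rw [add_sub_cancel] at h2
      rw [h2]
    · intro s hs hsr
      rw [if_neg]
      exact fun hxs => hsr (huniq s ⟨hs, hxs⟩)
  · rw [h.supp x hx, zero_mul, Finset.sum_eq_zero]
    intro r hr
    rw [if_neg]
    intro hxr
    have h2 := mem_add (hR.mem r hr) (h.le hxr)
    rw [add_sub_cancel] at h2
    exact hx h2

/-- **Theta inversion with weights.** -/
theorem isInv_dw {φ : K → ℂ} (h : IsWt 𝔟 𝔠 φ) {R : Finset K} (hR : IsReps 𝔟 𝔠 R) :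
    IsInv 𝔠 φ (dw 𝔠 φ R) := by
  classical
  intro t ht
  have h1 := (hasSum_Θw ht h hR).tsum_eq
  have h2 : HasSum (fun y : dualF 𝔠 => ∑ r ∈ R, φ r * ((cΘ 𝔠 t : ℂ) *
      ((E (fun w => (t w)⁻¹) (y : K) : ℝ) : ℂ) * ch (y : K) r))
      (∑ r ∈ R, φ r * ∑' x : 𝔠, ((E t (r + (x : K)) : ℝ) : ℂ)) :=
    hasSum_sum fun r _ => (hasSum_shift ht h.hc r).mul_left (φ r)
  have h3 : HasSum (fun y : K => (cΘ 𝔠 t : ℂ) *
      (dw 𝔠 φ R y * ((E (fun w => (t w)⁻¹) y : ℝ) : ℂ)))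
      (∑ r ∈ R, φ r * ∑' x : 𝔠, ((E t (r + (x : K)) : ℝ) : ℂ)) := by
    have hinj : Function.Injective fun y : dualF 𝔠 => (y : K) := Subtype.val_injective
    rw [← hinj.hasSum_iff]
    · convert h2 using 1
      funext y
      simp only [Function.comp_apply]
      rw [dw, if_pos y.2, Finset.sum_mul, Finset.mul_sum]
      refine Finset.sum_congr rfl fun r _ => ?_
      ring
    · intro y hy
      have hy' : y ∉ dualF 𝔠 := fun h4 => hy ⟨⟨y, h4⟩, rfl⟩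
      rw [dw, if_neg hy', zero_mul, mul_zero]
  rw [Θw, h1, ← h3.tsum_eq, tsum_mul_left]
  rfl

end Inv

/-- **Piece (A).** -/
theorem thetaWStmt (K : Type u) [Field K] [NumberField K] : ThetaWStmt K := by
  intro 𝔟 𝔠 φ h
  obtain ⟨R, hR⟩ := exists_reps (𝔟 := 𝔟) h.hc
  exact ⟨⟨R, hR⟩, dw 𝔠 φ R, isWt_dw h hR, isInv_dw h hR, fun R' hR' => dw_zero h hR hR'⟩

end Fermat.Agent.Cor.Ray
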