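import Fermat.Agent.Corollaries.Ray.Coprime
import Fermat.Agent.Classic.Zeta.Classes

/-!
# The weights attached to a ray class character
-/

set_option autoImplicit false
set_option linter.unusedSectionVars false

noncomputable section

namespace Fermat.Agent.Cor.Ray

open NumberField Fermat.Agent.Classic.Zeta
open scoped nonZeroDivisors

universe u

variable {K : Type u} [Field K] [NumberField K]

/-- the nonzero principal ideal generated by an element -/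
def sp (a : 𝓞 K) (ha : a ≠ 0) : (Ideal (𝓞 K))⁰ :=
  ⟨Ideal.span {a}, mem_nonZeroDivisors_of_ne_zero (by
    rwa [ne_eq, Ideal.zero_eq_bot, Ideal.span_singleton_eq_bot])⟩

theorem sp_mul {a b : 𝓞 K} (ha : a ≠ 0) (hb : b ≠ 0) :
    sp (a * b) (mul_ne_zero ha hb) = sp a ha * sp b hb := by
  apply Subtype.ext
  simp [sp, Ideal.span_singleton_mul_span_singleton]

variable {m : Ideal (𝓞 K)} {ψ : (Ideal (𝓞 K))⁰ →* ℂ}

theorem RayChar.cong' (h : RayChar m ψ) {a : 𝓞 K} (ha : a ≠ 0) (h1 : a - 1 ∈ m) :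
    ψ (sp a ha) = 1 := h.cong _ a rfl h1

open scoped Classical in
/-- The function on elements attached to a ray class character. -/
def el (m : Ideal (𝓞 K)) (ψ : (Ideal (𝓞 K))⁰ →* ℂ) (x : 𝓞 K) : ℂ :=
  if hx : x = 0 then (if m = ⊤ then 1 else 0) else ψ (sp x hx)

theorem el_of_ne {x : 𝓞 K} (hx : x ≠ 0) : el m ψ x = ψ (sp x hx) := dif_neg hx

theorem norm_el_le (h : RayChar m ψ) (x : 𝓞 K) : ‖el m ψ x‖ ≤ 1 := by
  by_cases hx : x = 0
  · rw [el, dif_pos hx]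
    split_ifs <;> simp
  · rw [el_of_ne hx]
    exact h.norm_le _

theorem el_add (h : RayChar m ψ) (x : 𝓞 K) {r : 𝓞 K} (hr : r ∈ m) :
    el m ψ (x + r) = el m ψ x := by
  by_cases hm : m = ⊤
  · have h1 : ∀ y : 𝓞 K, el m ψ y = 1 := by
      intro y
      by_cases hy : y = 0
      · rw [el, dif_pos hy, if_pos hm]
      · rw [el_of_ne hy]
        exact h.cong' hy (by rw [hm]; trivial)
    rw [h1, h1]
  by_cases hc : IsCoprime (Ideal.span {x}) m
  · obtain ⟨b, hb⟩ := isCoprime_span_iff.mp hc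
    have hb' : b * (x + r) - 1 ∈ m := by
      have : b * (x + r) - 1 = (b * x - 1) + b * r := by ring
      rw [this]
      exact m.add_mem hb (m.mul_mem_left _ hr)
    have hne : ∀ y : 𝓞 K, b * y - 1 ∈ m → b ≠ 0 ∧ y ≠ 0 := by
      intro y hy
      constructor
      · rintro rfl
        apply hm
        rw [Ideal.eq_top_iff_one]
        have := m.neg_mem hy
        simpa using this
      · rintro rfl
        apply hm
        rw [Ideal.eq_top_iff_one]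
        have := m.neg_mem hy
        simpa using this
    obtain ⟨hb0, hx0⟩ := hne x hb
    obtain ⟨-, hxr0⟩ := hne (x + r) hb'
    have e1 := h.cong' (mul_ne_zero hb0 hx0) hb
    have e2 := h.cong' (mul_ne_zero hb0 hxr0) hb'
    rw [sp_mul hb0 hx0, map_mul] at e1
    rw [sp_mul hb0 hxr0, map_mul] at e2
    rw [el_of_ne hx0, el_of_ne hxr0]
    have hψb : ψ (sp b hb0) ≠ 0 := by
      intro h0
      rw [h0, zero_mul] at e1
      exact zero_ne_one e1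
    exact mul_left_cancel₀ hψb (e2.trans e1.symm)
  · have hc' : ¬ IsCoprime (Ideal.span {x + r}) m := by
      intro h1
      apply hc
      rw [isCoprime_span_iff] at h1 ⊢
      obtain ⟨b, hb⟩ := h1
      refine ⟨b, ?_⟩
      have : b * x - 1 = (b * (x + r) - 1) - b * r := by ring
      rw [this]
      exact m.sub_mem hb (m.mul_mem_left _ hr)
    have h0 : ∀ y : 𝓞 K, ¬ IsCoprime (Ideal.span {y}) m → el m ψ y = 0 := by
      intro y hy
      by_cases hy0 : y = 0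
      · rw [el, dif_pos hy0, if_neg hm]
      · rw [el_of_ne hy0]
        exact h.eq_zero _ hy
    rw [h0 _ hc, h0 _ hc']

theorem el_eq_of_sub_mem (h : RayChar m ψ) {x y : 𝓞 K} (hxy : x - y ∈ m) :
    el m ψ x = el m ψ y := by
  have := el_add h y hxy
  rwa [add_sub_cancel] at this

theorem el_unit_mul (v : (𝓞 K)ˣ) (x : 𝓞 K) : el m ψ ((v : 𝓞 K) * x) = el m ψ x := by
  by_cases hx : x = 0
  · rw [hx, mul_zero]
  rw [el_of_ne hx, el_of_ne (mul_ne_zero (Units.ne_zero v) hx)]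
  congr 1
  apply Subtype.ext
  exact Ideal.span_singleton_mul_left_unit v.isUnit x

/-- multiplicativity, `m ≠ ⊤` -/
theorem el_mul (hm : m ≠ ⊤) {a : 𝓞 K} (ha : a ≠ 0) (x : 𝓞 K) :
    el m ψ (a * x) = ψ (sp a ha) * el m ψ x := by
  by_cases hx : x = 0
  · rw [hx, mul_zero, el, dif_pos rfl, if_neg hm, mul_zero]
  · rw [el_of_ne hx, el_of_ne (mul_ne_zero ha hx), sp_mul ha hx, map_mul]

open scoped Classical in
/-- the weight on `K` -/
def wJ (m : Ideal (𝓞 K)) (ψ : (Ideal (𝓞 K))⁰ →* ℂ) (J : Ideal (𝓞 K)) (x : K) : ℂ :=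
  if h : ∃ a ∈ J, (a : K) = x then el m ψ h.choose else 0

theorem wJ_coe {J : Ideal (𝓞 K)} {a : 𝓞 K} (ha : a ∈ J) : wJ m ψ J (a : K) = el m ψ a := by
  have h : ∃ b ∈ J, (b : K) = (a : K) := ⟨a, ha, rfl⟩
  rw [wJ, dif_pos h]
  congr 1
  exact RingOfIntegers.ext h.choose_spec.2

theorem wJ_of_notMem {J : Ideal (𝓞 K)} {x : K} (hx : x ∉ (J : FractionalIdeal (𝓞 K)⁰ K)) :
    wJ m ψ J x = 0 := by
  rw [wJ, dif_neg]
  rintro ⟨a, ha, rfl⟩
  exact hx (FractionalIdeal.mem_coeIdeal_of_mem _ ha)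

theorem mem_coeIdeal_iff' {J : Ideal (𝓞 K)} {x : K} :
    x ∈ (J : FractionalIdeal (𝓞 K)⁰ K) ↔ ∃ a ∈ J, (a : K) = x :=
  FractionalIdeal.mem_coeIdeal (𝓞 K)⁰

theorem wJ_per (h : RayChar m ψ) {J : Ideal (𝓞 K)} (x : K) {c : 𝓞 K} (hcJ : c ∈ J)
    (hcm : c ∈ m) : wJ m ψ J (x + (c : K)) = wJ m ψ J x := by
  by_cases hx : ∃ a ∈ J, (a : K) = x
  · obtain ⟨a, ha, rfl⟩ := hx
    have h1 : (a : K) + (c : K) = ((a + c : 𝓞 K) : K) := (map_add (algebraMap (𝓞 K) K) a c).symm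
    rw [h1, wJ_coe (J.add_mem ha hcJ), el_add h a hcm, wJ_coe ha]
  · rw [wJ_of_notMem, wJ_of_notMem]
    · rwa [mem_coeIdeal_iff']
    · rw [mem_coeIdeal_iff']
      rintro ⟨b, hb, hbx⟩
      refine hx ⟨b - c, J.sub_mem hb hcJ, ?_⟩
      have h1 : ((b - c : 𝓞 K) : K) = (b : K) - (c : K) := map_sub (algebraMap (𝓞 K) K) b c
      rw [h1, hbx, add_sub_cancel_right]

theorem wJ_unit {J : Ideal (𝓞 K)} (v : (𝓞 K)ˣ) (x : K) :
    wJ m ψ J (((v : 𝓞 K) : K) * x) = wJ m ψ J x := by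
  by_cases hx : ∃ a ∈ J, (a : K) = x
  · obtain ⟨a, ha, rfl⟩ := hx
    have h1 : ((v : 𝓞 K) : K) * (a : K) = (((v : 𝓞 K) * a : 𝓞 K) : K) :=
      (map_mul (algebraMap (𝓞 K) K) _ a).symm
    rw [h1, wJ_coe (J.mul_mem_left _ ha), el_unit_mul, wJ_coe ha]
  · rw [wJ_of_notMem, wJ_of_notMem]
    · rwa [mem_coeIdeal_iff']
    · rw [mem_coeIdeal_iff']
      rintro ⟨b, hb, hbx⟩
      refine hx ⟨((v⁻¹ : (𝓞 K)ˣ) : 𝓞 K) * b, J.mul_mem_left _ hb, ?_⟩
      have h1 : ((((v⁻¹ : (𝓞 K)ˣ) : 𝓞 K) * b : 𝓞 K) : K) =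
        (((v⁻¹ : (𝓞 K)ˣ) : 𝓞 K) : K) * (b : K) := map_mul (algebraMap (𝓞 K) K) _ b
      have h3 : (((v⁻¹ : (𝓞 K)ˣ) : 𝓞 K) : K) * ((v : 𝓞 K) : K) = 1 := by
        rw [← map_mul, Units.inv_mul, map_one]
      rw [h1, hbx, ← mul_assoc, h3, one_mul]

theorem norm_wJ_le (h : RayChar m ψ) {J : Ideal (𝓞 K)} (x : K) : ‖wJ m ψ J x‖ ≤ 1 := by
  by_cases hx : ∃ a ∈ J, (a : K) = x
  · obtain ⟨a, ha, rfl⟩ := hx
    rw [wJ_coe ha]
    exact norm_el_le h a
  · rw [wJ_of_notMem (by rwa [mem_coeIdeal_iff']), norm_zero]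
    exact zero_le_one

theorem isWt_wJ (hm : m ≠ ⊥) (h : RayChar m ψ) {J : Ideal (𝓞 K)} (hJ : J ≠ ⊥) :
    IsWt (J : FractionalIdeal (𝓞 K)⁰ K) ((J * m : Ideal (𝓞 K)) : FractionalIdeal (𝓞 K)⁰ K)
      (wJ m ψ J) where
  hb := FractionalIdeal.coeIdeal_ne_zero.mpr hJ
  hc := FractionalIdeal.coeIdeal_ne_zero.mpr (mul_ne_zero hJ hm)
  le := (FractionalIdeal.coeIdeal_le_coeIdeal K).mpr Ideal.mul_le_left
  supp x hx := wJ_of_notMem hx
  per x c hc := by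
    obtain ⟨c', hc', rfl⟩ := mem_coeIdeal_iff'.mp hc
    exact wJ_per h x (Ideal.mul_le_left hc') (Ideal.mul_le_right hc')
  unit v x := wJ_unit v x
  bdd := ⟨1, norm_wJ_le h⟩

end Fermat.Agent.Cor.Ray
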